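import Mathlib

/-!
# S14: shared definitions (class field theory for unramified extensions of prime degree)

`K ⊆ L` are number fields given as types with `[Algebra K L]`; primes of `K` are ideals of `𝓞 K`
(prime, nonzero); `Gal(L/K)` acts on `𝓞 L` (Mathlib instance).

* `UnramifiedEverywhere K L` : every nonzero prime of `𝓞 L` has ramification index `1` over `K`;
* `SplitsCompletely K L 𝔮` : every prime of `𝓞 L` above `𝔮` has `e = f = 1`;
* `IsFrob K L σ 𝔮` : `σ` is an arithmetic Frobenius at every prime of `𝓞 L` above `𝔮`;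
* `splitClasses K L`, `normClasses K L n` : the subgroups of the class group of `K` generated by
  the classes of the primes which split completely in `L` (and by the `n`-th powers);
* `IsArtinMap K L φ` : `φ : ClassGroup (𝓞 K) →* Gal(L/K)` sends the class of every nonzero prime
  `𝔮` to a Frobenius at `𝔮` (the conclusion of Artin reciprocity for an unramified extension).
-/

set_option autoImplicit false
set_option linter.unusedSectionVars false

namespace Fermat.Agent.S14

open NumberField nonZeroDivisors

variable (K L : Type*) [Field K] [Field L] [NumberField K] [NumberField L] [Algebra K L]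

/-- `L / K` is unramified at every finite prime. -/
def UnramifiedEverywhere : Prop :=
  ∀ 𝔔 : Ideal (𝓞 L), 𝔔.IsPrime → 𝔔 ≠ ⊥ → 𝔔.ramificationIdx (𝓞 K) = 1

/-- The prime `𝔮` of `𝓞 K` splits completely in `L`. -/
def SplitsCompletely (𝔮 : Ideal (𝓞 K)) : Prop :=
  ∀ 𝔔 : Ideal (𝓞 L), 𝔔.IsPrime → 𝔔.under (𝓞 K) = 𝔮 →
    𝔔.ramificationIdx (𝓞 K) = 1 ∧ 𝔔.inertiaDeg (𝓞 K) = 1

/-- `σ` is a Frobenius at (every prime of `L` above) the prime `𝔮` of `K`. -/
def IsFrob [IsGalois K L] (σ : Gal(L/K)) (𝔮 : Ideal (𝓞 K)) : Prop :=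
  ∀ 𝔔 : Ideal (𝓞 L), 𝔔.IsPrime → 𝔔.under (𝓞 K) = 𝔮 → IsArithFrobAt (𝓞 K) σ 𝔔

/-- The set of classes of the nonzero primes of `K` which split completely in `L`. -/
def splitClassSet : Set (ClassGroup (𝓞 K)) :=
  {c | ∃ 𝔮 : (Ideal (𝓞 K))⁰, (𝔮 : Ideal (𝓞 K)).IsPrime ∧ SplitsCompletely K L 𝔮 ∧
    ClassGroup.mk0 𝔮 = c}

/-- The subgroup of the class group generated by the classes of the primes which split
completely in `L`. -/
noncomputable def splitClasses : Subgroup (ClassGroup (𝓞 K)) :=
  Subgroup.closure (splitClassSet K L)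

/-- The subgroup of the class group generated by the classes of the primes which split
completely in `L` and by the `n`-th powers (for `L / K` Galois of prime degree `n` and unramified:
the classes of the norms of the ideals of `L`). -/
noncomputable def normClasses (n : ℕ) : Subgroup (ClassGroup (𝓞 K)) :=
  Subgroup.closure (splitClassSet K L ∪ Set.range fun c : ClassGroup (𝓞 K) => c ^ n)

/-- `φ` is an Artin map: it sends the class of every nonzero prime to a Frobenius. -/
def IsArtinMap [IsGalois K L] (φ : ClassGroup (𝓞 K) →* Gal(L/K)) : Prop :=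
  ∀ 𝔮 : (Ideal (𝓞 K))⁰, (𝔮 : Ideal (𝓞 K)).IsPrime → IsFrob K L (φ (ClassGroup.mk0 𝔮)) 𝔮

theorem splitClasses_le_normClasses (n : ℕ) : splitClasses K L ≤ normClasses K L n :=
  Subgroup.closure_mono Set.subset_union_left

theorem pow_mem_normClasses (n : ℕ) (c : ClassGroup (𝓞 K)) : c ^ n ∈ normClasses K L n :=
  Subgroup.subset_closure (Or.inr ⟨c, rfl⟩)

end Fermat.Agent.S14
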