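import Mathlib
import Fermat.Agent.S14.Defs

/-!
# S14: Frobenius formalism for abelian extensions of number fields

`K ⊆ L` number fields, `L / K` Galois; `G = Gal(L/K)` acts on `𝓞 L`.

* `inertia_eq_bot` : the inertia group of an unramified prime is trivial;
* `IsFrob` (from `Defs`) : uniqueness at unramified primes, existence and independence of the
  prime above when `G` is commutative;
* `frob K L 𝔮` : the Frobenius of a prime `𝔮` of `K` (junk value `1` when it does not exist);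
* `isFrob_one_iff` : `1` is a Frobenius at `𝔮` iff `𝔮` splits completely (unramified case).
-/

set_option autoImplicit false
set_option linter.unusedSectionVars false
set_option linter.style.haveILetI false

namespace Fermat.Agent.S14.Frob

open NumberField nonZeroDivisors
open scoped Pointwise

variable {K L : Type*} [Field K] [Field L] [NumberField K] [NumberField L] [Algebra K L]
  [IsGalois K L]

/-! ### Primes above a prime -/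

theorem under_ne_bot {𝔔 : Ideal (𝓞 L)} (h : 𝔔 ≠ ⊥) : 𝔔.under (𝓞 K) ≠ ⊥ := by
  intro h0
  exact h (Ideal.eq_bot_of_comap_eq_bot (R := 𝓞 K) h0)

theorem ne_bot_of_under_ne_bot {𝔔 : Ideal (𝓞 L)} (h : 𝔔.under (𝓞 K) ≠ ⊥) : 𝔔 ≠ ⊥ := by
  rintro rfl
  apply h
  rw [Ideal.under_def, Ideal.comap_bot_of_injective _
    (FaithfulSMul.algebraMap_injective (𝓞 K) (𝓞 L))]

theorem exists_prime_over (𝔮 : Ideal (𝓞 K)) [h𝔮 : 𝔮.IsPrime] :
    ∃ 𝔔 : Ideal (𝓞 L), 𝔔.IsPrime ∧ 𝔔.under (𝓞 K) = 𝔮 := by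
  obtain ⟨⟨𝔔, h1, h2⟩⟩ := (inferInstance : Nonempty (Ideal.primesOver 𝔮 (𝓞 L)))
  exact ⟨𝔔, h1, h2.over.symm⟩

theorem finite_quotient {𝔔 : Ideal (𝓞 L)} (h : 𝔔 ≠ ⊥) : Finite (𝓞 L ⧸ 𝔔) :=
  Ideal.finiteQuotientOfFreeOfNeBot 𝔔 h

/-- The Galois group permutes transitively the primes above a given prime. -/
theorem exists_smul_eq {𝔔 𝔔' : Ideal (𝓞 L)} [𝔔.IsPrime] [𝔔'.IsPrime]
    (h : 𝔔.under (𝓞 K) = 𝔔'.under (𝓞 K)) : ∃ τ : Gal(L/K), τ • 𝔔 = 𝔔' := by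
  obtain ⟨τ, hτ⟩ := Algebra.IsInvariant.exists_smul_of_under_eq (𝓞 K) (𝓞 L) Gal(L/K) 𝔔 𝔔' h
  exact ⟨τ, hτ.symm⟩

/-! ### Inertia groups of unramified primes -/

theorem perfectField_residueField (𝔮 : Ideal (𝓞 K)) [𝔮.IsPrime] :
    PerfectField 𝔮.ResidueField := by
  by_cases h : 𝔮 = ⊥
  · subst h
    haveI : CharZero (⊥ : Ideal (𝓞 K)).ResidueField := by
      refine charZero_of_injective_algebraMap (R := 𝓞 K) ?_
      rw [injective_iff_map_eq_zero]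
      intro x hx
      rw [Ideal.algebraMap_residueField_eq_zero] at hx
      exact hx
    infer_instance
  · haveI : 𝔮.IsMaximal := Ring.DimensionLEOne.maximalOfPrime h inferInstance
    haveI : Finite (𝓞 K ⧸ 𝔮) := Ideal.finiteQuotientOfFreeOfNeBot 𝔮 h
    haveI : Finite 𝔮.ResidueField := inferInstance
    infer_instance

theorem inertia_eq_bot {𝔔 : Ideal (𝓞 L)} [h𝔔 : 𝔔.IsPrime]
    (he : 𝔔.ramificationIdx (𝓞 K) = 1) : Ideal.inertia Gal(L/K) 𝔔 = ⊥ := by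
  haveI : (𝔔.under (𝓞 K)).IsPrime := Ideal.IsPrime.under (𝓞 K) 𝔔
  haveI : 𝔔.LiesOver (𝔔.under (𝓞 K)) := ⟨rfl⟩
  haveI := perfectField_residueField (𝔔.under (𝓞 K))
  have h := Ideal.card_inertia_eq_ramificationIdxIn (G := Gal(L/K)) (𝔔.under (𝓞 K)) 𝔔
  rw [Ideal.ramificationIdxIn_eq_ramificationIdx (𝔔.under (𝓞 K)) 𝔔 Gal(L/K), he] at h
  exact (Subgroup.card_eq_one).1 h

/-- At an unramified prime the Frobenius is unique. -/
theorem isArithFrobAt_unique {𝔔 : Ideal (𝓞 L)} [𝔔.IsPrime]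
    (he : 𝔔.ramificationIdx (𝓞 K) = 1) {σ τ : Gal(L/K)}
    (hσ : IsArithFrobAt (𝓞 K) σ 𝔔) (hτ : IsArithFrobAt (𝓞 K) τ 𝔔) : σ = τ := by
  have h := hσ.mul_inv_mem_inertia hτ
  rw [inertia_eq_bot he, Subgroup.mem_bot] at h
  exact mul_inv_eq_one.1 h

/-! ### Frobenius at a prime of `K` -/

/-- In the commutative case a Frobenius at one prime above `𝔮` is a Frobenius at `𝔮`. -/
theorem isFrob_of_isArithFrobAt (hab : ∀ σ τ : Gal(L/K), σ * τ = τ * σ) {σ : Gal(L/K)}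
    {𝔔 : Ideal (𝓞 L)} [𝔔.IsPrime] (h : IsArithFrobAt (𝓞 K) σ 𝔔) :
    IsFrob K L σ (𝔔.under (𝓞 K)) := by
  intro 𝔔' h1 h2
  haveI := h1
  obtain ⟨τ, rfl⟩ := exists_smul_eq (K := K) (𝔔 := 𝔔) (𝔔' := 𝔔') h2.symm
  have := h.conj τ
  rwa [hab τ σ, mul_inv_cancel_right] at this

theorem exists_isFrob (hab : ∀ σ τ : Gal(L/K), σ * τ = τ * σ) (𝔮 : Ideal (𝓞 K)) [𝔮.IsPrime]
    (h0 : 𝔮 ≠ ⊥) : ∃ σ : Gal(L/K), IsFrob K L σ 𝔮 := by
  obtain ⟨𝔔, h1, h2⟩ := exists_prime_over (L := L) 𝔮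
  haveI := h1
  haveI : Finite (𝓞 L ⧸ 𝔔) := finite_quotient (ne_bot_of_under_ne_bot (K := K) (h2 ▸ h0))
  obtain ⟨σ, hσ⟩ := IsArithFrobAt.exists_of_isInvariant (𝓞 K) Gal(L/K) 𝔔
  exact ⟨σ, h2 ▸ isFrob_of_isArithFrobAt hab hσ⟩

/-- `𝔮` is unramified in `L`. -/
def UnramifiedAt (K L : Type*) [Field K] [Field L] [NumberField K] [NumberField L]
    [Algebra K L] (𝔮 : Ideal (𝓞 K)) : Prop :=
  ∀ 𝔔 : Ideal (𝓞 L), 𝔔.IsPrime → 𝔔.under (𝓞 K) = 𝔮 → 𝔔.ramificationIdx (𝓞 K) = 1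

theorem unramifiedAt_of_unramifiedEverywhere (h : UnramifiedEverywhere K L) {𝔮 : Ideal (𝓞 K)}
    (h0 : 𝔮 ≠ ⊥) : UnramifiedAt K L 𝔮 := fun 𝔔 h1 h2 =>
  h 𝔔 h1 (ne_bot_of_under_ne_bot (K := K) (h2 ▸ h0))

theorem IsFrob.unique {𝔮 : Ideal (𝓞 K)} [𝔮.IsPrime] (hunr : UnramifiedAt K L 𝔮)
    {σ τ : Gal(L/K)} (hσ : IsFrob K L σ 𝔮) (hτ : IsFrob K L τ 𝔮) : σ = τ := by
  obtain ⟨𝔔, h1, h2⟩ := exists_prime_over (L := L) 𝔮
  haveI := h1
  exact isArithFrobAt_unique (hunr 𝔔 h1 h2) (hσ 𝔔 h1 h2) (hτ 𝔔 h1 h2)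

open Classical in
/-- The Frobenius of the prime `𝔮` of `K` in the abelian extension `L / K` (equal to `1` if
there is no Frobenius at `𝔮`, e.g. if `𝔮` is not a nonzero prime). -/
noncomputable def frob (K L : Type*) [Field K] [Field L] [NumberField K] [NumberField L]
    [Algebra K L] [IsGalois K L] (𝔮 : Ideal (𝓞 K)) : Gal(L/K) :=
  if h : 𝔮.IsPrime ∧ 𝔮 ≠ ⊥ ∧ ∃ σ : Gal(L/K), IsFrob K L σ 𝔮 then h.2.2.choose else 1

theorem isFrob_frob (hab : ∀ σ τ : Gal(L/K), σ * τ = τ * σ) (𝔮 : Ideal (𝓞 K)) [h𝔮 : 𝔮.IsPrime]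
    (h0 : 𝔮 ≠ ⊥) : IsFrob K L (frob K L 𝔮) 𝔮 := by
  have h : 𝔮.IsPrime ∧ 𝔮 ≠ ⊥ ∧ ∃ σ : Gal(L/K), IsFrob K L σ 𝔮 :=
    ⟨h𝔮, h0, exists_isFrob hab 𝔮 h0⟩
  rw [frob, dif_pos h]
  exact h.2.2.choose_spec

theorem frob_eq (hab : ∀ σ τ : Gal(L/K), σ * τ = τ * σ) {𝔮 : Ideal (𝓞 K)} [𝔮.IsPrime]
    (h0 : 𝔮 ≠ ⊥) (hunr : UnramifiedAt K L 𝔮) {σ : Gal(L/K)} (hσ : IsFrob K L σ 𝔮) :
    frob K L 𝔮 = σ :=
  IsFrob.unique hunr (isFrob_frob hab 𝔮 h0) hσ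

theorem frob_of_not_isPrime {𝔮 : Ideal (𝓞 K)} (h : ¬ 𝔮.IsPrime) : frob K L 𝔮 = 1 := by
  rw [frob, dif_neg]
  exact fun h' => h h'.1

theorem frob_bot : frob K L (⊥ : Ideal (𝓞 K)) = 1 := by
  rw [frob, dif_neg]
  exact fun h' => h'.2.1 rfl


/-! ### Splitting and the Frobenius -/

/-- The decomposition group of an unramified prime with residue degree one is trivial. -/
theorem stabilizer_eq_bot {𝔔 : Ideal (𝓞 L)} [h𝔔 : 𝔔.IsPrime]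
    (he : 𝔔.ramificationIdx (𝓞 K) = 1) (hf : 𝔔.inertiaDeg (𝓞 K) = 1) :
    MulAction.stabilizer Gal(L/K) 𝔔 = ⊥ := by
  haveI : (𝔔.under (𝓞 K)).IsPrime := Ideal.IsPrime.under (𝓞 K) 𝔔
  haveI : 𝔔.LiesOver (𝔔.under (𝓞 K)) := ⟨rfl⟩
  haveI := perfectField_residueField (𝔔.under (𝓞 K))
  have h := Ideal.card_stabilizer_eq_card_inertia_mul_finrank (G := Gal(L/K))
    (𝔔.under (𝓞 K)) 𝔔
  rw [inertia_eq_bot he, hf, Subgroup.card_bot, mul_one] at h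
  exact (Subgroup.card_eq_one).1 h

/-- The residue degree of an unramified prime is the order of its decomposition group. -/
theorem card_stabilizer {𝔔 : Ideal (𝓞 L)} [h𝔔 : 𝔔.IsPrime]
    (he : 𝔔.ramificationIdx (𝓞 K) = 1) :
    Nat.card (MulAction.stabilizer Gal(L/K) 𝔔) = 𝔔.inertiaDeg (𝓞 K) := by
  haveI : (𝔔.under (𝓞 K)).IsPrime := Ideal.IsPrime.under (𝓞 K) 𝔔
  haveI : 𝔔.LiesOver (𝔔.under (𝓞 K)) := ⟨rfl⟩
  haveI := perfectField_residueField (𝔔.under (𝓞 K))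
  have h := Ideal.card_stabilizer_eq_card_inertia_mul_finrank (G := Gal(L/K))
    (𝔔.under (𝓞 K)) 𝔔
  rw [inertia_eq_bot he, Subgroup.card_bot, one_mul] at h
  exact h

/-- If `1` is a Frobenius at `𝔔`, every element of `𝓞 L` is congruent modulo `𝔔` to an element
of `𝓞 K`. -/
theorem exists_sub_mem_of_isArithFrobAt_one {𝔔 : Ideal (𝓞 L)} [h𝔔 : 𝔔.IsPrime]
    (h1 : IsArithFrobAt (𝓞 K) (1 : Gal(L/K)) 𝔔) (x : 𝓞 L) :
    ∃ r : 𝓞 K, x - algebraMap (𝓞 K) (𝓞 L) r ∈ 𝔔 := by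
  classical
  have hfin : Finite (𝓞 K ⧸ 𝔔.under (𝓞 K)) := h1.finite_quotient
  obtain ⟨q, hq⟩ : ∃ q : ℕ, q = Nat.card (𝓞 K ⧸ 𝔔.under (𝓞 K)) := ⟨_, rfl⟩
  -- every element of the residue domain is a root of `X ^ q - X`
  have hroot : ∀ y : 𝓞 L ⧸ 𝔔, y ^ q = y := by
    intro y
    obtain ⟨y, rfl⟩ := Ideal.Quotient.mk_surjective y
    have h2 := h1.mk_apply y
    rw [← hq] at h2
    rw [← h2]
    simp
  -- the image of `𝓞 K` in `𝓞 L ⧸ 𝔔`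
  let f : (𝓞 K ⧸ 𝔔.under (𝓞 K)) →+* (𝓞 L ⧸ 𝔔) :=
    Ideal.quotientMap 𝔔 (algebraMap (𝓞 K) (𝓞 L)) (le_of_eq rfl)
  have hf : Function.Injective f := Ideal.quotientMap_injective
  haveI : IsDomain (𝓞 L ⧸ 𝔔) := Ideal.Quotient.isDomain 𝔔
  -- the roots of `X ^ q - X` are at most `q`
  have hq1 : 1 < q := by
    haveI : Nontrivial (𝓞 K ⧸ 𝔔.under (𝓞 K)) :=
      Ideal.Quotient.nontrivial_iff.2 (Ideal.IsPrime.under (𝓞 K) 𝔔).ne_top
    rw [hq]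
    exact Finite.one_lt_card_iff_nontrivial.2 inferInstance
  obtain ⟨P, hP⟩ : ∃ P : Polynomial (𝓞 L ⧸ 𝔔), P = Polynomial.X ^ q - Polynomial.X := ⟨_, rfl⟩
  have hPdeg : P.natDegree = q := by
    rw [hP, Polynomial.natDegree_sub_eq_left_of_natDegree_lt, Polynomial.natDegree_X_pow]
    rw [Polynomial.natDegree_X_pow, Polynomial.natDegree_X]
    exact hq1
  have hP0 : P ≠ 0 := by
    intro h0
    rw [h0, Polynomial.natDegree_zero] at hPdeg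
    omega
  have hmem : ∀ y : 𝓞 L ⧸ 𝔔, y ∈ P.roots.toFinset := by
    intro y
    rw [Multiset.mem_toFinset, Polynomial.mem_roots hP0, Polynomial.IsRoot, hP]
    simp [hroot y]
  have hsurj : Function.Surjective f := by
    haveI : Fintype (𝓞 K ⧸ 𝔔.under (𝓞 K)) := Fintype.ofFinite _
    have hcard : (Finset.univ.image f).card = q := by
      rw [Finset.card_image_of_injective _ hf, Finset.card_univ, hq, Nat.card_eq_fintype_card]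
    have hsub : Finset.univ.image f ⊆ P.roots.toFinset := fun y _ => hmem y
    have hle : P.roots.toFinset.card ≤ q := by
      calc P.roots.toFinset.card ≤ Multiset.card P.roots := Multiset.toFinset_card_le _
        _ ≤ P.natDegree := Polynomial.card_roots' P
        _ = q := hPdeg
    have heq : Finset.univ.image f = P.roots.toFinset :=
      Finset.eq_of_subset_of_card_le hsub (by rw [hcard]; exact hle)
    intro y
    have := hmem y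
    rw [← heq, Finset.mem_image] at this
    obtain ⟨a, -, ha⟩ := this
    exact ⟨a, ha⟩
  obtain ⟨a, ha⟩ := hsurj (Ideal.Quotient.mk 𝔔 x)
  obtain ⟨r, rfl⟩ := Ideal.Quotient.mk_surjective a
  refine ⟨r, ?_⟩
  rw [← Ideal.Quotient.eq]
  exact ha.symm

/-- If `1` is a Frobenius at the unramified prime `𝔔`, its residue degree is one. -/
theorem inertiaDeg_eq_one_of_isArithFrobAt_one {𝔔 : Ideal (𝓞 L)} [h𝔔 : 𝔔.IsPrime]
    (he : 𝔔.ramificationIdx (𝓞 K) = 1)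
    (h1 : IsArithFrobAt (𝓞 K) (1 : Gal(L/K)) 𝔔) : 𝔔.inertiaDeg (𝓞 K) = 1 := by
  rw [← card_stabilizer he]
  have hbot : MulAction.stabilizer Gal(L/K) 𝔔 = ⊥ := by
    rw [eq_bot_iff]
    intro τ hτ
    rw [← inertia_eq_bot he]
    intro x
    obtain ⟨r, hr⟩ := exists_sub_mem_of_isArithFrobAt_one h1 x
    have h2 : τ • (x - algebraMap (𝓞 K) (𝓞 L) r) ∈ 𝔔 := by
      have : τ • (x - algebraMap (𝓞 K) (𝓞 L) r) ∈ τ • 𝔔 :=
        Ideal.smul_mem_pointwise_smul _ _ _ hr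
      rwa [MulAction.mem_stabilizer_iff.1 hτ] at this
    have h3 : τ • algebraMap (𝓞 K) (𝓞 L) r = algebraMap (𝓞 K) (𝓞 L) r :=
      smul_algebraMap τ r
    have : τ • x - x = τ • (x - algebraMap (𝓞 K) (𝓞 L) r) - (x - algebraMap (𝓞 K) (𝓞 L) r) := by
      rw [smul_sub, h3]
      ring
    rw [this]
    exact sub_mem h2 hr
  rw [hbot, Subgroup.card_bot]

/-- For an unramified nonzero prime: `1` is a Frobenius iff the prime splits completely. -/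
theorem isFrob_one_iff {𝔮 : Ideal (𝓞 K)} [h𝔮 : 𝔮.IsPrime] (h0 : 𝔮 ≠ ⊥)
    (hunr : UnramifiedAt K L 𝔮) : IsFrob K L 1 𝔮 ↔ SplitsCompletely K L 𝔮 := by
  constructor
  · intro h 𝔔 h1 h2
    haveI := h1
    exact ⟨hunr 𝔔 h1 h2, inertiaDeg_eq_one_of_isArithFrobAt_one (hunr 𝔔 h1 h2) (h 𝔔 h1 h2)⟩
  · intro h 𝔔 h1 h2
    haveI := h1
    haveI : Finite (𝓞 L ⧸ 𝔔) := finite_quotient (ne_bot_of_under_ne_bot (K := K) (h2 ▸ h0))
    obtain ⟨σ, hσ⟩ := IsArithFrobAt.exists_of_isInvariant (𝓞 K) Gal(L/K) 𝔔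
    have hs := hσ.mem_stabilizer
    rw [stabilizer_eq_bot (h 𝔔 h1 h2).1 (h 𝔔 h1 h2).2, Subgroup.mem_bot] at hs
    rwa [hs] at hσ

theorem frob_eq_one_iff (hab : ∀ σ τ : Gal(L/K), σ * τ = τ * σ) {𝔮 : Ideal (𝓞 K)}
    [h𝔮 : 𝔮.IsPrime] (h0 : 𝔮 ≠ ⊥) (hunr : UnramifiedAt K L 𝔮) :
    frob K L 𝔮 = 1 ↔ SplitsCompletely K L 𝔮 := by
  rw [← isFrob_one_iff h0 hunr]
  constructor
  · intro h
    rw [← h]
    exact isFrob_frob hab 𝔮 h0
  · intro h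
    exact frob_eq hab h0 hunr h

end Fermat.Agent.S14.Frob
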