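import Mathlib

/-!
# S14: the Herbrand quotient, by hand

For an abelian group `M` and two endomorphisms `f`, `g` with `f ∘ g = 0 = g ∘ f` we use the two
indices `[ker f : im g]` and `[ker g : im f]` (as natural numbers, `0` when infinite) and, for a
subgroup `B` stable under `f` and `g`, the relative versions `[B ∩ ker f : g B]`,
`[B ∩ ker g : f B]`.

* `relIndex_eq_mul` : `[A : B] = [f A : f B] * [A ∩ ker f : B ∩ ker f]`.
* `hq_mul_hqOn` : if `B` has finite index in `M` then
  `[ker f : im g] * [B ∩ ker g : f B] = [ker g : im f] * [B ∩ ker f : g B]`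
  (the Herbrand quotient does not change on a stable subgroup of finite index).
* `hq_eq_of_finite` : for a finite group the two indices are equal.
* `hqRel_eq` : for a stable subgroup `P` of finite index in `J`,
  `[f⁻¹ P : g J + P] = [g⁻¹ P : f J + P]` (the Herbrand quotient of the finite group `J / P`).
-/

set_option autoImplicit false

namespace Fermat.Agent.S14.Herbrand

open AddSubgroup

section Index

variable {M M' : Type*} [AddCommGroup M] [AddCommGroup M']

/-- the index of the images, in terms of the source -/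
theorem relIndex_map_map' (f : M →+ M') (H K : AddSubgroup M) :
    (H.map f).relIndex (K.map f) = (H ⊔ f.ker).relIndex K := by
  rw [← relIndex_comap, comap_map_eq]

/-- index under a homomorphism whose kernel is contained in the smaller subgroup -/
theorem relIndex_map_of_ker_le (f : M →+ M') {H : AddSubgroup M} (K : AddSubgroup M)
    (hk : f.ker ≤ H) : (H.map f).relIndex (K.map f) = H.relIndex K := by
  rw [relIndex_map_map', sup_of_le_left hk]

/-- **The index lemma**: `[A : B] = [f A : f B] * [A ∩ ker f : B ∩ ker f]`. -/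
theorem relIndex_eq_mul (f : M →+ M') {B A : AddSubgroup M} (h : B ≤ A) :
    B.relIndex A = (B.map f).relIndex (A.map f) * (B ⊓ f.ker).relIndex (A ⊓ f.ker) := by
  have h1 : (B.map f).relIndex (A.map f) = (B ⊔ f.ker ⊓ A).relIndex A := by
    rw [relIndex_map_map', ← inf_relIndex_right, sup_inf_assoc_of_le _ h]
  have h2 : (B ⊓ f.ker).relIndex (A ⊓ f.ker) = B.relIndex (B ⊔ f.ker ⊓ A) := by
    rw [relIndex_sup_left, ← inf_relIndex_right B, inf_comm f.ker A]
    congr 1
    rw [← inf_assoc, inf_of_le_left h]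
  rw [h1, h2, mul_comm]
  exact (relIndex_mul_relIndex _ _ _ le_sup_left (sup_le h inf_le_right)).symm

end Index

section Quotient

variable {M : Type*} [AddCommGroup M]

/-- the index `[ker f : im g]` -/
noncomputable def hq (f g : M →+ M) : ℕ := g.range.relIndex f.ker

/-- the index `[B ∩ ker f : g B]` -/
noncomputable def hqOn (B : AddSubgroup M) (f g : M →+ M) : ℕ :=
  (B.map g).relIndex (B ⊓ f.ker)

theorem hqOn_top (f g : M →+ M) : hqOn ⊤ f g = hq f g := by
  rw [hqOn, hq, top_inf_eq, ← AddMonoidHom.range_eq_map]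

variable {f g : M →+ M}

theorem range_le_ker (hfg : ∀ x, f (g x) = 0) : g.range ≤ f.ker := by
  rintro _ ⟨x, rfl⟩
  exact hfg x

theorem map_le_inf_ker (hfg : ∀ x, f (g x) = 0) {B : AddSubgroup M} (hgB : ∀ x ∈ B, g x ∈ B) :
    B.map g ≤ B ⊓ f.ker := by
  rintro _ ⟨x, hx, rfl⟩
  exact ⟨hgB x hx, hfg x⟩

theorem map_le_range (g : M →+ M) (B : AddSubgroup M) : B.map g ≤ g.range := by
  rintro _ ⟨x, -, rfl⟩
  exact ⟨x, rfl⟩

/-- `[ker f : im g] * [g M : g B] = [ker f : B ∩ ker f] * [B ∩ ker f : g B]` -/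
theorem hq_mul_aux (hfg : ∀ x, f (g x) = 0) {B : AddSubgroup M} (hgB : ∀ x ∈ B, g x ∈ B) :
    hq f g * (B.map g).relIndex g.range = (B ⊓ f.ker).relIndex f.ker * hqOn B f g := by
  rw [hq, hqOn, mul_comm, relIndex_mul_relIndex _ _ _ (map_le_range g B) (range_le_ker hfg),
    mul_comm, relIndex_mul_relIndex _ _ _ (map_le_inf_ker hfg hgB) inf_le_right]

/-- `[M : B] = [g M : g B] * [ker g : B ∩ ker g]` -/
theorem index_eq_mul_aux (g : M →+ M) (B : AddSubgroup M) :
    B.index = (B.map g).relIndex g.range * (B ⊓ g.ker).relIndex g.ker := by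
  have := relIndex_eq_mul g (le_top : B ≤ ⊤)
  rwa [relIndex_top_right, ← AddMonoidHom.range_eq_map, top_inf_eq] at this

/-- **Invariance of the Herbrand quotient on a stable subgroup of finite index.** -/
theorem hq_mul_hqOn (hfg : ∀ x, f (g x) = 0) (hgf : ∀ x, g (f x) = 0) {B : AddSubgroup M}
    (hfB : ∀ x ∈ B, f x ∈ B) (hgB : ∀ x ∈ B, g x ∈ B) (hB : B.index ≠ 0) :
    hq f g * hqOn B g f = hq g f * hqOn B f g := by
  have e1 := hq_mul_aux hfg hgB
  have e2 := hq_mul_aux hgf hfB
  have i1 := index_eq_mul_aux g B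
  have i2 := index_eq_mul_aux f B
  have key : (hq f g * hqOn B g f) * B.index = (hq g f * hqOn B f g) * B.index := by
    calc (hq f g * hqOn B g f) * B.index
        = (hq f g * (B.map g).relIndex g.range) * ((B ⊓ g.ker).relIndex g.ker * hqOn B g f) := by
          rw [i1]; ring
      _ = ((B ⊓ f.ker).relIndex f.ker * hqOn B f g) * (hq g f * (B.map f).relIndex f.range) := by
          rw [e1, e2]
      _ = (hq g f * hqOn B f g) * B.index := by
          rw [i2]; ring
  exact Nat.eq_of_mul_eq_mul_right (Nat.pos_of_ne_zero hB) key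

/-- on a stable subgroup of finite index, finiteness of the index `[ker f : im g]` can be
tested on the subgroup -/
theorem hq_ne_zero_iff (hfg : ∀ x, f (g x) = 0) {B : AddSubgroup M}
    (hgB : ∀ x ∈ B, g x ∈ B) (hB : B.index ≠ 0) : hq f g ≠ 0 ↔ hqOn B f g ≠ 0 := by
  have e1 := hq_mul_aux hfg hgB
  have i1 := index_eq_mul_aux g B
  have i2 : B.relIndex f.ker ≠ 0 := by
    intro h
    apply hB
    have := relIndex_dvd_index_of_normal B f.ker
    rw [h] at this
    exact Nat.eq_zero_of_zero_dvd this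
  have n1 : (B.map g).relIndex g.range ≠ 0 := by
    intro h
    rw [h, zero_mul] at i1
    exact hB i1
  have n2 : (B ⊓ f.ker).relIndex f.ker ≠ 0 := by
    rwa [inf_relIndex_right]
  constructor
  · intro h h0
    rw [h0, mul_zero] at e1
    exact (mul_ne_zero h n1) e1
  · intro h h0
    rw [h0, zero_mul] at e1
    exact (mul_ne_zero n2 h) e1.symm

/-- the index `[f⁻¹ P : g M + P]`, i.e. `[ker f : im g]` for the quotient `M / P` -/
noncomputable def hqRel (P : AddSubgroup M) (f g : M →+ M) : ℕ :=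
  (g.range ⊔ P).relIndex (P.comap f)

theorem range_sup_le_comap (hfg : ∀ x, f (g x) = 0) {P : AddSubgroup M}
    (hfP : ∀ x ∈ P, f x ∈ P) : g.range ⊔ P ≤ P.comap f := by
  refine sup_le ?_ ?_
  · rintro _ ⟨x, rfl⟩
    change f (g x) ∈ P
    rw [hfg]
    exact P.zero_mem
  · intro x hx
    exact hfP x hx

/-- `[M : P] = [g M + P : P] * [f⁻¹ P : g M + P] * [f M + P : P]` -/
theorem index_eq_mul_hqRel (hfg : ∀ x, f (g x) = 0) {P : AddSubgroup M}
    (hfP : ∀ x ∈ P, f x ∈ P) :
    P.index = P.relIndex (g.range ⊔ P) * hqRel P f g * P.relIndex (f.range ⊔ P) := by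
  have h1 : (P.comap f).index = P.relIndex (f.range ⊔ P) := by
    rw [index_comap, relIndex_sup_right]
  have h2 := relIndex_mul_relIndex P (g.range ⊔ P) (P.comap f) le_sup_right
    (range_sup_le_comap hfg hfP)
  have h3 := relIndex_mul_index (le_sup_right.trans (range_sup_le_comap hfg hfP) :
    P ≤ P.comap f)
  rw [hqRel, h2, ← h1, h3]

/-- **The Herbrand quotient of a finite quotient is `1`**: for a stable subgroup `P` of finite
index, `[f⁻¹ P : g M + P] = [g⁻¹ P : f M + P]`, and this number is not zero. -/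
theorem hqRel_eq (hfg : ∀ x, f (g x) = 0) (hgf : ∀ x, g (f x) = 0) {P : AddSubgroup M}
    (hfP : ∀ x ∈ P, f x ∈ P) (hgP : ∀ x ∈ P, g x ∈ P) (hP : P.index ≠ 0) :
    hqRel P f g = hqRel P g f ∧ hqRel P f g ≠ 0 := by
  have e1 := index_eq_mul_hqRel hfg hfP
  have e2 := index_eq_mul_hqRel hgf hgP
  have n1 : P.relIndex (g.range ⊔ P) ≠ 0 := by
    intro h
    rw [h, zero_mul, zero_mul] at e1
    exact hP e1
  have n2 : P.relIndex (f.range ⊔ P) ≠ 0 := by
    intro h
    rw [h, mul_zero] at e1
    exact hP e1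
  have n3 : hqRel P f g ≠ 0 := by
    intro h
    rw [h, mul_zero, zero_mul] at e1
    exact hP e1
  refine ⟨?_, n3⟩
  have key : hqRel P f g * (P.relIndex (g.range ⊔ P) * P.relIndex (f.range ⊔ P)) =
      hqRel P g f * (P.relIndex (g.range ⊔ P) * P.relIndex (f.range ⊔ P)) := by
    calc hqRel P f g * (P.relIndex (g.range ⊔ P) * P.relIndex (f.range ⊔ P))
        = P.index := by rw [e1]; ring
      _ = hqRel P g f * (P.relIndex (g.range ⊔ P) * P.relIndex (f.range ⊔ P)) := by
          rw [e2]; ring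
  exact Nat.eq_of_mul_eq_mul_right (Nat.pos_of_ne_zero (mul_ne_zero n1 n2)) key

/-- transport of the relative indices along an injective equivariant homomorphism -/
theorem hqOn_map {M' : Type*} [AddCommGroup M'] (ι : M' →+ M) (hι : Function.Injective ι)
    {f' g' : M' →+ M'} (hf : ∀ x, ι (f' x) = f (ι x)) (hg : ∀ x, ι (g' x) = g (ι x))
    (B : AddSubgroup M') : hqOn (B.map ι) f g = hqOn B f' g' := by
  have h1 : (B.map ι).map g = (B.map g').map ι := by
    ext y
    constructor
    · rintro ⟨_, ⟨x, hx, rfl⟩, rfl⟩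
      exact ⟨g' x, ⟨x, hx, rfl⟩, hg x⟩
    · rintro ⟨_, ⟨x, hx, rfl⟩, rfl⟩
      exact ⟨ι x, ⟨x, hx, rfl⟩, (hg x).symm⟩
  have h2 : B.map ι ⊓ f.ker = (B ⊓ f'.ker).map ι := by
    ext y
    constructor
    · rintro ⟨⟨x, hx, rfl⟩, hy⟩
      refine ⟨x, ⟨hx, ?_⟩, rfl⟩
      apply hι
      rw [hf, map_zero]
      exact hy
    · rintro ⟨x, ⟨hx, hx'⟩, rfl⟩
      refine ⟨⟨x, hx, rfl⟩, ?_⟩
      change f (ι x) = 0
      rw [← hf, (AddMonoidHom.mem_ker).mp hx', map_zero]
  rw [hqOn, hqOn, h1, h2, relIndex_map_map_of_injective _ _ hι]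

end Quotient

end Fermat.Agent.S14.Herbrand
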