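import Mathlib
import Fermat.Agent.S14.Herbrand

/-!
# S14: the norm index inequality, abstract form

`X` and `J` are abelian groups with endomorphisms `D` (`= σ - 1`) and `N` (the norm) such that
`N ∘ D = 0 = D ∘ N`, and `π : X →+ J` commutes with them; `U = ker π`.  Assume
* Hilbert 90 for `X` : `ker N ⊆ im D` on `X`;
* `H¹(J) = 0` : `ker N ⊆ im D` on `J`;
* `π X` has finite index in `J`;
* `[U ∩ ker D : N U] < [U ∩ ker N : D U]`, both finite.
Then `ker D_J` is not contained in `π (ker D_X) + N J`.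

(For `X = Lˣ`, `J` the group of fractional ideals of `L`, `U` the units: some ideal of `K` is
not the product of a principal ideal of `K` and a norm from `L`.)
-/

set_option autoImplicit false

namespace Fermat.Agent.S14.HerbrandChain

open AddSubgroup Fermat.Agent.S14.Herbrand

variable {X J : Type*} [AddCommGroup X] [AddCommGroup J]

/-- the hypotheses of the norm index inequality -/
structure IsChain (DX NX : X →+ X) (DJ NJ : J →+ J) (π : X →+ J) : Prop where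
  ND_X : ∀ x, NX (DX x) = 0
  DN_X : ∀ x, DX (NX x) = 0
  ND_J : ∀ j, NJ (DJ j) = 0
  DN_J : ∀ j, DJ (NJ j) = 0
  πD : ∀ x, π (DX x) = DJ (π x)
  πN : ∀ x, π (NX x) = NJ (π x)
  h90 : ∀ x, NX x = 0 → ∃ y, DX y = x
  hJ : ∀ j, NJ j = 0 → ∃ k, DJ k = j
  fin : π.range.index ≠ 0

variable {DX NX : X →+ X} {DJ NJ : J →+ J} {π : X →+ J}

section General

variable {A B : Type*} [AddCommGroup A] [AddCommGroup B]

theorem map_ker_sup (f : A →+ B) (H : AddSubgroup A) : (f.ker ⊔ H).map f = H.map f := by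
  rw [AddSubgroup.map_sup, (AddSubgroup.map_eq_bot_iff (f.ker)).mpr le_rfl, bot_sup_eq]

theorem map_sup_of_le_ker (f : A →+ B) {K : AddSubgroup A} (hK : K ≤ f.ker)
    (H : AddSubgroup A) : (K ⊔ H).map f = H.map f := by
  rw [AddSubgroup.map_sup, (AddSubgroup.map_eq_bot_iff K).mpr hK, bot_sup_eq]

/-- `[f⁻¹ H : K + L] = [H ∩ im f : f L]` when `ker f = K` -/
theorem relIndex_comap_eq (f : A →+ A) {K : AddSubgroup A} (hK : f.ker = K)
    (L H : AddSubgroup A) :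
    (K ⊔ L).relIndex (H.comap f) = (L.map f).relIndex (f.range ⊓ H) := by
  rw [← relIndex_map_of_ker_le f (H := K ⊔ L) (H.comap f) (hK ▸ le_sup_left),
    map_sup_of_le_ker f hK.ge, map_comap_eq]

end General

theorem range_D_eq_ker_N_X (h : IsChain DX NX DJ NJ π) : DX.range = NX.ker := by
  ext x
  constructor
  · rintro ⟨y, rfl⟩
    exact h.ND_X y
  · intro hx
    obtain ⟨y, hy⟩ := h.h90 x hx
    exact ⟨y, hy⟩

theorem range_D_eq_ker_N_J (h : IsChain DX NX DJ NJ π) : DJ.range = NJ.ker := by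
  ext x
  constructor
  · rintro ⟨y, rfl⟩
    exact h.ND_J y
  · intro hx
    obtain ⟨y, hy⟩ := h.hJ x hx
    exact ⟨y, hy⟩

theorem range_N_le_ker_D_X (h : IsChain DX NX DJ NJ π) : NX.range ≤ DX.ker := by
  rintro _ ⟨y, rfl⟩
  exact h.DN_X y

theorem range_N_le_ker_D_J (h : IsChain DX NX DJ NJ π) : NJ.range ≤ DJ.ker := by
  rintro _ ⟨y, rfl⟩
  exact h.DN_J y

/-- `π (ker D_X) ≤ π X ∩ ker D_J` -/
theorem map_ker_le (h : IsChain DX NX DJ NJ π) : DX.ker.map π ≤ π.range ⊓ DJ.ker := by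
  rintro _ ⟨x, hx, rfl⟩
  refine ⟨⟨x, rfl⟩, ?_⟩
  change DJ (π x) = 0
  rw [← h.πD, (AddMonoidHom.mem_ker).mp hx, map_zero]

theorem inf_ker_D_eq (h : IsChain DX NX DJ NJ π) :
    π.range ⊓ DJ.ker = (π.ker.comap DX).map π := by
  ext j
  constructor
  · rintro ⟨⟨x, rfl⟩, hj⟩
    refine ⟨x, ?_, rfl⟩
    change π (DX x) = 0
    rw [h.πD]
    exact hj
  · rintro ⟨x, hx, rfl⟩
    refine ⟨⟨x, rfl⟩, ?_⟩
    change DJ (π x) = 0
    rw [← h.πD]
    exact hx

theorem inf_ker_N_eq (h : IsChain DX NX DJ NJ π) :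
    π.range ⊓ NJ.ker = (π.ker.comap NX).map π := by
  ext j
  constructor
  · rintro ⟨⟨x, rfl⟩, hj⟩
    refine ⟨x, ?_, rfl⟩
    change π (NX x) = 0
    rw [h.πN]
    exact hj
  · rintro ⟨x, hx, rfl⟩
    refine ⟨⟨x, rfl⟩, ?_⟩
    change NJ (π x) = 0
    rw [← h.πN]
    exact hx

theorem map_D_range_eq (h : IsChain DX NX DJ NJ π) : π.range.map DJ = DX.range.map π := by
  ext j
  constructor
  · rintro ⟨_, ⟨x, rfl⟩, rfl⟩
    exact ⟨DX x, ⟨x, rfl⟩, h.πD x⟩
  · rintro ⟨_, ⟨x, rfl⟩, rfl⟩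
    exact ⟨π x, ⟨x, rfl⟩, (h.πD x).symm⟩

theorem map_N_range_eq (h : IsChain DX NX DJ NJ π) : π.range.map NJ = NX.range.map π := by
  ext j
  constructor
  · rintro ⟨_, ⟨x, rfl⟩, rfl⟩
    exact ⟨NX x, ⟨x, rfl⟩, h.πN x⟩
  · rintro ⟨_, ⟨x, rfl⟩, rfl⟩
    exact ⟨π x, ⟨x, rfl⟩, (h.πN x).symm⟩

theorem map_N_range_le (h : IsChain DX NX DJ NJ π) : π.range.map NJ ≤ DX.ker.map π := by
  rw [map_N_range_eq h]
  exact map_mono (range_N_le_ker_D_X h)

theorem stable_D (h : IsChain DX NX DJ NJ π) : ∀ j ∈ π.range, DJ j ∈ π.range := by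
  rintro _ ⟨x, rfl⟩
  exact ⟨DX x, h.πD x⟩

theorem stable_N (h : IsChain DX NX DJ NJ π) : ∀ j ∈ π.range, NJ j ∈ π.range := by
  rintro _ ⟨x, rfl⟩
  exact ⟨NX x, h.πN x⟩

/-- `(r1)`: `[P ∩ J^G : π (X^G)] = [U ∩ ker N : D U]` -/
theorem r1 (h : IsChain DX NX DJ NJ π) :
    (DX.ker.map π).relIndex (π.range ⊓ DJ.ker) = hqOn π.ker NX DX := by
  rw [inf_ker_D_eq h, relIndex_map_map', relIndex_comap_eq DX rfl, range_D_eq_ker_N_X h, hqOn,
    inf_comm]

/-- `(r2)`: `[P ∩ ker N : D P]` divides `[U ∩ ker D : N U]` -/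
theorem r2 (h : IsChain DX NX DJ NJ π) :
    (π.range.map DJ).relIndex (π.range ⊓ NJ.ker) ∣ hqOn π.ker DX NX := by
  have e : (π.range.map DJ).relIndex (π.range ⊓ NJ.ker) =
      (π.ker.map NX).relIndex (NX.range ⊓ π.ker) := by
    rw [inf_ker_N_eq h, map_D_range_eq h, relIndex_map_map',
      relIndex_comap_eq NX (range_D_eq_ker_N_X h).symm]
  rw [e, hqOn]
  have hU : π.ker.map NX ≤ NX.range ⊓ π.ker := by
    rintro _ ⟨x, hx, rfl⟩
    refine ⟨⟨x, rfl⟩, ?_⟩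
    change π (NX x) = 0
    rw [h.πN, (AddMonoidHom.mem_ker).mp hx, map_zero]
  have hle : NX.range ⊓ π.ker ≤ π.ker ⊓ DX.ker := by
    rintro x ⟨h1, h2⟩
    exact ⟨h2, range_N_le_ker_D_X h h1⟩
  exact Dvd.intro _ (relIndex_mul_relIndex _ _ _ hU hle)

/-- `(r3)`: `[D⁻¹ P : N J + P] = [J^G : N J + P^G] * [P ∩ ker N : D P]` -/
theorem r3 (h : IsChain DX NX DJ NJ π) :
    hqRel π.range DJ NJ = (NJ.range ⊔ (π.range ⊓ DJ.ker)).relIndex DJ.ker *
      (π.range.map DJ).relIndex (π.range ⊓ NJ.ker) := by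
  have hN := range_N_le_ker_D_J h
  have h1 : NJ.range ⊔ π.range ≤ DJ.ker ⊔ π.range := sup_le_sup_right hN _
  have h2 : DJ.ker ⊔ π.range ≤ π.range.comap DJ := by
    refine sup_le ?_ ?_
    · intro j hj
      change DJ j ∈ π.range
      rw [(AddMonoidHom.mem_ker).mp hj]
      exact π.range.zero_mem
    · intro j hj
      exact stable_D h j hj
  have e1 : (NJ.range ⊔ π.range).relIndex (DJ.ker ⊔ π.range) =
      (NJ.range ⊔ (π.range ⊓ DJ.ker)).relIndex DJ.ker := by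
    have : DJ.ker ⊔ π.range = DJ.ker ⊔ (NJ.range ⊔ π.range) := by
      rw [← sup_assoc, sup_of_le_left hN]
    rw [this, relIndex_sup_right, ← inf_relIndex_right, sup_inf_assoc_of_le _ hN]
  have e2 : (DJ.ker ⊔ π.range).relIndex (π.range.comap DJ) =
      (π.range.map DJ).relIndex (π.range ⊓ NJ.ker) := by
    rw [relIndex_comap_eq DJ rfl, range_D_eq_ker_N_J h, inf_comm]
  rw [hqRel, ← e1, ← e2]
  exact (relIndex_mul_relIndex _ _ _ h1 h2).symm

/-- `(r4)`: `[N⁻¹ P : D J + P] = [P ∩ N J : N P]` -/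
theorem r4 (h : IsChain DX NX DJ NJ π) :
    hqRel π.range NJ DJ = (π.range.map NJ).relIndex (π.range ⊓ NJ.range) := by
  rw [hqRel, relIndex_comap_eq NJ (range_D_eq_ker_N_J h).symm, inf_comm]

/-- **The norm index inequality** (abstract form): some `D`-invariant element of `J` is not the
sum of the image of a `D`-invariant element of `X` and of a norm. -/
theorem not_ker_le (h : IsChain DX NX DJ NJ π) (h0 : hqOn π.ker DX NX ≠ 0)
    (hlt : hqOn π.ker DX NX < hqOn π.ker NX DX) : ¬ DJ.ker ≤ DX.ker.map π ⊔ NJ.range := by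
  intro H
  have hN := range_N_le_ker_D_J h
  have hPK := map_ker_le h
  obtain ⟨q1, q2⟩ := hqRel_eq h.DN_J h.ND_J (stable_D h) (stable_N h) h.fin
  -- `[J^G : N J + P^G] = 1`
  have one : (NJ.range ⊔ (π.range ⊓ DJ.ker)).relIndex DJ.ker = 1 := by
    rw [relIndex_eq_one]
    refine H.trans (sup_le (hPK.trans le_sup_right) le_sup_left)
  have c1 : hqRel π.range DJ NJ = (π.range.map DJ).relIndex (π.range ⊓ NJ.ker) := by
    rw [r3 h, one, one_mul]
  -- `[P ∩ ker N : D P] ≤ [U ∩ ker D : N U]`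
  have le1 : hqRel π.range DJ NJ ≤ hqOn π.ker DX NX := by
    rw [c1]
    exact Nat.le_of_dvd (Nat.pos_of_ne_zero h0) (r2 h)
  -- `[U ∩ ker N : D U]` divides `[P ∩ N J : N P]`
  have e1 : π.range ⊓ DJ.ker = DX.ker.map π ⊔ NJ.range ⊓ (π.range ⊓ DJ.ker) := by
    rw [← sup_inf_assoc_of_le _ hPK]
    exact (inf_of_le_right ((inf_le_right : π.range ⊓ DJ.ker ≤ DJ.ker).trans H)).symm
  have e2 : NJ.range ⊓ (π.range ⊓ DJ.ker) = π.range ⊓ NJ.range := by
    rw [inf_comm π.range DJ.ker, ← inf_assoc, inf_of_le_left hN, inf_comm]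
  have d1 : hqOn π.ker NX DX ∣ hqRel π.range NJ DJ := by
    rw [← r1 h, r4 h]
    have : (DX.ker.map π).relIndex (π.range ⊓ DJ.ker) =
        (DX.ker.map π).relIndex (π.range ⊓ NJ.range) := by
      conv_lhs => rw [e1, relIndex_sup_left, e2]
    rw [this]
    exact relIndex_dvd_of_le_left _ (map_N_range_le h)
  have le2 : hqOn π.ker NX DX ≤ hqRel π.range NJ DJ :=
    Nat.le_of_dvd (Nat.pos_of_ne_zero (q1 ▸ q2)) d1
  rw [← q1] at le2
  exact absurd (le2.trans le1) (Nat.not_le.mpr hlt)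

/-- the same, with a witness -/
theorem exists_not_mem (h : IsChain DX NX DJ NJ π) (h0 : hqOn π.ker DX NX ≠ 0)
    (hlt : hqOn π.ker DX NX < hqOn π.ker NX DX) :
    ∃ j : J, DJ j = 0 ∧ j ∉ DX.ker.map π ⊔ NJ.range := by
  by_contra hc
  refine not_ker_le h h0 hlt fun j hj => ?_
  by_contra hj'
  exact hc ⟨j, hj, hj'⟩

end Fermat.Agent.S14.HerbrandChain
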