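import Mathlib

/-!
# S14: the operators `D = T - 1` and `N = 1 + T + ... + T^(n-1)`, and permutation modules

* `dEnd T`, `nEnd T n` for an endomorphism `T` of an abelian group, `N ∘ D = 0 = D ∘ N` when
  `T^n = 1`;
* for a permutation `e` of a type `S` with `e^n = 1` (`n ≠ 0`) acting on `S →₀ ℤ`:
  `N f = 0 → ∃ g, D g = f` (the first cohomology of a permutation module vanishes);
* Hilbert's Theorem 90 for a field automorphism of finite order (universe polymorphic).
-/

set_option autoImplicit false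

namespace Fermat.Agent.S14.PermModule

open Finset

section General

variable {M : Type*} [AddCommGroup M]

/-- `D = T - 1` -/
def dEnd (T : M →+ M) : M →+ M := T - AddMonoidHom.id M

/-- `N = 1 + T + ... + T^(n-1)` -/
def nEnd (T : M →+ M) (n : ℕ) : M →+ M where
  toFun x := ∑ i ∈ range n, (⇑T)^[i] x
  map_zero' := by
    apply Finset.sum_eq_zero
    intro i _
    exact iterate_map_zero T i
  map_add' x y := by
    rw [← Finset.sum_add_distrib]
    refine Finset.sum_congr rfl fun i _ => ?_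
    exact iterate_map_add T i x y

@[simp] theorem dEnd_apply (T : M →+ M) (x : M) : dEnd T x = T x - x := rfl

@[simp] theorem nEnd_apply (T : M →+ M) (n : ℕ) (x : M) :
    nEnd T n x = ∑ i ∈ range n, (⇑T)^[i] x := rfl

theorem iterate_sub (T : M →+ M) (i : ℕ) (x y : M) :
    (⇑T)^[i] (x - y) = (⇑T)^[i] x - (⇑T)^[i] y :=
  iterate_map_sub T i x y

theorem nEnd_dEnd {T : M →+ M} {n : ℕ} (hT : ∀ x, (⇑T)^[n] x = x) (x : M) :
    nEnd T n (dEnd T x) = 0 := by
  rw [nEnd_apply, dEnd_apply]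
  have : ∀ i, (⇑T)^[i] (T x - x) = (⇑T)^[i + 1] x - (⇑T)^[i] x := fun i => by
    rw [iterate_sub, ← Function.iterate_succ_apply]
  simp_rw [this]
  rw [Finset.sum_range_sub (fun i => (⇑T)^[i] x), hT, Function.iterate_zero, id, sub_self]

theorem dEnd_nEnd {T : M →+ M} {n : ℕ} (hT : ∀ x, (⇑T)^[n] x = x) (x : M) :
    dEnd T (nEnd T n x) = 0 := by
  rw [dEnd_apply, nEnd_apply, map_sum]
  have : ∀ i, T ((⇑T)^[i] x) = (⇑T)^[i + 1] x := fun i => by
    rw [Function.iterate_succ_apply']
  simp_rw [this]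
  rw [← Finset.sum_sub_distrib, Finset.sum_range_sub (fun i => (⇑T)^[i] x), hT,
    Function.iterate_zero, id, sub_self]

/-- `n x = N x` on the kernel of `D` -/
theorem nEnd_eq_nsmul {T : M →+ M} {x : M} (hx : dEnd T x = 0) (n : ℕ) : nEnd T n x = n • x := by
  have h1 : T x = x := by
    rw [dEnd_apply, sub_eq_zero] at hx
    exact hx
  have : ∀ i, (⇑T)^[i] x = x := fun i => Function.iterate_fixed h1 i
  rw [nEnd_apply]
  simp_rw [this]
  rw [Finset.sum_const, Finset.card_range]

/-- the key identity `(T - 1) (∑ i T^i) + T N = n T^n` -/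
theorem sum_nsmul_iterate (T : M →+ M) (n : ℕ) (x : M) :
    ∑ i ∈ range n, i • ((⇑T)^[i + 1] x - (⇑T)^[i] x) + ∑ i ∈ range n, (⇑T)^[i + 1] x =
      n • (⇑T)^[n] x := by
  induction n with
  | zero => simp
  | succ n ih =>
    rw [Finset.sum_range_succ, Finset.sum_range_succ (fun i => (⇑T)^[i + 1] x), succ_nsmul,
      ← add_assoc]
    have : ∑ i ∈ range n, i • ((⇑T)^[i + 1] x - (⇑T)^[i] x) +
        n • ((⇑T)^[n + 1] x - (⇑T)^[n] x) + ∑ i ∈ range n, (⇑T)^[i + 1] x =
        (∑ i ∈ range n, i • ((⇑T)^[i + 1] x - (⇑T)^[i] x) + ∑ i ∈ range n, (⇑T)^[i + 1] x) +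
        n • ((⇑T)^[n + 1] x - (⇑T)^[n] x) := by abel
    rw [this, ih, smul_sub]
    abel

end General

section Perm

variable {S : Type*} (e : Equiv.Perm S)

/-- the action of the permutation `e` on `S →₀ ℤ` -/
noncomputable def tEnd : (S →₀ ℤ) →+ (S →₀ ℤ) := Finsupp.mapDomain.addMonoidHom e

theorem tEnd_apply (f : S →₀ ℤ) (s : S) : tEnd e f s = f (e.symm s) := by
  show Finsupp.mapDomain (⇑e) f s = f (e.symm s)
  exact Finsupp.mapDomain_equiv_apply f s

theorem tEnd_single (s : S) (a : ℤ) : tEnd e (Finsupp.single s a) = Finsupp.single (e s) a :=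
  Finsupp.mapDomain_single

theorem iterate_tEnd_apply (i : ℕ) (f : S →₀ ℤ) (s : S) :
    (⇑(tEnd e))^[i] f s = f ((⇑e.symm)^[i] s) := by
  induction i generalizing s with
  | zero => rfl
  | succ i ih =>
    rw [Function.iterate_succ_apply', tEnd_apply, ih, ← Function.iterate_succ_apply]

theorem iterate_tEnd_single (i : ℕ) (s : S) (a : ℤ) :
    (⇑(tEnd e))^[i] (Finsupp.single s a) = Finsupp.single ((⇑e)^[i] s) a := by
  induction i with
  | zero => rfl
  | succ i ih =>
    rw [Function.iterate_succ_apply', ih, tEnd_single, ← Function.iterate_succ_apply' (⇑e)]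

theorem iterate_symm_eq {n : ℕ} (he : ∀ s, (⇑e)^[n] s = s) (s : S) : (⇑e.symm)^[n] s = s := by
  have h1 : Function.LeftInverse (⇑e.symm)^[n] (⇑e)^[n] :=
    Function.LeftInverse.iterate e.symm_apply_apply n
  have := h1 s
  rwa [he] at this

theorem iterate_tEnd_eq {n : ℕ} (he : ∀ s, (⇑e)^[n] s = s) (f : S →₀ ℤ) :
    (⇑(tEnd e))^[n] f = f := by
  ext s
  rw [iterate_tEnd_apply, iterate_symm_eq e he]

theorem dEnd_tEnd_apply (f : S →₀ ℤ) (s : S) : dEnd (tEnd e) f s = f (e.symm s) - f s := by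
  rw [dEnd_apply, Finsupp.sub_apply, tEnd_apply]

/-- invariant elements are constant on orbits -/
theorem dEnd_tEnd_eq_zero_iff (f : S →₀ ℤ) : dEnd (tEnd e) f = 0 ↔ ∀ s, f (e s) = f s := by
  constructor
  · intro h s
    have := congrArg (fun g : S →₀ ℤ => g (e s)) h
    simp only [dEnd_tEnd_apply, Equiv.symm_apply_apply, Finsupp.zero_apply] at this
    linarith
  · intro h
    ext s
    rw [dEnd_tEnd_apply, Finsupp.zero_apply]
    have := h (e.symm s)
    rw [Equiv.apply_symm_apply] at this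
    linarith

theorem nEnd_tEnd_single (n : ℕ) (s : S) (a : ℤ) :
    nEnd (tEnd e) n (Finsupp.single s a) = ∑ i ∈ range n, Finsupp.single ((⇑e)^[i] s) a := by
  rw [nEnd_apply]
  exact Finset.sum_congr rfl fun i _ => iterate_tEnd_single e i s a

/-- **The first cohomology of a permutation module vanishes**: if `e^n = 1` and `N f = 0` then
`f = e g - g`. -/
theorem exists_dEnd_eq {n : ℕ} (hn : n ≠ 0) (he : ∀ s, (⇑e)^[n] s = s) {f : S →₀ ℤ}
    (hf : nEnd (tEnd e) n f = 0) : ∃ g : S →₀ ℤ, dEnd (tEnd e) g = f := by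
  set T := tEnd e with hT
  set u : S →₀ ℤ := ∑ i ∈ range n, i • (⇑T)^[i] f with hu
  have hDu : dEnd T u = n • f := by
    have h1 := sum_nsmul_iterate T n f
    have h2 : ∑ i ∈ range n, (⇑T)^[i + 1] f = T (nEnd T n f) := by
      rw [nEnd_apply, map_sum]
      exact Finset.sum_congr rfl fun i _ => Function.iterate_succ_apply' _ _ _
    rw [h2, hf, map_zero, add_zero, iterate_tEnd_eq e he] at h1
    rw [← h1, dEnd_apply, hu, map_sum, ← Finset.sum_sub_distrib]
    refine Finset.sum_congr rfl fun i _ => ?_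
    rw [map_nsmul, ← smul_sub, Function.iterate_succ_apply']
  have hn' : (n : ℤ) ≠ 0 := Nat.cast_ne_zero.mpr hn
  refine ⟨u.mapRange (fun a => a / (n : ℤ)) (Int.zero_ediv _), ?_⟩
  ext s
  rw [dEnd_tEnd_apply, Finsupp.mapRange_apply, Finsupp.mapRange_apply]
  have h3 := congrArg (fun g : S →₀ ℤ => g s) hDu
  simp only [Finsupp.smul_apply, nsmul_eq_mul] at h3
  rw [hT, dEnd_tEnd_apply] at h3
  have h4 : u (e.symm s) = u s + (n : ℤ) * f s := by linarith
  rw [h4, Int.add_mul_ediv_left _ _ hn']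
  ring

end Perm

/-! ### Hilbert 90 for cyclic groups (any universe) -/

section Hilbert90

variable {L : Type*} [Field L]

/-- **Hilbert's Theorem 90** for a field endomorphism `σ` with `σ^n = 1` whose powers `σ^i`,
`i < n`, are pairwise distinct: an element with `x σ(x) ... σ^(n-1)(x) = 1` is of the form
`y / σ y`. -/
theorem exists_mul_map_eq (σ : L →+* L) {n : ℕ} (hn : 0 < n)
    (hinj : ∀ i < n, ∀ j < n, (⇑σ)^[i] = (⇑σ)^[j] → i = j) (hσ : ∀ x, (⇑σ)^[n] x = x) {x : L}
    (hx : ∏ i ∈ range n, (⇑σ)^[i] x = 1) : ∃ y : L, y ≠ 0 ∧ x * σ y = y := by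
  set a : ℕ → L := fun i => ∏ j ∈ range i, (⇑σ)^[j] x with ha
  have ha0 : a 0 = 1 := by simp [ha]
  have han : a n = 1 := hx
  have hasucc : ∀ i, a (i + 1) = x * σ (a i) := by
    intro i
    simp only [ha]
    rw [Finset.prod_range_succ', map_prod, Function.iterate_zero, id, mul_comm]
    congr 1
    exact Finset.prod_congr rfl fun j _ => Function.iterate_succ_apply' _ _ _
  -- the powers of `σ` as monoid homomorphisms
  let φ : Fin n → (L →* L) := fun i =>
    { toFun := (⇑σ)^[i]
      map_one' := iterate_map_one σ i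
      map_mul' := iterate_map_mul σ i }
  have hφinj : Function.Injective φ := by
    intro i j hij
    apply Fin.ext
    apply hinj i i.2 j j.2
    funext θ
    exact DFunLike.congr_fun hij θ
  have hli : LinearIndependent L (fun i : Fin n => (φ i : L → L)) :=
    (linearIndependent_monoidHom L L).comp φ hφinj
  -- the resolvent
  have hstep : ∀ θ : L, x * σ (∑ i ∈ range n, a i * (⇑σ)^[i] θ) =
      ∑ i ∈ range n, a i * (⇑σ)^[i] θ := by
    intro θ
    rw [map_sum, Finset.mul_sum]
    have h1 : ∀ i ∈ range n, x * σ (a i * (⇑σ)^[i] θ) = a (i + 1) * (⇑σ)^[i + 1] θ := by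
      intro i _
      rw [map_mul, ← mul_assoc, ← hasucc, Function.iterate_succ_apply']
    rw [Finset.sum_congr rfl h1]
    have h2 := Finset.sum_range_succ (fun i => a i * (⇑σ)^[i] θ) n
    have h3 := Finset.sum_range_succ' (fun i => a i * (⇑σ)^[i] θ) n
    simp only [han, ha0, hσ, Function.iterate_zero, id, one_mul] at h2 h3
    rw [h2] at h3
    exact add_right_cancel h3.symm
  by_contra hcon
  push Not at hcon
  have hy : ∀ θ : L, ∑ i ∈ range n, a i * (⇑σ)^[i] θ = 0 := by
    intro θ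
    by_contra h0
    exact hcon _ h0 (hstep θ)
  have hzero : ∑ i : Fin n, a i • (φ i : L → L) = 0 := by
    funext θ
    rw [Finset.sum_apply, Pi.zero_apply, ← hy θ, ← Fin.sum_univ_eq_sum_range
      (fun i => a i * (⇑σ)^[i] θ) n]
    rfl
  have := Fintype.linearIndependent_iff.mp hli (fun i => a i) hzero ⟨0, hn⟩
  rw [ha0] at this
  exact one_ne_zero this

end Hilbert90

end Fermat.Agent.S14.PermModule
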