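import Mathlib
import Fermat.Agent.S14.PermModule
import Fermat.Agent.S14.Frob
import Fermat.Agent.S14.HerbrandChain

set_option autoImplicit false
set_option linter.unusedSectionVars false
set_option linter.unusedVariables false

namespace Fermat.Agent.S14.IdealChain

open IsDedekindDomain nonZeroDivisors Fermat.Agent.S14.PermModule

/-! ### Divisors in a Dedekind domain -/

section Divisor

variable {R : Type*} [CommRing R] [IsDedekindDomain R] (F : Type*) [Field F] [Algebra R F]
  [IsFractionRing R F]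

/-- the divisor of a fractional ideal -/
noncomputable def divI (I : FractionalIdeal R⁰ F) : HeightOneSpectrum R →₀ ℤ :=
  Finsupp.ofSupportFinite (fun v => FractionalIdeal.count F v I)
    (Filter.eventually_cofinite.mp (FractionalIdeal.finite_factors I))

@[simp] theorem divI_apply (I : FractionalIdeal R⁰ F) (v : HeightOneSpectrum R) :
    divI F I v = FractionalIdeal.count F v I := rfl

theorem divI_mul {I I' : FractionalIdeal R⁰ F} (hI : I ≠ 0) (hI' : I' ≠ 0) :
    divI F (I * I') = divI F I + divI F I' := by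
  ext v
  simp [FractionalIdeal.count_mul F v hI hI']

theorem divI_one : divI F (1 : FractionalIdeal R⁰ F) = 0 := by
  ext v
  simp [FractionalIdeal.count_one]

/-- the fractional ideal with a given divisor -/
noncomputable def idealOf (g : HeightOneSpectrum R →₀ ℤ) : FractionalIdeal R⁰ F :=
  g.prod fun v n => (v.asIdeal : FractionalIdeal R⁰ F) ^ n

theorem coe_ne_zero (v : HeightOneSpectrum R) : (v.asIdeal : FractionalIdeal R⁰ F) ≠ 0 :=
  FractionalIdeal.coeIdeal_ne_zero.mpr v.ne_bot

theorem idealOf_ne_zero (g : HeightOneSpectrum R →₀ ℤ) : idealOf F g ≠ 0 := by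
  unfold idealOf
  rw [Finsupp.prod, Finset.prod_ne_zero_iff]
  intro v _
  exact zpow_ne_zero _ (coe_ne_zero F v)

theorem divI_idealOf (g : HeightOneSpectrum R →₀ ℤ) : divI F (idealOf F g) = g := by
  ext v
  exact FractionalIdeal.count_finsuppProd F v g

theorem idealOf_divI {I : FractionalIdeal R⁰ F} (hI : I ≠ 0) : idealOf F (divI F I) = I := by
  have h := FractionalIdeal.finprod_heightOneSpectrum_factorization' F hI
  have h2 : ∏ᶠ v : HeightOneSpectrum R,
      (v.asIdeal : FractionalIdeal R⁰ F) ^ FractionalIdeal.count F v I =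
      ∏ v ∈ (divI F I).support,
        (v.asIdeal : FractionalIdeal R⁰ F) ^ FractionalIdeal.count F v I := by
    apply finprod_eq_prod_of_mulSupport_subset
    intro v hv
    rw [Function.mem_mulSupport] at hv
    rw [Finset.mem_coe, Finsupp.mem_support_iff, divI_apply]
    intro h0
    rw [h0, zpow_zero] at hv
    exact hv rfl
  rw [h2] at h
  exact h

theorem idealOf_add (g g' : HeightOneSpectrum R →₀ ℤ) :
    idealOf F (g + g') = idealOf F g * idealOf F g' := by
  have h1 := idealOf_ne_zero F g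
  have h2 := idealOf_ne_zero F g'
  rw [← idealOf_divI F (mul_ne_zero h1 h2), divI_mul F h1 h2, divI_idealOf, divI_idealOf]

theorem idealOf_zero : idealOf F (0 : HeightOneSpectrum R →₀ ℤ) = 1 := by
  unfold idealOf
  simp

theorem idealOf_single (v : HeightOneSpectrum R) :
    idealOf F (Finsupp.single v 1) = (v.asIdeal : FractionalIdeal R⁰ F) := by
  unfold idealOf
  rw [Finsupp.prod_single_index (by simp), zpow_one]

theorem divI_eq_zero_iff {I : FractionalIdeal R⁰ F} (hI : I ≠ 0) : divI F I = 0 ↔ I = 1 := by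
  constructor
  · intro h
    rw [← idealOf_divI F hI, h, idealOf_zero]
  · intro h
    rw [h, divI_one]

end Divisor

/-! ### The divisor of an element, the class of a divisor -/

section DivX

variable {R : Type*} [CommRing R] [IsDedekindDomain R] (F : Type*) [Field F] [Algebra R F]
  [IsFractionRing R F]

theorem spanSingleton_ne_zero (x : Fˣ) : FractionalIdeal.spanSingleton R⁰ (x : F) ≠ 0 :=
  FractionalIdeal.spanSingleton_ne_zero_iff.mpr x.ne_zero

/-- the divisor of a nonzero element of the fraction field -/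
noncomputable def divX : Additive Fˣ →+ (HeightOneSpectrum R →₀ ℤ) where
  toFun x := divI F (FractionalIdeal.spanSingleton R⁰ ((Additive.toMul x : Fˣ) : F))
  map_zero' := by
    rw [toMul_zero, Units.val_one, FractionalIdeal.spanSingleton_one, divI_one]
  map_add' x y := by
    rw [toMul_add, Units.val_mul, ← FractionalIdeal.spanSingleton_mul_spanSingleton,
      divI_mul F (spanSingleton_ne_zero F _) (spanSingleton_ne_zero F _)]

theorem divX_apply (x : Fˣ) :
    divX (R := R) F (Additive.ofMul x) = divI F (FractionalIdeal.spanSingleton R⁰ (x : F)) := rfl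

/-- the units of `R` inside `Fˣ` -/
noncomputable def unitsHom : Additive Rˣ →+ Additive Fˣ :=
  (Units.map (algebraMap R F : R →* F)).toAdditive

theorem unitsHom_apply (u : Rˣ) :
    ((Additive.toMul (unitsHom (R := R) F (Additive.ofMul u)) : Fˣ) : F) = algebraMap R F u := rfl

theorem unitsHom_injective : Function.Injective (unitsHom (R := R) F) := by
  intro x y h
  have h1 := congrArg (fun z : Additive Fˣ => ((Additive.toMul z : Fˣ) : F)) h
  have h2 : algebraMap R F ((Additive.toMul x : Rˣ) : R) = algebraMap R F (Additive.toMul y : Rˣ) :=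
    h1
  have h3 := IsFractionRing.injective R F h2
  exact Additive.toMul.injective (Units.ext h3)

theorem divX_ker : (divX (R := R) F).ker = (unitsHom (R := R) F).range := by
  ext x
  rw [AddMonoidHom.mem_ker, AddMonoidHom.mem_range]
  obtain ⟨x, rfl⟩ := Additive.ofMul.surjective x
  rw [divX_apply, divI_eq_zero_iff F (spanSingleton_ne_zero F x)]
  constructor
  · intro h
    have h1 : (x : F) ∈ (1 : FractionalIdeal R⁰ F) := by
      rw [← h]
      exact FractionalIdeal.mem_spanSingleton_self _ _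
    have h2 : (1 : F) ∈ FractionalIdeal.spanSingleton R⁰ (x : F) := by
      rw [h]
      exact FractionalIdeal.one_mem_one _
    obtain ⟨a, ha⟩ := (FractionalIdeal.mem_one_iff _).mp h1
    obtain ⟨r, hr⟩ := (FractionalIdeal.mem_spanSingleton _).mp h2
    have hra : r * a = 1 := by
      apply IsFractionRing.injective R F
      rw [map_mul, map_one, ha, ← hr, Algebra.smul_def]
    have hu : IsUnit a := IsUnit.of_mul_eq_one _ ((mul_comm a r).trans hra)
    refine ⟨Additive.ofMul hu.unit, ?_⟩
    apply Additive.toMul.injective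
    apply Units.ext
    show algebraMap R F hu.unit = x
    rw [IsUnit.unit_spec, ha]
  · rintro ⟨u, hu⟩
    obtain ⟨u, rfl⟩ := Additive.ofMul.surjective u
    have hx : (x : F) = algebraMap R F u := by
      rw [← unitsHom_apply F u, hu]
      rfl
    rw [hx]
    apply le_antisymm
    · rw [FractionalIdeal.spanSingleton_le_iff_mem]
      exact (FractionalIdeal.mem_one_iff _).mpr ⟨u, rfl⟩
    · rw [FractionalIdeal.one_le]
      rw [FractionalIdeal.mem_spanSingleton]
      refine ⟨((u⁻¹ : Rˣ) : R), ?_⟩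
      rw [Algebra.smul_def, ← map_mul, Units.inv_mul, map_one]

/-- the invertible fractional ideal with a given divisor -/
noncomputable def idealU (g : HeightOneSpectrum R →₀ ℤ) : (FractionalIdeal R⁰ F)ˣ :=
  Units.mk0 (idealOf F g) (idealOf_ne_zero F g)

/-- the class of a divisor -/
noncomputable def classOf : (HeightOneSpectrum R →₀ ℤ) →+ Additive (ClassGroup R) where
  toFun g := Additive.ofMul (ClassGroup.mk F (idealU F g))
  map_zero' := by
    have : idealU F (0 : HeightOneSpectrum R →₀ ℤ) = 1 := Units.ext (idealOf_zero F)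
    rw [this, map_one]
    rfl
  map_add' g g' := by
    have : idealU F (g + g') = idealU F g * idealU F g' := Units.ext (idealOf_add F g g')
    rw [this, map_mul]
    rfl

theorem classOf_apply (g : HeightOneSpectrum R →₀ ℤ) :
    Additive.toMul (classOf F g) = ClassGroup.mk F (idealU F g) := rfl

theorem classOf_single (v : HeightOneSpectrum R) :
    Additive.toMul (classOf F (Finsupp.single v 1)) =
      ClassGroup.mk0 ⟨v.asIdeal, mem_nonZeroDivisors_of_ne_zero v.ne_bot⟩ := by
  rw [classOf_apply, ← ClassGroup.mk_mk0 F]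
  congr 1
  apply Units.ext
  show idealOf F (Finsupp.single v 1) = _
  rw [idealOf_single]
  rfl

theorem classOf_surjective : Function.Surjective (classOf (R := R) F) := by
  intro c
  obtain ⟨c, rfl⟩ := Additive.ofMul.surjective c
  obtain ⟨I, rfl⟩ := ClassGroup.mk0_surjective c
  have hI : ((I : Ideal R) : FractionalIdeal R⁰ F) ≠ 0 :=
    FractionalIdeal.coeIdeal_ne_zero.mpr (nonZeroDivisors.coe_ne_zero I)
  refine ⟨divI F ((I : Ideal R) : FractionalIdeal R⁰ F), ?_⟩
  apply Additive.toMul.injective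
  rw [classOf_apply, toMul_ofMul, ← ClassGroup.mk_mk0 F]
  congr 1
  apply Units.ext
  show idealOf F (divI F _) = _
  rw [idealOf_divI F hI]
  rfl

theorem classOf_ker_le : (classOf (R := R) F).ker ≤ (divX (R := R) F).range := by
  intro g hg
  rw [AddMonoidHom.mem_ker] at hg
  have h1 : ClassGroup.mk F (idealU F g) = 1 := by
    rw [← classOf_apply, hg]
    rfl
  rw [ClassGroup.mk_eq_one_iff] at h1
  obtain ⟨x, hx⟩ := h1
  have hx' : idealOf F g = FractionalIdeal.spanSingleton R⁰ x := by
    apply FractionalIdeal.coeToSubmodule_injective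
    show ((idealOf F g : FractionalIdeal R⁰ F) : Submodule R F) =
      ((FractionalIdeal.spanSingleton R⁰ x : FractionalIdeal R⁰ F) : Submodule R F)
    rw [FractionalIdeal.coe_spanSingleton]
    exact hx
  have hx0 : x ≠ 0 := by
    rintro rfl
    rw [FractionalIdeal.spanSingleton_zero] at hx'
    exact idealOf_ne_zero F g hx'
  refine ⟨Additive.ofMul (Units.mk0 x hx0), ?_⟩
  rw [divX_apply, Units.val_mk0, ← hx', divI_idealOf]

theorem divX_range_index_ne_zero [Finite (ClassGroup R)] :
    (divX (R := R) F).range.index ≠ 0 := by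
  intro h
  have h1 := AddSubgroup.index_dvd_of_le (classOf_ker_le (R := R) F)
  rw [h, zero_dvd_iff, AddSubgroup.index_ker] at h1
  have : Finite (Additive (ClassGroup R)) := Finite.of_equiv _ Additive.ofMul
  exact Nat.card_pos.ne' h1

end DivX

/-! ### The bridge to valuations -/

section Bridge

variable {R : Type*} [CommRing R] [IsDedekindDomain R] (F : Type*) [Field F] [Algebra R F]
  [IsFractionRing R F]

open WithZero

/-- the divisor of `x` computes the valuations of `x` -/
theorem valuation_eq_exp (x : Fˣ) (v : HeightOneSpectrum R) :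
    v.valuation F (x : F) = exp (-(divX (R := R) F (Additive.ofMul x) v)) := by
  obtain ⟨a, b, hb, hab⟩ := IsFractionRing.div_surjective (A := R) (x : F)
  have hb0 : b ≠ 0 := nonZeroDivisors.ne_zero hb
  have hb0' : algebraMap R F b ≠ 0 := by
    rw [Ne, map_eq_zero_iff _ (IsFractionRing.injective R F)]
    exact hb0
  have ha0 : a ≠ 0 := by
    rintro rfl
    rw [map_zero, zero_div] at hab
    exact x.ne_zero hab.symm
  have hI : FractionalIdeal.spanSingleton R⁰ (x : F) =
      FractionalIdeal.spanSingleton R⁰ (algebraMap R F b)⁻¹ * ((Ideal.span {a} : Ideal R) :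
        FractionalIdeal R⁰ F) := by
    rw [FractionalIdeal.coeIdeal_span_singleton, FractionalIdeal.spanSingleton_mul_spanSingleton,
      ← hab, div_eq_inv_mul]
  rw [divX_apply, divI_apply,
    FractionalIdeal.count_well_defined F v (spanSingleton_ne_zero F x) hI, ← hab, map_div₀,
    HeightOneSpectrum.valuation_of_algebraMap, HeightOneSpectrum.valuation_of_algebraMap,
    HeightOneSpectrum.intValuation_if_neg v ha0, HeightOneSpectrum.intValuation_if_neg v hb0,
    ← exp_sub]
  congr 1
  ring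

theorem divX_apply_eq_neg_log (x : Fˣ) (v : HeightOneSpectrum R) :
    divX (R := R) F (Additive.ofMul x) v = -log (v.valuation F (x : F)) := by
  rw [valuation_eq_exp, log_exp, neg_neg]

/-- two elements with the same valuations have the same divisor -/
theorem divX_apply_eq_of_valuation_eq {R' : Type*} [CommRing R'] [IsDedekindDomain R']
    {F' : Type*} [Field F'] [Algebra R' F'] [IsFractionRing R' F'] {x : Fˣ} {x' : F'ˣ}
    {v : HeightOneSpectrum R} {v' : HeightOneSpectrum R'}
    (h : v.valuation F (x : F) = v'.valuation F' (x' : F')) :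
    divX (R := R) F (Additive.ofMul x) v = divX (R := R') F' (Additive.ofMul x') v' := by
  rw [divX_apply_eq_neg_log, divX_apply_eq_neg_log, h]

end Bridge

/-! ### Automorphisms -/

section Aut

variable {R : Type*} [CommRing R] [IsDedekindDomain R] (F : Type*) [Field F] [Algebra R F]
  [IsFractionRing R F]

open WithZero

/-- the permutation of the primes induced by a ring automorphism: `v ↦ τ(v)` -/
noncomputable def primePerm (τ : R ≃+* R) : Equiv.Perm (HeightOneSpectrum R) :=
  HeightOneSpectrum.equivOfRingEquiv τ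

theorem primePerm_asIdeal (τ : R ≃+* R) (v : HeightOneSpectrum R) :
    (primePerm τ v).asIdeal = v.asIdeal.comap (τ.symm : R →+* R) := rfl

theorem mem_primePerm_pow (τ : R ≃+* R) (v : HeightOneSpectrum R) (r : R) (n : ℕ) :
    τ r ∈ (primePerm τ v).asIdeal ^ n ↔ r ∈ v.asIdeal ^ n := by
  have h1 : (primePerm τ v).asIdeal = v.asIdeal.map (τ : R →+* R) := by
    rw [primePerm_asIdeal]
    exact (Ideal.map_comap_of_equiv (τ : R ≃+* R)).symm
  rw [h1, ← Ideal.map_pow]
  constructor
  · intro h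
    obtain ⟨r', hr', hrr'⟩ :=
      (Ideal.mem_map_iff_of_surjective (τ : R →+* R) τ.surjective).mp h
    have : r' = r := τ.injective hrr'
    rwa [this] at hr'
  · intro h
    exact Ideal.mem_map_of_mem _ h

theorem intValuation_primePerm (τ : R ≃+* R) (v : HeightOneSpectrum R) (r : R) :
    (primePerm τ v).intValuation (τ r) = v.intValuation r := by
  by_cases hr : r = 0
  · rw [hr, map_zero, map_zero, map_zero]
  have hτr : τ r ≠ 0 := fun h => hr (by simpa using h)
  have key : ∀ n : ℕ, (primePerm τ v).intValuation (τ r) ≤ exp (-(n : ℤ)) ↔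
      v.intValuation r ≤ exp (-(n : ℤ)) := fun n => by
    rw [HeightOneSpectrum.intValuation_le_pow_iff_mem,
      HeightOneSpectrum.intValuation_le_pow_iff_mem, mem_primePerm_pow]
  rw [HeightOneSpectrum.intValuation_if_neg _ hτr, HeightOneSpectrum.intValuation_if_neg _ hr]
    at key ⊢
  set k₁ := (Associates.mk (primePerm τ v).asIdeal).count
    (Associates.mk (Ideal.span {τ r})).factors
  set k₂ := (Associates.mk v.asIdeal).count (Associates.mk (Ideal.span {r})).factors
  have h1 := (key k₁).mp le_rfl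
  have h2 := (key k₂).mpr le_rfl
  rw [exp_le_exp] at h1 h2
  rw [exp_inj]
  omega

theorem valuation_primePerm (τ : R ≃+* R) (σ : F →+* F)
    (hσ : ∀ r : R, σ (algebraMap R F r) = algebraMap R F (τ r)) (v : HeightOneSpectrum R)
    (x : F) : (primePerm τ v).valuation F (σ x) = v.valuation F x := by
  obtain ⟨a, b, hb, rfl⟩ := IsFractionRing.div_surjective (A := R) x
  rw [map_div₀, hσ, hσ, map_div₀, map_div₀, HeightOneSpectrum.valuation_of_algebraMap,
    HeightOneSpectrum.valuation_of_algebraMap, HeightOneSpectrum.valuation_of_algebraMap,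
    HeightOneSpectrum.valuation_of_algebraMap, intValuation_primePerm, intValuation_primePerm]

/-- the divisor map is equivariant -/
theorem divX_map (τ : R ≃+* R) (σ : F →+* F)
    (hσ : ∀ r : R, σ (algebraMap R F r) = algebraMap R F (τ r)) (x : Fˣ) :
    divX (R := R) F (Additive.ofMul (Units.map (σ : F →* F) x)) =
      tEnd (primePerm τ) (divX (R := R) F (Additive.ofMul x)) := by
  ext w
  rw [tEnd_apply]
  have h := valuation_primePerm F τ σ hσ ((primePerm τ).symm w) (x : F)
  rw [Equiv.apply_symm_apply] at h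
  exact divX_apply_eq_of_valuation_eq F h

end Aut

/-! ### The Galois action on the primes of a number field -/

section Galois

open NumberField
open scoped Pointwise

variable {K L : Type*} [Field K] [Field L] [NumberField K] [NumberField L] [Algebra K L]
  [IsGalois K L]

/-- the automorphism of `𝓞 L` induced by `σ` -/
noncomputable def sR (σ : Gal(L/K)) : 𝓞 L ≃+* 𝓞 L :=
  MulSemiringAction.toRingEquiv Gal(L/K) (𝓞 L) σ

theorem sR_apply (σ : Gal(L/K)) (r : 𝓞 L) : ((sR σ r : 𝓞 L) : L) = σ (r : L) := rfl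

theorem sR_mul (σ τ : Gal(L/K)) (r : 𝓞 L) : sR (σ * τ) r = sR σ (sR τ r) := by
  apply RingOfIntegers.ext
  rw [sR_apply, sR_apply, sR_apply]
  rfl

theorem sR_one (r : 𝓞 L) : sR (1 : Gal(L/K)) r = r := by
  apply RingOfIntegers.ext
  rw [sR_apply]
  rfl

theorem sR_algebraMap (σ : Gal(L/K)) (a : 𝓞 K) :
    sR σ (algebraMap (𝓞 K) (𝓞 L) a) = algebraMap (𝓞 K) (𝓞 L) a := by
  apply RingOfIntegers.ext
  rw [sR_apply]
  exact σ.commutes (a : K)

/-- the permutation of the primes of `L` induced by `σ` -/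
noncomputable def ePerm (σ : Gal(L/K)) : Equiv.Perm (HeightOneSpectrum (𝓞 L)) :=
  primePerm (sR σ)

theorem ePerm_asIdeal (σ : Gal(L/K)) (w : HeightOneSpectrum (𝓞 L)) :
    (ePerm σ w).asIdeal = σ • w.asIdeal := by
  rw [Ideal.pointwise_smul_def]
  show w.asIdeal.comap ((sR σ).symm : 𝓞 L →+* 𝓞 L) = _
  exact (Ideal.map_comap_of_equiv (sR σ)).symm

theorem ePerm_mul (σ τ : Gal(L/K)) (w : HeightOneSpectrum (𝓞 L)) :
    ePerm (σ * τ) w = ePerm σ (ePerm τ w) := by
  apply HeightOneSpectrum.ext
  rw [ePerm_asIdeal, ePerm_asIdeal, ePerm_asIdeal, mul_smul]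

theorem ePerm_one (w : HeightOneSpectrum (𝓞 L)) : ePerm (1 : Gal(L/K)) w = w := by
  apply HeightOneSpectrum.ext
  rw [ePerm_asIdeal, one_smul]

theorem ePerm_pow (σ : Gal(L/K)) (i : ℕ) (w : HeightOneSpectrum (𝓞 L)) :
    ePerm (σ ^ i) w = (⇑(ePerm σ))^[i] w := by
  induction i generalizing w with
  | zero => rw [pow_zero, ePerm_one]; rfl
  | succ i ih => rw [pow_succ, ePerm_mul, ih, Function.iterate_succ_apply]

theorem under_ePerm (σ : Gal(L/K)) (w : HeightOneSpectrum (𝓞 L)) :
    (ePerm σ w).under (𝓞 K) = w.under (𝓞 K) := by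
  apply HeightOneSpectrum.ext
  ext a
  show (sR σ).symm (algebraMap (𝓞 K) (𝓞 L) a) ∈ w.asIdeal ↔ algebraMap (𝓞 K) (𝓞 L) a ∈ w.asIdeal
  have : (sR σ).symm (algebraMap (𝓞 K) (𝓞 L) a) = algebraMap (𝓞 K) (𝓞 L) a := by
    rw [RingEquiv.symm_apply_eq, sR_algebraMap]
  rw [this]

/-- the Galois group permutes transitively the primes above a prime of `K` -/
theorem exists_ePerm_eq {w w' : HeightOneSpectrum (𝓞 L)}
    (h : w.under (𝓞 K) = w'.under (𝓞 K)) : ∃ τ : Gal(L/K), ePerm τ w = w' := by
  have := w.isPrime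
  have := w'.isPrime
  have h' : w.asIdeal.under (𝓞 K) = w'.asIdeal.under (𝓞 K) :=
    congrArg HeightOneSpectrum.asIdeal h
  obtain ⟨τ, hτ⟩ := Frob.exists_smul_eq (K := K) h'
  exact ⟨τ, HeightOneSpectrum.ext (by rw [ePerm_asIdeal, hτ])⟩

/-- the action of `σ` on `Lˣ` -/
noncomputable def sX (σ : Gal(L/K)) : Additive Lˣ →+ Additive Lˣ :=
  (Units.map ((σ : L →+* L) : L →* L)).toAdditive

theorem sX_apply (σ : Gal(L/K)) (x : Lˣ) :
    ((Additive.toMul (sX σ (Additive.ofMul x)) : Lˣ) : L) = σ (x : L) := rfl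

theorem iterate_sX_apply (σ : Gal(L/K)) (i : ℕ) (x : Additive Lˣ) :
    ((Additive.toMul ((⇑(sX σ))^[i] x) : Lˣ) : L) = (⇑σ)^[i] ((Additive.toMul x : Lˣ) : L) := by
  induction i generalizing x with
  | zero => rfl
  | succ i ih => rw [Function.iterate_succ_apply, ih, Function.iterate_succ_apply]; rfl

theorem iterate_eq_pow (σ : Gal(L/K)) (i : ℕ) (x : L) : (⇑σ)^[i] x = (σ ^ i) x := by
  induction i generalizing x with
  | zero => rfl
  | succ i ih => rw [Function.iterate_succ_apply, ih, pow_succ]; rfl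

/-- the divisor map of `L` -/
noncomputable def piL (L : Type*) [Field L] [NumberField L] :
    Additive Lˣ →+ (HeightOneSpectrum (𝓞 L) →₀ ℤ) :=
  divX (R := 𝓞 L) L

theorem piL_sX (σ : Gal(L/K)) (x : Additive Lˣ) :
    piL L (sX σ x) = tEnd (ePerm σ) (piL L x) := by
  obtain ⟨x, rfl⟩ := Additive.ofMul.surjective x
  exact divX_map L (sR σ) (σ : L →+* L) (fun r => rfl) x

end Galois

/-! ### Extension of divisors -/

section Ext

open NumberField
open scoped Pointwise

variable (K : Type*) {L : Type*} [Field K] [Field L] [NumberField K] [NumberField L]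
  [Algebra K L]

theorem finite_under_eq (v : HeightOneSpectrum (𝓞 K)) :
    {w : HeightOneSpectrum (𝓞 L) | w.under (𝓞 K) = v}.Finite := by
  have hfin := IsDedekindDomain.primesOver_finite v.asIdeal (𝓞 L)
  refine Set.Finite.of_finite_image (f := HeightOneSpectrum.asIdeal) (hfin.subset ?_) ?_
  · rintro _ ⟨w, hw, rfl⟩
    refine ⟨w.isPrime, ⟨?_⟩⟩
    rw [← hw]
    rfl
  · intro w _ w' _ h
    exact HeightOneSpectrum.ext h

/-- the extension of a divisor of `K` to `L` (for an unramified extension) -/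
noncomputable def ext : (HeightOneSpectrum (𝓞 K) →₀ ℤ) →+ (HeightOneSpectrum (𝓞 L) →₀ ℤ) where
  toFun g := Finsupp.ofSupportFinite (fun w => g (w.under (𝓞 K))) (by
    have h : (Function.support fun w : HeightOneSpectrum (𝓞 L) => g (w.under (𝓞 K))) ⊆
        ⋃ v ∈ g.support, {w : HeightOneSpectrum (𝓞 L) | w.under (𝓞 K) = v} := by
      intro w hw
      rw [Function.mem_support] at hw
      simp only [Set.mem_iUnion, exists_prop]
      exact ⟨w.under (𝓞 K), Finsupp.mem_support_iff.mpr hw, rfl⟩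
    exact (Set.Finite.biUnion g.support.finite_toSet fun v _ => finite_under_eq K v).subset h)
  map_zero' := by
    ext w
    rfl
  map_add' g g' := by
    ext w
    rfl

theorem ext_apply (g : HeightOneSpectrum (𝓞 K) →₀ ℤ) (w : HeightOneSpectrum (𝓞 L)) :
    ext K g w = g (w.under (𝓞 K)) := rfl

variable {K}

/-- in an unramified extension the divisor of an element of `K` is the extension of its
divisor -/
theorem ext_piL (hunr : UnramifiedEverywhere K L) (a : Kˣ) :
    ext K (piL K (Additive.ofMul a)) =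
      piL L (Additive.ofMul (Units.map (algebraMap K L : K →* L) a)) := by
  ext w
  rw [ext_apply]
  refine divX_apply_eq_of_valuation_eq K ?_
  have : w.asIdeal.LiesOver (w.under (𝓞 K)).asIdeal := ⟨rfl⟩
  have h := HeightOneSpectrum.valuation_liesOver L (w.under (𝓞 K)) w (a : K)
  have he : (w.under (𝓞 K)).asIdeal.ramificationIdx' w.asIdeal = 1 := by
    have := w.isPrime
    rw [Ideal.ramificationIdx'_eq_ramificationIdx _ _ (w.under (𝓞 K)).ne_bot]
    exact hunr w.asIdeal w.isPrime w.ne_bot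
  rw [he, pow_one] at h
  exact h

variable [IsGalois K L]

theorem tEnd_ext (σ : Gal(L/K)) (g : HeightOneSpectrum (𝓞 K) →₀ ℤ) :
    tEnd (ePerm σ) (ext K g) = ext K g := by
  ext w
  rw [tEnd_apply, ext_apply, ext_apply]
  congr 1
  have := under_ePerm σ ((ePerm σ).symm w)
  rw [Equiv.apply_symm_apply] at this
  exact this.symm

theorem dEnd_ext (σ : Gal(L/K)) (g : HeightOneSpectrum (𝓞 K) →₀ ℤ) :
    dEnd (tEnd (ePerm σ)) (ext K g) = 0 := by
  rw [dEnd_apply, tEnd_ext, sub_self]

theorem nEnd_ext (σ : Gal(L/K)) (n : ℕ) (g : HeightOneSpectrum (𝓞 K) →₀ ℤ) :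
    nEnd (tEnd (ePerm σ)) n (ext K g) = ext K (n • g) := by
  rw [nEnd_eq_nsmul (dEnd_ext σ g), map_nsmul]

/-- invariant divisors are extended from `K` -/
theorem exists_ext_eq {σ : Gal(L/K)} (hσ : ∀ τ : Gal(L/K), ∃ i : ℕ, τ = σ ^ i)
    {j : HeightOneSpectrum (𝓞 L) →₀ ℤ} (hj : dEnd (tEnd (ePerm σ)) j = 0) :
    ∃ g : HeightOneSpectrum (𝓞 K) →₀ ℤ, ext K g = j := by
  classical
  rw [dEnd_tEnd_eq_zero_iff] at hj
  have hj' : ∀ (i : ℕ) (w : HeightOneSpectrum (𝓞 L)), j ((⇑(ePerm σ))^[i] w) = j w := by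
    intro i
    induction i with
    | zero => intro w; rfl
    | succ i ih => intro w; rw [Function.iterate_succ_apply', hj, ih]
  have hinv : ∀ w w' : HeightOneSpectrum (𝓞 L), w.under (𝓞 K) = w'.under (𝓞 K) → j w = j w' := by
    intro w w' h
    obtain ⟨τ, hτ⟩ := exists_ePerm_eq h
    obtain ⟨i, rfl⟩ := hσ τ
    rw [← hτ, ePerm_pow, hj']
  -- a prime above every prime in the image of the support
  let T : Finset (HeightOneSpectrum (𝓞 K)) := j.support.image fun w => w.under (𝓞 K)
  have hT : ∀ v ∈ T, ∃ w : HeightOneSpectrum (𝓞 L), w ∈ j.support ∧ w.under (𝓞 K) = v := by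
    intro v hv
    obtain ⟨w, hw, rfl⟩ := Finset.mem_image.mp hv
    exact ⟨w, hw, rfl⟩
  let c : HeightOneSpectrum (𝓞 K) → ℤ := fun v =>
    if h : v ∈ T then j (Classical.choose (hT v h)) else 0
  have hc : ∀ v, c v ≠ 0 → v ∈ T := by
    intro v hv
    by_contra h
    exact hv (dif_neg h)
  refine ⟨Finsupp.onFinset T c hc, ?_⟩
  ext w
  rw [ext_apply, Finsupp.onFinset_apply]
  by_cases h : w.under (𝓞 K) ∈ T
  · simp only [c, dif_pos h]
    exact hinv _ _ (Classical.choose_spec (hT _ h)).2
  · simp only [c, dif_neg h]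
    by_contra h0
    apply h
    exact Finset.mem_image.mpr ⟨w, Finsupp.mem_support_iff.mpr (Ne.symm h0), rfl⟩

end Ext

/-! ### Split primes -/

section Split

open NumberField
open scoped Pointwise

variable {K L : Type*} [Field K] [Field L] [NumberField K] [NumberField L] [Algebra K L]
  [IsGalois K L]

theorem exists_under_eq (v : HeightOneSpectrum (𝓞 K)) :
    ∃ w : HeightOneSpectrum (𝓞 L), w.under (𝓞 K) = v := by
  have := v.isPrime
  obtain ⟨𝔔, h𝔔, hu⟩ := Frob.exists_prime_over (L := L) v.asIdeal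
  have h0 : 𝔔 ≠ ⊥ := Frob.ne_bot_of_under_ne_bot (K := K) (by rw [hu]; exact v.ne_bot)
  exact ⟨⟨𝔔, h𝔔, h0⟩, HeightOneSpectrum.ext hu⟩

/-- the extension of a prime which splits completely is a norm -/
theorem ext_single_of_split {p : ℕ} {σ : Gal(L/K)} (hσ : ∀ τ : Gal(L/K), ∃ i < p, τ = σ ^ i)
    (hinj : ∀ i < p, ∀ j < p, σ ^ i = σ ^ j → i = j) {v : HeightOneSpectrum (𝓞 K)}
    (hv : SplitsCompletely K L v.asIdeal) {w : HeightOneSpectrum (𝓞 L)}
    (hw : w.under (𝓞 K) = v) :
    ext K (Finsupp.single v 1) = nEnd (tEnd (ePerm σ)) p (Finsupp.single w 1) := by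
  classical
  ext w'
  rw [ext_apply, nEnd_tEnd_single, Finsupp.coe_finsetSum, Finset.sum_apply]
  simp only [Finsupp.single_apply]
  by_cases h : w'.under (𝓞 K) = v
  · rw [if_pos h.symm]
    obtain ⟨τ, hτ⟩ := exists_ePerm_eq (K := K) (hw.trans h.symm)
    obtain ⟨k, hk, rfl⟩ := hσ τ
    rw [ePerm_pow] at hτ
    have huniq : ∀ i ∈ Finset.range p, ((⇑(ePerm σ))^[i] w = w') ↔ (k = i) := by
      intro i hi
      rw [Finset.mem_range] at hi
      constructor
      · intro hi'
        rw [← hτ, ← ePerm_pow, ← ePerm_pow] at hi'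
        have h1 : σ ^ i • w.asIdeal = σ ^ k • w.asIdeal := by
          rw [← ePerm_asIdeal, ← ePerm_asIdeal, hi']
        have h2 : (σ ^ k)⁻¹ * σ ^ i ∈ MulAction.stabilizer Gal(L/K) w.asIdeal := by
          rw [MulAction.mem_stabilizer_iff, mul_smul, h1, inv_smul_smul]
        have := w.isPrime
        have hsplit := hv w.asIdeal w.isPrime (congrArg HeightOneSpectrum.asIdeal hw)
        rw [Frob.stabilizer_eq_bot hsplit.1 hsplit.2, Subgroup.mem_bot, inv_mul_eq_one] at h2
        exact hinj k hk i hi h2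
      · rintro rfl
        exact hτ
    rw [Finset.sum_congr rfl fun i hi => if_congr (huniq i hi) rfl rfl,
      Finset.sum_ite_eq, if_pos (Finset.mem_range.mpr hk)]
  · rw [if_neg (Ne.symm h)]
    symm
    apply Finset.sum_eq_zero
    intro i _
    rw [if_neg]
    intro hi
    apply h
    rw [← hi, ← ePerm_pow, under_ePerm, hw]

end Split

/-! ### The chain -/

section Chain

open NumberField Fermat.Agent.S14.Herbrand Fermat.Agent.S14.HerbrandChain Finset

variable {K L : Type*} [Field K] [Field L] [NumberField K] [NumberField L] [Algebra K L]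
  [IsGalois K L]

/-- the action of `σ` on the units of `𝓞 L` -/
noncomputable def sU (σ : Gal(L/K)) : Additive (𝓞 L)ˣ →+ Additive (𝓞 L)ˣ :=
  (Units.map ((sR σ : 𝓞 L ≃+* 𝓞 L) : 𝓞 L →* 𝓞 L)).toAdditive

theorem sU_apply (σ : Gal(L/K)) (u : (𝓞 L)ˣ) :
    (((Additive.toMul (sU σ (Additive.ofMul u)) : (𝓞 L)ˣ) : 𝓞 L) : L) = σ ((u : 𝓞 L) : L) := rfl

theorem unitsHom_sU (σ : Gal(L/K)) (u : Additive (𝓞 L)ˣ) :
    unitsHom (R := 𝓞 L) L (sU σ u) = sX σ (unitsHom (R := 𝓞 L) L u) := by
  apply Additive.toMul.injective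
  apply Units.ext
  rfl

theorem iterate_sX_eq {p : ℕ} {σ : Gal(L/K)} (hσp : σ ^ p = 1) (x : Additive Lˣ) :
    (⇑(sX σ))^[p] x = x := by
  apply Additive.toMul.injective
  apply Units.ext
  rw [iterate_sX_apply, iterate_eq_pow, hσp]
  rfl

theorem iterate_ePerm_eq {p : ℕ} {σ : Gal(L/K)} (hσp : σ ^ p = 1)
    (w : HeightOneSpectrum (𝓞 L)) : (⇑(ePerm σ))^[p] w = w := by
  rw [← ePerm_pow, hσp, ePerm_one]

theorem piL_iterate (σ : Gal(L/K)) (i : ℕ) (x : Additive Lˣ) :
    piL L ((⇑(sX σ))^[i] x) = (⇑(tEnd (ePerm σ)))^[i] (piL L x) :=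
  Function.Semiconj.iterate_right (f := piL L) (ga := sX σ) (gb := tEnd (ePerm σ))
    (fun x => piL_sX σ x) i x

theorem prod_iterate_of_nEnd_eq_zero {p : ℕ} {σ : Gal(L/K)} {x : Additive Lˣ}
    (hx : nEnd (sX σ) p x = 0) :
    ∏ i ∈ range p, (⇑(σ : L →+* L))^[i] ((Additive.toMul x : Lˣ) : L) = 1 := by
  rw [nEnd_apply] at hx
  have h1 := congrArg (fun z : Additive Lˣ => ((Additive.toMul z : Lˣ) : L)) hx
  simp only [toMul_sum, Units.coe_prod, toMul_zero, Units.val_one] at h1
  rw [← h1]
  refine Finset.prod_congr rfl fun i _ => ?_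
  exact (iterate_sX_apply σ i x).symm

/-- the chain of the norm index inequality for a cyclic extension `L / K` of number fields -/
theorem isChain {p : ℕ} (hp : 0 < p) {σ : Gal(L/K)} (hσp : σ ^ p = 1)
    (hinj : ∀ i < p, ∀ j < p, σ ^ i = σ ^ j → i = j) :
    IsChain (dEnd (sX σ)) (nEnd (sX σ) p) (dEnd (tEnd (ePerm σ))) (nEnd (tEnd (ePerm σ)) p)
      (piL L) where
  ND_X := nEnd_dEnd (iterate_sX_eq hσp)
  DN_X := dEnd_nEnd (iterate_sX_eq hσp)
  ND_J := nEnd_dEnd (iterate_tEnd_eq (ePerm σ) (iterate_ePerm_eq hσp))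
  DN_J := dEnd_nEnd (iterate_tEnd_eq (ePerm σ) (iterate_ePerm_eq hσp))
  πD x := by rw [dEnd_apply, map_sub, piL_sX, dEnd_apply]
  πN x := by
    rw [nEnd_apply, map_sum, nEnd_apply]
    exact Finset.sum_congr rfl fun i _ => piL_iterate σ i x
  h90 x hx := by
    have hinj' : ∀ i < p, ∀ j < p,
        (⇑(σ : L →+* L))^[i] = (⇑(σ : L →+* L))^[j] → i = j := by
      intro i hi j hj h
      apply hinj i hi j hj
      ext y
      have := congrFun h y
      rw [← iterate_eq_pow, ← iterate_eq_pow]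
      exact this
    have hσ' : ∀ y : L, (⇑(σ : L →+* L))^[p] y = y := by
      intro y
      have := iterate_eq_pow σ p y
      rw [hσp] at this
      exact this
    obtain ⟨y, hy0, hy⟩ :=
      exists_mul_map_eq (σ : L →+* L) hp hinj' hσ' (prod_iterate_of_nEnd_eq_zero hx)
    refine ⟨Additive.ofMul (Units.mk0 y hy0)⁻¹, ?_⟩
    apply Additive.toMul.injective
    apply Units.ext
    rw [dEnd_apply, toMul_sub, Units.val_div_eq_div_val]
    have h1 : ((Additive.toMul (sX σ (Additive.ofMul (Units.mk0 y hy0)⁻¹)) : Lˣ) : L) =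
        (σ y)⁻¹ := by
      rw [sX_apply, Units.val_inv_eq_inv_val, Units.val_mk0, map_inv₀]
    have h2 : ((Additive.toMul (Additive.ofMul (Units.mk0 y hy0)⁻¹) : Lˣ) : L) = y⁻¹ := by
      rw [toMul_ofMul, Units.val_inv_eq_inv_val, Units.val_mk0]
    rw [h1, h2]
    have hσy : σ y ≠ 0 := by
      rw [Ne, map_eq_zero_iff σ σ.injective]
      exact hy0
    have hy' : ((Additive.toMul x : Lˣ) : L) * σ y = y := hy
    field_simp
    rw [mul_comm]
    exact hy'.symm
  hJ j hj := exists_dEnd_eq (ePerm σ) hp.ne' (iterate_ePerm_eq hσp) hj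
  fin := divX_range_index_ne_zero (R := 𝓞 L) L

end Chain

/-! ### The norm index inequality, given the unit index inequality -/

section Final

open NumberField Fermat.Agent.S14.Herbrand Fermat.Agent.S14.HerbrandChain Finset

variable {K L : Type*} [Field K] [Field L] [NumberField K] [NumberField L] [Algebra K L]
  [IsGalois K L]

theorem unitsHom_dEnd (σ : Gal(L/K)) (x : Additive (𝓞 L)ˣ) :
    unitsHom (R := 𝓞 L) L (dEnd (sU σ) x) = dEnd (sX σ) (unitsHom (R := 𝓞 L) L x) := by
  rw [dEnd_apply, dEnd_apply, map_sub, unitsHom_sU]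

theorem unitsHom_iterate (σ : Gal(L/K)) (i : ℕ) (x : Additive (𝓞 L)ˣ) :
    unitsHom (R := 𝓞 L) L ((⇑(sU σ))^[i] x) = (⇑(sX σ))^[i] (unitsHom (R := 𝓞 L) L x) :=
  Function.Semiconj.iterate_right (f := unitsHom (R := 𝓞 L) L) (ga := sU σ) (gb := sX σ)
    (fun x => unitsHom_sU σ x) i x

theorem unitsHom_nEnd (σ : Gal(L/K)) (p : ℕ) (x : Additive (𝓞 L)ˣ) :
    unitsHom (R := 𝓞 L) L (nEnd (sU σ) p x) = nEnd (sX σ) p (unitsHom (R := 𝓞 L) L x) := by
  rw [nEnd_apply, nEnd_apply, map_sum]
  exact Finset.sum_congr rfl fun i _ => unitsHom_iterate σ i x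

theorem hqOn_ker_eq (σ : Gal(L/K)) (p : ℕ) :
    hqOn (piL L).ker (dEnd (sX σ)) (nEnd (sX σ) p) = hq (dEnd (sU σ)) (nEnd (sU σ) p) ∧
    hqOn (piL L).ker (nEnd (sX σ) p) (dEnd (sX σ)) = hq (nEnd (sU σ) p) (dEnd (sU σ)) := by
  have hmap : (⊤ : AddSubgroup (Additive (𝓞 L)ˣ)).map (unitsHom (R := 𝓞 L) L) = (piL L).ker := by
    rw [← AddMonoidHom.range_eq_map]
    exact (divX_ker (R := 𝓞 L) L).symm
  constructor
  · rw [← hmap, hqOn_map (unitsHom (R := 𝓞 L) L) (unitsHom_injective L) (unitsHom_dEnd σ)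
      (unitsHom_nEnd σ p) ⊤, hqOn_top]
  · rw [← hmap, hqOn_map (unitsHom (R := 𝓞 L) L) (unitsHom_injective L) (unitsHom_nEnd σ p)
      (unitsHom_dEnd σ) ⊤, hqOn_top]

/-- a generator of the Galois group of an extension of prime degree -/
theorem exists_generator {p : ℕ} (hp : p.Prime) (hdeg : Module.finrank K L = p) :
    ∃ σ : Gal(L/K), σ ≠ 1 ∧ σ ^ p = 1 ∧ (∀ τ : Gal(L/K), ∃ i < p, τ = σ ^ i) ∧
      ∀ i < p, ∀ j < p, σ ^ i = σ ^ j → i = j := by
  classical
  have hcard : Nat.card Gal(L/K) = p := by rw [IsGalois.card_aut_eq_finrank, hdeg]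
  have : Fact p.Prime := ⟨hp⟩
  have hnt : Nontrivial Gal(L/K) := by
    rw [← Finite.one_lt_card_iff_nontrivial, hcard]
    exact hp.one_lt
  obtain ⟨σ, hσ⟩ := exists_ne (1 : Gal(L/K))
  have hz := zpowers_eq_top_of_prime_card hcard hσ
  have hord : orderOf σ = p := by
    rw [orderOf_eq_card_of_forall_mem_zpowers (g := σ) (fun x => by rw [hz]; trivial), hcard]
  refine ⟨σ, hσ, by rw [← hord, pow_orderOf_eq_one], ?_, ?_⟩
  · intro τ
    have hτ : τ ∈ Subgroup.zpowers σ := by rw [hz]; trivial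
    rw [mem_zpowers_iff_mem_range_orderOf, hord] at hτ
    obtain ⟨i, hi, hi'⟩ := Finset.mem_image.mp hτ
    exact ⟨i, Finset.mem_range.mp hi, hi'.symm⟩
  · intro i hi j hj h
    have := pow_injOn_Iio_orderOf (x := σ)
    rw [hord] at this
    exact this hi hj h

/-- **The norm index inequality**, given the unit index inequality: in a Galois extension
`L / K` of prime degree `p`, unramified at all finite primes, the classes of the primes which
split completely and the `p`-th powers do not generate the class group of `K`. -/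
theorem normClasses_ne_top_of_units {p : ℕ} (hp : p.Prime) (hdeg : Module.finrank K L = p)
    (hunr : UnramifiedEverywhere K L)
    (hU : ∀ σ : Gal(L/K), σ ≠ 1 → hq (dEnd (sU σ)) (nEnd (sU σ) p) ≠ 0 ∧
      hq (dEnd (sU σ)) (nEnd (sU σ) p) < hq (nEnd (sU σ) p) (dEnd (sU σ))) :
    normClasses K L p ≠ ⊤ := by
  obtain ⟨σ, hσ1, hσp, hgen, hinj⟩ := exists_generator (K := K) (L := L) hp hdeg
  have hchain := isChain hp.pos hσp hinj
  obtain ⟨e1, e2⟩ := hqOn_ker_eq σ p
  obtain ⟨u1, u2⟩ := hU σ hσ1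
  obtain ⟨j, hj0, hjW⟩ := exists_not_mem hchain (by rw [e1]; exact u1) (by rw [e1, e2]; exact u2)
  intro htop
  apply hjW
  set W : AddSubgroup (HeightOneSpectrum (𝓞 L) →₀ ℤ) :=
    (dEnd (sX σ)).ker.map (piL L) ⊔ (nEnd (tEnd (ePerm σ)) p).range with hW
  obtain ⟨g, rfl⟩ := exists_ext_eq (K := K) (fun τ => (hgen τ).imp fun i hi => hi.2) hj0
  -- the subgroup of the divisors of `K` whose extension lies in `W`
  set V : AddSubgroup (HeightOneSpectrum (𝓞 K) →₀ ℤ) := W.comap (ext K) with hV
  have hVmem : ∀ g, g ∈ V ↔ ext K g ∈ W := fun g => Iff.rfl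
  -- principal divisors
  have hA : (classOf (R := 𝓞 K) K).ker ≤ V := by
    intro g hg
    obtain ⟨a, rfl⟩ := classOf_ker_le (R := 𝓞 K) K hg
    obtain ⟨a, rfl⟩ := Additive.ofMul.surjective a
    rw [hVmem]
    refine AddSubgroup.mem_sup_left ?_
    refine ⟨Additive.ofMul (Units.map (algebraMap K L : K →* L) a), ?_, (ext_piL hunr a).symm⟩
    show dEnd (sX σ) (Additive.ofMul (Units.map (algebraMap K L : K →* L) a)) = 0
    rw [dEnd_apply, sub_eq_zero]
    apply Additive.toMul.injective
    apply Units.ext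
    rw [sX_apply]
    exact σ.commutes (a : K)
  -- norms
  have hN : ∀ j : HeightOneSpectrum (𝓞 L) →₀ ℤ, nEnd (tEnd (ePerm σ)) p j ∈ W := fun j =>
    AddSubgroup.mem_sup_right ⟨j, rfl⟩
  -- the classes of the elements of `V`
  let H : Subgroup (ClassGroup (𝓞 K)) :=
    { carrier := {c | ∃ g ∈ V, Additive.toMul (classOf (R := 𝓞 K) K g) = c}
      one_mem' := ⟨0, V.zero_mem, by rw [map_zero]; rfl⟩
      mul_mem' := by
        rintro _ _ ⟨g, hg, rfl⟩ ⟨g', hg', rfl⟩
        exact ⟨g + g', V.add_mem hg hg', by rw [map_add]; rfl⟩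
      inv_mem' := by
        rintro _ ⟨g, hg, rfl⟩
        exact ⟨-g, V.neg_mem hg, by rw [map_neg]; rfl⟩ }
  have hH : normClasses K L p ≤ H := by
    rw [normClasses, Subgroup.closure_le]
    rintro c (⟨𝔮, h𝔮p, h𝔮s, rfl⟩ | ⟨d, rfl⟩)
    · -- a prime which splits completely
      let v : HeightOneSpectrum (𝓞 K) := ⟨𝔮, h𝔮p, nonZeroDivisors.coe_ne_zero 𝔮⟩
      obtain ⟨w, hw⟩ := exists_under_eq (L := L) v
      refine ⟨Finsupp.single v 1, ?_, classOf_single K v⟩
      rw [hVmem, ext_single_of_split hgen hinj h𝔮s hw]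
      exact hN _
    · -- a `p`-th power
      obtain ⟨g₀, hg₀⟩ := classOf_surjective (R := 𝓞 K) K (Additive.ofMul d)
      refine ⟨p • g₀, ?_, ?_⟩
      · rw [hVmem, ← nEnd_ext σ p g₀]
        exact hN _
      · rw [map_nsmul, hg₀]
        rfl
  rw [htop, top_le_iff] at hH
  -- conclusion
  have hc : Additive.toMul (classOf (R := 𝓞 K) K g) ∈ H := by rw [hH]; trivial
  obtain ⟨g', hg', hgg'⟩ := hc
  have hker : g - g' ∈ (classOf (R := 𝓞 K) K).ker := by
    rw [AddMonoidHom.mem_ker, map_sub, sub_eq_zero]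
    exact Additive.toMul.injective hgg'.symm
  have := V.add_mem (hA hker) hg'
  rw [sub_add_cancel] at this
  exact this

end Final

end Fermat.Agent.S14.IdealChain
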