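import Mathlib
import Fermat.Agent.S14.Herbrand

/-!
# S14: the Herbrand quotient of a lattice over a cyclic group of prime order

`M` is a finitely generated abelian group, `d = σ - 1` for an automorphism `σ` with `σ ^ p = 1`,
`p` prime, and `N = Σ_{i<p} σ^i = Ψ_p(d)`.  If `ker d` has rank `a` and `M` has rank
`a + (p - 1) b` then the indices `[ker d : im N]`, `[ker N : im d]` are finite and
`[ker d : im N] * p ^ b = [ker N : im d] * p ^ a` (`hq_mul_pow`, `hq_of_addMonoidHom`).

Proof: on the stable sublattice `(tM ∩ ker d) ⊕ (tM ∩ ker N)` of finite index (`t` kills the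
torsion) the two indices are `p ^ a` and `|det d| = p ^ b`; the latter because
`Ψ_p(X) = X^(p-1) + p g(X)` and `p = Z(X) X^(p-1) + Ψ_p(X) W(X)` in `ℤ[X]`.
-/

set_option autoImplicit false
set_option linter.unusedSectionVars false

namespace Fermat.Agent.S14.HerbrandLattice

open Polynomial

/-- `Ψ_p(X) = Σ_{i<p} (1 + X)^i`, so that `Ψ_p(σ - 1)` is the norm `Σ σ^i` -/
noncomputable def psi (p : ℕ) : ℤ[X] := ∑ i ∈ Finset.range p, (1 + X) ^ i

theorem psi_mul_X (p : ℕ) : psi p * X = (1 + X) ^ p - 1 := by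
  have := geom_sum_mul (1 + X : ℤ[X]) p
  rwa [add_sub_cancel_left] at this

theorem psi_coeff_zero (p : ℕ) : (psi p).coeff 0 = p := by
  rw [psi, Polynomial.finsetSum_coeff]
  have : ∀ i ∈ Finset.range p, ((1 + X : ℤ[X]) ^ i).coeff 0 = 1 := by
    intro i _
    rw [Polynomial.coeff_zero_eq_eval_zero]
    simp
  rw [Finset.sum_congr rfl this]
  simp

theorem exists_psi_eq {p : ℕ} (hp : p.Prime) :
    ∃ g : ℤ[X], psi p = X ^ (p - 1) + C (p : ℤ) * g ∧ g.coeff 0 = 1 := by
  have : Fact p.Prime := ⟨hp⟩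
  have hp1 : 1 ≤ p := hp.one_lt.le
  -- reduction mod `p`
  have h1 : (psi p).map (Int.castRingHom (ZMod p)) = X ^ (p - 1) := by
    have h2 : (psi p).map (Int.castRingHom (ZMod p)) * X = X ^ (p - 1) * X := by
      have := congrArg (Polynomial.map (Int.castRingHom (ZMod p))) (psi_mul_X p)
      rw [Polynomial.map_mul, Polynomial.map_X] at this
      rw [this, ← pow_succ, Nat.sub_add_cancel hp1]
      simp only [Polynomial.map_sub, Polynomial.map_pow, Polynomial.map_add, Polynomial.map_one,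
        Polynomial.map_X]
      rw [add_pow_char, one_pow, add_sub_cancel_left]
    exact mul_right_cancel₀ Polynomial.X_ne_zero h2
  have h3 : C (p : ℤ) ∣ psi p - X ^ (p - 1) := by
    rw [Polynomial.C_dvd_iff_dvd_coeff]
    intro i
    have h4 := congrArg (fun q => q.coeff i) h1
    simp only [Polynomial.coeff_map, Polynomial.coeff_X_pow] at h4
    rw [Polynomial.coeff_sub, Polynomial.coeff_X_pow]
    rw [← ZMod.intCast_zmod_eq_zero_iff_dvd]
    push_cast
    rw [eq_intCast] at h4
    rw [h4]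
    split_ifs <;> simp
  obtain ⟨g, hg⟩ := h3
  refine ⟨g, by rw [← hg]; ring, ?_⟩
  have h5 := congrArg (fun q => q.coeff 0) hg
  simp only [Polynomial.coeff_sub, psi_coeff_zero, Polynomial.coeff_X_pow,
    Polynomial.coeff_C_mul] at h5
  have hne : ¬ (0 = p - 1) := by
    have := hp.two_le
    omega
  rw [if_neg hne, sub_zero] at h5
  have hp0 : (p : ℤ) ≠ 0 := by exact_mod_cast hp.ne_zero
  have : (p : ℤ) * 1 = p * g.coeff 0 := by rw [mul_one]; exact h5
  exact (mul_left_cancel₀ hp0 this).symm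

theorem exists_psi_bezout {p : ℕ} (hp : p.Prime) :
    ∃ Z W : ℤ[X], C (p : ℤ) = Z * X ^ (p - 1) + psi p * W := by
  obtain ⟨g, hg, hg0⟩ := exists_psi_eq hp
  obtain ⟨g₁, hg₁⟩ : X ∣ g - C (g.coeff 0) := Polynomial.X_dvd_sub_C
  rw [hg0, map_one] at hg₁
  -- `h = Σ_{i < p - 1} (1 - g)^i`, `g h = 1 - (1 - g)^(p - 1)`
  have hgeo := geom_sum_mul (1 - g) (p - 1)
  set h := ∑ i ∈ Finset.range (p - 1), (1 - g) ^ i with hh
  have e1 : (1 - g) ^ (p - 1) = X ^ (p - 1) * (-g₁) ^ (p - 1) := by
    have : 1 - g = X * (-g₁) := by linear_combination -hg₁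
    rw [this, mul_pow]
  refine ⟨C (p : ℤ) * (-g₁) ^ (p - 1) - h, h, ?_⟩
  rw [e1] at hgeo
  linear_combination (C (p : ℤ)) * hgeo - h * hg


open Module

section LayerA

variable {A : Type*} [AddCommGroup A] [Module.Free ℤ A] [Module.Finite ℤ A]

theorem index_range_eq_natAbs_det (φ : A →ₗ[ℤ] A) (hφ : Function.Injective φ) :
    (LinearMap.range φ).toAddSubgroup.index = (LinearMap.det φ).natAbs := by
  have h := Submodule.natAbs_det_equiv (LinearMap.range φ) (LinearEquiv.ofInjective φ hφ)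
  have e : (LinearMap.range φ).subtype ∘ₗ
      AddMonoidHom.toIntLinearMap ((LinearEquiv.ofInjective φ hφ : A ≃ₗ[ℤ] LinearMap.range φ) :
        A →+ LinearMap.range φ) = φ := by
    ext x
    rfl
  rw [e] at h
  rw [h]
  rfl

theorem index_range_smul_id {p : ℕ} (hp : p ≠ 0) :
    (LinearMap.range ((p : ℤ) • (LinearMap.id : A →ₗ[ℤ] A))).toAddSubgroup.index =
      p ^ finrank ℤ A := by
  have hinj : Function.Injective ((p : ℤ) • (LinearMap.id : A →ₗ[ℤ] A)) := by
    intro x y hxy
    simp only [LinearMap.smul_apply, LinearMap.id_coe, id_eq] at hxy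
    have hp' : (p : ℤ) ≠ 0 := by exact_mod_cast hp
    exact smul_right_injective A hp' hxy
  rw [index_range_eq_natAbs_det _ hinj, LinearMap.det_smul, LinearMap.det_id, mul_one,
    Int.natAbs_pow, Int.natAbs_natCast]

theorem aeval_psi (p : ℕ) (d : Module.End ℤ A) :
    Polynomial.aeval d (psi p) = ∑ i ∈ Finset.range p, (1 + d) ^ i := by
  simp [psi]

theorem one_add_pow_apply_of_apply_eq_zero (d : Module.End ℤ A) {x : A} (hx : d x = 0)
    (i : ℕ) : ((1 + d) ^ i) x = x := by
  induction i with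
  | zero => simp
  | succ i ih =>
    rw [pow_succ, Module.End.mul_apply]
    simp only [LinearMap.add_apply, Module.End.one_apply, hx, add_zero]
    exact ih

theorem injective_of_psi {p : ℕ} (hp : p ≠ 0) (d : Module.End ℤ A)
    (hn : ∑ i ∈ Finset.range p, (1 + d) ^ i = 0) : Function.Injective d := by
  rw [injective_iff_map_eq_zero]
  intro x hx
  have h1 := congrArg (fun f : Module.End ℤ A => f x) hn
  simp only [LinearMap.sum_apply, LinearMap.zero_apply] at h1
  rw [Finset.sum_congr rfl (fun i _ => one_add_pow_apply_of_apply_eq_zero d hx i)] at h1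
  simp only [Finset.sum_const, Finset.card_range] at h1
  have hp' : (p : ℤ) ≠ 0 := by exact_mod_cast hp
  have h2 : (p : ℤ) • x = 0 := by
    rw [natCast_zsmul]
    exact h1
  exact (smul_eq_zero.mp h2).resolve_left hp'

/-- **The index of `σ - 1` on a lattice killed by the norm.** -/
theorem index_range_of_psi {p : ℕ} (hp : p.Prime) (d : Module.End ℤ A)
    (hn : ∑ i ∈ Finset.range p, (1 + d) ^ i = 0) {b : ℕ} (hb : finrank ℤ A = (p - 1) * b) :
    (LinearMap.range d).toAddSubgroup.index = p ^ b := by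
  have hp0 : (p : ℤ) ≠ 0 := by exact_mod_cast hp.ne_zero
  rw [index_range_eq_natAbs_det d (injective_of_psi hp.ne_zero d hn)]
  obtain ⟨g, hg, -⟩ := exists_psi_eq hp
  obtain ⟨Z, W, hZ⟩ := exists_psi_bezout hp
  have h0 : Polynomial.aeval d (psi p) = 0 := by rw [aeval_psi, hn]
  -- `0 = d^(p-1) + p g(d)`
  have e1 := congrArg (Polynomial.aeval d) hg
  rw [h0, map_add, map_pow, Polynomial.aeval_X, map_mul, Polynomial.aeval_C] at e1
  -- `p = Z(d) d^(p-1)`
  have e2 := congrArg (Polynomial.aeval d) hZ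
  rw [map_add, map_mul, map_mul, h0, zero_mul, add_zero, map_pow, Polynomial.aeval_X,
    Polynomial.aeval_C] at e2
  have ealg : (algebraMap ℤ (Module.End ℤ A)) (p : ℤ) = (p : ℤ) • (1 : Module.End ℤ A) := by
    rw [Algebra.algebraMap_eq_smul_one]
  rw [ealg] at e1 e2
  have d1 : LinearMap.det (d ^ (p - 1)) =
      (-(p : ℤ)) ^ finrank ℤ A * LinearMap.det (Polynomial.aeval d g) := by
    have : d ^ (p - 1) = (-(p : ℤ)) • Polynomial.aeval d g := by
      rw [neg_smul, eq_neg_iff_add_eq_zero]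
      rw [smul_mul_assoc, one_mul] at e1
      exact e1.symm
    rw [this, LinearMap.det_smul]
  have d2 : (p : ℤ) ^ finrank ℤ A =
      LinearMap.det (Polynomial.aeval d Z) * LinearMap.det (d ^ (p - 1)) := by
    have := congrArg LinearMap.det e2
    rw [LinearMap.det_smul, map_one, mul_one, map_mul] at this
    exact this
  rw [map_pow] at d1 d2
  -- absolute values
  have n1 := congrArg Int.natAbs d1
  have n2 := congrArg Int.natAbs d2
  rw [Int.natAbs_mul, Int.natAbs_pow, Int.natAbs_pow, Int.natAbs_neg, Int.natAbs_natCast] at n1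
  rw [Int.natAbs_mul, Int.natAbs_pow, Int.natAbs_pow, Int.natAbs_natCast] at n2
  set δ := (LinearMap.det d).natAbs with hδ
  set γ := (LinearMap.det (Polynomial.aeval d g)).natAbs with hγ
  set ζ := (LinearMap.det (Polynomial.aeval d Z)).natAbs with hζ
  have hpn : 0 < p ^ finrank ℤ A := pow_pos hp.pos _
  have h3 : ζ * γ = 1 := by
    have : p ^ finrank ℤ A * (ζ * γ) = p ^ finrank ℤ A * 1 := by
      rw [mul_one]
      conv_rhs => rw [n2, n1]
      ring
    exact Nat.eq_of_mul_eq_mul_left hpn this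
  have h4 : γ = 1 := Nat.eq_one_of_mul_eq_one_left h3
  rw [h4, mul_one, hb, pow_mul'] at n1
  have hp1 : p - 1 ≠ 0 := by
    have := hp.two_le
    omega
  exact Nat.pow_left_injective hp1 n1

end LayerA


/-! ### Ranks and finite-index sublattices of a finitely generated abelian group -/

section Ranks

variable {M : Type*} [AddCommGroup M] [Module.Finite ℤ M]

theorem finrank_range_add_finrank_ker (φ : Module.End ℤ M) :
    finrank ℤ (LinearMap.range φ) + finrank ℤ (LinearMap.ker φ) = finrank ℤ M := by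
  have h := (LinearMap.ker φ).finrank_quotient_add_finrank
  rw [LinearEquiv.finrank_eq φ.quotKerEquivRange] at h
  exact h

/-- if `k S' ⊆ S ⊆ S'` with `k ≠ 0` then `S` and `S'` have the same rank -/
theorem finrank_eq_of_smul_mem {S S' : Submodule ℤ M} (h : S ≤ S') {k : ℤ} (hk : k ≠ 0)
    (hS : ∀ x ∈ S', k • x ∈ S) : finrank ℤ S = finrank ℤ S' := by
  have h1 := (Submodule.comap S'.subtype S).finrank_quotient_add_finrank
  have h2 : finrank ℤ (S' ⧸ Submodule.comap S'.subtype S) = 0 := by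
    rw [Module.finrank_eq_zero_iff_isTorsion]
    intro x
    obtain ⟨y, rfl⟩ := Submodule.Quotient.mk_surjective _ x
    refine ⟨⟨k, mem_nonZeroDivisors_of_ne_zero hk⟩, ?_⟩
    rw [Submonoid.mk_smul, ← Submodule.Quotient.mk_smul, Submodule.Quotient.mk_eq_zero]
    exact hS y y.2
  rw [h2, zero_add, LinearEquiv.finrank_eq (Submodule.comapSubtypeEquivOfLe h)] at h1
  exact h1

/-- the subgroup `k M` has finite index -/
theorem index_range_smul_ne_zero {k : ℤ} (hk : k ≠ 0) :
    (LinearMap.range (k • (1 : Module.End ℤ M))).toAddSubgroup.index ≠ 0 := by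
  have htors : Module.IsTorsion ℤ (M ⧸ LinearMap.range (k • (1 : Module.End ℤ M))) := by
    intro x
    obtain ⟨y, rfl⟩ := Submodule.Quotient.mk_surjective _ x
    refine ⟨⟨k, mem_nonZeroDivisors_of_ne_zero hk⟩, ?_⟩
    rw [Submonoid.mk_smul, ← Submodule.Quotient.mk_smul, Submodule.Quotient.mk_eq_zero]
    exact ⟨y, rfl⟩
  have hfin : Finite (M ⧸ LinearMap.range (k • (1 : Module.End ℤ M))) :=
    Module.finite_of_fg_torsion _ htors
  have : Finite (M ⧸ (LinearMap.range (k • (1 : Module.End ℤ M))).toAddSubgroup) := hfin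
  exact AddSubgroup.index_ne_zero_of_finite

/-- a nonzero integer killing the torsion of `M` -/
theorem exists_torsion_exponent (M : Type*) [AddCommGroup M] [Module.Finite ℤ M] :
    ∃ t : ℤ, t ≠ 0 ∧ ∀ x : M, ∀ k : ℤ, k ≠ 0 → k • x = 0 → t • x = 0 := by
  have hfin : Finite (Submodule.torsion ℤ M) :=
    Module.finite_of_fg_torsion _ Submodule.torsion_isTorsion
  refine ⟨(Nat.card (Submodule.torsion ℤ M) : ℤ), ?_, ?_⟩
  · exact_mod_cast (Nat.card_pos (α := Submodule.torsion ℤ M)).ne'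
  · intro x k hk hx
    have hx' : x ∈ Submodule.torsion ℤ M :=
      (Submodule.mem_torsion_iff x).mpr ⟨⟨k, mem_nonZeroDivisors_of_ne_zero hk⟩, hx⟩
    have h1 : Nat.card (Submodule.torsion ℤ M) • (⟨x, hx'⟩ : Submodule.torsion ℤ M) = 0 :=
      card_nsmul_eq_zero'
    have h2 := congrArg Subtype.val h1
    rw [natCast_zsmul]
    simpa using h2

end Ranks


/-! ### The Herbrand quotient of a finitely generated module over a cyclic group of prime order -/

section Main

open Fermat.Agent.S14.Herbrand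

variable {M : Type*} [AddCommGroup M]

/-- the norm `Σ_{i<p} (1 + d)^i` (for `d = σ - 1`) -/
noncomputable def nrm (p : ℕ) (d : Module.End ℤ M) : Module.End ℤ M :=
  ∑ i ∈ Finset.range p, (1 + d) ^ i

variable {p : ℕ} {d : Module.End ℤ M}

theorem nrm_mul (hd : (1 + d) ^ p = 1) : nrm p d * d = 0 := by
  have := geom_sum_mul (1 + d) p
  rwa [add_sub_cancel_left, hd, sub_self] at this

theorem mul_nrm (hd : (1 + d) ^ p = 1) : d * nrm p d = 0 := by
  have := mul_geom_sum (1 + d) p
  rwa [add_sub_cancel_left, hd, sub_self] at this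

theorem nrm_apply_d (hd : (1 + d) ^ p = 1) (x : M) : nrm p d (d x) = 0 := by
  have := congrArg (fun f : Module.End ℤ M => f x) (nrm_mul hd)
  simpa using this

theorem d_apply_nrm (hd : (1 + d) ^ p = 1) (x : M) : d (nrm p d x) = 0 := by
  have := congrArg (fun f : Module.End ℤ M => f x) (mul_nrm hd)
  simpa using this

theorem one_add_pow_apply_of_ker {x : M} (hx : d x = 0) (i : ℕ) : ((1 + d) ^ i) x = x := by
  induction i with
  | zero => simp
  | succ i ih =>
    rw [pow_succ, Module.End.mul_apply]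
    simp only [LinearMap.add_apply, Module.End.one_apply, hx, add_zero]
    exact ih

theorem nrm_apply_of_ker {x : M} (hx : d x = 0) : nrm p d x = (p : ℤ) • x := by
  rw [nrm, LinearMap.sum_apply,
    Finset.sum_congr rfl (fun i _ => one_add_pow_apply_of_ker hx i)]
  simp

theorem relIndex_map_eq_index_range (K : Submodule ℤ M) (φ : Module.End ℤ M)
    (hφ : ∀ x ∈ K, φ x ∈ K) :
    ((K.map φ).toAddSubgroup).relIndex K.toAddSubgroup =
      (LinearMap.range (φ.restrict hφ)).toAddSubgroup.index := by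
  rw [AddSubgroup.relIndex]
  congr 1
  ext ⟨x, hx⟩
  simp only [AddSubgroup.mem_addSubgroupOf, Submodule.mem_toAddSubgroup, Submodule.mem_map,
    LinearMap.mem_range, Subtype.exists]
  constructor
  · rintro ⟨y, hy, hxy⟩
    exact ⟨y, hy, Subtype.ext hxy⟩
  · rintro ⟨y, hy, hxy⟩
    exact ⟨y, hy, congrArg Subtype.val hxy⟩


/-- the sublattice `t M` -/
def tM (t : ℤ) : Submodule ℤ M := LinearMap.range (t • (1 : Module.End ℤ M))

theorem mem_tM {t : ℤ} {x : M} : x ∈ tM (M := M) t ↔ ∃ y : M, t • y = x := by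
  rw [tM, LinearMap.mem_range]
  simp

theorem map_mem_tM {t : ℤ} (φ : Module.End ℤ M) {x : M} (hx : x ∈ tM t) : φ x ∈ tM t := by
  obtain ⟨y, rfl⟩ := mem_tM.mp hx
  exact mem_tM.mpr ⟨φ y, (map_zsmul φ t y).symm⟩

/-- `t M` is torsion free when `t` kills the torsion -/
theorem eq_zero_of_mem_tM {t : ℤ}
    (htors : ∀ x : M, ∀ k : ℤ, k ≠ 0 → k • x = 0 → t • x = 0) {x : M} (hx : x ∈ tM t) {k : ℤ}
    (hk : k ≠ 0) (h : k • x = 0) : x = 0 := by
  obtain ⟨y, rfl⟩ := mem_tM.mp hx
  by_cases ht : t = 0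
  · rw [ht, zero_smul]
  · refine htors y (k * t) (mul_ne_zero hk ht) ?_
    rw [mul_smul]
    exact h

variable (p d) in
/-- the invariant part of `t M` -/
def latInv (t : ℤ) : Submodule ℤ M := tM t ⊓ LinearMap.ker d

variable (p d) in
/-- the part of `t M` killed by the norm -/
noncomputable def latNrm (t : ℤ) : Submodule ℤ M := tM t ⊓ LinearMap.ker (nrm p d)

variable (p d) in
/-- the stable sublattice of finite index -/
noncomputable def lat (t : ℤ) : Submodule ℤ M := latInv d t ⊔ latNrm p d t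

section Lat

variable {t : ℤ} (hp : p ≠ 0) (hd : (1 + d) ^ p = 1)
  (htors : ∀ x : M, ∀ k : ℤ, k ≠ 0 → k • x = 0 → t • x = 0)

include hp htors in
theorem eq_zero_of_mem_latInv_latNrm {x : M} (h1 : x ∈ latInv d t) (h2 : x ∈ latNrm p d t) :
    x = 0 := by
  have hp' : (p : ℤ) ≠ 0 := by exact_mod_cast hp
  have e1 : nrm p d x = (p : ℤ) • x := nrm_apply_of_ker (LinearMap.mem_ker.mp h1.2)
  have e2 : nrm p d x = 0 := LinearMap.mem_ker.mp h2.2
  exact eq_zero_of_mem_tM htors h1.1 hp' (e1 ▸ e2)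

include hp htors in
theorem lat_inf_ker_d : lat p d t ⊓ LinearMap.ker d = latInv d t := by
  apply le_antisymm
  · rintro x ⟨hx, hdx⟩
    obtain ⟨u, hu, v, hv, rfl⟩ := Submodule.mem_sup.mp hx
    have hdu : d u = 0 := LinearMap.mem_ker.mp hu.2
    have hdv : d v = 0 := by
      have := LinearMap.mem_ker.mp hdx
      rwa [map_add, hdu, zero_add] at this
    have hv0 : v = 0 :=
      eq_zero_of_mem_latInv_latNrm hp htors ⟨hv.1, LinearMap.mem_ker.mpr hdv⟩ hv
    rw [hv0, add_zero]
    exact hu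
  · exact le_inf le_sup_left inf_le_right

include hp htors in
theorem lat_inf_ker_nrm : lat p d t ⊓ LinearMap.ker (nrm p d) = latNrm p d t := by
  apply le_antisymm
  · rintro x ⟨hx, hnx⟩
    obtain ⟨u, hu, v, hv, rfl⟩ := Submodule.mem_sup.mp hx
    have hnv : nrm p d v = 0 := LinearMap.mem_ker.mp hv.2
    have hnu : nrm p d u = 0 := by
      have := LinearMap.mem_ker.mp hnx
      rwa [map_add, hnv, add_zero] at this
    have hu0 : u = 0 :=
      eq_zero_of_mem_latInv_latNrm hp htors hu ⟨hu.1, LinearMap.mem_ker.mpr hnu⟩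
    rw [hu0, zero_add]
    exact hv
  · exact le_inf le_sup_right inf_le_right

theorem lat_map_nrm :
    (lat p d t).map (nrm p d) = (latInv d t).map ((p : ℤ) • (1 : Module.End ℤ M)) := by
  ext y
  simp only [Submodule.mem_map]
  constructor
  · rintro ⟨x, hx, rfl⟩
    obtain ⟨u, hu, v, hv, rfl⟩ := Submodule.mem_sup.mp hx
    refine ⟨u, hu, ?_⟩
    rw [map_add, LinearMap.mem_ker.mp hv.2, add_zero,
      nrm_apply_of_ker (LinearMap.mem_ker.mp hu.2)]
    simp
  · rintro ⟨u, hu, rfl⟩
    refine ⟨u, Submodule.mem_sup_left hu, ?_⟩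
    rw [nrm_apply_of_ker (LinearMap.mem_ker.mp hu.2)]
    simp

theorem lat_map_d : (lat p d t).map d = (latNrm p d t).map d := by
  ext y
  simp only [Submodule.mem_map]
  constructor
  · rintro ⟨x, hx, rfl⟩
    obtain ⟨u, hu, v, hv, rfl⟩ := Submodule.mem_sup.mp hx
    refine ⟨v, hv, ?_⟩
    rw [map_add, LinearMap.mem_ker.mp hu.2, zero_add]
  · rintro ⟨v, hv, rfl⟩
    exact ⟨v, Submodule.mem_sup_right hv, rfl⟩

include hd in
theorem d_mem_latNrm {x : M} (hx : x ∈ latNrm p d t) : d x ∈ latNrm p d t :=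
  ⟨map_mem_tM d hx.1, LinearMap.mem_ker.mpr (nrm_apply_d hd x)⟩

theorem smul_mem_latInv {x : M} (hx : x ∈ latInv d t) :
    ((p : ℤ) • (1 : Module.End ℤ M)) x ∈ latInv d t := by
  simp only [LinearMap.smul_apply, Module.End.one_apply]
  exact (latInv d t).smul_mem _ hx

include hd in
theorem d_mem_lat {x : M} (hx : x ∈ lat p d t) : d x ∈ lat p d t := by
  have : d x ∈ (lat p d t).map d := Submodule.mem_map_of_mem hx
  rw [lat_map_d] at this
  obtain ⟨v, hv, hv'⟩ := Submodule.mem_map.mp this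
  rw [← hv']
  exact Submodule.mem_sup_right (d_mem_latNrm hd hv)

theorem nrm_mem_lat {x : M} (hx : x ∈ lat p d t) : nrm p d x ∈ lat p d t := by
  have : nrm p d x ∈ (lat p d t).map (nrm p d) := Submodule.mem_map_of_mem hx
  rw [lat_map_nrm] at this
  obtain ⟨u, hu, hu'⟩ := Submodule.mem_map.mp this
  rw [← hu']
  exact Submodule.mem_sup_left (smul_mem_latInv hu)

include hd in
/-- `p t M ⊆ lat` -/
theorem range_le_lat :
    LinearMap.range (((p : ℤ) * t) • (1 : Module.End ℤ M)) ≤ lat p d t := by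
  rintro _ ⟨y, rfl⟩
  simp only [LinearMap.smul_apply, Module.End.one_apply]
  set z : M := t • y with hz
  have hzt : z ∈ tM (M := M) t := mem_tM.mpr ⟨y, rfl⟩
  have e : ((p : ℤ) * t) • y = nrm p d z + ((p : ℤ) • z - nrm p d z) := by
    rw [mul_smul]
    abel
  rw [e]
  refine Submodule.add_mem _ (Submodule.mem_sup_left ?_) (Submodule.mem_sup_right ?_)
  · exact ⟨map_mem_tM _ hzt, LinearMap.mem_ker.mpr (d_apply_nrm hd z)⟩
  · refine ⟨Submodule.sub_mem _ (Submodule.smul_mem _ _ hzt) (map_mem_tM _ hzt), ?_⟩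
    change nrm p d ((p : ℤ) • z - nrm p d z) = 0
    rw [map_sub, map_zsmul, nrm_apply_of_ker (d_apply_nrm hd z), sub_self]

end Lat


section Final

variable [Module.Finite ℤ M]

theorem isTorsionFree_of_le_tM {t : ℤ}
    (htors : ∀ x : M, ∀ k : ℤ, k ≠ 0 → k • x = 0 → t • x = 0) (K : Submodule ℤ M)
    (hK : K ≤ tM t) : Module.IsTorsionFree ℤ K where
  isSMulRegular r hr := by
    intro x y hxy
    have hr0 : r ≠ 0 := hr.ne_zero
    have h1 : r • ((x : M) - y) = 0 := by
      have := congrArg Subtype.val hxy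
      simp only [Submodule.coe_smul] at this
      rw [smul_sub, this, sub_self]
    have h2 := eq_zero_of_mem_tM htors (hK (K.sub_mem x.2 y.2)) hr0 h1
    exact Subtype.ext (sub_eq_zero.mp h2)

theorem toAddSubgroup_map (K : Submodule ℤ M) (φ : Module.End ℤ M) :
    K.toAddSubgroup.map φ.toAddMonoidHom = (K.map φ).toAddSubgroup := by
  ext x
  simp only [AddSubgroup.mem_map, Submodule.mem_toAddSubgroup, Submodule.mem_map]
  rfl

theorem toAddSubgroup_inf_ker (K : Submodule ℤ M) (φ : Module.End ℤ M) :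
    K.toAddSubgroup ⊓ φ.toAddMonoidHom.ker = (K ⊓ LinearMap.ker φ).toAddSubgroup := by
  ext x
  simp only [AddSubgroup.mem_inf, Submodule.mem_toAddSubgroup, AddMonoidHom.mem_ker,
    Submodule.mem_inf, LinearMap.mem_ker]
  rfl

variable {t : ℤ} (htors : ∀ x : M, ∀ k : ℤ, k ≠ 0 → k • x = 0 → t • x = 0)

include htors in
theorem relIndex_latInv (hp : p ≠ 0) :
    ((latInv d t).map ((p : ℤ) • (1 : Module.End ℤ M))).toAddSubgroup.relIndex
      (latInv d t).toAddSubgroup = p ^ finrank ℤ (latInv d t) := by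
  have : Module.IsTorsionFree ℤ (latInv d t) :=
    isTorsionFree_of_le_tM htors _ inf_le_left
  rw [relIndex_map_eq_index_range _ _ (fun x hx => smul_mem_latInv hx)]
  have e : (((p : ℤ) • (1 : Module.End ℤ M)).restrict
      (fun x hx => smul_mem_latInv (p := p) (d := d) (t := t) hx)) =
      (p : ℤ) • (LinearMap.id : latInv d t →ₗ[ℤ] latInv d t) := by
    ext x
    simp
  rw [e]
  exact index_range_smul_id hp

theorem restrict_one_add_pow (K : Submodule ℤ M) (hK : ∀ x ∈ K, d x ∈ K) (i : ℕ) (x : K) :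
    ((((1 : Module.End ℤ K) + d.restrict hK) ^ i) x : M) = ((1 + d) ^ i) (x : M) := by
  induction i generalizing x with
  | zero => simp
  | succ i ih =>
    rw [pow_succ, pow_succ, Module.End.mul_apply, Module.End.mul_apply, ih]
    simp

include htors in
theorem relIndex_latNrm (hp : p.Prime) (hd : (1 + d) ^ p = 1) {b : ℕ}
    (hb : finrank ℤ (latNrm p d t) = (p - 1) * b) :
    ((latNrm p d t).map d).toAddSubgroup.relIndex (latNrm p d t).toAddSubgroup = p ^ b := by
  have : Module.IsTorsionFree ℤ (latNrm p d t) :=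
    isTorsionFree_of_le_tM htors _ inf_le_left
  rw [relIndex_map_eq_index_range _ _ (fun x hx => d_mem_latNrm hd hx)]
  refine index_range_of_psi hp _ ?_ hb
  ext x
  rw [LinearMap.sum_apply, LinearMap.zero_apply, Submodule.coe_sum, Submodule.coe_zero]
  rw [Finset.sum_congr rfl (fun i _ => restrict_one_add_pow _ _ i x)]
  have h := LinearMap.mem_ker.mp x.2.2
  rw [nrm, LinearMap.sum_apply] at h
  exact h

/-- **The Herbrand quotient from the ranks**: for a finitely generated abelian group `M` with an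
endomorphism `d = σ - 1`, `σ ^ p = 1`, `p` prime, if `M ^ σ` has rank `a` and `M` has rank
`a + (p - 1) b`, then `[ker d : im N]` and `[ker N : im d]` are finite and
`[ker d : im N] * p ^ b = [ker N : im d] * p ^ a`. -/
theorem hq_mul_pow (hp : p.Prime) (hd : (1 + d) ^ p = 1) {a b : ℕ}
    (ha : finrank ℤ (LinearMap.ker d) = a) (hM : finrank ℤ M = a + (p - 1) * b) :
    hq d.toAddMonoidHom (nrm p d).toAddMonoidHom ≠ 0 ∧
    hq (nrm p d).toAddMonoidHom d.toAddMonoidHom ≠ 0 ∧
    hq d.toAddMonoidHom (nrm p d).toAddMonoidHom * p ^ b =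
      hq (nrm p d).toAddMonoidHom d.toAddMonoidHom * p ^ a := by
  obtain ⟨t, ht, htors⟩ := exists_torsion_exponent M
  have hp0 : (p : ℤ) ≠ 0 := by exact_mod_cast hp.ne_zero
  -- ranks
  have r1 : finrank ℤ (latInv d t) = a := by
    rw [← ha]
    refine finrank_eq_of_smul_mem inf_le_right ht fun x hx => ?_
    exact ⟨mem_tM.mpr ⟨x, rfl⟩, (LinearMap.ker d).smul_mem _ hx⟩
  have r2 : finrank ℤ (LinearMap.range (nrm p d)) = a := by
    rw [← ha]
    refine finrank_eq_of_smul_mem ?_ hp0 fun x hx => ?_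
    · rintro _ ⟨y, rfl⟩
      exact LinearMap.mem_ker.mpr (d_apply_nrm hd y)
    · exact ⟨x, nrm_apply_of_ker (LinearMap.mem_ker.mp hx)⟩
  have r3 : finrank ℤ (LinearMap.ker (nrm p d)) = (p - 1) * b := by
    have := finrank_range_add_finrank_ker (nrm p d)
    rw [r2, hM] at this
    exact Nat.add_left_cancel this
  have r4 : finrank ℤ (latNrm p d t) = (p - 1) * b := by
    rw [← r3]
    refine finrank_eq_of_smul_mem inf_le_right ht fun x hx => ?_
    exact ⟨mem_tM.mpr ⟨x, rfl⟩, (LinearMap.ker (nrm p d)).smul_mem _ hx⟩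
  -- the two indices on the sublattice
  have i1 : hqOn (lat p d t).toAddSubgroup d.toAddMonoidHom (nrm p d).toAddMonoidHom = p ^ a := by
    rw [hqOn, toAddSubgroup_map, toAddSubgroup_inf_ker, lat_inf_ker_d hp.ne_zero htors,
      lat_map_nrm, relIndex_latInv htors hp.ne_zero, r1]
  have i2 : hqOn (lat p d t).toAddSubgroup (nrm p d).toAddMonoidHom d.toAddMonoidHom = p ^ b := by
    rw [hqOn, toAddSubgroup_map, toAddSubgroup_inf_ker, lat_inf_ker_nrm hp.ne_zero htors,
      lat_map_d, relIndex_latNrm htors hp hd r4]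
  -- finite index
  have hidx : (lat p d t).toAddSubgroup.index ≠ 0 := by
    have h1 := index_range_smul_ne_zero (M := M) (mul_ne_zero hp0 ht)
    have h2 : (LinearMap.range (((p : ℤ) * t) • (1 : Module.End ℤ M))).toAddSubgroup ≤
        (lat p d t).toAddSubgroup := range_le_lat hd
    intro h0
    have := AddSubgroup.index_dvd_of_le h2
    rw [h0] at this
    exact h1 (Nat.eq_zero_of_zero_dvd this)
  have hDN : ∀ x, d.toAddMonoidHom ((nrm p d).toAddMonoidHom x) = 0 := d_apply_nrm hd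
  have hND : ∀ x, (nrm p d).toAddMonoidHom (d.toAddMonoidHom x) = 0 := nrm_apply_d hd
  have sD : ∀ x ∈ (lat p d t).toAddSubgroup, d.toAddMonoidHom x ∈ (lat p d t).toAddSubgroup :=
    fun x hx => d_mem_lat hd hx
  have sN : ∀ x ∈ (lat p d t).toAddSubgroup,
      (nrm p d).toAddMonoidHom x ∈ (lat p d t).toAddSubgroup := fun x hx => nrm_mem_lat hx
  have hpa : p ^ a ≠ 0 := pow_ne_zero _ hp.ne_zero
  have hpb : p ^ b ≠ 0 := pow_ne_zero _ hp.ne_zero
  refine ⟨?_, ?_, ?_⟩
  · rw [hq_ne_zero_iff hDN sN hidx, i1]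
    exact hpa
  · rw [hq_ne_zero_iff hND sD hidx, i2]
    exact hpb
  · have := hq_mul_hqOn hDN hND sD sN hidx
    rwa [i1, i2] at this

/-- the same for additive endomorphisms given pointwise: `D = σ - 1`, `N = Σ_{i<p} σ^i`,
`σ^p = 1` -/
theorem hq_of_addMonoidHom (hp : p.Prime) (σ D N : M →+ M) (hσ : ∀ x, σ^[p] x = x)
    (hD : ∀ x, D x = σ x - x) (hN : ∀ x, N x = ∑ i ∈ Finset.range p, σ^[i] x) {a b : ℕ}
    (ha : finrank ℤ (LinearMap.ker D.toIntLinearMap) = a)
    (hM : finrank ℤ M = a + (p - 1) * b) :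
    hq D N ≠ 0 ∧ hq N D ≠ 0 ∧ hq D N * p ^ b = hq N D * p ^ a := by
  have e1 : (1 : Module.End ℤ M) + D.toIntLinearMap = σ.toIntLinearMap := by
    ext x
    simp [hD]
  have e2 : ∀ (i : ℕ) (x : M), ((σ.toIntLinearMap : Module.End ℤ M) ^ i) x = σ^[i] x := by
    intro i x
    rw [Module.End.pow_apply]
    rfl
  have hd : ((1 : Module.End ℤ M) + D.toIntLinearMap) ^ p = 1 := by
    rw [e1]
    ext x
    rw [e2, hσ]
    rfl
  have e3 : nrm p D.toIntLinearMap = N.toIntLinearMap := by
    ext x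
    rw [nrm, e1, LinearMap.sum_apply, Finset.sum_congr rfl (fun i _ => e2 i x)]
    exact (hN x).symm
  have h := hq_mul_pow hp hd ha hM
  rw [e3] at h
  exact h

end Final

end Main

end Fermat.Agent.S14.HerbrandLattice
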