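import Mathlib
import Fermat.Agent.S14.Herbrand
import Fermat.Agent.S14.HerbrandLattice

/-!
# S14: the Herbrand quotient of the unit group

`L/K` a Galois extension of number fields of prime degree `p`, `K` totally complex (so that no
infinite place ramifies), `σ ≠ 1` in `Gal(L/K)`.

* `unitAut σ`: the automorphism of `Additive (𝓞 L)ˣ` induced by `σ`; `unitIncl K L`: the
  inclusion of the units of `K`; the invariants of `σ` are exactly the units of `K`
  (`ker_eq_range`), of rank `r - 1`, `r` the number of infinite places of `K`, whereas the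
  units of `L` have rank `p r - 1` (`card_infinitePlace_eq_mul`).
* `units_hq`: `[E_L[N] : (σ - 1) E_L] = p * [E_K : N E_L]` and `[E_K : N E_L] ≠ 0`, for any
  additive endomorphisms `s`, `D`, `N` with the pointwise specifications `s = σ`, `D = s - 1`,
  `N = 1 + s + ... + s^(p-1)`.
* `units_hqOn`: the same statement inside `Additive Lˣ`, for the subgroup `(unitVal L).range`.
* `mem_range_unitVal_iff_isIntegral`, `mem_range_unitVal_iff_valuation`: characterisations of
  that subgroup.
-/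

set_option autoImplicit false

namespace Fermat.Agent.S14.UnitIndex

open NumberField Module Fermat.Agent.S14.Herbrand

variable {K L : Type*} [Field K] [Field L] [NumberField K] [NumberField L] [Algebra K L]

/-- Number of infinite places of a totally complex field. -/
theorem two_mul_card_infinitePlace (F : Type*) [Field F] [NumberField F] [IsTotallyComplex F] :
    2 * Fintype.card (InfinitePlace F) = finrank ℚ F := by
  rw [InfinitePlace.card_eq_nrRealPlaces_add_nrComplexPlaces,
    IsTotallyComplex.nrRealPlaces_eq_zero, zero_add, IsTotallyComplex.finrank]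

theorem card_infinitePlace_eq_mul [IsTotallyComplex K] :
    Fintype.card (InfinitePlace L) = finrank K L * Fintype.card (InfinitePlace K) := by
  have := isTotallyComplex_of_algebra K L
  have h1 := two_mul_card_infinitePlace K
  have h2 := two_mul_card_infinitePlace L
  have h3 := Module.finrank_mul_finrank ℚ K L
  have : 2 * Fintype.card (InfinitePlace L) =
      2 * (finrank K L * Fintype.card (InfinitePlace K)) := by
    rw [h2, ← h3, ← h1]; ring
  omega

/-- The automorphism of `Additive (𝓞 L)ˣ` induced by `σ`. -/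
noncomputable def unitAut (σ : Gal(L/K)) : Additive (𝓞 L)ˣ →+ Additive (𝓞 L)ˣ :=
  MonoidHom.toAdditive (Units.map (RingOfIntegers.mapRingHom (σ : L →+* L)).toMonoidHom)

omit [NumberField K] [NumberField L] in
theorem coe_unitAut (σ : Gal(L/K)) (u : (𝓞 L)ˣ) :
    (((Additive.toMul (unitAut σ (Additive.ofMul u)) : (𝓞 L)ˣ) : 𝓞 L) : L) = σ ((u : 𝓞 L) : L) :=
  rfl

omit [NumberField K] [NumberField L] in
theorem coe_unitAut' (σ : Gal(L/K)) (x : Additive (𝓞 L)ˣ) :
    (((Additive.toMul (unitAut σ x) : (𝓞 L)ˣ) : 𝓞 L) : L) =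
      σ (((Additive.toMul x : (𝓞 L)ˣ) : 𝓞 L) : L) :=
  rfl

omit [NumberField K] [NumberField L] in
/-- Two elements of `Additive (𝓞 L)ˣ` with the same image in `L` are equal. -/
theorem additive_units_ext {x y : Additive (𝓞 L)ˣ}
    (h : (((Additive.toMul x : (𝓞 L)ˣ) : 𝓞 L) : L) = (((Additive.toMul y : (𝓞 L)ˣ) : 𝓞 L) : L)) :
    x = y :=
  Additive.toMul.injective (Units.ext (RingOfIntegers.ext h))

omit [NumberField K] [NumberField L] in
theorem eq_unitAut (σ : Gal(L/K)) (s : Additive (𝓞 L)ˣ →+ Additive (𝓞 L)ˣ)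
    (hs : ∀ u : (𝓞 L)ˣ,
      (((Additive.toMul (s (Additive.ofMul u)) : (𝓞 L)ˣ) : 𝓞 L) : L) = σ ((u : 𝓞 L) : L)) :
    s = unitAut σ := by
  refine AddMonoidHom.ext fun x => ?_
  apply additive_units_ext
  rw [coe_unitAut']
  exact hs (Additive.toMul x)

omit [NumberField K] [NumberField L] in
theorem unitAut_one : unitAut (1 : Gal(L/K)) = AddMonoidHom.id _ := by
  refine AddMonoidHom.ext fun x => ?_
  apply additive_units_ext
  rw [coe_unitAut']
  rfl

omit [NumberField K] [NumberField L] in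
theorem unitAut_mul (σ τ : Gal(L/K)) : unitAut (σ * τ) = (unitAut σ).comp (unitAut τ) := by
  refine AddMonoidHom.ext fun x => ?_
  apply additive_units_ext
  rw [coe_unitAut']
  rfl

omit [NumberField K] [NumberField L] in
theorem unitAut_iterate (σ : Gal(L/K)) (i : ℕ) (x : Additive (𝓞 L)ˣ) :
    (unitAut σ)^[i] x = unitAut (σ ^ i) x := by
  induction i with
  | zero => simp [unitAut_one]
  | succ n ih =>
    rw [Function.iterate_succ_apply', ih, pow_succ', unitAut_mul]
    rfl

theorem unitAut_iterate_card [IsGalois K L] (σ : Gal(L/K)) (x : Additive (𝓞 L)ˣ) :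
    (unitAut σ)^[finrank K L] x = x := by
  rw [unitAut_iterate, ← IsGalois.card_aut_eq_finrank, pow_card_eq_one', unitAut_one]
  rfl

/-- The map on units induced by the inclusion `K ⊆ L`. -/
noncomputable def unitIncl (K L : Type*) [Field K] [Field L] [NumberField K] [NumberField L]
    [Algebra K L] : Additive (𝓞 K)ˣ →+ Additive (𝓞 L)ˣ :=
  MonoidHom.toAdditive (Units.map (algebraMap (𝓞 K) (𝓞 L)).toMonoidHom)

theorem coe_unitIncl (x : Additive (𝓞 K)ˣ) :
    (((Additive.toMul (unitIncl K L x) : (𝓞 L)ˣ) : 𝓞 L) : L) =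
      algebraMap K L (((Additive.toMul x : (𝓞 K)ˣ) : 𝓞 K) : K) :=
  rfl

theorem unitIncl_injective : Function.Injective (unitIncl K L) := by
  intro x y h
  apply additive_units_ext
  apply (algebraMap K L).injective
  rw [← coe_unitIncl, ← coe_unitIncl, h]

theorem unitAut_unitIncl (σ : Gal(L/K)) (x : Additive (𝓞 K)ˣ) :
    unitAut σ (unitIncl K L x) = unitIncl K L x := by
  apply additive_units_ext
  rw [coe_unitAut', coe_unitIncl]
  exact σ.commutes _

/-- An element of `𝓞 L` fixed by the Galois group comes from `𝓞 K`. -/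
theorem exists_of_fixed [IsGalois K L] (x : 𝓞 L) (hx : ∀ τ : Gal(L/K), τ (x : L) = x) :
    ∃ y : 𝓞 K, algebraMap K L (y : K) = x := by
  obtain ⟨y, hy⟩ := (IsGalois.mem_range_algebraMap_iff_fixed (F := K) (E := L) (x : L)).mpr hx
  have hint : IsIntegral ℤ y := by
    rw [← isIntegral_algebraMap_iff (algebraMap K L).injective (R := ℤ), hy]
    exact x.2
  exact ⟨⟨y, hint⟩, hy⟩

/-- A unit of `𝓞 L` fixed by the Galois group comes from a unit of `𝓞 K`. -/
theorem exists_unit_of_fixed [IsGalois K L] (x : Additive (𝓞 L)ˣ)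
    (hx : ∀ τ : Gal(L/K), unitAut τ x = x) : ∃ y, unitIncl K L y = x := by
  have h1 : ∀ τ : Gal(L/K), τ (((Additive.toMul x : (𝓞 L)ˣ) : 𝓞 L) : L) =
      (((Additive.toMul x : (𝓞 L)ˣ) : 𝓞 L) : L) := fun τ => by
    rw [← coe_unitAut', hx τ]
  have h2 : ∀ τ : Gal(L/K), τ (((Additive.toMul (-x) : (𝓞 L)ˣ) : 𝓞 L) : L) =
      (((Additive.toMul (-x) : (𝓞 L)ˣ) : 𝓞 L) : L) := fun τ => by
    rw [← coe_unitAut', map_neg, hx τ]
  obtain ⟨y, hy⟩ := exists_of_fixed (K := K) _ h1
  obtain ⟨z, hz⟩ := exists_of_fixed (K := K) _ h2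
  have hyz : y * z = 1 := by
    apply RingOfIntegers.ext
    apply (algebraMap K L).injective
    have e1 : ((y * z : 𝓞 K) : K) = (y : K) * (z : K) := map_mul (algebraMap (𝓞 K) K) y z
    have e2 : ((1 : 𝓞 K) : K) = 1 := map_one (algebraMap (𝓞 K) K)
    have e3 : ∀ a b : 𝓞 L, (a : L) * (b : L) = ((a * b : 𝓞 L) : L) :=
      fun a b => (map_mul (algebraMap (𝓞 L) L) a b).symm
    rw [e1, e2, map_mul, map_one, hy, hz, e3, ← Units.val_mul, ← toMul_add, add_neg_cancel]
    simp
  refine ⟨Additive.ofMul (Units.mkOfMulEqOne y z hyz), ?_⟩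
  apply additive_units_ext
  rw [coe_unitIncl]
  exact hy

/-- In a Galois group of prime order, anything fixed by `σ ≠ 1` is fixed by everything. -/
theorem unitAut_eq_of_fixed [IsGalois K L] {p : ℕ} (hp : p.Prime) (hdeg : finrank K L = p)
    (σ : Gal(L/K)) (hσ : σ ≠ 1) (x : Additive (𝓞 L)ˣ) (hx : unitAut σ x = x) (τ : Gal(L/K)) :
    unitAut τ x = x := by
  have := Fact.mk hp
  have hcard : Nat.card Gal(L/K) = p := by rw [IsGalois.card_aut_eq_finrank, hdeg]
  obtain ⟨n, rfl⟩ := Submonoid.mem_powers_iff _ _ |>.mp (mem_powers_of_prime_card hcard hσ (g' := τ))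
  rw [← unitAut_iterate]
  exact Function.iterate_fixed hx n

/-- The invariants of `σ` on the units of `L` are the units of `K`. -/
theorem ker_eq_range [IsGalois K L] {p : ℕ} (hp : p.Prime) (hdeg : finrank K L = p)
    (σ : Gal(L/K)) (hσ : σ ≠ 1) (D : Additive (𝓞 L)ˣ →+ Additive (𝓞 L)ˣ)
    (hD : ∀ x, D x = unitAut σ x - x) :
    LinearMap.ker D.toIntLinearMap = LinearMap.range (unitIncl K L).toIntLinearMap := by
  ext x
  simp only [LinearMap.mem_ker, AddMonoidHom.coe_toIntLinearMap, LinearMap.mem_range, hD,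
    sub_eq_zero]
  constructor
  · intro hx
    exact exists_unit_of_fixed x (unitAut_eq_of_fixed hp hdeg σ hσ x hx)
  · rintro ⟨y, rfl⟩
    exact unitAut_unitIncl σ y

theorem finrank_ker [IsGalois K L] {p : ℕ} (hp : p.Prime) (hdeg : finrank K L = p)
    (σ : Gal(L/K)) (hσ : σ ≠ 1) (D : Additive (𝓞 L)ˣ →+ Additive (𝓞 L)ˣ)
    (hD : ∀ x, D x = unitAut σ x - x) :
    finrank ℤ (LinearMap.ker D.toIntLinearMap) = Fintype.card (InfinitePlace K) - 1 := by
  rw [ker_eq_range hp hdeg σ hσ D hD, LinearMap.finrank_range_of_inj, Units.finrank_eq]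
  · rfl
  · exact unitIncl_injective

/-- **Herbrand quotient of the unit group** in an unramified-at-infinity cyclic extension of
prime degree: `[E_L[N] : (σ - 1) E_L] = p * [E_K : N E_L]`, and the latter is nonzero. -/
theorem units_hq_unitAut [IsGalois K L] {p : ℕ} (hp : p.Prime) (hdeg : finrank K L = p)
    [IsTotallyComplex K] (σ : Gal(L/K)) (hσ : σ ≠ 1)
    (D N : Additive (𝓞 L)ˣ →+ Additive (𝓞 L)ˣ)
    (hD : ∀ x, D x = unitAut σ x - x)
    (hN : ∀ x, N x = ∑ i ∈ Finset.range p, (unitAut σ)^[i] x) :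
    hq D N ≠ 0 ∧ hq N D = p * hq D N := by
  have hr : 0 < Fintype.card (InfinitePlace K) := Fintype.card_pos
  have hcardL := card_infinitePlace_eq_mul (K := K) (L := L)
  rw [hdeg] at hcardL
  have hfin : finrank ℤ (Additive (𝓞 L)ˣ) =
      (Fintype.card (InfinitePlace K) - 1) + (p - 1) * Fintype.card (InfinitePlace K) := by
    rw [Units.finrank_eq, Units.rank, hcardL]
    have hp1 := hp.one_lt
    obtain ⟨q, rfl⟩ : ∃ q, p = q + 1 := ⟨p - 1, by omega⟩
    obtain ⟨r, hr'⟩ : ∃ r, Fintype.card (InfinitePlace K) = r + 1 := ⟨_, (Nat.succ_pred_eq_of_pos hr).symm⟩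
    rw [hr']
    simp only [Nat.add_sub_cancel]
    ring_nf
    omega
  have hiter : ∀ x, (unitAut σ)^[p] x = x := fun x => hdeg ▸ unitAut_iterate_card σ x
  obtain ⟨h1, -, h3⟩ := HerbrandLattice.hq_of_addMonoidHom hp (unitAut σ) D N hiter hD hN
    (finrank_ker hp hdeg σ hσ D hD) hfin
  refine ⟨h1, ?_⟩
  obtain ⟨r, hr'⟩ : ∃ r, Fintype.card (InfinitePlace K) = r + 1 := ⟨_, (Nat.succ_pred_eq_of_pos hr).symm⟩
  rw [hr', Nat.add_sub_cancel, pow_succ] at h3
  have hpos : 0 < p ^ r := pow_pos hp.pos r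
  have : hq N D * p ^ r = (p * hq D N) * p ^ r := by rw [← h3]; ring
  exact Nat.eq_of_mul_eq_mul_right hpos this

/-- Version of `units_hq_unitAut` for an arbitrary additive endomorphism `s` of the unit group
which acts as `σ` (pointwise specification). -/
theorem units_hq [IsGalois K L] {p : ℕ} (hp : p.Prime) (hdeg : finrank K L = p)
    [IsTotallyComplex K] (σ : Gal(L/K)) (hσ : σ ≠ 1)
    (s D N : Additive (𝓞 L)ˣ →+ Additive (𝓞 L)ˣ)
    (hs : ∀ u : (𝓞 L)ˣ,
      (((Additive.toMul (s (Additive.ofMul u)) : (𝓞 L)ˣ) : 𝓞 L) : L) = σ ((u : 𝓞 L) : L))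
    (hD : ∀ x, D x = s x - x)
    (hN : ∀ x, N x = ∑ i ∈ Finset.range p, s^[i] x) :
    hq D N ≠ 0 ∧ hq N D = p * hq D N := by
  obtain rfl := eq_unitAut σ s hs
  exact units_hq_unitAut hp hdeg σ hσ D N hD hN

/-! ### Transport to the multiplicative group of `L` -/

/-- The units of `𝓞 L` inside `Lˣ`, written additively. -/
noncomputable def unitVal (L : Type*) [Field L] : Additive (𝓞 L)ˣ →+ Additive Lˣ :=
  MonoidHom.toAdditive (Units.map (algebraMap (𝓞 L) L).toMonoidHom)

omit [NumberField L] in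
theorem coe_unitVal (x : Additive (𝓞 L)ˣ) :
    ((Additive.toMul (unitVal L x) : Lˣ) : L) = (((Additive.toMul x : (𝓞 L)ˣ) : 𝓞 L) : L) :=
  rfl

omit [NumberField L] in
theorem unitVal_injective : Function.Injective (unitVal L) := by
  intro x y h
  apply additive_units_ext
  rw [← coe_unitVal, ← coe_unitVal, h]

omit [NumberField L] in
/-- Two elements of `Additive Lˣ` with the same image in `L` are equal. -/
theorem additive_field_units_ext {x y : Additive Lˣ}
    (h : ((Additive.toMul x : Lˣ) : L) = ((Additive.toMul y : Lˣ) : L)) : x = y :=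
  Additive.toMul.injective (Units.ext h)

/-- The automorphism of `Additive Lˣ` induced by `σ`. -/
noncomputable def fieldAut (σ : Gal(L/K)) : Additive Lˣ →+ Additive Lˣ :=
  MonoidHom.toAdditive (Units.map ((σ : L →+* L) : L →* L))

omit [NumberField K] [NumberField L] in
theorem coe_fieldAut (σ : Gal(L/K)) (x : Lˣ) :
    ((Additive.toMul (fieldAut σ (Additive.ofMul x)) : Lˣ) : L) = σ (x : L) :=
  rfl

omit [NumberField K] [NumberField L] in
theorem coe_fieldAut' (σ : Gal(L/K)) (x : Additive Lˣ) :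
    ((Additive.toMul (fieldAut σ x) : Lˣ) : L) = σ ((Additive.toMul x : Lˣ) : L) :=
  rfl

omit [NumberField K] [NumberField L] in
theorem eq_fieldAut (σ : Gal(L/K)) (s : Additive Lˣ →+ Additive Lˣ)
    (hs : ∀ x : Lˣ, ((Additive.toMul (s (Additive.ofMul x)) : Lˣ) : L) = σ (x : L)) :
    s = fieldAut σ := by
  refine AddMonoidHom.ext fun x => ?_
  apply additive_field_units_ext
  rw [coe_fieldAut']
  exact hs (Additive.toMul x)

omit [NumberField K] [NumberField L] in
theorem unitVal_unitAut (σ : Gal(L/K)) (x : Additive (𝓞 L)ˣ) :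
    unitVal L (unitAut σ x) = fieldAut σ (unitVal L x) :=
  rfl

omit [NumberField K] [NumberField L] in
theorem unitVal_unitAut_iterate (σ : Gal(L/K)) (i : ℕ) (x : Additive (𝓞 L)ˣ) :
    unitVal L ((unitAut σ)^[i] x) = (fieldAut σ)^[i] (unitVal L x) := by
  induction i with
  | zero => rfl
  | succ n ih => rw [Function.iterate_succ_apply', Function.iterate_succ_apply', ← ih,
      unitVal_unitAut]

/-- The operator `D = σ - 1` on the units of `𝓞 L`. -/
noncomputable def unitD (σ : Gal(L/K)) : Additive (𝓞 L)ˣ →+ Additive (𝓞 L)ˣ :=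
  unitAut σ - AddMonoidHom.id _

/-- The operator `N = 1 + σ + ... + σ^(n-1)` on the units of `𝓞 L`. -/
noncomputable def unitN (σ : Gal(L/K)) (n : ℕ) : Additive (𝓞 L)ˣ →+ Additive (𝓞 L)ˣ :=
  ∑ i ∈ Finset.range n, unitAut (σ ^ i)

omit [NumberField K] [NumberField L] in
theorem unitD_apply (σ : Gal(L/K)) (x : Additive (𝓞 L)ˣ) : unitD σ x = unitAut σ x - x := rfl

omit [NumberField K] [NumberField L] in
theorem unitN_apply (σ : Gal(L/K)) (n : ℕ) (x : Additive (𝓞 L)ˣ) :
    unitN σ n x = ∑ i ∈ Finset.range n, (unitAut σ)^[i] x := by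
  rw [unitN, AddMonoidHom.finsetSum_apply]
  exact Finset.sum_congr rfl fun i _ => (unitAut_iterate σ i x).symm

/-- **Herbrand quotient of the unit group**, on the subgroup `(unitVal L).range` of
`Additive Lˣ`, for arbitrary operators `DX`, `NX` on `Additive Lˣ` with the pointwise
specification `DX = σ - 1`, `NX = 1 + σ + ... + σ^(p-1)`. -/
theorem units_hqOn [IsGalois K L] {p : ℕ} (hp : p.Prime) (hdeg : finrank K L = p)
    [IsTotallyComplex K] (σ : Gal(L/K)) (hσ : σ ≠ 1)
    (sX DX NX : Additive Lˣ →+ Additive Lˣ)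
    (hs : ∀ x : Lˣ, ((Additive.toMul (sX (Additive.ofMul x)) : Lˣ) : L) = σ (x : L))
    (hD : ∀ x, DX x = sX x - x)
    (hN : ∀ x, NX x = ∑ i ∈ Finset.range p, sX^[i] x) :
    hqOn (unitVal L).range DX NX ≠ 0 ∧
      hqOn (unitVal L).range NX DX = p * hqOn (unitVal L).range DX NX := by
  obtain rfl := eq_fieldAut σ sX hs
  have hf : ∀ x, unitVal L (unitD σ x) = DX (unitVal L x) := fun x => by
    rw [hD, unitD_apply, map_sub, unitVal_unitAut]
  have hg : ∀ x, unitVal L (unitN σ p x) = NX (unitVal L x) := fun x => by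
    rw [hN, unitN_apply, map_sum]
    exact Finset.sum_congr rfl fun i _ => unitVal_unitAut_iterate σ i x
  have e1 := hqOn_map (unitVal L) unitVal_injective hf hg ⊤
  have e2 := hqOn_map (unitVal L) unitVal_injective hg hf ⊤
  rw [hqOn_top, ← AddMonoidHom.range_eq_map] at e1 e2
  rw [e1, e2]
  exact units_hq_unitAut hp hdeg σ hσ _ _ (unitD_apply σ) (unitN_apply σ p)

/-! ### Characterisations of the subgroup of units inside `Lˣ` -/

omit [NumberField L] in
theorem mem_range_unitVal_iff_isIntegral (x : Additive Lˣ) :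
    x ∈ (unitVal L).range ↔ IsIntegral ℤ ((Additive.toMul x : Lˣ) : L) ∧
      IsIntegral ℤ (((Additive.toMul x)⁻¹ : Lˣ) : L) := by
  constructor
  · rintro ⟨u, rfl⟩
    exact ⟨((Additive.toMul u : (𝓞 L)ˣ) : 𝓞 L).2, (((Additive.toMul u)⁻¹ : (𝓞 L)ˣ) : 𝓞 L).2⟩
  · rintro ⟨h1, h2⟩
    let y : 𝓞 L := ⟨_, h1⟩
    let z : 𝓞 L := ⟨_, h2⟩
    have hyz : y * z = 1 := by
      apply RingOfIntegers.ext
      refine (map_mul (algebraMap (𝓞 L) L) y z).trans
        (Eq.trans ?_ (map_one (algebraMap (𝓞 L) L)).symm)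
      change ((Additive.toMul x : Lˣ) : L) * (((Additive.toMul x)⁻¹ : Lˣ) : L) = 1
      rw [← Units.val_mul, mul_inv_cancel, Units.val_one]
    refine ⟨Additive.ofMul (Units.mkOfMulEqOne y z hyz), ?_⟩
    apply additive_field_units_ext
    rfl

theorem mem_range_unitVal_iff_valuation (x : Additive Lˣ) :
    x ∈ (unitVal L).range ↔ ∀ v : IsDedekindDomain.HeightOneSpectrum (𝓞 L),
      v.valuation L ((Additive.toMul x : Lˣ) : L) = 1 := by
  constructor
  · rintro ⟨u, rfl⟩ v
    have h1 := v.valuation_le_one (K := L) ((Additive.toMul u : (𝓞 L)ˣ) : 𝓞 L)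
    have h2 := v.valuation_le_one (K := L) (((Additive.toMul u)⁻¹ : (𝓞 L)ˣ) : 𝓞 L)
    have h3 : v.valuation L (algebraMap (𝓞 L) L ((Additive.toMul u : (𝓞 L)ˣ) : 𝓞 L)) *
        v.valuation L (algebraMap (𝓞 L) L (((Additive.toMul u)⁻¹ : (𝓞 L)ˣ) : 𝓞 L)) = 1 := by
      rw [← map_mul, ← map_mul, ← Units.val_mul, mul_inv_cancel, Units.val_one, map_one, map_one]
    rw [coe_unitVal]
    refine le_antisymm h1 ?_
    by_contra hlt
    rw [not_le] at hlt
    have h0 : v.valuation L (algebraMap (𝓞 L) L (((Additive.toMul u)⁻¹ : (𝓞 L)ˣ) : 𝓞 L)) ≠ 0 := by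
      intro h
      rw [h, mul_zero] at h3
      exact zero_ne_one h3
    have := mul_lt_mul_of_pos_right hlt (zero_lt_iff.mpr h0)
    rw [h3, one_mul] at this
    exact absurd h2 (not_le.mpr this)
  · intro h
    rw [mem_range_unitVal_iff_isIntegral]
    constructor
    · obtain ⟨y, hy⟩ := IsDedekindDomain.HeightOneSpectrum.mem_integers_of_valuation_le_one L
        ((Additive.toMul x : Lˣ) : L) (fun v => (h v).le)
      rw [← hy]
      exact y.2
    · obtain ⟨y, hy⟩ := IsDedekindDomain.HeightOneSpectrum.mem_integers_of_valuation_le_one L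
        (((Additive.toMul x)⁻¹ : Lˣ) : L) (fun v => by
          rw [Units.val_inv_eq_inv_val, map_inv₀, h v, inv_one])
      rw [← hy]
      exact y.2

end Fermat.Agent.S14.UnitIndex
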