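import Mathlib
import Fermat.Agent.S14.IdealChain
import Fermat.Agent.S14.UnitIndex

/-!
# S14: the norm index inequality (first inequality of class field theory, unramified case)

For a Galois extension `L / K` of number fields of prime degree `p`, unramified at all finite
primes, with `K` totally complex: the classes of the primes of `K` which split completely in `L`
together with the `p`-th powers do not generate the class group of `K`.

The proof is the Herbrand quotient computation: `IdealChain` (divisors, `H¹` of the divisor
group, Hilbert 90, invariant divisors) + `UnitIndex` (the Herbrand quotient of the units) +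
`HerbrandChain` (the abstract index calculus).
-/

set_option autoImplicit false

namespace Fermat.Agent.S14.NormIndex

open NumberField

variable {K L : Type*} [Field K] [Field L] [NumberField K] [NumberField L] [Algebra K L]
  [IsGalois K L]

/-- **The norm index inequality.** -/
theorem normClasses_ne_top {p : ℕ} (hp : p.Prime) (hdeg : Module.finrank K L = p)
    (hunr : UnramifiedEverywhere K L) (hK : IsTotallyComplex K) : normClasses K L p ≠ ⊤ := by
  have := hK
  refine IdealChain.normClasses_ne_top_of_units hp hdeg hunr fun σ hσ => ?_
  obtain ⟨h1, h2⟩ := UnitIndex.units_hq hp hdeg σ hσ (IdealChain.sU σ)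
    (PermModule.dEnd (IdealChain.sU σ)) (PermModule.nEnd (IdealChain.sU σ) p)
    (fun u => rfl) (fun x => rfl) (fun x => rfl)
  refine ⟨h1, ?_⟩
  rw [h2]
  have h3 := hp.one_lt
  have h4 := Nat.pos_of_ne_zero h1
  nlinarith

end Fermat.Agent.S14.NormIndex
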