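import Mathlib
import Fermat.Agent.S14.Defs
import Fermat.Prelude.Def_Stickelberger_Basic

/-!
# S14: the core argument

`K = ℚ(ζ_p)`, `L / K` Galois of degree `p`, unramified at every finite prime, and the Galois group
of `K / ℚ` acts on `Gal(L/K)` through the inverse of the cyclotomic character: this is impossible.

The three deep inputs are hypotheses of `core`:
* `REC`  : an Artin map `ClassGroup (𝓞 K) →* Gal(L/K)` (Artin reciprocity);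
* `DENS` : a prime of degree one, outside a given finite set, which does not split completely;
* `JAC`  : the ideal `∏_{0 < c < p/2} σ_c⁻¹ 𝔮` is principal (factorisation of a Jacobi sum).
-/

set_option autoImplicit false
set_option linter.unusedSectionVars false
set_option linter.style.haveILetI false

namespace Fermat.Agent.S14.Core

open NumberField nonZeroDivisors
open scoped Pointwise

/-- `∑_{0 < c < p/2} c` is prime to `p`. -/
theorem not_dvd_eigenvalueScalar {p : ℕ} (hp : p.Prime) (hp2 : p ≠ 2) :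
    ¬ p ∣ Stickelberger.eigenvalueScalar p := by
  obtain ⟨m, hm⟩ : ∃ m, p = 2 * m + 1 := by
    rcases hp.eq_two_or_odd' with h | h
    · exact absurd h hp2
    · obtain ⟨m, hm⟩ := h
      exact ⟨m, hm⟩
  have hsum : Stickelberger.eigenvalueScalar p = ∑ c ∈ Finset.range (m + 1), c := by
    unfold Stickelberger.eigenvalueScalar
    apply Finset.sum_subset
    · intro c hc
      rw [Stickelberger.mem_exponentSet] at hc
      rw [Finset.mem_range]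
      omega
    · intro c hc hc'
      rw [Stickelberger.mem_exponentSet] at hc'
      rw [Finset.mem_range] at hc
      omega
  intro hdvd
  have h2 := Finset.sum_range_id_mul_two (m + 1)
  rw [← hsum] at h2
  have h3 : p ∣ (m + 1) * m := by
    have : p ∣ Stickelberger.eigenvalueScalar p * 2 := Dvd.dvd.mul_right hdvd 2
    rw [h2] at this
    simpa using this
  have hp1 : 1 < p := hp.one_lt
  rcases (Nat.Prime.dvd_mul hp).mp h3 with h | h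
  · have := Nat.le_of_dvd (Nat.succ_pos m) h
    omega
  · have hm0 : 0 < m := by
      rcases Nat.eq_zero_or_pos m with h0 | h0
      · subst h0
        exact absurd hm hp.one_lt.ne'
      · exact h0
    have := Nat.le_of_dvd hm0 h
    omega

theorem val_expUnit {p : ℕ} (hp : p.Prime) {c : ℕ} (hc : c ∈ Stickelberger.exponentSet p) :
    ((Stickelberger.expUnit p c : (ZMod p)ˣ) : ZMod p).val = c := by
  rw [Stickelberger.mem_exponentSet] at hc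
  have hcop : Nat.Coprime c p := by
    rw [Nat.coprime_comm, Nat.Prime.coprime_iff_not_dvd hp]
    intro h
    have := Nat.le_of_dvd hc.1 h
    omega
  unfold Stickelberger.expUnit
  rw [dif_pos hcop, ZMod.coe_unitOfCoprime]
  exact ZMod.val_natCast_of_lt (by omega)

theorem val_mul_val_inv {p : ℕ} [Fact p.Prime] (c : (ZMod p)ˣ) :
    ∃ k : ℕ, (c : ZMod p).val * ((c⁻¹ : (ZMod p)ˣ) : ZMod p).val = 1 + p * k := by
  have h1 : (((c : ZMod p).val * ((c⁻¹ : (ZMod p)ˣ) : ZMod p).val : ℕ) : ZMod p) = ((1 : ℕ) : ZMod p) := by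
    push_cast
    rw [ZMod.natCast_val, ZMod.natCast_val, ZMod.cast_id', id]
    simp only [id]
    exact mul_inv_cancel₀ (Units.ne_zero c)
  have h2 := (ZMod.natCast_eq_natCast_iff' _ _ _).mp h1
  have hp1 : 1 < p := (Fact.out : p.Prime).one_lt
  rw [Nat.mod_eq_of_lt hp1] at h2
  refine ⟨(c : ZMod p).val * ((c⁻¹ : (ZMod p)ˣ) : ZMod p).val / p, ?_⟩
  have := Nat.div_add_mod ((c : ZMod p).val * ((c⁻¹ : (ZMod p)ˣ) : ZMod p).val) p
  omega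

theorem map_prod_eq_pow_sum {M G ι : Type*} [CommMonoid M] [Monoid G] (φ : M →* G) (g : G)
    (s : Finset ι) (f : ι → M) (n : ι → ℕ) (h : ∀ i ∈ s, φ (f i) = g ^ n i) :
    φ (∏ i ∈ s, f i) = g ^ ∑ i ∈ s, n i := by
  classical
  induction s using Finset.induction_on with
  | empty => simp
  | insert a s ha ih =>
    rw [Finset.prod_insert ha, Finset.sum_insert ha, map_mul, pow_add,
      h a (Finset.mem_insert_self a s), ih (fun i hi => h i (Finset.mem_insert_of_mem hi))]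

section Generic

variable {K L : Type*} [Field K] [Field L] [NumberField K] [NumberField L] [Algebra K L]
  [IsGalois K L]

/-- (L2) uniqueness of the Frobenius at an unramified prime. -/
theorem isFrob_unique (hunr : UnramifiedEverywhere K L) {σ σ' : Gal(L/K)} {𝔮 : Ideal (𝓞 K)}
    (h𝔮 : 𝔮.IsPrime) (h0 : 𝔮 ≠ ⊥)
    (h : IsFrob K L σ 𝔮) (h' : IsFrob K L σ' 𝔮) : σ = σ' := by
  haveI := h𝔮
  obtain ⟨𝔔, h𝔔p, h𝔔o⟩ : ∃ 𝔔 : Ideal (𝓞 L), 𝔔.IsPrime ∧ 𝔔.LiesOver 𝔮 :=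
    ⟨_, (inferInstance : Nonempty (Ideal.primesOver 𝔮 (𝓞 L))).some.2⟩
  have hu : 𝔔.under (𝓞 K) = 𝔮 := (Ideal.over_def 𝔔 𝔮).symm
  have h1 := (h 𝔔 h𝔔p hu).mul_inv_mem_inertia (h' 𝔔 h𝔔p hu)
  have hne : 𝔔 ≠ ⊥ := Ideal.ne_bot_of_liesOver_of_ne_bot h0 𝔔
  have hc : Nat.card (𝔔.inertia Gal(L/K)) = 1 := by
    rw [Ideal.card_inertia_eq_ramificationIdxIn 𝔮 𝔔,
      Ideal.ramificationIdxIn_eq_ramificationIdx 𝔮 𝔔 Gal(L/K)]
    exact hunr 𝔔 h𝔔p hne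
  have : (𝔔.inertia Gal(L/K)) = ⊥ := Subgroup.card_eq_one.mp hc
  rw [this, Subgroup.mem_bot] at h1
  exact mul_inv_eq_one.mp h1

/-- In a finite field in which every element satisfies `y ^ q = y` with `1 < q`, there are at
most `q` elements. -/
theorem card_le_of_forall_pow_eq {F : Type*} [Field F] [Finite F] {q : ℕ} (hq : 1 < q)
    (h : ∀ y : F, y ^ q = y) : Nat.card F ≤ q := by
  classical
  haveI := Fintype.ofFinite F
  have hne : (Polynomial.X ^ q - Polynomial.X : Polynomial F) ≠ 0 :=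
    FiniteField.X_pow_card_sub_X_ne_zero F hq
  have hsub : (Finset.univ : Finset F) ⊆ (Polynomial.X ^ q - Polynomial.X : Polynomial F).roots.toFinset := by
    intro y _
    rw [Multiset.mem_toFinset, Polynomial.mem_roots hne]
    simp [h y]
  calc Nat.card F = (Finset.univ : Finset F).card := by
        rw [Nat.card_eq_fintype_card, Finset.card_univ]
    _ ≤ (Polynomial.X ^ q - Polynomial.X : Polynomial F).roots.toFinset.card :=
        Finset.card_le_card hsub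
    _ ≤ (Polynomial.X ^ q - Polynomial.X : Polynomial F).roots.card := Multiset.toFinset_card_le _
    _ ≤ (Polynomial.X ^ q - Polynomial.X : Polynomial F).natDegree := Polynomial.card_roots' _
    _ = q := FiniteField.X_pow_card_sub_X_natDegree_eq F hq

/-- (L1) if the identity is a Frobenius at an unramified prime, the prime splits completely. -/
theorem splitsCompletely_of_isFrob_one (hunr : UnramifiedEverywhere K L) {𝔮 : Ideal (𝓞 K)}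
    (h𝔮 : 𝔮.IsPrime) (h0 : 𝔮 ≠ ⊥) (h : IsFrob K L 1 𝔮) : SplitsCompletely K L 𝔮 := by
  intro 𝔔 h𝔔p hu
  have h𝔔o : 𝔔.LiesOver 𝔮 := ⟨hu.symm⟩
  have hne : 𝔔 ≠ ⊥ := Ideal.ne_bot_of_liesOver_of_ne_bot h0 𝔔
  refine ⟨hunr 𝔔 h𝔔p hne, ?_⟩
  have hmax𝔮 : 𝔮.IsMaximal := h𝔮.isMaximal h0
  have hmax𝔔 : 𝔔.IsMaximal := h𝔔p.isMaximal hne
  rw [Ideal.inertiaDeg_eq_of_isMaximal 𝔮 𝔔]
  letI : Field (𝓞 K ⧸ 𝔮) := Ideal.Quotient.field 𝔮
  letI : Field (𝓞 L ⧸ 𝔔) := Ideal.Quotient.field 𝔔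
  have hfin𝔮 : Finite (𝓞 K ⧸ 𝔮) := Ideal.finiteQuotientOfFreeOfNeBot 𝔮 h0
  have hfin𝔔 : Finite (𝓞 L ⧸ 𝔔) := Ideal.finiteQuotientOfFreeOfNeBot 𝔔 hne
  have hF := h 𝔔 h𝔔p hu
  have hq1 : 1 < Nat.card (𝓞 K ⧸ 𝔮) := Finite.one_lt_card
  have hpow : ∀ y : 𝓞 L ⧸ 𝔔, y ^ Nat.card (𝓞 K ⧸ 𝔮) = y := by
    intro y
    obtain ⟨x, rfl⟩ := Ideal.Quotient.mk_surjective y
    have := hF.mk_apply x
    rw [hu] at this
    rw [← this]
    simp
  have hle := card_le_of_forall_pow_eq hq1 hpow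
  have hcard : Nat.card (𝓞 L ⧸ 𝔔) = Nat.card (𝓞 K ⧸ 𝔮) ^ Module.finrank (𝓞 K ⧸ 𝔮) (𝓞 L ⧸ 𝔔) :=
    Module.natCard_eq_pow_finrank
  have hpos : 0 < Module.finrank (𝓞 K ⧸ 𝔮) (𝓞 L ⧸ 𝔔) := Module.finrank_pos
  by_contra hne1
  have h2 : 2 ≤ Module.finrank (𝓞 K ⧸ 𝔮) (𝓞 L ⧸ 𝔔) := by omega
  have : Nat.card (𝓞 K ⧸ 𝔮) ^ 2 ≤ Nat.card (𝓞 K ⧸ 𝔮) := by
    calc Nat.card (𝓞 K ⧸ 𝔮) ^ 2 ≤ Nat.card (𝓞 K ⧸ 𝔮) ^ Module.finrank (𝓞 K ⧸ 𝔮) (𝓞 L ⧸ 𝔔) :=
          Nat.pow_le_pow_right (by omega) h2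
      _ = Nat.card (𝓞 L ⧸ 𝔔) := hcard.symm
      _ ≤ _ := hle
  nlinarith

theorem card_quotient_smul (σ : Gal(K/ℚ)) (𝔮 : Ideal (𝓞 K)) :
    Nat.card (𝓞 K ⧸ σ • 𝔮) = Nat.card (𝓞 K ⧸ 𝔮) := by
  refine (Nat.card_congr (Ideal.quotientEquiv 𝔮 (σ • 𝔮)
    (MulSemiringAction.toRingEquiv Gal(K/ℚ) (𝓞 K) σ) ?_).toEquiv).symm
  rw [Ideal.pointwise_smul_def]
  rfl

/-- (L3) transport of the Frobenius by a ring automorphism `t` of `L` inducing `σK` on `K`. -/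
theorem isFrob_conj {t : L ≃+* L} {σK : Gal(K/ℚ)}
    (ht : ∀ x : K, t (algebraMap K L x) = algebraMap K L (σK x))
    {s s' : Gal(L/K)} (hs' : ∀ x : L, s' x = t.symm (s (t x)))
    {𝔮 : Ideal (𝓞 K)} (h : IsFrob K L s 𝔮) : IsFrob K L s' (σK⁻¹ • 𝔮) := by
  intro 𝔔' h𝔔'p hu'
  set tO : 𝓞 L ≃+* 𝓞 L := RingOfIntegers.mapRingEquiv t with htO
  set 𝔔 : Ideal (𝓞 L) := Ideal.comap (tO.symm : 𝓞 L →+* 𝓞 L) 𝔔' with h𝔔
  have h𝔔p : 𝔔.IsPrime := Ideal.comap_isPrime _ _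
  have hsymm : ∀ x : 𝓞 K, tO.symm (algebraMap (𝓞 K) (𝓞 L) x) =
      algebraMap (𝓞 K) (𝓞 L) (σK⁻¹ • x) := by
    intro x
    apply RingOfIntegers.ext
    rw [RingOfIntegers.mapRingEquiv_symm_apply]
    rw [RingEquiv.symm_apply_eq]
    have := ht ((σK⁻¹ • x : 𝓞 K) : K)
    have e1 : ((algebraMap (𝓞 K) (𝓞 L) x : 𝓞 L) : L) = algebraMap K L (x : K) := rfl
    have e2 : ((algebraMap (𝓞 K) (𝓞 L) (σK⁻¹ • x) : 𝓞 L) : L)
        = algebraMap K L ((σK⁻¹ • x : 𝓞 K) : K) := rfl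
    have e3 : σK ((σK⁻¹ • x : 𝓞 K) : K) = (x : K) := by
      change σK (σK⁻¹ • (x : K)) = _
      exact AlgEquiv.apply_symm_apply σK _
    rw [e1, e2, this, e3]
  have hu : 𝔔.under (𝓞 K) = 𝔮 := by
    ext x
    rw [Ideal.under_def, Ideal.mem_comap, h𝔔, Ideal.mem_comap]
    change tO.symm (algebraMap (𝓞 K) (𝓞 L) x) ∈ 𝔔' ↔ _
    rw [hsymm, ← Ideal.mem_comap, ← Ideal.under_def, hu',
      Ideal.smul_mem_pointwise_smul_iff]
  have hF := h 𝔔 h𝔔p hu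
  intro y
  have h1 := hF (tO y)
  rw [h𝔔, Ideal.mem_comap] at h1
  have hN : Nat.card (𝓞 K ⧸ 𝔔'.under (𝓞 K)) = Nat.card (𝓞 K ⧸ 𝔔.under (𝓞 K)) := by
    rw [hu, hu', card_quotient_smul]
  rw [hN]
  convert h1 using 1
  simp only [map_sub, map_pow, RingEquiv.coe_toRingHom, RingEquiv.symm_apply_apply]
  congr 1
  apply RingOfIntegers.ext
  rw [RingOfIntegers.mapRingEquiv_symm_apply]
  change s' (y : L) = t.symm (s (t (y : L)))
  exact hs' _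

theorem smul_isPrime (σ : Gal(K/ℚ)) {𝔮 : Ideal (𝓞 K)} (h : 𝔮.IsPrime) : (σ • 𝔮).IsPrime := by
  rw [Ideal.pointwise_smul_eq_comap]
  exact Ideal.comap_isPrime _ _

theorem smul_ne_bot (σ : Gal(K/ℚ)) {𝔮 : Ideal (𝓞 K)} (h : 𝔮 ≠ ⊥) : σ • 𝔮 ≠ ⊥ := by
  intro h0
  apply h
  have : σ⁻¹ • (σ • 𝔮) = σ⁻¹ • (⊥ : Ideal (𝓞 K)) := by rw [h0]
  rw [inv_smul_smul] at this
  rw [this, Ideal.pointwise_smul_def, Ideal.map_bot]

end Generic

section Main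

variable {p : ℕ} [Fact p.Prime]
  {K L : Type*} [Field K] [Field L] [NumberField K] [NumberField L] [Algebra K L]
  [IsGalois K L]

/-- THE CORE: an everywhere unramified Galois extension `L` of degree `p` of `K = ℚ(ζ_p)` on which
`Gal(K/ℚ)` acts through the inverse of the cyclotomic character does not exist, given Artin
reciprocity (`REC`), the existence of non-split primes of degree one (`DENS`) and the
factorisation of Jacobi sums (`JAC`). -/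
theorem core (hp2 : p ≠ 2)
    (hdeg : Module.finrank K L = p) (hunr : UnramifiedEverywhere K L)
    (σ : (ZMod p)ˣ → Gal(K/ℚ))
    (hconj : ∀ c : (ZMod p)ˣ, ∃ τ : L ≃+* L,
      (∀ x : K, τ (algebraMap K L x) = algebraMap K L (σ c x)) ∧
      ∀ (s : Gal(L/K)) (x : L),
        τ (s (τ.symm x)) = (s ^ (((c⁻¹ : (ZMod p)ˣ) : ZMod p).val)) x)
    (REC : ∃ φ : ClassGroup (𝓞 K) →* Gal(L/K), IsArtinMap K L φ)
    (DENS : ∀ S : Finset (Ideal (𝓞 K)),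
      ∃ 𝔮 : Ideal (𝓞 K), 𝔮.IsPrime ∧ 𝔮 ≠ ⊥ ∧ 𝔮 ∉ S ∧ (Ideal.absNorm 𝔮).Prime ∧
        (∀ 𝔔 : Ideal (𝓞 L), 𝔔.IsPrime → 𝔔.under (𝓞 K) = 𝔮 → 𝔔.ramificationIdx (𝓞 K) = 1) ∧
        ¬ SplitsCompletely K L 𝔮)
    (JAC : ∀ (𝔮 : (Ideal (𝓞 K))⁰), (𝔮 : Ideal (𝓞 K)).IsPrime →
      (Ideal.absNorm (𝔮 : Ideal (𝓞 K))).Prime → Ideal.absNorm (𝔮 : Ideal (𝓞 K)) ≠ p →
      ∀ τ : (ZMod p)ˣ → (Ideal (𝓞 K))⁰,
        (∀ c, (τ c : Ideal (𝓞 K)) = (σ c)⁻¹ • (𝔮 : Ideal (𝓞 K))) →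
        ∏ c ∈ Stickelberger.exponentSet p,
          ClassGroup.mk0 (τ (Stickelberger.expUnit p c)) = 1) : False := by
  have hp : p.Prime := Fact.out
  obtain ⟨φ, hφ⟩ := REC
  obtain ⟨𝔮, h𝔮p, h𝔮0, h𝔮S, h𝔮deg, -, h𝔮ns⟩ :=
    DENS (Ideal.finite_setOfPred_absNorm_eq (S := 𝓞 K) p).toFinset
  have hqp : Ideal.absNorm 𝔮 ≠ p := by
    intro h
    apply h𝔮S
    rw [Set.Finite.mem_toFinset]
    exact h
  have hmem : 𝔮 ∈ (Ideal (𝓞 K))⁰ := mem_nonZeroDivisors_of_ne_zero h𝔮0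
  set 𝔮' : (Ideal (𝓞 K))⁰ := ⟨𝔮, hmem⟩ with h𝔮'
  set s₀ : Gal(L/K) := φ (ClassGroup.mk0 𝔮') with hs₀
  have hF₀ : IsFrob K L s₀ 𝔮 := hφ 𝔮' h𝔮p
  -- the group has order `p`
  have hcard : Nat.card Gal(L/K) = p := by
    rw [IsGalois.card_aut_eq_finrank, hdeg]
  have hpow : ∀ s : Gal(L/K), s ^ p = 1 := by
    intro s
    rw [← hcard]
    exact pow_card_eq_one'
  -- the conjugates
  have hmemc : ∀ c : (ZMod p)ˣ, (σ c)⁻¹ • 𝔮 ∈ (Ideal (𝓞 K))⁰ :=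
    fun c => mem_nonZeroDivisors_of_ne_zero (smul_ne_bot _ h𝔮0)
  set τI : (ZMod p)ˣ → (Ideal (𝓞 K))⁰ := fun c => ⟨(σ c)⁻¹ • 𝔮, hmemc c⟩ with hτI
  have hτ : ∀ c, (τI c : Ideal (𝓞 K)) = (σ c)⁻¹ • ((𝔮' : (Ideal (𝓞 K))⁰) : Ideal (𝓞 K)) :=
    fun c => rfl
  have hval : ∀ c : (ZMod p)ˣ, φ (ClassGroup.mk0 (τI c)) = s₀ ^ (c : ZMod p).val := by
    intro c
    obtain ⟨t, ht, hts⟩ := hconj c
    have hprime : ((τI c : (Ideal (𝓞 K))⁰) : Ideal (𝓞 K)).IsPrime := smul_isPrime _ h𝔮p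
    have h1 : IsFrob K L (φ (ClassGroup.mk0 (τI c))) ((σ c)⁻¹ • 𝔮) := hφ (τI c) hprime
    have h2 : IsFrob K L (s₀ ^ (c : ZMod p).val) ((σ c)⁻¹ • 𝔮) := by
      refine isFrob_conj ht ?_ hF₀
      intro x
      have h3 := hts (s₀ ^ (c : ZMod p).val) (t x)
      rw [RingEquiv.symm_apply_apply, ← pow_mul] at h3
      obtain ⟨k, hk⟩ := val_mul_val_inv c
      rw [hk, pow_add, pow_mul, hpow, one_pow, mul_one, pow_one] at h3
      rw [RingEquiv.eq_symm_apply]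
      exact h3
    exact isFrob_unique hunr (smul_isPrime _ h𝔮p) (smul_ne_bot _ h𝔮0) h1 h2
  have hJ := JAC 𝔮' h𝔮p h𝔮deg hqp τI hτ
  have hE : s₀ ^ Stickelberger.eigenvalueScalar p = 1 := by
    have h1 := map_prod_eq_pow_sum φ s₀ (Stickelberger.exponentSet p)
      (fun c => ClassGroup.mk0 (τI (Stickelberger.expUnit p c))) (fun c => c)
      (fun c hc => by rw [hval, val_expUnit hp hc])
    rw [hJ, map_one] at h1
    exact h1.symm
  have hs1 : s₀ = 1 := by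
    have hcop : Nat.Coprime p (Stickelberger.eigenvalueScalar p) :=
      (Nat.Prime.coprime_iff_not_dvd hp).mpr (not_dvd_eigenvalueScalar hp hp2)
    have h1 : orderOf s₀ ∣ p := orderOf_dvd_of_pow_eq_one (hpow s₀)
    have h2 : orderOf s₀ ∣ Stickelberger.eigenvalueScalar p := orderOf_dvd_of_pow_eq_one hE
    have h3 : orderOf s₀ ∣ 1 := by
      rw [← Nat.Coprime.gcd_eq_one hcop]
      exact Nat.dvd_gcd h1 h2
    exact orderOf_eq_one_iff.mp (Nat.dvd_one.mp h3)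
  rw [hs1] at hF₀
  exact h𝔮ns (splitsCompletely_of_isFrob_one hunr h𝔮p h𝔮0 hF₀)

end Main

end Fermat.Agent.S14.Core
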