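import Mathlib

/-!
# Artin's lemma for prime degree

For an odd prime `p`, an integer `a ≥ 2` and a bound `B` there is a prime `r > B`, `r ∤ a`,
`r ≠ p`, such that the order of `a` in `(ℤ/r)ˣ` is a power `p ^ (k + 1)` of `p` (in particular
divisible by `p`).  This is the elementary number theoretic input of the crossing argument in the
proof of Artin reciprocity for cyclic extensions of prime degree `p`: the Frobenius of a prime
`Q` of norm `a` in `K(ζ_r)/K` has order divisible by `p`.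

The prime `r` is any prime factor different from `p` of
`T = 1 + x + ⋯ + x ^ (p - 1)`, `x = a ^ (p ^ k)`; it exists because `T > p` and `p ^ 2 ∤ T`.
-/

namespace Fermat.Agent.S14.ArtinLemma

open Finset

/-- For an odd prime `p`, the geometric sum `1 + x + ⋯ + x ^ (p - 1)` is not divisible
by `p ^ 2`. -/
theorem not_sq_dvd_geom_sum {p : ℕ} (hp : p.Prime) (hp2 : p ≠ 2) (x : ℤ) :
    ¬ (p : ℤ) ^ 2 ∣ ∑ i ∈ range p, x ^ i := by
  intro h
  have hpZ : Prime (p : ℤ) := Nat.prime_iff_prime_int.mp hp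
  have hodd : Odd p := hp.odd_of_ne_two hp2
  have hpT : (p : ℤ) ∣ ∑ i ∈ range p, x ^ i := dvd_trans (dvd_pow_self _ two_ne_zero) h
  have hmul : (∑ i ∈ range p, x ^ i) * (x - 1) = x ^ p - 1 := geom_sum_mul x p
  have hxp : (p : ℤ) ∣ x ^ p - 1 := hmul ▸ dvd_mul_of_dvd_left hpT _
  -- `x ^ p ≡ x mod p`
  have hfer : (p : ℤ) ∣ x ^ p - x := by
    have : Fact p.Prime := ⟨hp⟩
    rw [← ZMod.intCast_zmod_eq_zero_iff_dvd]
    push_cast
    rw [ZMod.pow_card, sub_self]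
  have hx1 : (p : ℤ) ∣ x - 1 := by
    have : x - 1 = (x ^ p - 1) - (x ^ p - x) := by ring
    rw [this]
    exact dvd_sub hxp hfer
  have hx : ¬ (p : ℤ) ∣ x := by
    intro hd
    have h1 : (p : ℤ) ∣ 1 := by
      have : (1 : ℤ) = x - (x - 1) := by ring
      rw [this]
      exact dvd_sub hd hx1
    exact hpZ.not_dvd_one h1
  have key := emultiplicity_geom_sum₂_eq_one (R := ℤ) (p := p) (x := x) (y := 1) hpZ hodd hx1 hx
  simp only [one_pow, mul_one] at key
  have h2 : emultiplicity (p : ℤ) (∑ i ∈ range p, x ^ i) < 2 := by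
    rw [key]
    norm_num
  have := (emultiplicity_lt_iff_not_dvd (a := (p : ℤ)) (b := ∑ i ∈ range p, x ^ i) (k := 2)).mp
    (by exact_mod_cast h2)
  exact this h

/-- The natural number version. -/
theorem not_sq_dvd_geom_sum_nat {p : ℕ} (hp : p.Prime) (hp2 : p ≠ 2) (x : ℕ) :
    ¬ p ^ 2 ∣ ∑ i ∈ range p, x ^ i := by
  intro h
  apply not_sq_dvd_geom_sum hp hp2 (x : ℤ)
  have := Int.natCast_dvd_natCast.mpr h
  push_cast at this
  exact this

/-- `p < 1 + x + ⋯ + x ^ (p - 1)` for `x ≥ 2`, `p ≥ 2`. -/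
theorem lt_geom_sum {p : ℕ} (hp : 2 ≤ p) {x : ℕ} (hx : 2 ≤ x) :
    p < ∑ i ∈ range p, x ^ i := by
  obtain ⟨m, rfl⟩ : ∃ m, p = m + 2 := ⟨p - 2, by omega⟩
  rw [Finset.sum_range_succ]
  have h1 : 1 ≤ ∑ i ∈ range (m + 1), x ^ i := by
    have : x ^ 0 ≤ ∑ i ∈ range (m + 1), x ^ i :=
      Finset.single_le_sum (f := fun i => x ^ i) (fun _ _ => Nat.zero_le _)
        (Finset.mem_range.mpr (Nat.succ_pos m))
    simpa using this
  have h2 : m + 1 < x ^ (m + 1) :=
    lt_of_lt_of_le (Nat.lt_two_pow_self) (Nat.pow_le_pow_left hx _)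
  omega

/-- The geometric sum has a prime factor different from `p`. -/
theorem exists_prime_dvd_geom_sum {p : ℕ} (hp : p.Prime) (hp2 : p ≠ 2) {x : ℕ} (hx : 2 ≤ x) :
    ∃ r : ℕ, r.Prime ∧ r ≠ p ∧ r ∣ ∑ i ∈ range p, x ^ i := by
  set T := ∑ i ∈ range p, x ^ i with hT
  have hlt : p < T := lt_geom_sum hp.two_le hx
  by_cases hpT : p ∣ T
  · obtain ⟨T', hT'⟩ := hpT
    have hnd : ¬ p ∣ T' := by
      rintro ⟨c, rfl⟩
      apply not_sq_dvd_geom_sum_nat hp hp2 x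
      rw [← hT, hT']
      exact ⟨c, by ring⟩
    have hne1 : T' ≠ 1 := by
      rintro rfl
      omega
    obtain ⟨r, hr, hrd⟩ := Nat.exists_prime_and_dvd hne1
    refine ⟨r, hr, ?_, ?_⟩
    · rintro rfl
      exact hnd hrd
    · rw [hT']
      exact dvd_mul_of_dvd_right hrd _
  · have hne1 : T ≠ 1 := by
      have := hp.two_le
      omega
    obtain ⟨r, hr, hrd⟩ := Nat.exists_prime_and_dvd hne1
    refine ⟨r, hr, ?_, hrd⟩
    rintro rfl
    exact hpT hrd

/-- **Artin's lemma, prime degree, exact form**: for an odd prime `p`, `a ≥ 2` and every `k`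
there is a prime `r ≠ p`, `r ∤ a`, such that `a` has order exactly `p ^ (k + 1)` modulo `r`. -/
theorem exists_prime_orderOf_eq {p : ℕ} (hp : p.Prime) (hp2 : p ≠ 2) {a : ℕ} (ha : 2 ≤ a)
    (k : ℕ) :
    ∃ r : ℕ, r.Prime ∧ r ≠ p ∧ ¬ r ∣ a ∧ orderOf ((a : ZMod r)) = p ^ (k + 1) := by
  have hx : 2 ≤ a ^ p ^ k := by
    calc 2 ≤ a := ha
      _ = a ^ 1 := (pow_one a).symm
      _ ≤ a ^ p ^ k := Nat.pow_le_pow_right (by omega) (Nat.one_le_pow _ _ hp.pos)
  obtain ⟨r, hr, hrp, hrT⟩ := exists_prime_dvd_geom_sum hp hp2 hx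
  have : Fact r.Prime := ⟨hr⟩
  have : Fact p.Prime := ⟨hp⟩
  have hT0 : ∑ i ∈ range p, ((a : ZMod r) ^ p ^ k) ^ i = 0 := by
    have := (ZMod.natCast_eq_zero_iff _ r).mpr hrT
    push_cast at this
    exact this
  have hmul := geom_sum_mul ((a : ZMod r) ^ p ^ k) p
  rw [hT0, zero_mul] at hmul
  have hpow : (a : ZMod r) ^ p ^ (k + 1) = 1 := by
    rw [pow_succ, pow_mul]
    exact (sub_eq_zero.mp hmul.symm)
  have hnot : ¬ (a : ZMod r) ^ p ^ k = 1 := by
    intro h1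
    rw [h1] at hT0
    simp only [one_pow, sum_const, card_range, nsmul_eq_mul, mul_one] at hT0
    have hd : r ∣ p := (ZMod.natCast_eq_zero_iff _ r).mp hT0
    exact hrp ((Nat.prime_dvd_prime_iff_eq hr hp).mp hd)
  refine ⟨r, hr, hrp, ?_, orderOf_eq_prime_pow hnot hpow⟩
  intro hd
  have h0 : (a : ZMod r) = 0 := (ZMod.natCast_eq_zero_iff _ r).mpr hd
  rw [h0, zero_pow (pow_ne_zero _ hp.ne_zero)] at hpow
  exact zero_ne_one hpow

/-- **Artin's lemma, prime degree**: for an odd prime `p`, `a ≥ 2` and every bound `B` there is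
a prime `r > B`, `r ≠ p`, `r ∤ a`, such that the order of `a` modulo `r` is divisible by `p`. -/
theorem exists_prime_dvd_orderOf {p : ℕ} (hp : p.Prime) (hp2 : p ≠ 2) {a : ℕ} (ha : 2 ≤ a)
    (B : ℕ) :
    ∃ r : ℕ, r.Prime ∧ B < r ∧ r ≠ p ∧ ¬ r ∣ a ∧ p ∣ orderOf ((a : ZMod r)) := by
  obtain ⟨r, hr, hrp, hra, hord⟩ := exists_prime_orderOf_eq hp hp2 ha B
  have : Fact r.Prime := ⟨hr⟩
  refine ⟨r, hr, ?_, hrp, hra, ?_⟩
  · have hne : (a : ZMod r) ≠ 0 := fun h => hra ((ZMod.natCast_eq_zero_iff _ r).mp h)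
    have hdvd : p ^ (B + 1) ∣ r - 1 := hord ▸ ZMod.orderOf_dvd_card_sub_one hne
    have hle : p ^ (B + 1) ≤ r - 1 := Nat.le_of_dvd (by have := hr.two_le; omega) hdvd
    have hB : B + 1 < p ^ (B + 1) := Nat.lt_pow_self hp.one_lt
    omega
  · rw [hord]
    exact dvd_pow_self p (Nat.succ_ne_zero B)

/-- The unit form of Artin's lemma: the class of `a` is a unit `u` of `ZMod r` whose order is
divisible by `p`. -/
theorem exists_prime_unit {p : ℕ} (hp : p.Prime) (hp2 : p ≠ 2) {a : ℕ} (ha : 2 ≤ a)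
    (B : ℕ) :
    ∃ r : ℕ, r.Prime ∧ B < r ∧ r ≠ p ∧ ¬ r ∣ a ∧
      ∃ u : (ZMod r)ˣ, (u : ZMod r) = (a : ZMod r) ∧ p ∣ orderOf u := by
  obtain ⟨r, hr, hB, hrp, hra, hord⟩ := exists_prime_dvd_orderOf hp hp2 ha B
  have : Fact r.Prime := ⟨hr⟩
  have hne : (a : ZMod r) ≠ 0 := fun h => hra ((ZMod.natCast_eq_zero_iff _ r).mp h)
  refine ⟨r, hr, hB, hrp, hra, Units.mk0 _ hne, rfl, ?_⟩
  rw [← orderOf_units, Units.val_mk0]
  exact hord

/-- Consequence used in the crossing argument: in `G × (ZMod r)ˣ` with `s : G` of order `p`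
(more generally `s ^ p = 1`), the cyclic subgroup generated by `(s, u)` meets `G × 1` trivially
as soon as `p ∣ orderOf u`. -/
theorem zpowers_prod_inf_eq_bot {G H : Type*} [Group G] [Group H] {p : ℕ} {s : G} {u : H}
    (hs : s ^ p = 1) (hu : p ∣ orderOf u) {g : G}
    (h : ((g, (1 : H)) : G × H) ∈ Subgroup.zpowers ((s, u) : G × H)) : g = 1 := by
  obtain ⟨k, hk⟩ := Subgroup.mem_zpowers_iff.mp h
  have h1 : s ^ k = g := congrArg Prod.fst hk
  have h2 : u ^ k = 1 := congrArg Prod.snd hk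
  have hd : (orderOf u : ℤ) ∣ k := orderOf_dvd_iff_zpow_eq_one.mpr h2
  obtain ⟨c, hc⟩ := dvd_trans (Int.natCast_dvd_natCast.mpr hu) hd
  rw [← h1, hc, zpow_mul, zpow_natCast, hs, one_zpow]

/-- Consequence used in the crossing argument: if `s` generates `G` then the cyclic subgroup
generated by `(s, u)` projects onto `G`. -/
theorem exists_mem_zpowers_prod {G H : Type*} [Group G] [Group H] {s : G} {u : H}
    (hs : ∀ g : G, g ∈ Subgroup.zpowers s) (g : G) :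
    ∃ h : H, ((g, h) : G × H) ∈ Subgroup.zpowers ((s, u) : G × H) := by
  obtain ⟨k, hk⟩ := Subgroup.mem_zpowers_iff.mp (hs g)
  refine ⟨u ^ k, Subgroup.mem_zpowers_iff.mpr ⟨k, ?_⟩⟩
  rw [Prod.ext_iff]
  exact ⟨hk, rfl⟩

end Fermat.Agent.S14.ArtinLemma
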