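import Mathlib
import Fermat.Agent.S14.Defs
import Fermat.Agent.S14.Frob

/-!
# S14: the norm map on class groups (C12)

* `exists_hom_of_principal` : a monoid homomorphism on the nonzero ideals of a Dedekind domain
  which kills the principal ideals factors through the class group;
* `classNorm K E : ClassGroup (𝓞 E) →* ClassGroup (𝓞 K)` : the map induced by the relative norm of
  ideals; `classNorm_mk0`, `classNorm_mk0_prime` (`N [Q] = [Q ∩ K] ^ f(Q | Q ∩ K)`);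
* `map_normClasses_le` : for towers `K ⊆ L ⊆ F`, `K ⊆ E ⊆ F` with `L / K` Galois of prime degree
  `p` and unramified, the norm maps `normClasses E F p` into `normClasses K L p`.
-/

set_option autoImplicit false
set_option linter.unusedSectionVars false
set_option linter.style.haveILetI false

namespace Fermat.Agent.S14.ClassNorm

open NumberField nonZeroDivisors
open scoped Pointwise

/-! ### Descent to the class group -/

section Descent

variable {R : Type*} [CommRing R] [IsDedekindDomain R] {G : Type*} [CommGroup G]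

theorem span_singleton_mem_nonZeroDivisors {x : R} (hx : x ≠ 0) :
    Ideal.span {x} ∈ (Ideal R)⁰ :=
  mem_nonZeroDivisors_of_ne_zero (by simpa using hx)

/-- A monoid homomorphism on the nonzero ideals which kills the principal ideals takes the same
value on equivalent ideals. -/
theorem eq_of_mk0_eq (φ : (Ideal R)⁰ →* G)
    (h : ∀ (x : R) (hx : x ≠ 0), φ ⟨Ideal.span {x}, span_singleton_mem_nonZeroDivisors hx⟩ = 1)
    {I J : (Ideal R)⁰} (hIJ : ClassGroup.mk0 I = ClassGroup.mk0 J) : φ I = φ J := by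
  obtain ⟨x, y, hx, hy, hxy⟩ := ClassGroup.mk0_eq_mk0_iff.mp hIJ
  have h1 : (⟨Ideal.span {x}, span_singleton_mem_nonZeroDivisors hx⟩ : (Ideal R)⁰) * I =
      ⟨Ideal.span {y}, span_singleton_mem_nonZeroDivisors hy⟩ * J := Subtype.ext hxy
  have h2 := congrArg φ h1
  rwa [map_mul, map_mul, h x hx, h y hy, one_mul, one_mul] at h2

/-- A monoid homomorphism on the nonzero ideals which kills the principal ideals factors through
the class group. -/
theorem exists_hom_of_principal (φ : (Ideal R)⁰ →* G)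
    (h : ∀ (x : R) (hx : x ≠ 0), φ ⟨Ideal.span {x}, span_singleton_mem_nonZeroDivisors hx⟩ = 1) :
    ∃ ψ : ClassGroup R →* G, ∀ I : (Ideal R)⁰, ψ (ClassGroup.mk0 I) = φ I := by
  have hsurj := ClassGroup.mk0_surjective (R := R)
  have key : ∀ I : (Ideal R)⁰, φ (Classical.choose (hsurj (ClassGroup.mk0 I))) = φ I :=
    fun I => eq_of_mk0_eq φ h (Classical.choose_spec (hsurj (ClassGroup.mk0 I)))
  refine ⟨MonoidHom.mk' (fun c => φ (Classical.choose (hsurj c))) ?_, key⟩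
  intro a b
  obtain ⟨I, rfl⟩ := hsurj a
  obtain ⟨J, rfl⟩ := hsurj b
  show φ (Classical.choose (hsurj (ClassGroup.mk0 I * ClassGroup.mk0 J))) = _
  rw [← map_mul, key, key, key, map_mul]

end Descent

/-! ### The norm on class groups -/

section Norm

variable (K E : Type*) [Field K] [Field E] [NumberField K] [NumberField E] [Algebra K E]

/-- The relative norm as a monoid homomorphism on nonzero ideals. -/
noncomputable def relNorm0 : (Ideal (𝓞 E))⁰ →* (Ideal (𝓞 K))⁰ where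
  toFun I := ⟨Ideal.relNorm (𝓞 K) (I : Ideal (𝓞 E)), mem_nonZeroDivisors_of_ne_zero (by
    rw [Ne, Ideal.zero_eq_bot, Ideal.relNorm_eq_bot_iff]
    exact nonZeroDivisors.coe_ne_zero I)⟩
  map_one' := Subtype.ext (by simp)
  map_mul' I J := Subtype.ext (by simp)

@[simp]
theorem coe_relNorm0 (I : (Ideal (𝓞 E))⁰) :
    (relNorm0 K E I : Ideal (𝓞 K)) = Ideal.relNorm (𝓞 K) (I : Ideal (𝓞 E)) := rfl

theorem relNorm0_principal (x : 𝓞 E) (hx : x ≠ 0) :
    ClassGroup.mk0 (relNorm0 K E ⟨Ideal.span {x}, span_singleton_mem_nonZeroDivisors hx⟩) = 1 := by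
  generalize hT : relNorm0 K E ⟨Ideal.span {x}, span_singleton_mem_nonZeroDivisors hx⟩ = T
  have hT' : (T : Ideal (𝓞 K)) = Ideal.span {Algebra.intNorm (𝓞 K) (𝓞 E) x} := by
    rw [← hT, coe_relNorm0, Ideal.relNorm_singleton]
  obtain ⟨T, hTmem⟩ := T
  rw [ClassGroup.mk0_eq_one_iff hTmem]
  simp only at hT'
  rw [hT']
  exact ⟨⟨_, rfl⟩⟩

/-- **The norm map on class groups**, induced by the relative norm of ideals. -/
noncomputable def classNorm : ClassGroup (𝓞 E) →* ClassGroup (𝓞 K) :=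
  Classical.choose (exists_hom_of_principal (ClassGroup.mk0.comp (relNorm0 K E))
    (fun x hx => relNorm0_principal K E x hx))

theorem classNorm_mk0 (I : (Ideal (𝓞 E))⁰) :
    classNorm K E (ClassGroup.mk0 I) = ClassGroup.mk0 (relNorm0 K E I) :=
  Classical.choose_spec (exists_hom_of_principal (ClassGroup.mk0.comp (relNorm0 K E))
    (fun x hx => relNorm0_principal K E x hx)) I

variable {K E}

/-- The norm of the class of a prime `Q` is `[Q ∩ K] ^ f(Q | Q ∩ K)`. -/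
theorem classNorm_mk0_prime (Q : (Ideal (𝓞 E))⁰) (hQ : (Q : Ideal (𝓞 E)).IsPrime)
    (q : (Ideal (𝓞 K))⁰) (hq : (Q : Ideal (𝓞 E)).under (𝓞 K) = (q : Ideal (𝓞 K))) :
    classNorm K E (ClassGroup.mk0 Q) =
      ClassGroup.mk0 q ^ (Q : Ideal (𝓞 E)).inertiaDeg (𝓞 K) := by
  have hQ0 : (Q : Ideal (𝓞 E)) ≠ ⊥ := nonZeroDivisors.coe_ne_zero Q
  have hq0 : (q : Ideal (𝓞 K)) ≠ ⊥ := nonZeroDivisors.coe_ne_zero q
  haveI : (Q : Ideal (𝓞 E)).IsMaximal := hQ.isMaximal hQ0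
  haveI hqprime : (q : Ideal (𝓞 K)).IsPrime := hq ▸ Ideal.IsPrime.under (𝓞 K) (Q : Ideal (𝓞 E))
  haveI : (q : Ideal (𝓞 K)).IsMaximal := hqprime.isMaximal hq0
  haveI : (Q : Ideal (𝓞 E)).LiesOver (q : Ideal (𝓞 K)) := ⟨hq.symm⟩
  rw [classNorm_mk0, ← map_pow]
  congr 1
  apply Subtype.ext
  rw [coe_relNorm0, SubmonoidClass.coe_pow,
    Ideal.relNorm_eq_pow_of_isMaximal (Q : Ideal (𝓞 E)) (q : Ideal (𝓞 K))]

end Norm

/-! ### Primes above and below (no Galois hypothesis) -/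

section Under

variable {K E : Type*} [Field K] [Field E] [NumberField K] [NumberField E] [Algebra K E]

theorem under_ne_bot {Q : Ideal (𝓞 E)} (h : Q ≠ ⊥) : Q.under (𝓞 K) ≠ ⊥ := by
  intro h0
  exact h (Ideal.eq_bot_of_comap_eq_bot (R := 𝓞 K) h0)

theorem ne_bot_of_under_ne_bot {Q : Ideal (𝓞 E)} (h : Q.under (𝓞 K) ≠ ⊥) : Q ≠ ⊥ := by
  rintro rfl
  apply h
  rw [Ideal.under_def, Ideal.comap_bot_of_injective _
    (FaithfulSMul.algebraMap_injective (𝓞 K) (𝓞 E))]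

theorem exists_prime_over (q : Ideal (𝓞 K)) [hq : q.IsPrime] :
    ∃ Q : Ideal (𝓞 E), Q.IsPrime ∧ Q.under (𝓞 K) = q := by
  obtain ⟨⟨Q, h1, h2⟩⟩ := (inferInstance : Nonempty (Ideal.primesOver q (𝓞 E)))
  exact ⟨Q, h1, h2.over.symm⟩

end Under

/-! ### The norm maps `normClasses` into `normClasses` -/

section Tower

variable {K L E F : Type*} [Field K] [Field L] [Field E] [Field F]
  [NumberField K] [NumberField L] [NumberField E] [NumberField F]
  [Algebra K L] [Algebra K E] [Algebra L F] [Algebra E F] [Algebra K F]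
  [IsScalarTower K L F] [IsScalarTower K E F] [IsGalois K L]

/-- In a Galois extension of prime degree, the residue degree of an unramified prime is `1`
or `p`. -/
theorem inertiaDeg_eq_one_or {p : ℕ} (hp : p.Prime) (hdeg : Module.finrank K L = p)
    {𝔮 : Ideal (𝓞 L)} [h𝔮 : 𝔮.IsPrime] (he : 𝔮.ramificationIdx (𝓞 K) = 1) :
    𝔮.inertiaDeg (𝓞 K) = 1 ∨ 𝔮.inertiaDeg (𝓞 K) = p := by
  have h1 := Frob.card_stabilizer (K := K) (L := L) he
  have h2 : Nat.card (MulAction.stabilizer Gal(L/K) 𝔮) ∣ Nat.card Gal(L/K) :=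
    Subgroup.card_subgroup_dvd_card _
  rw [h1, IsGalois.card_aut_eq_finrank, hdeg] at h2
  exact (Nat.dvd_prime hp).mp h2

/-- All primes above a given prime of `K` have the same residue degree (Galois case). -/
theorem inertiaDeg_eq_of_under_eq {𝔮 𝔮' : Ideal (𝓞 L)} [𝔮.IsPrime] [𝔮'.IsPrime]
    (h : 𝔮.under (𝓞 K) = 𝔮'.under (𝓞 K)) : 𝔮.inertiaDeg (𝓞 K) = 𝔮'.inertiaDeg (𝓞 K) := by
  obtain ⟨τ, rfl⟩ := Frob.exists_smul_eq (K := K) (L := L) h
  exact (Ideal.inertiaDeg_smul (𝓞 K) 𝔮 τ).symm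

/-- If the prime `Q` of `E` splits completely in `F`, then either `p` divides the residue degree
of `Q` over `K`, or the prime of `K` below `Q` splits completely in `L`. -/
theorem dvd_inertiaDeg_or_splitsCompletely {p : ℕ} (hp : p.Prime)
    (hdeg : Module.finrank K L = p) (hunr : UnramifiedEverywhere K L)
    {Q : Ideal (𝓞 E)} (hQ : Q.IsPrime) (hQ0 : Q ≠ ⊥) (hsplit : SplitsCompletely E F Q) :
    p ∣ Q.inertiaDeg (𝓞 K) ∨ SplitsCompletely K L (Q.under (𝓞 K)) := by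
  haveI := hQ
  obtain ⟨𝔔, h𝔔, h𝔔Q⟩ := exists_prime_over (K := E) (E := F) Q
  haveI := h𝔔
  haveI : 𝔔.LiesOver Q := ⟨h𝔔Q.symm⟩
  have hfE : 𝔔.inertiaDeg (𝓞 E) = 1 := (hsplit 𝔔 h𝔔 h𝔔Q).2
  -- the prime of `L` below `𝔔`
  set 𝔮 : Ideal (𝓞 L) := 𝔔.under (𝓞 L) with h𝔮
  haveI h𝔮prime : 𝔮.IsPrime := Ideal.IsPrime.under (𝓞 L) 𝔔
  haveI : 𝔔.LiesOver 𝔮 := ⟨rfl⟩
  have hf1 : 𝔔.inertiaDeg (𝓞 K) = Q.inertiaDeg (𝓞 K) * 𝔔.inertiaDeg (𝓞 E) :=
    Ideal.inertiaDeg_tower Q 𝔔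
  have hf2 : 𝔔.inertiaDeg (𝓞 K) = 𝔮.inertiaDeg (𝓞 K) * 𝔔.inertiaDeg (𝓞 L) :=
    Ideal.inertiaDeg_tower 𝔮 𝔔
  rw [hfE, mul_one] at hf1
  have hdvd : 𝔮.inertiaDeg (𝓞 K) ∣ Q.inertiaDeg (𝓞 K) := ⟨_, hf1 ▸ hf2⟩
  have hunder : 𝔮.under (𝓞 K) = Q.under (𝓞 K) := by
    rw [h𝔮, Ideal.under_under, ← h𝔔Q, Ideal.under_under]
  have hq0 : Q.under (𝓞 K) ≠ ⊥ := under_ne_bot hQ0
  have h𝔮0 : ∀ 𝔮' : Ideal (𝓞 L), 𝔮'.under (𝓞 K) = Q.under (𝓞 K) → 𝔮' ≠ ⊥ := by
    intro 𝔮' h'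
    exact ne_bot_of_under_ne_bot (K := K) (h' ▸ hq0)
  rcases inertiaDeg_eq_one_or (K := K) hp hdeg (hunr 𝔮 h𝔮prime (h𝔮0 𝔮 hunder)) with h1 | h1
  · right
    intro 𝔮' h𝔮' hunder'
    haveI := h𝔮'
    refine ⟨hunr 𝔮' h𝔮' (h𝔮0 𝔮' hunder'), ?_⟩
    rw [← inertiaDeg_eq_of_under_eq (K := K) (hunder.trans hunder'.symm), h1]
  · left
    rwa [h1] at hdvd

/-- **The norm maps the norm classes of `F / E` into the norm classes of `L / K`.** -/
theorem map_normClasses_le {p : ℕ} (hp : p.Prime) (hdeg : Module.finrank K L = p)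
    (hunr : UnramifiedEverywhere K L) :
    Subgroup.map (classNorm K E) (normClasses E F p) ≤ normClasses K L p := by
  rw [Subgroup.map_le_iff_le_comap, normClasses, Subgroup.closure_le]
  rintro c (⟨Q, hQ, hsplit, rfl⟩ | ⟨d, rfl⟩)
  · rw [SetLike.mem_coe, Subgroup.mem_comap]
    have hQ0 : (Q : Ideal (𝓞 E)) ≠ ⊥ := nonZeroDivisors.coe_ne_zero Q
    have hq0 : (Q : Ideal (𝓞 E)).under (𝓞 K) ≠ ⊥ := under_ne_bot hQ0
    set q : (Ideal (𝓞 K))⁰ := ⟨(Q : Ideal (𝓞 E)).under (𝓞 K),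
      mem_nonZeroDivisors_of_ne_zero hq0⟩ with hq
    rw [classNorm_mk0_prime Q hQ q rfl]
    rcases dvd_inertiaDeg_or_splitsCompletely (L := L) (F := F) hp hdeg hunr hQ hQ0 hsplit with
      ⟨k, hk⟩ | h
    · rw [hk, pow_mul]
      exact pow_mem (pow_mem_normClasses K L p _) k
    · have hqprime : (q : Ideal (𝓞 K)).IsPrime := Ideal.IsPrime.under (𝓞 K) (Q : Ideal (𝓞 E))
      have hmem : ClassGroup.mk0 q ∈ normClasses K L p :=
        Subgroup.subset_closure (Or.inl ⟨q, hqprime, h, rfl⟩)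
      exact pow_mem hmem _
  · rw [SetLike.mem_coe, Subgroup.mem_comap]
    show classNorm K E (d ^ p) ∈ normClasses K L p
    rw [map_pow]
    exact pow_mem_normClasses K L p _

end Tower

end Fermat.Agent.S14.ClassNorm
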