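import Mathlib
import Fermat.Agent.S14.Defs
import Fermat.Agent.S14.Frob
import Fermat.Agent.S14.ClassNorm

/-!
# S14: Frobenius elements in towers of number fields

* `IsPowFrob M σ 𝔔` : `σ x ≡ x ^ M mod 𝔔` for all integers `x` (a Frobenius is the case
  `M = |𝓞 K / 𝔔 ∩ K|`); products, powers, uniqueness at unramified primes;
* `resHom K L E F : Gal(F/E) →* Gal(L/K)` : restriction, for towers `K ⊆ L ⊆ F`, `K ⊆ E ⊆ F`;
* `isArithFrobAt_restrictNormal`, `isFrob_restrictNormal` : the restriction of a Frobenius of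
  `Ω / K` to `L` is a Frobenius of `L / K`;
* `resHom_eq_pow`, `resHom_eq_pow_of_isFrob` : `Frob_{F/E}(𝔅)|_L = Frob_{L/K}(𝔅 ∩ K) ^ f(𝔅 | K)`;
* `stabilizer_eq_zpowers` : the decomposition group of an unramified prime is generated by a
  Frobenius;
* `under_splits_of_stabilizer_le` : a prime whose decomposition group fixes `E` has a prime of
  degree one below it in `E`.
-/

set_option autoImplicit false
set_option linter.unusedSectionVars false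
set_option linter.style.haveILetI false

namespace Fermat.Agent.S14.ArtinTower

open NumberField nonZeroDivisors
open scoped Pointwise

/-! ### Generalised Frobenius elements -/

section PowFrob

variable {K L : Type*} [Field K] [Field L] [NumberField K] [NumberField L] [Algebra K L]
  [IsGalois K L]

/-- `σ x ≡ x ^ M` modulo `𝔔` for all `x ∈ 𝓞 L`. -/
def IsPowFrob (M : ℕ) (σ : Gal(L/K)) (𝔔 : Ideal (𝓞 L)) : Prop :=
  ∀ x : 𝓞 L, σ • x - x ^ M ∈ 𝔔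

theorem isArithFrobAt_iff_isPowFrob {σ : Gal(L/K)} {𝔔 : Ideal (𝓞 L)} :
    IsArithFrobAt (𝓞 K) σ 𝔔 ↔ IsPowFrob (Nat.card (𝓞 K ⧸ 𝔔.under (𝓞 K))) σ 𝔔 := Iff.rfl

variable {M M' : ℕ} {σ σ' : Gal(L/K)} {𝔔 : Ideal (𝓞 L)}

theorem IsPowFrob.smul_mem (h : IsPowFrob M σ 𝔔) (hM : M ≠ 0) {x : 𝓞 L} (hx : x ∈ 𝔔) :
    σ • x ∈ 𝔔 := by
  have h1 : σ • x = (σ • x - x ^ M) + x ^ M := by ring
  rw [h1]
  exact 𝔔.add_mem (h x) (𝔔.pow_mem_of_mem hx M (Nat.pos_of_ne_zero hM))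

theorem IsPowFrob.mul (h : IsPowFrob M σ 𝔔) (h' : IsPowFrob M' σ' 𝔔) (hM : M ≠ 0) :
    IsPowFrob (M' * M) (σ * σ') 𝔔 := by
  intro x
  have h1 : (σ * σ') • x - x ^ (M' * M) =
      σ • (σ' • x - x ^ M') + (σ • (x ^ M') - (x ^ M') ^ M) := by
    rw [mul_smul, smul_sub, pow_mul]
    ring
  rw [h1]
  exact 𝔔.add_mem (h.smul_mem hM (h' x)) (h _)

theorem isPowFrob_one : IsPowFrob 1 (1 : Gal(L/K)) 𝔔 := by
  intro x
  rw [one_smul, pow_one, sub_self]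
  exact 𝔔.zero_mem

theorem IsPowFrob.pow (h : IsPowFrob M σ 𝔔) (hM : M ≠ 0) (k : ℕ) :
    IsPowFrob (M ^ k) (σ ^ k) 𝔔 := by
  induction k with
  | zero =>
    rw [pow_zero, pow_zero]
    exact isPowFrob_one
  | succ k ih =>
    rw [pow_succ' M k, pow_succ σ k]
    exact ih.mul h (pow_ne_zero k hM)

theorem IsPowFrob.mul_inv_mem_inertia (h : IsPowFrob M σ 𝔔) (h' : IsPowFrob M σ' 𝔔) :
    σ * σ'⁻¹ ∈ Ideal.inertia Gal(L/K) 𝔔 := by
  rw [Ideal.inertia, AddSubgroup.mem_inertia]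
  intro y
  have h1 := h (σ'⁻¹ • y)
  have h2 := h' (σ'⁻¹ • y)
  rw [smul_inv_smul] at h2
  have h3 : (σ * σ'⁻¹) • y - y =
      (σ • σ'⁻¹ • y - (σ'⁻¹ • y) ^ M) - (y - (σ'⁻¹ • y) ^ M) := by
    rw [mul_smul]
    ring
  rw [h3]
  exact 𝔔.sub_mem h1 h2

/-- At an unramified prime, a generalised Frobenius is unique. -/
theorem IsPowFrob.eq [𝔔.IsPrime] (he : 𝔔.ramificationIdx (𝓞 K) = 1)
    (h : IsPowFrob M σ 𝔔) (h' : IsPowFrob M σ' 𝔔) : σ = σ' := by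
  have h1 := h.mul_inv_mem_inertia h'
  rw [Frob.inertia_eq_bot he, Subgroup.mem_bot] at h1
  exact mul_inv_eq_one.1 h1

end PowFrob

/-! ### Cardinality of residue fields -/

section Card

variable {K E : Type*} [Field K] [Field E] [NumberField K] [NumberField E] [Algebra K E]

theorem card_quotient_eq_absNorm (I : Ideal (𝓞 K)) : Nat.card (𝓞 K ⧸ I) = Ideal.absNorm I := by
  rw [Ideal.absNorm_apply, Submodule.cardQuot_apply]

/-- `|𝓞 E / 𝔅| = |𝓞 K / 𝔅 ∩ K| ^ f`. -/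
theorem card_quotient_eq_pow (𝔅 : Ideal (𝓞 E)) [h𝔅 : 𝔅.IsPrime] (h0 : 𝔅 ≠ ⊥) :
    Nat.card (𝓞 E ⧸ 𝔅) = Nat.card (𝓞 K ⧸ 𝔅.under (𝓞 K)) ^ 𝔅.inertiaDeg (𝓞 K) := by
  have hb0 : 𝔅.under (𝓞 K) ≠ ⊥ := fun h => h0 (Ideal.eq_bot_of_comap_eq_bot (R := 𝓞 K) h)
  haveI : 𝔅.IsMaximal := h𝔅.isMaximal h0
  haveI hbprime : (𝔅.under (𝓞 K)).IsPrime := Ideal.IsPrime.under (𝓞 K) 𝔅
  haveI : (𝔅.under (𝓞 K)).IsMaximal := hbprime.isMaximal hb0
  haveI : 𝔅.LiesOver (𝔅.under (𝓞 K)) := ⟨rfl⟩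
  rw [card_quotient_eq_absNorm, card_quotient_eq_absNorm, ← Ideal.absNorm_relNorm (𝓞 K),
    Ideal.relNorm_eq_pow_of_isMaximal 𝔅 (𝔅.under (𝓞 K)), map_pow]

end Card

/-! ### Restriction in towers -/

section Tower

variable (K L E F : Type*) [Field K] [Field L] [Field E] [Field F]
  [NumberField K] [NumberField L] [NumberField E] [NumberField F]
  [Algebra K L] [Algebra K E] [Algebra L F] [Algebra E F] [Algebra K F]
  [IsScalarTower K L F] [IsScalarTower K E F] [IsGalois K L] [IsGalois E F]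

/-- Restriction `Gal(F/E) → Gal(L/K)` for `K ⊆ L ⊆ F`, `K ⊆ E ⊆ F`, `L / K` normal. -/
noncomputable def resHom : Gal(F/E) →* Gal(L/K) :=
  (AlgEquiv.restrictNormalHom (F := K) (K₁ := F) L).comp (AlgEquiv.restrictScalarsHom K)

variable {K L E F}

theorem algebraMap_resHom (s : Gal(F/E)) (y : L) :
    algebraMap L F (resHom K L E F s y) = s (algebraMap L F y) := by
  have := AlgEquiv.restrictNormal_commutes (s.restrictScalars K) L y
  exact this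

theorem algebraMap_resHom_smul (s : Gal(F/E)) (x : 𝓞 L) :
    algebraMap (𝓞 L) (𝓞 F) (resHom K L E F s • x) = s • algebraMap (𝓞 L) (𝓞 F) x := by
  apply RingOfIntegers.ext
  exact algebraMap_resHom s (x : L)

/-- The restriction of a Frobenius of `F / E` is a generalised Frobenius of `L / K`. -/
theorem isPowFrob_resHom {s : Gal(F/E)} {𝔔 : Ideal (𝓞 F)} (hs : IsArithFrobAt (𝓞 E) s 𝔔) :
    IsPowFrob (Nat.card (𝓞 E ⧸ 𝔔.under (𝓞 E))) (resHom K L E F s) (𝔔.under (𝓞 L)) := by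
  intro x
  rw [Ideal.under_def, Ideal.mem_comap, map_sub, map_pow, algebraMap_resHom_smul]
  exact hs (algebraMap (𝓞 L) (𝓞 F) x)

/-- **Frobenius and base change**: `Frob_{F/E}(𝔔)|_L = Frob_{L/K}(𝔔 ∩ L) ^ f(𝔔 ∩ E | K)`. -/
theorem resHom_eq_pow {s : Gal(F/E)} {𝔔 : Ideal (𝓞 F)} [h𝔔 : 𝔔.IsPrime] (h0 : 𝔔 ≠ ⊥)
    (hs : IsArithFrobAt (𝓞 E) s 𝔔) {t : Gal(L/K)}
    (ht : IsArithFrobAt (𝓞 K) t (𝔔.under (𝓞 L)))
    (he : (𝔔.under (𝓞 L)).ramificationIdx (𝓞 K) = 1) :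
    resHom K L E F s = t ^ (𝔔.under (𝓞 E)).inertiaDeg (𝓞 K) := by
  haveI : (𝔔.under (𝓞 L)).IsPrime := Ideal.IsPrime.under (𝓞 L) 𝔔
  haveI : (𝔔.under (𝓞 E)).IsPrime := Ideal.IsPrime.under (𝓞 E) 𝔔
  have h𝔅0 : 𝔔.under (𝓞 E) ≠ ⊥ := fun h => h0 (Ideal.eq_bot_of_comap_eq_bot (R := 𝓞 E) h)
  have h1 := isPowFrob_resHom (K := K) (L := L) hs
  rw [card_quotient_eq_pow (K := K) (𝔔.under (𝓞 E)) h𝔅0] at h1
  have hq0 : Nat.card (𝓞 K ⧸ (𝔔.under (𝓞 L)).under (𝓞 K)) ≠ 0 :=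
    (AlgHom.IsArithFrobAt.card_pos ht).ne'
  have h2 := (isArithFrobAt_iff_isPowFrob.mp ht).pow hq0 ((𝔔.under (𝓞 E)).inertiaDeg (𝓞 K))
  rw [Ideal.under_under, ← Ideal.under_under (B := 𝓞 E) 𝔔] at h2
  exact h1.eq he h2

/-- **Frobenius and base change**, for Frobenius elements of primes of the base fields:
`Frob_{F/E}(𝔅)|_L = Frob_{L/K}(𝔅 ∩ K) ^ f(𝔅 | K)`. -/
theorem resHom_eq_pow_of_isFrob {𝔅 : Ideal (𝓞 E)} [h𝔅 : 𝔅.IsPrime] (h0 : 𝔅 ≠ ⊥)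
    {s : Gal(F/E)} (hs : IsFrob E F s 𝔅) {t : Gal(L/K)} (ht : IsFrob K L t (𝔅.under (𝓞 K)))
    (hunr : Frob.UnramifiedAt K L (𝔅.under (𝓞 K))) :
    resHom K L E F s = t ^ 𝔅.inertiaDeg (𝓞 K) := by
  obtain ⟨𝔔, h𝔔, h𝔔𝔅⟩ := ClassNorm.exists_prime_over (K := E) (E := F) 𝔅
  haveI := h𝔔
  have h𝔔0 : 𝔔 ≠ ⊥ := ClassNorm.ne_bot_of_under_ne_bot (K := E) (h𝔔𝔅 ▸ h0)
  haveI : (𝔔.under (𝓞 L)).IsPrime := Ideal.IsPrime.under (𝓞 L) 𝔔
  have hunder : (𝔔.under (𝓞 L)).under (𝓞 K) = 𝔅.under (𝓞 K) := by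
    rw [Ideal.under_under, ← h𝔔𝔅, Ideal.under_under]
  have := resHom_eq_pow (K := K) (L := L) h𝔔0 (hs 𝔔 h𝔔 h𝔔𝔅) (ht _ inferInstance hunder)
    (hunr _ inferInstance hunder)
  rwa [h𝔔𝔅] at this

end Tower

/-! ### Restriction to a subextension -/

section Restrict

variable {K L Ω : Type*} [Field K] [Field L] [Field Ω]
  [NumberField K] [NumberField L] [NumberField Ω]
  [Algebra K L] [Algebra K Ω] [Algebra L Ω] [IsScalarTower K L Ω] [IsGalois K L] [IsGalois K Ω]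

theorem algebraMap_restrictNormalHom_smul (σ : Gal(Ω/K)) (x : 𝓞 L) :
    algebraMap (𝓞 L) (𝓞 Ω) (AlgEquiv.restrictNormalHom L σ • x) =
      σ • algebraMap (𝓞 L) (𝓞 Ω) x := by
  apply RingOfIntegers.ext
  exact AlgEquiv.restrictNormal_commutes σ L (x : L)

/-- The restriction to `L` of a Frobenius of `Ω / K` at `𝔓` is a Frobenius of `L / K` at
`𝔓 ∩ L`. -/
theorem isArithFrobAt_restrictNormal {σ : Gal(Ω/K)} {𝔓 : Ideal (𝓞 Ω)}
    (h : IsArithFrobAt (𝓞 K) σ 𝔓) :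
    IsArithFrobAt (𝓞 K) (AlgEquiv.restrictNormalHom L σ) (𝔓.under (𝓞 L)) := by
  rw [isArithFrobAt_iff_isPowFrob, Ideal.under_under]
  intro x
  rw [Ideal.under_def, Ideal.mem_comap, map_sub, map_pow, algebraMap_restrictNormalHom_smul]
  exact h (algebraMap (𝓞 L) (𝓞 Ω) x)

/-- The restriction to `L` of a Frobenius of `Ω / K` at `𝔮` is a Frobenius of `L / K` at `𝔮`. -/
theorem isFrob_restrictNormal {σ : Gal(Ω/K)} {𝔮 : Ideal (𝓞 K)} (h : IsFrob K Ω σ 𝔮) :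
    IsFrob K L (AlgEquiv.restrictNormalHom L σ) 𝔮 := by
  intro 𝔮L h1 h2
  haveI := h1
  obtain ⟨𝔓, h𝔓, h𝔓L⟩ := ClassNorm.exists_prime_over (K := L) (E := Ω) 𝔮L
  have := isArithFrobAt_restrictNormal (L := L)
    (h 𝔓 h𝔓 (by rw [← h2, ← h𝔓L, Ideal.under_under]))
  rwa [h𝔓L] at this

end Restrict

/-! ### The decomposition group of an unramified prime -/

section Decomposition

/-- In a finite field with more than `m + 1` elements some unit has `m`-th power `≠ 1`. -/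
theorem exists_unit_pow_ne_one (k : Type*) [Field k] [Finite k] (m : ℕ) (hm0 : 0 < m)
    (hm : m < Nat.card k - 1) : ∃ x : kˣ, x ^ m ≠ 1 := by
  classical
  haveI : Fintype k := Fintype.ofFinite k
  obtain ⟨g, hg⟩ := IsCyclic.exists_generator (α := kˣ)
  refine ⟨g, fun h1 => ?_⟩
  have h2 : orderOf g = Nat.card k - 1 := by
    rw [orderOf_eq_card_of_forall_mem_zpowers hg, Nat.card_eq_fintype_card, Fintype.card_units,
      Nat.card_eq_fintype_card]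
  have h3 := orderOf_dvd_of_pow_eq_one h1
  rw [h2] at h3
  exact absurd (Nat.le_of_dvd hm0 h3) (not_le.mpr hm)

variable {K L : Type*} [Field K] [Field L] [NumberField K] [NumberField L] [Algebra K L]
  [IsGalois K L]

/-- The order of a Frobenius at `𝔔` is at least the residue degree. -/
theorem inertiaDeg_le_orderOf {σ : Gal(L/K)} {𝔔 : Ideal (𝓞 L)} [h𝔔 : 𝔔.IsPrime] (h0 : 𝔔 ≠ ⊥)
    (hσ : IsArithFrobAt (𝓞 K) σ 𝔔) : 𝔔.inertiaDeg (𝓞 K) ≤ orderOf σ := by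
  by_contra hlt
  rw [not_le] at hlt
  set n := orderOf σ with hn
  set q := Nat.card (𝓞 K ⧸ 𝔔.under (𝓞 K)) with hq
  have hn0 : 0 < n := orderOf_pos σ
  have hq0 : q ≠ 0 := (AlgHom.IsArithFrobAt.card_pos hσ).ne'
  haveI : 𝔔.IsMaximal := h𝔔.isMaximal h0
  letI : Field (𝓞 L ⧸ 𝔔) := Ideal.Quotient.field 𝔔
  haveI : Finite (𝓞 L ⧸ 𝔔) := Ideal.finiteQuotientOfFreeOfNeBot 𝔔 h0
  have hcard : Nat.card (𝓞 L ⧸ 𝔔) = q ^ 𝔔.inertiaDeg (𝓞 K) :=
    card_quotient_eq_pow (K := K) 𝔔 h0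
  have hq1 : 1 < q := by
    rcases Nat.lt_or_ge 1 q with h | h
    · exact h
    · have hq' : q = 1 := le_antisymm h (Nat.pos_of_ne_zero hq0)
      have h1 : 1 < Nat.card (𝓞 L ⧸ 𝔔) := Finite.one_lt_card
      rw [hcard, hq', one_pow] at h1
      exact absurd h1 (lt_irrefl 1)
  have hpow := (isArithFrobAt_iff_isPowFrob.mp hσ).pow hq0 n
  rw [pow_orderOf_eq_one] at hpow
  have hlt' : q ^ n < q ^ 𝔔.inertiaDeg (𝓞 K) := Nat.pow_lt_pow_right hq1 hlt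
  have hqn : 1 < q ^ n := Nat.one_lt_pow hn0.ne' hq1
  obtain ⟨x, hx⟩ := exists_unit_pow_ne_one (𝓞 L ⧸ 𝔔) (q ^ n - 1) (by omega)
    (by rw [hcard]; omega)
  apply hx
  obtain ⟨y, hy⟩ := Ideal.Quotient.mk_surjective (x : 𝓞 L ⧸ 𝔔)
  have h1 := hpow y
  rw [one_smul, ← Ideal.Quotient.eq, map_pow, hy] at h1
  apply Units.ext
  rw [Units.val_pow_eq_pow_val, Units.val_one]
  have h2 : (x : 𝓞 L ⧸ 𝔔) ^ (q ^ n - 1) * x = 1 * x := by
    rw [← pow_succ, Nat.sub_add_cancel hqn.le, one_mul]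
    exact h1.symm
  exact mul_right_cancel₀ x.ne_zero h2

/-- **The decomposition group of an unramified prime is generated by a Frobenius.** -/
theorem stabilizer_eq_zpowers {σ : Gal(L/K)} {𝔔 : Ideal (𝓞 L)} [h𝔔 : 𝔔.IsPrime] (h0 : 𝔔 ≠ ⊥)
    (he : 𝔔.ramificationIdx (𝓞 K) = 1) (hσ : IsArithFrobAt (𝓞 K) σ 𝔔) :
    MulAction.stabilizer Gal(L/K) 𝔔 = Subgroup.zpowers σ := by
  have hle : Subgroup.zpowers σ ≤ MulAction.stabilizer Gal(L/K) 𝔔 :=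
    Subgroup.zpowers_le.mpr hσ.mem_stabilizer
  refine (Subgroup.eq_of_le_of_card_ge hle ?_).symm
  rw [Frob.card_stabilizer he, Nat.card_zpowers]
  exact inertiaDeg_le_orderOf h0 hσ

/-- The order of the Frobenius of an unramified prime is the residue degree. -/
theorem orderOf_eq_inertiaDeg {σ : Gal(L/K)} {𝔔 : Ideal (𝓞 L)} [h𝔔 : 𝔔.IsPrime] (h0 : 𝔔 ≠ ⊥)
    (he : 𝔔.ramificationIdx (𝓞 K) = 1) (hσ : IsArithFrobAt (𝓞 K) σ 𝔔) :
    orderOf σ = 𝔔.inertiaDeg (𝓞 K) := by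
  rw [← Nat.card_zpowers, ← stabilizer_eq_zpowers h0 he hσ, Frob.card_stabilizer he]

end Decomposition

/-! ### Primes of degree one in a subextension fixed by the decomposition group -/

section Splitting

variable {K E Ω : Type*} [Field K] [Field E] [Field Ω]
  [NumberField K] [NumberField E] [NumberField Ω]
  [Algebra K E] [Algebra K Ω] [Algebra E Ω] [IsScalarTower K E Ω] [IsGalois K Ω]

/-- The decomposition group of `𝔓` is the product `e f`. -/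
theorem card_stabilizer_eq_mul {K Ω : Type*} [Field K] [Field Ω] [NumberField K]
    [NumberField Ω] [Algebra K Ω] [IsGalois K Ω] (𝔓 : Ideal (𝓞 Ω)) [h𝔓 : 𝔓.IsPrime] :
    Nat.card (MulAction.stabilizer Gal(Ω/K) 𝔓) =
      𝔓.ramificationIdx (𝓞 K) * 𝔓.inertiaDeg (𝓞 K) := by
  haveI : (𝔓.under (𝓞 K)).IsPrime := Ideal.IsPrime.under (𝓞 K) 𝔓
  haveI : 𝔓.LiesOver (𝔓.under (𝓞 K)) := ⟨rfl⟩
  haveI := Frob.perfectField_residueField (𝔓.under (𝓞 K))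
  rw [Ideal.card_stabilizer_eq_card_inertia_mul_finrank (G := Gal(Ω/K)) (𝔓.under (𝓞 K)) 𝔓,
    Ideal.card_inertia_eq_ramificationIdxIn (G := Gal(Ω/K)) (𝔓.under (𝓞 K)) 𝔓,
    Ideal.ramificationIdxIn_eq_ramificationIdx (𝔓.under (𝓞 K)) 𝔓 Gal(Ω/K)]

/-- If the decomposition group of `𝔓` in `Gal(Ω/K)` fixes `E` pointwise, the prime `𝔓 ∩ E`
of `E` has ramification index and residue degree `1` over `K`. -/
theorem under_splits_of_stabilizer_fixes {𝔓 : Ideal (𝓞 Ω)} [h𝔓 : 𝔓.IsPrime]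
    (hfix : ∀ σ : Gal(Ω/K), σ • 𝔓 = 𝔓 → ∀ x : E, σ (algebraMap E Ω x) = algebraMap E Ω x) :
    (𝔓.under (𝓞 E)).ramificationIdx (𝓞 K) = 1 ∧ (𝔓.under (𝓞 E)).inertiaDeg (𝓞 K) = 1 := by
  haveI : IsGalois E Ω := IsGalois.tower_top_of_isGalois K E Ω
  haveI : (𝔓.under (𝓞 E)).IsPrime := Ideal.IsPrime.under (𝓞 E) 𝔓
  haveI : 𝔓.LiesOver (𝔓.under (𝓞 E)) := ⟨rfl⟩
  -- the two decomposition groups have the same order
  have hmap : Subgroup.map (AlgEquiv.restrictScalarsHom K) (MulAction.stabilizer Gal(Ω/E) 𝔓) =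
      MulAction.stabilizer Gal(Ω/K) 𝔓 := by
    ext σ
    rw [Subgroup.mem_map, MulAction.mem_stabilizer_iff]
    constructor
    · rintro ⟨s, hs, rfl⟩
      exact MulAction.mem_stabilizer_iff.mp hs
    · intro hσ
      refine ⟨{ σ.toRingEquiv with commutes' := hfix σ hσ }, ?_, ?_⟩
      · rw [MulAction.mem_stabilizer_iff]
        exact hσ
      · rfl
  have hcard : Nat.card (MulAction.stabilizer Gal(Ω/E) 𝔓) =
      Nat.card (MulAction.stabilizer Gal(Ω/K) 𝔓) := by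
    rw [← hmap, Subgroup.card_map_of_injective (AlgEquiv.restrictScalarsHom_injective K)]
  rw [card_stabilizer_eq_mul, card_stabilizer_eq_mul,
    Ideal.ramificationIdx_tower (R := 𝓞 K) (𝔓.under (𝓞 E)) 𝔓,
    Ideal.inertiaDeg_tower (R := 𝓞 K) (𝔓.under (𝓞 E)) 𝔓] at hcard
  have hpos : 0 < 𝔓.ramificationIdx (𝓞 E) * 𝔓.inertiaDeg (𝓞 E) := by
    rw [← card_stabilizer_eq_mul]
    exact Nat.card_pos
  have h1 : (𝔓.under (𝓞 E)).ramificationIdx (𝓞 K) * (𝔓.under (𝓞 E)).inertiaDeg (𝓞 K) = 1 := by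
    have h2 : ((𝔓.under (𝓞 E)).ramificationIdx (𝓞 K) * (𝔓.under (𝓞 E)).inertiaDeg (𝓞 K)) *
        (𝔓.ramificationIdx (𝓞 E) * 𝔓.inertiaDeg (𝓞 E)) =
        1 * (𝔓.ramificationIdx (𝓞 E) * 𝔓.inertiaDeg (𝓞 E)) := by
      rw [one_mul]
      conv_rhs => rw [hcard]
      ring
    exact Nat.eq_of_mul_eq_mul_right hpos h2
  exact ⟨Nat.eq_one_of_mul_eq_one_right h1, Nat.eq_one_of_mul_eq_one_left h1⟩

/-- If a Frobenius at the unramified prime `𝔓` of `Ω` fixes `E` pointwise, the prime `𝔓 ∩ E`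
of `E` has ramification index and residue degree `1` over `K`. -/
theorem under_splits_of_frob_fixes {σ : Gal(Ω/K)} {𝔓 : Ideal (𝓞 Ω)} [h𝔓 : 𝔓.IsPrime]
    (h0 : 𝔓 ≠ ⊥) (he : 𝔓.ramificationIdx (𝓞 K) = 1) (hσ : IsArithFrobAt (𝓞 K) σ 𝔓)
    (hfix : ∀ x : E, σ (algebraMap E Ω x) = algebraMap E Ω x) :
    (𝔓.under (𝓞 E)).ramificationIdx (𝓞 K) = 1 ∧ (𝔓.under (𝓞 E)).inertiaDeg (𝓞 K) = 1 := by
  refine under_splits_of_stabilizer_fixes (E := E) fun τ hτ => ?_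
  have hmem : τ ∈ Subgroup.zpowers σ := by
    rw [← stabilizer_eq_zpowers h0 he hσ, MulAction.mem_stabilizer_iff]
    exact hτ
  -- the elements fixing `E` form a subgroup containing `σ`
  let H : Subgroup Gal(Ω/K) :=
    { carrier := {τ | ∀ x : E, τ (algebraMap E Ω x) = algebraMap E Ω x}
      one_mem' := fun x => rfl
      mul_mem' := fun {a b} ha hb x => by
        rw [AlgEquiv.mul_apply, hb x, ha x]
      inv_mem' := fun {a} ha x => by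
        have := ha x
        rw [AlgEquiv.aut_inv]
        exact (AlgEquiv.symm_apply_eq a).mpr (ha x).symm }
  have hσH : σ ∈ H := hfix
  exact (Subgroup.zpowers_le.mpr hσH) hmem

end Splitting

end Fermat.Agent.S14.ArtinTower
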