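import Mathlib

/-!
# S14: cyclotomic extensions of a number field with coprime discriminant

`L` a number field, `m` coprime to the discriminant of `L`, `Ω = L(ζ_m)`:

* `finrank_eq_totient` : `[Ω : L] = φ(m)` (linear disjointness of `L` and `ℚ(ζ_m)`, from Mathlib's
  `NumberField.linearDisjoint_of_isGalois_isCoprime_discr` and the cyclotomic discriminant);
* `irreducible_cyclotomic` : the `m`-th cyclotomic polynomial is irreducible over `L`
  (so `IsCyclotomicExtension.autEquivPow` applies: `Gal(Ω/L) ≃* (ZMod m)ˣ`);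
* for `K ⊆ L` with `L / K` Galois: `isGalois_of_cyclotomic : IsGalois K Ω` and
  `prodHom_bijective` : `σ ↦ (σ|_L, exponent of σ on ζ)` is a bijection
  `Gal(Ω/K) → Gal(L/K) × (ZMod m)ˣ`.
-/

set_option autoImplicit false
set_option linter.style.haveILetI false
set_option linter.unusedSectionVars false

namespace Fermat.Agent.S14.CycloDisjoint

open NumberField Polynomial IntermediateField

section Irr

variable {L Ω : Type*} [Field L] [NumberField L] [Field Ω] [Algebra L Ω]

/-- The discriminant of the `m`-th cyclotomic field divides a power of `m`. -/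
theorem discr_cyclotomic_dvd (m : ℕ) [NeZero m] (F : Type*) [Field F] [NumberField F]
    [IsCyclotomicExtension {m} ℚ F] : (discr F) ∣ ((m : ℤ) ^ m.totient) := by
  rw [← Int.natAbs_dvd_natAbs, IsCyclotomicExtension.Rat.natAbs_discr m F, Int.natAbs_pow,
    Int.natAbs_natCast]
  exact Nat.div_dvd_of_dvd (Nat.prod_primeFactors_pow_totient_ediv_dvd (NeZero.pos m))

theorem finrank_eq_totient (m : ℕ) [NeZero m] [IsCyclotomicExtension {m} L Ω]
    (hm : IsCoprime (m : ℤ) (discr L)) : Module.finrank L Ω = m.totient := by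
  haveI : NumberField Ω := IsCyclotomicExtension.numberField {m} L Ω
  obtain ⟨ζ, hζ⟩ := IsCyclotomicExtension.exists_isPrimitiveRoot L Ω (Set.mem_singleton m)
    (NeZero.ne m)
  -- the two subfields
  set A : IntermediateField ℚ Ω := ℚ⟮ζ⟯ with hA
  set B : IntermediateField ℚ Ω := (IsScalarTower.toAlgHom ℚ L Ω).fieldRange with hB
  haveI : IsCyclotomicExtension {m} ℚ A := hζ.intermediateField_adjoin_isCyclotomicExtension ℚ
  haveI : IsGalois ℚ A := IsCyclotomicExtension.isGalois {m} ℚ A
  let e : L ≃ₐ[ℚ] B := AlgEquiv.ofInjectiveField (IsScalarTower.toAlgHom ℚ L Ω)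
  have hdB : discr B = discr L := (discr_eq_discr_of_algEquiv L e).symm
  have hcop : IsCoprime (discr A) (discr B) := by
    rw [hdB]
    exact IsCoprime.of_isCoprime_of_dvd_left (IsCoprime.pow_left hm) (discr_cyclotomic_dvd m A)
  have hdis : A.LinearDisjoint B := linearDisjoint_of_isGalois_isCoprime_discr Ω A B hcop
  have htop : A ⊔ B = ⊤ := by
    rw [eq_top_iff]
    intro x hxtop
    clear hxtop
    have hx : x ∈ Algebra.adjoin L ({ζ} : Set Ω) := by
      rw [IsCyclotomicExtension.adjoin_primitive_root_eq_top hζ]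
      trivial
    induction hx using Algebra.adjoin_induction with
    | mem y hy =>
      rw [Set.mem_singleton_iff] at hy
      subst hy
      exact (le_sup_left : A ≤ A ⊔ B) (mem_adjoin_simple_self ℚ y)
    | algebraMap r =>
      exact (le_sup_right : B ≤ A ⊔ B) ⟨r, rfl⟩
    | add y z _ _ hy hz => exact add_mem hy hz
    | mul y z _ _ hy hz => exact mul_mem hy hz
  have h1 : Module.finrank B Ω = Module.finrank ℚ A := hdis.finrank_right_eq_finrank htop
  have h2 : Module.finrank ℚ A = m.totient := IsCyclotomicExtension.Rat.finrank m A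
  have h3 : Module.finrank L Ω = Module.finrank B Ω := by
    refine Algebra.finrank_eq_of_equiv_equiv e.toRingEquiv (RingEquiv.refl Ω) ?_
    ext x
    rfl
  rw [h3, h1, h2]

theorem irreducible_cyclotomic (m : ℕ) [NeZero m] [IsCyclotomicExtension {m} L Ω]
    (hm : IsCoprime (m : ℤ) (discr L)) : Irreducible (cyclotomic m L) := by
  haveI : NumberField Ω := IsCyclotomicExtension.numberField {m} L Ω
  obtain ⟨ζ, hζ⟩ := IsCyclotomicExtension.exists_isPrimitiveRoot L Ω (Set.mem_singleton m)
    (NeZero.ne m)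
  have hint : IsIntegral L ζ := Algebra.IsIntegral.isIntegral ζ
  have hdvd : minpoly L ζ ∣ cyclotomic m L := by
    apply minpoly.dvd
    rw [Polynomial.aeval_def, Polynomial.eval₂_eq_eval_map, map_cyclotomic]
    exact hζ.isRoot_cyclotomic (NeZero.pos m)
  have hdeg : (minpoly L ζ).natDegree = (cyclotomic m L).natDegree := by
    rw [natDegree_cyclotomic, ← finrank_eq_totient (L := L) (Ω := Ω) m hm,
      ← IntermediateField.adjoin.finrank hint]
    have htop : L⟮ζ⟯ = ⊤ := by
      rw [← IntermediateField.toSubalgebra_injective.eq_iff,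
        IntermediateField.adjoin_simple_toSubalgebra_of_isAlgebraic hint.isAlgebraic,
        IsCyclotomicExtension.adjoin_primitive_root_eq_top hζ]
      rfl
    rw [htop]
    exact IntermediateField.finrank_top'
  have heq : cyclotomic m L = minpoly L ζ :=
    Polynomial.eq_of_monic_of_dvd_of_natDegree_le (minpoly.monic hint) (cyclotomic.monic m L)
      hdvd hdeg.ge
  rw [heq]
  exact minpoly.irreducible hint

end Irr

section Prod

variable (K L : Type*) {Ω : Type*} [Field K] [Field L] [Field Ω] [NumberField K] [NumberField L]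
  [Algebra K L] [Algebra L Ω] [Algebra K Ω] [IsScalarTower K L Ω] [IsGalois K L]

include L in
theorem isGalois_of_cyclotomic (m : ℕ) [NeZero m] [IsCyclotomicExtension {m} L Ω] :
    IsGalois K Ω := by
  haveI : NumberField Ω := IsCyclotomicExtension.numberField {m} L Ω
  obtain ⟨ζ, hζ⟩ := IsCyclotomicExtension.exists_isPrimitiveRoot L Ω (Set.mem_singleton m)
    (NeZero.ne m)
  set E₁ : IntermediateField K Ω := (IsScalarTower.toAlgHom K L Ω).fieldRange with hE₁
  set E₂ : IntermediateField K Ω := K⟮ζ⟯ with hE₂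
  haveI : Module.Finite K Ω := Module.Finite.trans L Ω
  haveI : Normal K E₁ :=
    Normal.of_algEquiv (AlgEquiv.ofInjectiveField (IsScalarTower.toAlgHom K L Ω))
  haveI : IsCyclotomicExtension {m} K E₂ := hζ.intermediateField_adjoin_isCyclotomicExtension K
  haveI : IsGalois K E₂ := IsCyclotomicExtension.isGalois {m} K E₂
  have htop : E₁ ⊔ E₂ = ⊤ := by
    rw [eq_top_iff]
    intro x hxtop
    clear hxtop
    have hx : x ∈ Algebra.adjoin L ({ζ} : Set Ω) := by
      rw [IsCyclotomicExtension.adjoin_primitive_root_eq_top hζ]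
      trivial
    induction hx using Algebra.adjoin_induction with
    | mem y hy =>
      rw [Set.mem_singleton_iff] at hy
      subst hy
      exact (le_sup_right : E₂ ≤ E₁ ⊔ E₂) (mem_adjoin_simple_self K y)
    | algebraMap r =>
      exact (le_sup_left : E₁ ≤ E₁ ⊔ E₂) ⟨r, rfl⟩
    | add y z _ _ hy hz => exact add_mem hy hz
    | mul y z _ _ hy hz => exact mul_mem hy hz
  haveI : Normal K (E₁ ⊔ E₂ : IntermediateField K Ω) := inferInstance
  haveI : Normal K (⊤ : IntermediateField K Ω) := htop ▸ this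
  haveI : Normal K Ω := Normal.of_algEquiv (IntermediateField.topEquiv (F := K) (E := Ω))
  exact ⟨⟩

/-- The homomorphism `σ ↦ (σ|_L, exponent of σ on ζ)`. -/
noncomputable def prodHom {m : ℕ} [NeZero m] {ζ : Ω} (hζ : IsPrimitiveRoot ζ m) :
    Gal(Ω/K) →* Gal(L/K) × (ZMod m)ˣ :=
  (AlgEquiv.restrictNormalHom L).prod (hζ.autToPow K)

theorem prodHom_fst {m : ℕ} [NeZero m] {ζ : Ω} (hζ : IsPrimitiveRoot ζ m) (σ : Gal(Ω/K))
    (x : L) : algebraMap L Ω ((prodHom K L hζ σ).1 x) = σ (algebraMap L Ω x) :=
  AlgEquiv.restrictNormal_commutes σ L x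

theorem prodHom_snd {m : ℕ} [NeZero m] {ζ : Ω} (hζ : IsPrimitiveRoot ζ m) (σ : Gal(Ω/K))
    {ξ : Ω} (hξ : ξ ^ m = 1) : σ ξ = ξ ^ ((prodHom K L hζ σ).2 : ZMod m).val := by
  obtain ⟨i, -, rfl⟩ := hζ.eq_pow_of_pow_eq_one hξ
  rw [map_pow, ← pow_mul, mul_comm, pow_mul]
  congr 1
  exact (hζ.autToPow_spec K σ).symm

theorem prodHom_injective {m : ℕ} [NeZero m] [IsCyclotomicExtension {m} L Ω] {ζ : Ω}
    (hζ : IsPrimitiveRoot ζ m) : Function.Injective (prodHom K L hζ) := by
  rw [injective_iff_map_eq_one]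
  intro σ hσ
  have h1 : (prodHom K L hζ σ).1 = 1 := by rw [hσ]; rfl
  have h2 : (prodHom K L hζ σ).2 = 1 := by rw [hσ]; rfl
  ext x
  have hx : x ∈ Algebra.adjoin L ({ζ} : Set Ω) := by
    rw [IsCyclotomicExtension.adjoin_primitive_root_eq_top hζ]
    trivial
  induction hx using Algebra.adjoin_induction with
  | mem y hy =>
    rw [Set.mem_singleton_iff] at hy
    subst hy
    have := prodHom_snd K L hζ σ (hζ.pow_eq_one)
    rw [h2, Units.val_one, ZMod.val_one_eq_one_mod] at this
    rcases Nat.lt_or_ge 1 m with hm1 | hm1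
    · rw [Nat.mod_eq_of_lt hm1, pow_one] at this
      simpa using this
    · have hm0 : m = 1 := le_antisymm hm1 (NeZero.pos m)
      subst hm0
      have hy1 : y = 1 := by simpa using hζ.pow_eq_one
      subst hy1
      simp
  | algebraMap r =>
    have := prodHom_fst K L hζ σ r
    rw [h1] at this
    simpa using this.symm
  | add y z _ _ hy hz => simp [map_add, hy, hz]
  | mul y z _ _ hy hz => simp [map_mul, hy, hz]

theorem prodHom_bijective {m : ℕ} [NeZero m] [IsCyclotomicExtension {m} L Ω]
    (hm : IsCoprime (m : ℤ) (discr L)) {ζ : Ω}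
    (hζ : IsPrimitiveRoot ζ m) : Function.Bijective (prodHom K L hζ) := by
  haveI : NumberField Ω := IsCyclotomicExtension.numberField {m} L Ω
  haveI : IsGalois K Ω := isGalois_of_cyclotomic K L m
  haveI : Module.Finite K Ω := Module.Finite.trans L Ω
  haveI : Finite Gal(Ω/K) := inferInstance
  haveI : Finite Gal(L/K) := inferInstance
  refine (Nat.bijective_iff_injective_and_card _).mpr ⟨prodHom_injective K L hζ, ?_⟩
  rw [Nat.card_prod, IsGalois.card_aut_eq_finrank, IsGalois.card_aut_eq_finrank,
    ← Module.finrank_mul_finrank K L Ω, finrank_eq_totient m hm, Nat.card_eq_fintype_card,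
    ZMod.card_units_eq_totient]

end Prod

end Fermat.Agent.S14.CycloDisjoint
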