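import Mathlib
import Fermat.Agent.S14.Defs
import Fermat.Agent.S14.Frob
import Fermat.Agent.S14.ArtinTower
import Fermat.Agent.S14.CycloDisjoint

/-!
# S14: the auxiliary groups of the crossing argument

`K ⊆ L ⊆ Ω`, `L / K` Galois and unramified, `Ω = L(ζ_m)`.

* `exists_frob` : over a prime `𝔮` of `K` prime to `m` there is a Frobenius `g` of `Ω / K` which
  restricts to the Frobenius of `L / K` and acts on the `m`-th roots of unity by `absNorm 𝔮`;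
* `dGroup s r a` : the subgroup of `Gal(Ω/K)` of the `τ` acting on `L` as `s ^ k` and on the
  `r`-th roots of unity as `ξ ↦ ξ ^ (a ^ k)` (for a common `k`);
* `eq_one_of_mem_dGroup` (H1) : an element of `dGroup s r a` fixing `ζ_m` is trivial
  (when `s ^ p = 1` and `p` divides the order of `a` modulo `r`), so the fixed field `E` of any
  subgroup of `dGroup s r a` satisfies `E(ζ_m) = Ω`;
* `exists_mem_inf_dGroup` (H2) : every element of `Gal(L/K)` is the restriction of an element of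
  `dGroup s₁ r₁ a₁ ⊓ dGroup s₂ r₂ a₂` (`m = r₁ r₂` prime to the discriminant of `L`).
-/

set_option autoImplicit false
set_option linter.style.haveILetI false
set_option linter.unusedSectionVars false

namespace Fermat.Agent.S14.AuxField

open NumberField nonZeroDivisors
open scoped Pointwise

theorem pow_mod_of_pow_eq_one {M : Type*} [Monoid M] {ξ : M} {r : ℕ} (h : ξ ^ r = 1) (x : ℕ) :
    ξ ^ (x % r) = ξ ^ x := by
  conv_rhs => rw [← Nat.div_add_mod x r, pow_add, pow_mul, h, one_pow, one_mul]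

theorem pow_eq_pow_of_modEq {M : Type*} [Monoid M] {ξ : M} {r : ℕ} (h : ξ ^ r = 1) {x y : ℕ}
    (hxy : x ≡ y [MOD r]) : ξ ^ x = ξ ^ y := by
  rw [← pow_mod_of_pow_eq_one h x, ← pow_mod_of_pow_eq_one h y, hxy]

section

variable {K L Ω : Type*} [Field K] [Field L] [Field Ω]
  [NumberField K] [NumberField L] [NumberField Ω]
  [Algebra K L] [Algebra K Ω] [Algebra L Ω] [IsScalarTower K L Ω] [IsGalois K L] [IsGalois K Ω]

/-- A Frobenius of `Ω / K` over an unramified (in `L`) prime `𝔮` of `K` prime to `m`: it restricts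
to the Frobenius of `L / K` and raises the `m`-th roots of unity to the power `absNorm 𝔮`. -/
theorem exists_frob (hunr : UnramifiedEverywhere K L) {m : ℕ} {𝔮 : Ideal (𝓞 K)}
    (h𝔮 : 𝔮.IsPrime) (h0 : 𝔮 ≠ ⊥) (hm : (m : 𝓞 K) ∉ 𝔮) {σ : Gal(L/K)}
    (hσ : IsFrob K L σ 𝔮) :
    ∃ (𝔓 : Ideal (𝓞 Ω)) (g : Gal(Ω/K)), 𝔓.IsPrime ∧ 𝔓 ≠ ⊥ ∧ 𝔓.under (𝓞 K) = 𝔮 ∧
      IsArithFrobAt (𝓞 K) g 𝔓 ∧ AlgEquiv.restrictNormalHom L g = σ ∧
      ∀ ζ : Ω, ζ ^ m = 1 → g ζ = ζ ^ Ideal.absNorm 𝔮 := by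
  haveI := h𝔮
  obtain ⟨𝔓, h𝔓p, h𝔓o⟩ : ∃ 𝔓 : Ideal (𝓞 Ω), 𝔓.IsPrime ∧ 𝔓.LiesOver 𝔮 :=
    ⟨_, (inferInstance : Nonempty (Ideal.primesOver 𝔮 (𝓞 Ω))).some.2⟩
  haveI := h𝔓p
  have hu : 𝔓.under (𝓞 K) = 𝔮 := (Ideal.over_def 𝔓 𝔮).symm
  have h𝔓0 : 𝔓 ≠ ⊥ := Ideal.ne_bot_of_liesOver_of_ne_bot h0 𝔓
  haveI : Finite (𝓞 Ω ⧸ 𝔓) := Ideal.finiteQuotientOfFreeOfNeBot 𝔓 h𝔓0
  obtain ⟨g, hg⟩ := IsArithFrobAt.exists_of_isInvariant (𝓞 K) Gal(Ω/K) 𝔓
  refine ⟨𝔓, g, h𝔓p, h𝔓0, hu, hg, ?_, ?_⟩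
  · -- restriction
    have h1 := ArtinTower.isArithFrobAt_restrictNormal (L := L) hg
    haveI h𝔔 : (𝔓.under (𝓞 L)).IsPrime := Ideal.IsPrime.under (𝓞 L) 𝔓
    have hu' : (𝔓.under (𝓞 L)).under (𝓞 K) = 𝔮 := by rw [Ideal.under_under, hu]
    have h2 := hσ (𝔓.under (𝓞 L)) h𝔔 hu'
    have h𝔔0 : 𝔓.under (𝓞 L) ≠ ⊥ := by
      intro hbot
      rw [hbot] at hu'
      apply h0
      rw [← hu']
      exact Ideal.under_bot (𝓞 K) (𝓞 L)
    exact Frob.isArithFrobAt_unique (hunr _ h𝔔 h𝔔0) h1 h2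
  · intro ζ hζ
    by_cases hm0 : m = 0
    · exfalso
      apply hm
      rw [hm0, Nat.cast_zero]
      exact Ideal.zero_mem _
    have hint : IsIntegral ℤ ζ := by
      refine ⟨Polynomial.X ^ m - 1, Polynomial.monic_X_pow_sub_C 1 hm0, ?_⟩
      simp [hζ]
    set z : 𝓞 Ω := ⟨ζ, hint⟩ with hz
    have hzc : ((z : 𝓞 Ω) : Ω) = ζ := rfl
    have hz1 : z ^ m = 1 := by
      apply RingOfIntegers.ext
      rw [RingOfIntegers.coe_eq_algebraMap, map_pow, ← RingOfIntegers.coe_eq_algebraMap, hzc, hζ]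
      simp
    have hm𝔓 : (m : 𝓞 Ω) ∉ 𝔓 := by
      intro h
      apply hm
      rw [← hu, Ideal.under_def, Ideal.mem_comap, map_natCast]
      exact h
    have h3 := AlgHom.IsArithFrobAt.apply_of_pow_eq_one hg hz1 hm𝔓
    have h4 : Nat.card (𝓞 K ⧸ 𝔓.under (𝓞 K)) = Ideal.absNorm 𝔮 := by
      rw [hu, Ideal.absNorm_apply, Submodule.cardQuot_apply]
    rw [h4] at h3
    have h5 : ((MulSemiringAction.toAlgHom (𝓞 K) (𝓞 Ω) g z : 𝓞 Ω) : Ω)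
        = ((z ^ Ideal.absNorm 𝔮 : 𝓞 Ω) : Ω) := congrArg (fun x : 𝓞 Ω => (x : Ω)) h3
    have h6 : ((MulSemiringAction.toAlgHom (𝓞 K) (𝓞 Ω) g z : 𝓞 Ω) : Ω) = g ζ := rfl
    rw [h6] at h5
    rw [h5, RingOfIntegers.coe_eq_algebraMap, map_pow, ← RingOfIntegers.coe_eq_algebraMap, hzc]

/-- The set underlying `dGroup`. -/
def dSet (s : Gal(L/K)) (r a : ℕ) : Set Gal(Ω/K) :=
  {τ | ∃ k : ℕ, AlgEquiv.restrictNormalHom L τ = s ^ k ∧ ∀ ξ : Ω, ξ ^ r = 1 → τ ξ = ξ ^ (a ^ k)}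

theorem one_mem_dSet (s : Gal(L/K)) (r a : ℕ) : (1 : Gal(Ω/K)) ∈ dSet (Ω := Ω) s r a :=
  ⟨0, by simp, fun ξ _ => by simp⟩

theorem mul_mem_dSet {s : Gal(L/K)} {r a : ℕ} {τ₁ τ₂ : Gal(Ω/K)}
    (h₁ : τ₁ ∈ dSet s r a) (h₂ : τ₂ ∈ dSet s r a) : τ₁ * τ₂ ∈ dSet s r a := by
  obtain ⟨k₁, h₁, h₁'⟩ := h₁
  obtain ⟨k₂, h₂, h₂'⟩ := h₂
  refine ⟨k₁ + k₂, by rw [map_mul, h₁, h₂, pow_add], ?_⟩
  intro ξ hξ
  change τ₁ (τ₂ ξ) = _
  rw [h₂' ξ hξ, map_pow, h₁' ξ hξ, ← pow_mul, pow_add]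

theorem pow_mem_dSet {s : Gal(L/K)} {r a : ℕ} {τ : Gal(Ω/K)}
    (h : τ ∈ dSet s r a) (n : ℕ) : τ ^ n ∈ dSet s r a := by
  induction n with
  | zero => simpa using one_mem_dSet s r a
  | succ n ih => rw [pow_succ]; exact mul_mem_dSet ih h

/-- The subgroup of `Gal(Ω/K)` of the `τ` which act on `L` as `s ^ k` and on the `r`-th roots of
unity as `ξ ↦ ξ ^ (a ^ k)`, for a common `k`. -/
def dGroup (s : Gal(L/K)) (r a : ℕ) : Subgroup Gal(Ω/K) where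
  carrier := dSet s r a
  one_mem' := one_mem_dSet s r a
  mul_mem' := mul_mem_dSet
  inv_mem' := by
    intro τ hτ
    have hfin : IsOfFinOrder τ := isOfFinOrder_of_finite τ
    have hpos : 0 < orderOf τ := hfin.orderOf_pos
    have h1 : τ⁻¹ = τ ^ (orderOf τ - 1) := by
      apply inv_eq_of_mul_eq_one_right
      rw [← pow_succ', Nat.sub_add_cancel hpos, pow_orderOf_eq_one]
    rw [h1]
    exact pow_mem_dSet hτ _

theorem mem_dGroup {s : Gal(L/K)} {r a : ℕ} {τ : Gal(Ω/K)} :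
    τ ∈ dGroup s r a ↔ ∃ k : ℕ, AlgEquiv.restrictNormalHom L τ = s ^ k ∧
      ∀ ξ : Ω, ξ ^ r = 1 → τ ξ = ξ ^ (a ^ k) := Iff.rfl

/-- A Frobenius-like element lies in its group. -/
theorem mem_dGroup_of_frob {s : Gal(L/K)} {r a m : ℕ} (hrm : r ∣ m) {g : Gal(Ω/K)}
    (h1 : AlgEquiv.restrictNormalHom L g = s) (h2 : ∀ ζ : Ω, ζ ^ m = 1 → g ζ = ζ ^ a) :
    g ∈ dGroup s r a := by
  refine ⟨1, by rw [h1, pow_one], ?_⟩
  intro ξ hξ
  rw [pow_one]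
  apply h2
  obtain ⟨c, rfl⟩ := hrm
  rw [pow_mul, hξ, one_pow]

/-- An automorphism of `Ω = L(ζ)` over `K` which is trivial on `L` and fixes `ζ` is trivial. -/
theorem eq_one_of_fix {m : ℕ} [NeZero m] [IsCyclotomicExtension {m} L Ω] {ζ : Ω}
    (hζ : IsPrimitiveRoot ζ m) {τ : Gal(Ω/K)} (h1 : AlgEquiv.restrictNormalHom L τ = 1)
    (h2 : τ ζ = ζ) : τ = 1 := by
  ext x
  have hx : x ∈ Algebra.adjoin L ({ζ} : Set Ω) := by
    rw [IsCyclotomicExtension.adjoin_primitive_root_eq_top hζ]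
    trivial
  induction hx using Algebra.adjoin_induction with
  | mem y hy =>
    rw [Set.mem_singleton_iff] at hy
    subst hy
    simpa using h2
  | algebraMap r =>
    have := AlgEquiv.restrictNormal_commutes τ L r
    have h3 : (AlgEquiv.restrictNormal τ L) r = r := DFunLike.congr_fun h1 r
    rw [h3] at this
    simpa using this.symm
  | add y z _ _ hy hz => simp [map_add, hy, hz]
  | mul y z _ _ hy hz => simp [map_mul, hy, hz]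

/-- **(H1)** An element of `dGroup s r a` fixing a primitive `m`-th root of unity (`r ∣ m`) is
trivial, if `s ^ p = 1` and `p` divides the order of `a` modulo `r`. -/
theorem eq_one_of_mem_dGroup {m : ℕ} [NeZero m] [IsCyclotomicExtension {m} L Ω] {ζ : Ω}
    (hζ : IsPrimitiveRoot ζ m) {s : Gal(L/K)} {p r a : ℕ} (hs : s ^ p = 1) (hr : 0 < r)
    (hrm : r ∣ m) (hord : p ∣ orderOf ((a : ZMod r))) {τ : Gal(Ω/K)}
    (hτ : τ ∈ dGroup s r a) (hfix : τ ζ = ζ) : τ = 1 := by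
  obtain ⟨k, hk1, hk2⟩ := hτ
  obtain ⟨c, hc⟩ := hrm
  have hc0 : c ≠ 0 := by
    rintro rfl
    exact (NeZero.ne m) (by rw [hc, mul_zero])
  -- the primitive `r`-th root `ζ ^ c`
  have hξ : IsPrimitiveRoot (ζ ^ c) r := by
    apply hζ.pow (NeZero.pos m)
    rw [hc, mul_comm]
  have h3 : τ (ζ ^ c) = ζ ^ c := by rw [map_pow, hfix]
  have h4 := hk2 (ζ ^ c) hξ.pow_eq_one
  rw [h3] at h4
  have h5 : a ^ k ≡ 1 [MOD r] := by
    rcases Nat.eq_zero_or_pos (a ^ k) with h0 | hpos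
    · rw [h0, pow_zero] at h4
      have hr1 : r = 1 := by
        have := hξ.pow_eq_one_iff_dvd 1
        rw [pow_one] at this
        exact Nat.dvd_one.mp (this.mp h4)
      rw [hr1]
      exact Nat.modEq_one
    · have hne : ζ ^ c ≠ 0 := hξ.ne_zero hr.ne'
      have h6 : (ζ ^ c) ^ (a ^ k - 1) = 1 := by
        have h7 : (ζ ^ c) ^ (a ^ k - 1) * (ζ ^ c) = 1 * (ζ ^ c) := by
          rw [← pow_succ, Nat.sub_add_cancel hpos, one_mul]
          exact h4.symm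
        exact mul_right_cancel₀ hne h7
      have h8 := (hξ.pow_eq_one_iff_dvd _).mp h6
      exact ((Nat.modEq_iff_dvd' hpos).mpr h8).symm
  have h7 : ((a : ZMod r)) ^ k = 1 := by
    have := (ZMod.natCast_eq_natCast_iff _ _ _).mpr h5
    push_cast at this
    exact this
  have h8 : p ∣ k := dvd_trans hord (orderOf_dvd_of_pow_eq_one h7)
  obtain ⟨d, rfl⟩ := h8
  rw [pow_mul, hs, one_pow] at hk1
  exact eq_one_of_fix hζ hk1 hfix

/-- **(H2)** Every element of `Gal(L/K)` (of prime order `p`) is the restriction of an element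
of `dGroup s₁ r₁ a₁ ⊓ dGroup s₂ r₂ a₂`, for coprime `r₁`, `r₂` prime to the discriminant of `L`
and `s₁, s₂ ≠ 1`. -/
theorem exists_mem_inf_dGroup {p r₁ r₂ a₁ a₂ : ℕ} (hp : p.Prime)
    (hcard : Nat.card Gal(L/K) = p) (hcop : Nat.Coprime r₁ r₂)
    (ha₁ : Nat.Coprime a₁ r₁) (ha₂ : Nat.Coprime a₂ r₂)
    [NeZero (r₁ * r₂)] [IsCyclotomicExtension {r₁ * r₂} L Ω]
    (hdisc : IsCoprime ((r₁ * r₂ : ℕ) : ℤ) (discr L))
    {s₁ s₂ : Gal(L/K)} (h₁ : s₁ ≠ 1) (h₂ : s₂ ≠ 1) (s : Gal(L/K)) :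
    ∃ τ : Gal(Ω/K), τ ∈ dGroup (Ω := Ω) s₁ r₁ a₁ ⊓ dGroup s₂ r₂ a₂ ∧
      AlgEquiv.restrictNormalHom L τ = s := by
  haveI : Fact p.Prime := ⟨hp⟩
  obtain ⟨ζ, hζ⟩ := IsCyclotomicExtension.exists_isPrimitiveRoot L Ω
    (Set.mem_singleton (r₁ * r₂)) (NeZero.ne _)
  obtain ⟨k₁, hk₁⟩ := (Submonoid.mem_powers_iff _ _).mp (mem_powers_of_prime_card hcard h₁ (g' := s))
  obtain ⟨k₂, hk₂⟩ := (Submonoid.mem_powers_iff _ _).mp (mem_powers_of_prime_card hcard h₂ (g' := s))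
  obtain ⟨x, hx₁, hx₂⟩ := Nat.chineseRemainder hcop (a₁ ^ k₁) (a₂ ^ k₂)
  have hxc : Nat.Coprime x (r₁ * r₂) := by
    apply Nat.Coprime.mul_right
    · have := hx₁.gcd_eq
      unfold Nat.Coprime
      rw [this]
      exact Nat.Coprime.pow_left _ ha₁
    · have := hx₂.gcd_eq
      unfold Nat.Coprime
      rw [this]
      exact Nat.Coprime.pow_left _ ha₂
  set w : (ZMod (r₁ * r₂))ˣ := ZMod.unitOfCoprime x hxc with hw
  obtain ⟨τ, hτ⟩ := (CycloDisjoint.prodHom_bijective K L hdisc hζ).surjective (s, w)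
  have hτ1 : AlgEquiv.restrictNormalHom L τ = s := congrArg Prod.fst hτ
  have hτ2 : (CycloDisjoint.prodHom K L hζ τ).2 = w := congrArg Prod.snd hτ
  have hval : ((CycloDisjoint.prodHom K L hζ τ).2 : ZMod (r₁ * r₂)).val = x % (r₁ * r₂) := by
    rw [hτ2, hw, ZMod.coe_unitOfCoprime, ZMod.val_natCast]
  have key : ∀ ξ : Ω, ξ ^ (r₁ * r₂) = 1 → τ ξ = ξ ^ x := by
    intro ξ hξ
    rw [CycloDisjoint.prodHom_snd K L hζ τ hξ, hval, pow_mod_of_pow_eq_one hξ]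
  refine ⟨τ, ⟨⟨k₁, ?_, ?_⟩, ⟨k₂, ?_, ?_⟩⟩, hτ1⟩
  · rw [hτ1, hk₁]
  · intro ξ hξ
    have hξm : ξ ^ (r₁ * r₂) = 1 := by rw [pow_mul, hξ, one_pow]
    rw [key ξ hξm]
    exact pow_eq_pow_of_modEq hξ hx₁
  · rw [hτ1, hk₂]
  · intro ξ hξ
    have hξm : ξ ^ (r₁ * r₂) = 1 := by rw [mul_comm, pow_mul, hξ, one_pow]
    rw [key ξ hξm]
    exact pow_eq_pow_of_modEq hξ hx₂

end

end Fermat.Agent.S14.AuxField
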