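import Mathlib
import Fermat.Prelude.Def_FLTPrelim_Ramification
import Fermat.Agent.S14.Defs
import Fermat.Agent.Lib.InertiaPlace
import Fermat.Agent.Lib.InertiaLift
import Fermat.Agent.Lib.Minkowski

/-!
# S14: dictionary between inertia groups of valuation subrings and ramification of ideals

Let `L / K` be a Galois extension of number fields (given as types) inside a Galois extension
`Ω` of `ℚ`, for instance an algebraic closure. If for every valuation subring `A` of `Ω` lying
over a prime number every element of the inertia group of `A` which fixes `K` pointwise also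
fixes `L` pointwise, then `L / K` is unramified at every finite prime
(`unramifiedEverywhere_of_inertia`).
-/

set_option autoImplicit false
set_option linter.unusedSectionVars false

namespace Fermat.Agent.S14.Dict

open NumberField
open scoped Pointwise

section

variable {K L : Type*} [Field K] [Field L] [NumberField K] [NumberField L] [Algebra K L]
  [IsGalois K L]

/-- If all inertia groups of `Gal(L/K)` at nonzero primes are trivial then `L / K` is unramified
everywhere. -/
theorem unramifiedEverywhere_of_inertia_eq_one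
    (h : ∀ 𝔔 : Ideal (𝓞 L), 𝔔.IsPrime → 𝔔 ≠ ⊥ → ∀ γ : Gal(L/K), γ ∈ 𝔔.inertia Gal(L/K) → γ = 1) :
    UnramifiedEverywhere K L := by
  intro 𝔔 h𝔔 h0
  have h1 := Ideal.card_inertia_eq_ramificationIdxIn (G := Gal(L/K)) (𝔔.under (𝓞 K)) 𝔔
  rw [Ideal.ramificationIdxIn_eq_ramificationIdx (𝔔.under (𝓞 K)) 𝔔 Gal(L/K)] at h1
  rw [← h1, Nat.card_eq_one_iff_unique]
  refine ⟨⟨fun a b => ?_⟩, ⟨1⟩⟩
  apply Subtype.ext
  rw [h 𝔔 h𝔔 h0 a a.2, h 𝔔 h𝔔 h0 b b.2]

end

section

variable {L Ω : Type*} [Field L] [Field Ω] [Algebra L Ω]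

/-- The map from the integers of `L` to the ring of all algebraic integers of `Ω`. -/
def toIntegers : 𝓞 L →+* integralClosure ℤ Ω where
  toFun x := ⟨algebraMap L Ω (x : L), map_isIntegral_int (algebraMap L Ω) x.2⟩
  map_one' := by
    apply Subtype.ext
    simp
  map_mul' x y := by
    apply Subtype.ext
    simp
  map_zero' := by
    apply Subtype.ext
    simp
  map_add' x y := by
    apply Subtype.ext
    simp

theorem toIntegers_coe (x : 𝓞 L) :
    ((toIntegers (Ω := Ω) x : integralClosure ℤ Ω) : Ω) = algebraMap L Ω (x : L) := rfl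

theorem toIntegers_injective : Function.Injective (toIntegers (L := L) (Ω := Ω)) := by
  intro x y hxy
  have h1 := congrArg (fun z : integralClosure ℤ Ω => (z : Ω)) hxy
  simp only [toIntegers_coe] at h1
  exact RingOfIntegers.ext ((algebraMap L Ω).injective h1)

end

section

variable {K L Ω : Type*} [Field K] [Field L] [NumberField K] [NumberField L] [Algebra K L]
  [IsGalois K L] [Field Ω] [Algebra ℚ Ω] [IsGalois ℚ Ω] [Algebra K Ω] [Algebra L Ω]
  [IsScalarTower K L Ω]

variable (K L Ω) in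
/-- The subgroup of `Gal(Ω/K)` fixing the image of `L`. -/
def fixer : Subgroup (Ω ≃ₐ[K] Ω) :=
  (IsScalarTower.toAlgHom K L Ω).fieldRange.fixingSubgroup

theorem mem_fixer_iff (σ : Ω ≃ₐ[K] Ω) :
    σ ∈ fixer K L Ω ↔ ∀ y : L, σ (algebraMap L Ω y) = algebraMap L Ω y := by
  rw [fixer, IntermediateField.mem_fixingSubgroup_iff]
  constructor
  · intro h y
    exact h _ ⟨y, rfl⟩
  · rintro h _ ⟨y, rfl⟩
    exact h y

theorem fixer_normal : (fixer K L Ω).Normal := by
  refine ⟨fun n hn g => ?_⟩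
  rw [mem_fixer_iff] at hn ⊢
  intro y
  have h1 : g⁻¹ (algebraMap L Ω y) = algebraMap L Ω ((g⁻¹).restrictNormal L y) :=
    ((g⁻¹).restrictNormal_commutes L y).symm
  show g (n (g⁻¹ (algebraMap L Ω y))) = _
  rw [h1, hn, ← h1]
  exact g.apply_symm_apply _

theorem isGalois_top : IsGalois K Ω := IsGalois.tower_top_of_isGalois ℚ K Ω

theorem fixer_isClosed : IsClosed (fixer K L Ω : Set (Ω ≃ₐ[K] Ω)) := by
  have := isGalois_top (K := K) (Ω := Ω)
  exact InfiniteGalois.fixingSubgroup_isClosed _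

/-- An algebraic integer of `Ω` fixed by the fixer of `L` comes from an integer of `L`. -/
theorem exists_of_fixed (b : integralClosure ℤ Ω)
    (hb : ∀ σ ∈ fixer K L Ω, σ (b : Ω) = (b : Ω)) : ∃ x : 𝓞 L, toIntegers x = b := by
  have := isGalois_top (K := K) (Ω := Ω)
  have h1 : (b : Ω) ∈ IntermediateField.fixedField (fixer K L Ω) := by
    rw [IntermediateField.mem_fixedField_iff]
    exact hb
  rw [fixer, InfiniteGalois.fixedField_fixingSubgroup] at h1
  obtain ⟨y, hy⟩ := h1
  have hy' : algebraMap L Ω y = (b : Ω) := hy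
  have hint : IsIntegral ℤ (algebraMap L Ω y) := hy' ▸ b.2
  have hinty : IsIntegral ℤ y := (isIntegral_algebraMap_iff (algebraMap L Ω).injective).mp hint
  exact ⟨⟨y, hinty⟩, Subtype.ext hy'⟩

/-- **Dictionary.** Let `L / K` be a Galois extension of number fields inside a Galois extension
`Ω` of `ℚ` (for instance an algebraic closure). If for every valuation subring `A` of `Ω` lying
over a prime number, every element of the inertia group of `A` which fixes `K` also fixes `L`,
then `L / K` is unramified at every finite prime. -/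
theorem unramifiedEverywhere_of_inertia
    (hI : ∀ ℓ : ℕ, ℓ.Prime → ∀ A : ValuationSubring Ω, A.LiesOverPrime ℓ →
      ∀ σ ∈ A.inertiaSubgroupIn ℚ, (∀ x : K, σ (algebraMap K Ω x) = algebraMap K Ω x) →
        ∀ y : L, σ (algebraMap L Ω y) = algebraMap L Ω y) : UnramifiedEverywhere K L := by
  apply unramifiedEverywhere_of_inertia_eq_one
  intro 𝔔 h𝔔 h0 γ hγ
  have hGal := isGalois_top (K := K) (Ω := Ω)
  have hNn : (fixer K L Ω).Normal := fixer_normal
  -- topology
  let _ : TopologicalSpace (integralClosure ℤ Ω) := ⊥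
  have : DiscreteTopology (integralClosure ℤ Ω) := ⟨rfl⟩
  have hcont : ContinuousSMul (Ω ≃ₐ[K] Ω) (integralClosure ℤ Ω) := by
    rw [continuousSMul_iff_stabilizer_isOpen]
    intro x
    have h := stabilizer_isOpen_of_isIntegral (K := K) (L := Ω) (x : Ω)
    convert h using 1
    ext g
    simp only [SetLike.mem_coe, MulAction.mem_stabilizer_iff]
    constructor
    · intro hg
      exact congrArg Subtype.val hg
    · intro hg
      exact Subtype.ext hg
  -- a prime of the big ring above 𝔔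
  let _ : Algebra (𝓞 L) (integralClosure ℤ Ω) := (toIntegers (L := L) (Ω := Ω)).toAlgebra
  have hint : Algebra.IsIntegral (𝓞 L) (integralClosure ℤ Ω) :=
    Algebra.IsIntegral.tower_top (R := ℤ)
  have h𝔔max : 𝔔.IsMaximal := Ring.DimensionLEOne.maximalOfPrime h0 h𝔔
  have hker : RingHom.ker (algebraMap (𝓞 L) (integralClosure ℤ Ω)) ≤ 𝔔 := by
    intro x hx
    rw [RingHom.mem_ker] at hx
    have hx0 : x = 0 := toIntegers_injective (L := L) (Ω := Ω) (hx.trans (map_zero _).symm)
    rw [hx0]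
    exact 𝔔.zero_mem
  obtain ⟨Q, hQmax, hQ𝔔⟩ := Ideal.exists_ideal_over_maximal_of_isIntegral
    (S := integralClosure ℤ Ω) 𝔔 hker
  have hQprime : Q.IsPrime := hQmax.isPrime
  -- the lift of γ
  let g : Ω ≃ₐ[K] Ω := γ.liftNormal Ω
  have hg : ∀ y : L, g (algebraMap L Ω y) = algebraMap L Ω (γ y) := γ.liftNormal_commutes Ω
  -- its class is in the inertia group of Q ∩ B^N
  have hγ' : ((g : Ω ≃ₐ[K] Ω) : (Ω ≃ₐ[K] Ω) ⧸ fixer K L Ω) ∈
      (Q.under (FixedPoints.subalgebra ℤ (integralClosure ℤ Ω) (fixer K L Ω))).inertia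
        ((Ω ≃ₐ[K] Ω) ⧸ fixer K L Ω) := by
    intro x
    obtain ⟨y, hy⟩ := exists_of_fixed (K := K) (x : integralClosure ℤ Ω)
      (fun σ hσ => congrArg Subtype.val (x.2 ⟨σ, hσ⟩))
    show (g : (Ω ≃ₐ[K] Ω) ⧸ fixer K L Ω) • x - x ∈
      Q.under (FixedPoints.subalgebra ℤ (integralClosure ℤ Ω) (fixer K L Ω))
    rw [Ideal.under_def, Ideal.mem_comap]
    have hxy : algebraMap (FixedPoints.subalgebra ℤ (integralClosure ℤ Ω) (fixer K L Ω))
        (integralClosure ℤ Ω) ((g : (Ω ≃ₐ[K] Ω) ⧸ fixer K L Ω) • x - x) =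
        toIntegers (γ • y - y) := by
      apply Subtype.ext
      show g ((x : integralClosure ℤ Ω) : Ω) - ((x : integralClosure ℤ Ω) : Ω) =
        algebraMap L Ω (((γ • y - y : 𝓞 L)) : L)
      rw [← hy, toIntegers_coe, hg]
      simp only [map_sub, sub_left_inj]
      rfl
    rw [hxy]
    have h1 : γ • y - y ∈ 𝔔 := hγ y
    rw [← hQ𝔔] at h1
    exact h1
  obtain ⟨σ, hσ, hσg⟩ := Fermat.Agent.Lib.InertiaLift.exists_mem_inertia_mk_eq (A := ℤ) (fixer K L Ω)
    fixer_isClosed Q _ hγ'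
  -- restrict scalars
  let σ₀ : Ω ≃ₐ[ℚ] Ω := σ.restrictScalars ℚ
  have hσ₀ : σ₀ ∈ Q.inertia (Ω ≃ₐ[ℚ] Ω) := fun b => hσ b
  obtain ⟨ℓ, hℓ, hℓQ⟩ := Fermat.Agent.Lib.Minkowski.exists_prime_mem Q hQmax
  obtain ⟨V, hV, hVQ⟩ := Fermat.Agent.Lib.InertiaPlace.exists_place Q hQmax ℓ hℓ hℓQ
  have hσL := hI ℓ hℓ V hV σ₀ (hVQ hσ₀) (fun x => σ.commutes x)
  have hσN : σ ∈ fixer K L Ω := (mem_fixer_iff σ).mpr hσL
  have hgN : g ∈ fixer K L Ω := by
    have h1 : ((σ : Ω ≃ₐ[K] Ω) : (Ω ≃ₐ[K] Ω) ⧸ fixer K L Ω) = 1 :=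
      (QuotientGroup.eq_one_iff σ).mpr hσN
    rw [hσg] at h1
    exact (QuotientGroup.eq_one_iff g).mp h1
  ext y
  have h2 := (mem_fixer_iff g).mp hgN y
  rw [hg] at h2
  exact (algebraMap L Ω).injective h2

end

end Fermat.Agent.S14.Dict
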