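import Mathlib

/-!
# S14: abstract Euler product on a free commutative monoid

For a type `P` ("primes") and `g : P → ℂ`, the monomials `mon g m = ∏ p, g p ^ m p` are indexed by
`m : P →₀ ℕ`. If the family of the monomials is summable in norm, then
`∑' m, mon g m = ∏' p, (1 - g p)⁻¹` (as a `HasProd`).
-/

set_option autoImplicit false
set_option linter.unusedSectionVars false

namespace Fermat.Agent.S14.EulerAbs

open Finset

variable {P : Type*} [DecidableEq P]

/-- The monomial `∏ p, g p ^ m p`. -/
noncomputable def mon (g : P → ℂ) (m : P →₀ ℕ) : ℂ := m.prod (fun p k => g p ^ k)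

theorem mon_zero (g : P → ℂ) : mon g 0 = 1 := by
  simp [mon]

theorem mon_single (g : P → ℂ) (p : P) (k : ℕ) : mon g (Finsupp.single p k) = g p ^ k := by
  simp [mon]

theorem mon_add (g : P → ℂ) (m m' : P →₀ ℕ) : mon g (m + m') = mon g m * mon g m' := by
  unfold mon
  exact Finsupp.prod_add_index' (fun _ => pow_zero _) (fun _ _ _ => pow_add _ _ _)

/-- The finitely supported functions with support in `T`. -/
def supp (T : Finset P) : Set (P →₀ ℕ) := {m | m.support ⊆ T}

theorem supp_empty : supp (∅ : Finset P) = {0} := by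
  ext m
  simp [supp, Finset.subset_empty]

theorem apply_eq_zero_of_mem_supp {T : Finset P} {a : P} (ha : a ∉ T) {m : P →₀ ℕ}
    (hm : m ∈ supp T) : m a = 0 := by
  by_contra h
  exact ha (hm (Finsupp.mem_support_iff.mpr h))

/-- Splitting off the exponent at `a`. -/
noncomputable def equivInsert {a : P} {T : Finset P} (ha : a ∉ T) :
    supp (insert a T) ≃ ℕ × supp T where
  toFun m := (m.1 a, ⟨m.1.erase a, by
    intro p hp
    rw [Finsupp.support_erase] at hp
    have h1 := Finset.mem_of_mem_erase hp
    have h2 := m.2 h1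
    rcases Finset.mem_insert.mp h2 with h | h
    · exact absurd h (Finset.ne_of_mem_erase hp)
    · exact h⟩)
  invFun x := ⟨x.2.1 + Finsupp.single a x.1, by
    intro p hp
    have := Finsupp.support_add hp
    rcases Finset.mem_union.mp this with h | h
    · exact Finset.mem_insert_of_mem (x.2.2 h)
    · have := Finsupp.support_single_subset h
      rw [Finset.mem_singleton] at this
      rw [this]
      exact Finset.mem_insert_self _ _⟩
  left_inv m := by
    apply Subtype.ext
    show m.1.erase a + Finsupp.single a (m.1 a) = m.1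
    rw [add_comm]
    exact Finsupp.single_add_erase _ _
  right_inv x := by
    obtain ⟨k, m, hm⟩ := x
    have h0 : m a = 0 := apply_eq_zero_of_mem_supp ha hm
    apply Prod.ext
    · show (m + Finsupp.single a k) a = k
      simp [h0]
    · apply Subtype.ext
      show (m + Finsupp.single a k).erase a = m
      ext p
      by_cases hp : p = a
      · subst hp
        simp [h0]
      · simp [Finsupp.erase_ne hp]

theorem mon_equivInsert_symm (g : P → ℂ) {a : P} {T : Finset P} (ha : a ∉ T) (x : ℕ × supp T) :
    mon g ((equivInsert ha).symm x).1 = g a ^ x.1 * mon g x.2.1 := by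
  show mon g (x.2.1 + Finsupp.single a x.1) = _
  rw [mon_add, mon_single, mul_comm]

/-- The finite Euler product. -/
theorem summable_and_hasSum_supp (g : P → ℂ) (T : Finset P) (hg : ∀ p ∈ T, ‖g p‖ < 1) :
    Summable (fun m : supp T => ‖mon g m.1‖) ∧
      HasSum (fun m : supp T => mon g m.1) (∏ p ∈ T, (1 - g p)⁻¹) := by
  induction T using Finset.induction with
  | empty =>
    rw [supp_empty]
    simp only [Finset.prod_empty]
    refine ⟨Summable.of_finite, ?_⟩
    have := hasSum_singleton (0 : P →₀ ℕ) (mon g)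
    rwa [mon_zero] at this
  | insert a T ha ih =>
    have hga : ‖g a‖ < 1 := hg a (Finset.mem_insert_self _ _)
    obtain ⟨ih1, ih2⟩ := ih (fun p hp => hg p (Finset.mem_insert_of_mem hp))
    have hgeo : Summable (fun k : ℕ => ‖g a ^ k‖) := by
      simp only [norm_pow]
      exact summable_geometric_of_lt_one (norm_nonneg _) hga
    have hgeo' : HasSum (fun k : ℕ => g a ^ k) (1 - g a)⁻¹ :=
      hasSum_geometric_of_norm_lt_one hga
    constructor
    · rw [← (equivInsert ha).symm.summable_iff]
      simp only [Function.comp_def, mon_equivInsert_symm, norm_mul]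
      exact Summable.mul_of_nonneg (f := fun k : ℕ => ‖g a ^ k‖)
        (g := fun m : supp T => ‖mon g m.1‖) hgeo ih1 (fun _ => norm_nonneg _)
        (fun _ => norm_nonneg _)
    · rw [Finset.prod_insert ha, ← (equivInsert ha).symm.hasSum_iff]
      simp only [Function.comp_def, mon_equivInsert_symm]
      have : T3Space ℂ := inferInstance
      refine HasSum.mul (f := fun k : ℕ => g a ^ k) (g := fun m : supp T => mon g m.1)
        hgeo' ih2 ?_
      exact summable_mul_of_summable_norm (f := fun k : ℕ => g a ^ k)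
        (g := fun m : supp T => mon g m.1) hgeo ih1

theorem norm_lt_one_of_summable (g : P → ℂ) (hsum : Summable (fun m : P →₀ ℕ => ‖mon g m‖))
    (p : P) : ‖g p‖ < 1 := by
  have hinj : Function.Injective (fun k : ℕ => Finsupp.single p (k + 1)) := by
    intro k l h
    have := congrArg (fun m : P →₀ ℕ => m p) h
    simpa using this
  have h1 := hsum.comp_injective hinj
  simp only [Function.comp_def, mon_single, norm_pow] at h1
  have h2 : Summable (fun k : ℕ => ‖g p‖ ^ k) := by
    have := (summable_nat_add_iff (f := fun k : ℕ => ‖g p‖ ^ k) 1).mp h1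
    exact this
  exact (summable_geometric_iff_norm_lt_one.mp h2).trans_eq' (by simp) |>.trans_eq rfl

theorem tsum_supp_eq_prod (g : P → ℂ) (hsum : Summable (fun m : P →₀ ℕ => ‖mon g m‖))
    (T : Finset P) : ∑' m : supp T, mon g m.1 = ∏ p ∈ T, (1 - g p)⁻¹ :=
  (summable_and_hasSum_supp g T (fun p _ => norm_lt_one_of_summable g hsum p)).2.tsum_eq

/-- **Abstract Euler product.** -/
theorem hasProd (g : P → ℂ) (hsum : Summable (fun m : P →₀ ℕ => ‖mon g m‖)) :
    HasProd (fun p : P => (1 - g p)⁻¹) (∑' m : P →₀ ℕ, mon g m) := by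
  have hs : Summable (fun m : P →₀ ℕ => mon g m) := hsum.of_norm
  rw [HasProd, SummationFilter.unconditional, Metric.tendsto_atTop]
  intro ε hε
  obtain ⟨A, hA⟩ := summable_iff_vanishing_norm.mp hsum (ε / 2) (half_pos hε)
  refine ⟨A.biUnion fun m => m.support, fun T hT => ?_⟩
  rw [dist_eq_norm, ← tsum_supp_eq_prod g hsum T, norm_sub_rev,
    ← hs.tsum_subtype_add_tsum_subtype_compl (supp T), add_sub_cancel_left]
  have hdisj : ∀ m ∈ (supp T)ᶜ, m ∉ A := by
    intro m hm hmA
    apply hm
    intro p hp
    exact hT (Finset.mem_biUnion.mpr ⟨m, hmA, hp⟩)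
  have hsc : Summable (fun m : ((supp T)ᶜ : Set (P →₀ ℕ)) => ‖mon g m.1‖) :=
    hsum.subtype _
  refine lt_of_le_of_lt (norm_tsum_le_tsum_norm hsc) ?_
  -- the tail is small
  have key : ∀ B : Finset ((supp T)ᶜ : Set (P →₀ ℕ)), ∑ m ∈ B, ‖mon g m.1‖ < ε / 2 := by
    intro B
    have hB := hA (B.map ⟨Subtype.val, Subtype.val_injective⟩) (by
      rw [Finset.disjoint_left]
      intro m hm hmA
      obtain ⟨m', _, rfl⟩ := Finset.mem_map.mp hm
      exact hdisj m'.1 m'.2 hmA)
    rw [Finset.sum_map] at hB
    have hnn : 0 ≤ ∑ m ∈ B, ‖mon g m.1‖ := Finset.sum_nonneg fun _ _ => norm_nonneg _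
    simpa [Real.norm_of_nonneg hnn] using hB
  have hle : ∑' m : ((supp T)ᶜ : Set (P →₀ ℕ)), ‖mon g m.1‖ ≤ ε / 2 :=
    hsc.tsum_le_of_sum_le fun B => (key B).le
  linarith

end Fermat.Agent.S14.EulerAbs
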