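import Mathlib
import Fermat.Agent.S14.EulerAbs

/-!
# S14: unique factorisation of the nonzero ideals of a number field, in `Finsupp` form

The map `(HeightOneSpectrum (𝓞 K) →₀ ℕ) → (Ideal (𝓞 K))⁰`, `m ↦ ∏ v ^ m v`, is a bijection, and
every monoid homomorphism `f : (Ideal (𝓞 K))⁰ →* ℂ` is given by monomials through it.
-/

set_option autoImplicit false
set_option linter.unusedSectionVars false

namespace Fermat.Agent.S14.EulerFactor

open NumberField nonZeroDivisors IsDedekindDomain Fermat.Agent.S14.EulerAbs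

variable (K : Type*) [Field K] [NumberField K]

/-- A prime of `K` as a nonzero ideal. -/
def primeIdeal (v : HeightOneSpectrum (𝓞 K)) : (Ideal (𝓞 K))⁰ :=
  ⟨v.asIdeal, mem_nonZeroDivisors_of_ne_zero v.ne_bot⟩

@[simp] theorem coe_primeIdeal (v : HeightOneSpectrum (𝓞 K)) :
    ((primeIdeal K v : (Ideal (𝓞 K))⁰) : Ideal (𝓞 K)) = v.asIdeal := rfl

/-- The ideal `∏ v ^ m v`. -/
noncomputable def ofFinsupp (m : HeightOneSpectrum (𝓞 K) →₀ ℕ) : (Ideal (𝓞 K))⁰ :=
  m.prod (fun v k => primeIdeal K v ^ k)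

theorem ofFinsupp_zero : ofFinsupp K 0 = 1 := by
  simp [ofFinsupp]

theorem ofFinsupp_add (m m' : HeightOneSpectrum (𝓞 K) →₀ ℕ) :
    ofFinsupp K (m + m') = ofFinsupp K m * ofFinsupp K m' := by
  unfold ofFinsupp
  exact Finsupp.prod_add_index' (fun _ => pow_zero _) (fun _ _ _ => pow_add _ _ _)

theorem ofFinsupp_single (v : HeightOneSpectrum (𝓞 K)) (k : ℕ) :
    ofFinsupp K (Finsupp.single v k) = primeIdeal K v ^ k := by
  simp [ofFinsupp]

theorem coe_ofFinsupp (m : HeightOneSpectrum (𝓞 K) →₀ ℕ) :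
    ((ofFinsupp K m : (Ideal (𝓞 K))⁰) : Ideal (𝓞 K)) = ∏ v ∈ m.support, v.asIdeal ^ m v := by
  unfold ofFinsupp Finsupp.prod
  rw [Submonoid.coe_finsetProd]
  rfl

theorem count_ofFinsupp (m : HeightOneSpectrum (𝓞 K) →₀ ℕ) (v : HeightOneSpectrum (𝓞 K)) :
    FractionalIdeal.count K v
      (((ofFinsupp K m : (Ideal (𝓞 K))⁰) : Ideal (𝓞 K)) : FractionalIdeal (𝓞 K)⁰ K) = m v := by
  classical
  have h1 : (((ofFinsupp K m : (Ideal (𝓞 K))⁰) : Ideal (𝓞 K)) : FractionalIdeal (𝓞 K)⁰ K) =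
      ∏ w ∈ m.support, ((w.asIdeal : Ideal (𝓞 K)) : FractionalIdeal (𝓞 K)⁰ K) ^ m w := by
    rw [coe_ofFinsupp]
    have := map_prod (FractionalIdeal.coeIdealHom (𝓞 K)⁰ K) (fun w => w.asIdeal ^ m w) m.support
    simp only [FractionalIdeal.coeIdealHom_apply, FractionalIdeal.coeIdeal_pow] at this
    exact this
  rw [h1, FractionalIdeal.count_prod K v m.support _ (fun w _ =>
    pow_ne_zero _ (FractionalIdeal.coeIdeal_ne_zero.mpr w.ne_bot))]
  simp only [FractionalIdeal.count_pow, FractionalIdeal.count_maximal, mul_ite, mul_one, mul_zero]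
  rw [Finset.sum_ite_eq' m.support v (fun w => (m w : ℤ))]
  split_ifs with h
  · rfl
  · rw [Finsupp.notMem_support_iff.mp h]
    rfl

theorem ofFinsupp_injective : Function.Injective (ofFinsupp K) := by
  intro m m' h
  ext v
  have h1 := count_ofFinsupp K m v
  have h2 := count_ofFinsupp K m' v
  rw [h] at h1
  have := h1.symm.trans h2
  exact_mod_cast this

/-- The prime of `K` attached to a prime element of the monoid of ideals. -/
def ofPrime {p : Ideal (𝓞 K)} (hp : Prime p) : HeightOneSpectrum (𝓞 K) :=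
  ⟨p, Ideal.isPrime_of_prime hp, hp.ne_zero⟩

theorem exists_ofFinsupp_eq (I : Ideal (𝓞 K)) (hI : I ≠ 0) :
    ∃ m : HeightOneSpectrum (𝓞 K) →₀ ℕ, ((ofFinsupp K m : (Ideal (𝓞 K))⁰) : Ideal (𝓞 K)) = I := by
  revert hI
  induction I using UniqueFactorizationMonoid.induction_on_prime with
  | h₁ => intro h; exact absurd rfl h
  | h₂ x hx =>
    intro _
    refine ⟨0, ?_⟩
    rw [ofFinsupp_zero]
    have : x = 1 := by
      rw [Ideal.one_eq_top]
      exact Ideal.isUnit_iff.mp hx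
    rw [this]
    rfl
  | h₃ a p ha hp ih =>
    intro _
    obtain ⟨m, hm⟩ := ih ha
    refine ⟨m + Finsupp.single (ofPrime K hp) 1, ?_⟩
    rw [ofFinsupp_add, ofFinsupp_single, pow_one, Submonoid.coe_mul, hm, mul_comm]
    rfl

theorem ofFinsupp_surjective : Function.Surjective (ofFinsupp K) := by
  intro I
  obtain ⟨m, hm⟩ := exists_ofFinsupp_eq K I.1 (nonZeroDivisors.coe_ne_zero I)
  exact ⟨m, Subtype.ext hm⟩

/-- Unique factorisation of nonzero ideals. -/
noncomputable def equiv : (HeightOneSpectrum (𝓞 K) →₀ ℕ) ≃ (Ideal (𝓞 K))⁰ :=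
  Equiv.ofBijective (ofFinsupp K) ⟨ofFinsupp_injective K, ofFinsupp_surjective K⟩

@[simp] theorem equiv_apply (m : HeightOneSpectrum (𝓞 K) →₀ ℕ) : equiv K m = ofFinsupp K m := rfl

/-- A monoid homomorphism on the nonzero ideals is given by monomials. -/
theorem map_ofFinsupp (f : (Ideal (𝓞 K))⁰ →* ℂ) (m : HeightOneSpectrum (𝓞 K) →₀ ℕ) :
    f (ofFinsupp K m) = mon (fun v => f (primeIdeal K v)) m := by
  unfold ofFinsupp mon
  rw [map_finsuppProd]
  simp only [map_pow]

end Fermat.Agent.S14.EulerFactor
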