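import Mathlib
import Fermat.Agent.S14.Defs
import Fermat.Agent.S14.Frob
import Fermat.Agent.S14.EulerFactor
import Fermat.Agent.S14.Dict

/-!
# S14: the Artin homomorphism on ideals

`K ⊆ L` number fields, `L / K` Galois with commutative group `G = Gal(L/K)`.

* `idealLift`, `ideal_induction` : monoid homomorphisms on the nonzero ideals of `𝓞 K` are
  determined by (and can be prescribed on) the primes;
* `artin K L hab : (Ideal (𝓞 K))⁰ →* Gal(L/K)` : the Artin homomorphism, `𝔮 ↦ frob K L 𝔮`;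
* `PowAt σ 𝔔 n` : `σ` acts as `x ↦ x ^ n` modulo `𝔔`;
* `res : Gal(M/E) →* Gal(L/K)` : restriction, for `K ⊆ E ⊆ M`, `K ⊆ L ⊆ M`;
* `res_eq_frob_pow` : a Frobenius of `M / E` restricts to the `f`-th power of the Frobenius of
  `L / K` (`L / K` unramified);
* `relNorm0`, `artinNorm` : the norm of ideals as a monoid homomorphism, and
  `artinNorm = artin ∘ relNorm0`;
* `artin_relNorm0_self` : the Artin homomorphism kills the norms of the ideals of `L`.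
-/

set_option autoImplicit false
set_option linter.unusedSectionVars false
set_option linter.style.haveILetI false

namespace Fermat.Agent.S14.Artin

open NumberField nonZeroDivisors IsDedekindDomain
open scoped Pointwise
open Fermat.Agent.S14.EulerFactor Fermat.Agent.S14.Frob

/-! ### Homomorphisms on ideals -/

section Lift

variable (K : Type*) [Field K] [NumberField K] {A : Type*} [CommMonoid A]

theorem equiv_symm_one : (equiv K).symm 1 = 0 := by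
  rw [Equiv.symm_apply_eq, equiv_apply, ofFinsupp_zero]

theorem equiv_symm_mul (I J : (Ideal (𝓞 K))⁰) :
    (equiv K).symm (I * J) = (equiv K).symm I + (equiv K).symm J := by
  rw [Equiv.symm_apply_eq, equiv_apply, ofFinsupp_add, ← equiv_apply, ← equiv_apply,
    Equiv.apply_symm_apply, Equiv.apply_symm_apply]

theorem equiv_symm_primeIdeal (v : HeightOneSpectrum (𝓞 K)) :
    (equiv K).symm (primeIdeal K v) = Finsupp.single v 1 := by
  rw [Equiv.symm_apply_eq, equiv_apply, ofFinsupp_single, pow_one]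

/-- The monoid homomorphism on nonzero ideals with prescribed values on the primes. -/
noncomputable def idealLift (f : HeightOneSpectrum (𝓞 K) → A) : (Ideal (𝓞 K))⁰ →* A where
  toFun I := ((equiv K).symm I).prod fun v n => f v ^ n
  map_one' := by
    rw [equiv_symm_one]
    simp
  map_mul' I J := by
    rw [equiv_symm_mul]
    exact Finsupp.prod_add_index' (fun _ => pow_zero _) (fun _ _ _ => pow_add _ _ _)

theorem idealLift_primeIdeal (f : HeightOneSpectrum (𝓞 K) → A)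
    (v : HeightOneSpectrum (𝓞 K)) : idealLift K f (primeIdeal K v) = f v := by
  change ((equiv K).symm (primeIdeal K v)).prod (fun v n => f v ^ n) = f v
  rw [equiv_symm_primeIdeal]
  simp

/-- Induction on the nonzero ideals. -/
theorem ideal_induction {P : (Ideal (𝓞 K))⁰ → Prop} (h1 : P 1)
    (hp : ∀ v : HeightOneSpectrum (𝓞 K), P (primeIdeal K v))
    (hmul : ∀ I J, P I → P J → P (I * J)) (I : (Ideal (𝓞 K))⁰) : P I := by
  classical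
  obtain ⟨m, rfl⟩ := ofFinsupp_surjective K I
  induction m using Finsupp.induction with
  | zero => rw [ofFinsupp_zero]; exact h1
  | single_add v k m _ _ ih =>
    rw [ofFinsupp_add, ofFinsupp_single]
    refine hmul _ _ ?_ ih
    have hk : ∀ j : ℕ, P (primeIdeal K v ^ j) := by
      intro j
      induction j with
      | zero => rw [pow_zero]; exact h1
      | succ j ihj => rw [pow_succ]; exact hmul _ _ ihj (hp v)
    exact hk k

end Lift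

/-- The prime attached to a nonzero prime ideal. -/
def toSpec {K : Type*} [Field K] [NumberField K] (𝔮 : Ideal (𝓞 K)) (h : 𝔮.IsPrime)
    (h0 : 𝔮 ≠ ⊥) : HeightOneSpectrum (𝓞 K) := ⟨𝔮, h, h0⟩

theorem monoidHom_ext_prime {K : Type*} [Field K] [NumberField K] {A : Type*} [Monoid A]
    {f g : (Ideal (𝓞 K))⁰ →* A}
    (h : ∀ v : HeightOneSpectrum (𝓞 K), f (primeIdeal K v) = g (primeIdeal K v)) : f = g := by
  ext I
  induction I using ideal_induction K with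
  | h1 => rw [map_one, map_one]
  | hp v => exact h v
  | hmul I J hI hJ => rw [map_mul, map_mul, hI, hJ]

/-! ### The Artin homomorphism -/

section ArtinHom

variable (K L : Type*) [Field K] [Field L] [NumberField K] [NumberField L] [Algebra K L]
  [IsGalois K L]

/-- The Artin homomorphism of the abelian extension `L / K` on the nonzero ideals of `K`:
the multiplicative map with `𝔮 ↦ frob K L 𝔮` on primes. -/
noncomputable def artin (hab : ∀ σ τ : Gal(L/K), σ * τ = τ * σ) :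
    (Ideal (𝓞 K))⁰ →* Gal(L/K) :=
  letI : CommGroup Gal(L/K) := { (inferInstance : Group Gal(L/K)) with mul_comm := hab }
  { toFun := fun I => idealLift K (fun v => frob K L v.asIdeal) I
    map_one' := map_one _
    map_mul' := fun I J => map_mul _ I J }

variable {K L}

theorem artin_primeIdeal (hab : ∀ σ τ : Gal(L/K), σ * τ = τ * σ)
    (v : HeightOneSpectrum (𝓞 K)) : artin K L hab (primeIdeal K v) = frob K L v.asIdeal := by
  letI : CommGroup Gal(L/K) := { (inferInstance : Group Gal(L/K)) with mul_comm := hab }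
  exact idealLift_primeIdeal K (fun v => frob K L v.asIdeal) v

theorem artin_prime (hab : ∀ σ τ : Gal(L/K), σ * τ = τ * σ) (𝔮 : (Ideal (𝓞 K))⁰)
    (h : (𝔮 : Ideal (𝓞 K)).IsPrime) : artin K L hab 𝔮 = frob K L (𝔮 : Ideal (𝓞 K)) := by
  have h0 : (𝔮 : Ideal (𝓞 K)) ≠ ⊥ := nonZeroDivisors.coe_ne_zero 𝔮
  have : 𝔮 = primeIdeal K ⟨𝔮, h, h0⟩ := Subtype.ext rfl
  conv_lhs => rw [this, artin_primeIdeal]

theorem isFrob_artin (hab : ∀ σ τ : Gal(L/K), σ * τ = τ * σ) (𝔮 : (Ideal (𝓞 K))⁰)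
    (h : (𝔮 : Ideal (𝓞 K)).IsPrime) : IsFrob K L (artin K L hab 𝔮) 𝔮 := by
  rw [artin_prime hab 𝔮 h]
  haveI := h
  exact isFrob_frob hab _ (nonZeroDivisors.coe_ne_zero 𝔮)

end ArtinHom

/-! ### Automorphisms acting as a power map modulo a prime -/

section PowAt

variable {K L : Type*} [Field K] [Field L] [NumberField K] [NumberField L] [Algebra K L]
  [IsGalois K L]

/-- `σ` acts as `x ↦ x ^ n` modulo `𝔔`. -/
def PowAt (σ : Gal(L/K)) (𝔔 : Ideal (𝓞 L)) (n : ℕ) : Prop :=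
  ∀ x : 𝓞 L, σ • x - x ^ n ∈ 𝔔

theorem powAt_of_isArithFrobAt {σ : Gal(L/K)} {𝔔 : Ideal (𝓞 L)}
    (h : IsArithFrobAt (𝓞 K) σ 𝔔) : PowAt σ 𝔔 (Nat.card (𝓞 K ⧸ 𝔔.under (𝓞 K))) :=
  fun x => h x

theorem isArithFrobAt_of_powAt {σ : Gal(L/K)} {𝔔 : Ideal (𝓞 L)}
    (h : PowAt σ 𝔔 (Nat.card (𝓞 K ⧸ 𝔔.under (𝓞 K)))) : IsArithFrobAt (𝓞 K) σ 𝔔 :=
  fun x => h x

theorem PowAt.one (𝔔 : Ideal (𝓞 L)) : PowAt (1 : Gal(L/K)) 𝔔 1 := by
  intro x
  simp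

theorem PowAt.mul {σ τ : Gal(L/K)} {𝔔 : Ideal (𝓞 L)} {n m : ℕ} (hσ : PowAt σ 𝔔 n)
    (hτ : PowAt τ 𝔔 m) : PowAt (σ * τ) 𝔔 (m * n) := by
  intro x
  have h1 := hσ (τ • x)
  have h2 : (τ • x) ^ n - (x ^ m) ^ n ∈ 𝔔 := by
    have := hτ x
    obtain ⟨c, hc⟩ := sub_dvd_pow_sub_pow (τ • x) (x ^ m) n
    rw [hc]
    exact Ideal.mul_mem_right _ _ this
  have : (σ * τ) • x - x ^ (m * n) = (σ • (τ • x) - (τ • x) ^ n) + ((τ • x) ^ n - (x ^ m) ^ n) := by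
    rw [mul_smul, pow_mul]
    ring
  rw [this]
  exact add_mem h1 h2

theorem PowAt.pow {σ : Gal(L/K)} {𝔔 : Ideal (𝓞 L)} {n : ℕ} (hσ : PowAt σ 𝔔 n) (k : ℕ) :
    PowAt (σ ^ k) 𝔔 (n ^ k) := by
  induction k with
  | zero => simpa using PowAt.one (K := K) 𝔔
  | succ k ih =>
    rw [pow_succ, pow_succ, mul_comm (n ^ k) n]
    exact ih.mul hσ

theorem PowAt.mul_inv_mem_inertia {σ τ : Gal(L/K)} {𝔔 : Ideal (𝓞 L)} {n : ℕ}
    (hσ : PowAt σ 𝔔 n) (hτ : PowAt τ 𝔔 n) : σ * τ⁻¹ ∈ 𝔔.inertia Gal(L/K) := by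
  intro x
  simpa [mul_smul] using sub_mem (hσ (τ⁻¹ • x)) (hτ (τ⁻¹ • x))

/-- Modulo an unramified prime an automorphism is determined by the power map it induces. -/
theorem PowAt.eq {σ τ : Gal(L/K)} {𝔔 : Ideal (𝓞 L)} [𝔔.IsPrime]
    (he : 𝔔.ramificationIdx (𝓞 K) = 1) {n : ℕ}
    (hσ : PowAt σ 𝔔 n) (hτ : PowAt τ 𝔔 n) : σ = τ := by
  have h := hσ.mul_inv_mem_inertia hτ
  rw [inertia_eq_bot he, Subgroup.mem_bot] at h
  exact mul_inv_eq_one.1 h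

end PowAt

/-! ### Generalities on primes in a tower -/

section Tower

variable {K E : Type*} [Field K] [Field E] [NumberField K] [NumberField E] [Algebra K E]

theorem under_ne_bot' {𝔓 : Ideal (𝓞 E)} (h : 𝔓 ≠ ⊥) : 𝔓.under (𝓞 K) ≠ ⊥ := by
  intro h0
  exact h (Ideal.eq_bot_of_comap_eq_bot (R := 𝓞 K) h0)

theorem isMaximal_of_ne_bot {𝔓 : Ideal (𝓞 E)} [h𝔓 : 𝔓.IsPrime] (h : 𝔓 ≠ ⊥) : 𝔓.IsMaximal :=
  h𝔓.isMaximal h

/-- The norm of a prime is a power of the norm of the prime below. -/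
theorem card_quot_eq_pow (𝔓 : Ideal (𝓞 E)) [h𝔓 : 𝔓.IsPrime] (h0 : 𝔓 ≠ ⊥) :
    Nat.card (𝓞 E ⧸ 𝔓) = Nat.card (𝓞 K ⧸ 𝔓.under (𝓞 K)) ^ 𝔓.inertiaDeg (𝓞 K) := by
  haveI : (𝔓.under (𝓞 K)).IsPrime := Ideal.IsPrime.under (𝓞 K) 𝔓
  haveI : 𝔓.LiesOver (𝔓.under (𝓞 K)) := ⟨rfl⟩
  haveI hmax : 𝔓.IsMaximal := h𝔓.isMaximal h0
  haveI hmax' : (𝔓.under (𝓞 K)).IsMaximal :=
    Ideal.IsPrime.isMaximal inferInstance (under_ne_bot' h0)
  rw [Ideal.inertiaDeg_eq_of_isMaximal (𝔓.under (𝓞 K)) 𝔓]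
  letI : Field (𝓞 K ⧸ 𝔓.under (𝓞 K)) := Ideal.Quotient.field _
  letI : Field (𝓞 E ⧸ 𝔓) := Ideal.Quotient.field 𝔓
  haveI : Finite (𝓞 K ⧸ 𝔓.under (𝓞 K)) :=
    Ideal.finiteQuotientOfFreeOfNeBot _ (under_ne_bot' h0)
  haveI : Finite (𝓞 E ⧸ 𝔓) := Ideal.finiteQuotientOfFreeOfNeBot 𝔓 h0
  exact Module.natCard_eq_pow_finrank

end Tower

/-! ### Restriction of automorphisms and of Frobenius elements -/

section Restriction

variable {K L E M : Type*} [Field K] [Field L] [Field E] [Field M] [NumberField K]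
  [NumberField L] [NumberField E] [NumberField M]
  [Algebra K L] [Algebra K E] [Algebra L M] [Algebra E M] [Algebra K M]
  [IsScalarTower K L M] [IsScalarTower K E M] [IsGalois K L] [IsGalois E M]

variable (K L E M) in
/-- Restriction of automorphisms: `Gal(M/E) → Gal(L/K)` for `K ⊆ E ⊆ M`, `K ⊆ L ⊆ M`. -/
noncomputable def res : Gal(M/E) →* Gal(L/K) :=
  (AlgEquiv.restrictNormalHom L).comp (AlgEquiv.restrictScalarsHom K)

theorem algebraMap_res (σ : Gal(M/E)) (x : L) :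
    algebraMap L M (res K L E M σ x) = σ (algebraMap L M x) :=
  AlgEquiv.restrictNormal_commutes (σ.restrictScalars K) L x

theorem algebraMap_res_smul (σ : Gal(M/E)) (x : 𝓞 L) :
    algebraMap (𝓞 L) (𝓞 M) (res K L E M σ • x) = σ • algebraMap (𝓞 L) (𝓞 M) x := by
  apply RingOfIntegers.ext
  exact algebraMap_res σ (x : L)

theorem powAt_res {σ : Gal(M/E)} {𝔓 : Ideal (𝓞 M)} {n : ℕ} (h : PowAt σ 𝔓 n) :
    PowAt (res K L E M σ) (𝔓.under (𝓞 L)) n := by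
  intro x
  rw [Ideal.under_def, Ideal.mem_comap, map_sub, map_pow, algebraMap_res_smul]
  exact h _

/-- **Restriction of the Frobenius.**  If `σ ∈ Gal(M/E)` is a Frobenius at the prime `𝔓` of
`M`, its restriction to `L` is the `f`-th power of the Frobenius of `L / K` at the prime of `K`
below `𝔓`, where `f` is the residue degree of `𝔓 ∩ E` over `K`. -/
theorem res_eq_frob_pow (hab : ∀ σ τ : Gal(L/K), σ * τ = τ * σ)
    (hunr : UnramifiedEverywhere K L) {σ : Gal(M/E)} {𝔓 : Ideal (𝓞 M)} [h𝔓 : 𝔓.IsPrime]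
    (h0 : 𝔓 ≠ ⊥) (hσ : IsArithFrobAt (𝓞 E) σ 𝔓) :
    res K L E M σ = frob K L (𝔓.under (𝓞 K)) ^ (𝔓.under (𝓞 E)).inertiaDeg (𝓞 K) := by
  haveI h𝔔 : (𝔓.under (𝓞 L)).IsPrime := Ideal.IsPrime.under (𝓞 L) 𝔓
  haveI h𝔓E : (𝔓.under (𝓞 E)).IsPrime := Ideal.IsPrime.under (𝓞 E) 𝔓
  haveI h𝔭 : (𝔓.under (𝓞 K)).IsPrime := Ideal.IsPrime.under (𝓞 K) 𝔓
  have h𝔔0 : 𝔓.under (𝓞 L) ≠ ⊥ := under_ne_bot' h0
  have h𝔓E0 : 𝔓.under (𝓞 E) ≠ ⊥ := under_ne_bot' h0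
  have h𝔭0 : 𝔓.under (𝓞 K) ≠ ⊥ := under_ne_bot' h0
  have hu1 : (𝔓.under (𝓞 L)).under (𝓞 K) = 𝔓.under (𝓞 K) := Ideal.under_under 𝔓
  have hu2 : (𝔓.under (𝓞 E)).under (𝓞 K) = 𝔓.under (𝓞 K) := Ideal.under_under 𝔓
  have h1 : PowAt (res K L E M σ) (𝔓.under (𝓞 L)) (Nat.card (𝓞 E ⧸ 𝔓.under (𝓞 E))) :=
    powAt_res (powAt_of_isArithFrobAt hσ)
  rw [card_quot_eq_pow (K := K) (𝔓.under (𝓞 E)) h𝔓E0, hu2] at h1
  have h2 : IsArithFrobAt (𝓞 K) (frob K L (𝔓.under (𝓞 K))) (𝔓.under (𝓞 L)) :=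
    isFrob_frob hab (𝔓.under (𝓞 K)) h𝔭0 _ h𝔔 hu1
  have h3 := (powAt_of_isArithFrobAt h2).pow ((𝔓.under (𝓞 E)).inertiaDeg (𝓞 K))
  rw [hu1] at h3
  exact PowAt.eq (hunr _ h𝔔 h𝔔0) h1 h3

end Restriction

/-! ### The norm of ideals and the Artin homomorphism -/

section Norm

variable {K E : Type*} [Field K] [Field E] [NumberField K] [NumberField E] [Algebra K E]

variable (K E) in
/-- The relative norm as a monoid homomorphism on nonzero ideals. -/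
noncomputable def relNorm0 : (Ideal (𝓞 E))⁰ →* (Ideal (𝓞 K))⁰ where
  toFun I := ⟨Ideal.relNorm (𝓞 K) (I : Ideal (𝓞 E)), mem_nonZeroDivisors_of_ne_zero (by
    rw [Ne, Ideal.zero_eq_bot, Ideal.relNorm_eq_bot_iff]
    exact nonZeroDivisors.coe_ne_zero I)⟩
  map_one' := Subtype.ext (map_one _)
  map_mul' I J := Subtype.ext (map_mul _ _ _)

@[simp] theorem coe_relNorm0 (I : (Ideal (𝓞 E))⁰) :
    ((relNorm0 K E I : (Ideal (𝓞 K))⁰) : Ideal (𝓞 K)) =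
      Ideal.relNorm (𝓞 K) (I : Ideal (𝓞 E)) := rfl

/-- The prime below a nonzero prime, as a nonzero ideal. -/
def under0 (K : Type*) {E : Type*} [Field K] [Field E] [NumberField K] [NumberField E]
    [Algebra K E] (𝔓 : (Ideal (𝓞 E))⁰) : (Ideal (𝓞 K))⁰ :=
  ⟨(𝔓 : Ideal (𝓞 E)).under (𝓞 K),
    mem_nonZeroDivisors_of_ne_zero (under_ne_bot' (nonZeroDivisors.coe_ne_zero 𝔓))⟩

@[simp] theorem coe_under0 (𝔓 : (Ideal (𝓞 E))⁰) :
    ((under0 K 𝔓 : (Ideal (𝓞 K))⁰) : Ideal (𝓞 K)) = (𝔓 : Ideal (𝓞 E)).under (𝓞 K) := rfl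

theorem relNorm_prime (𝔓 : Ideal (𝓞 E)) [h𝔓 : 𝔓.IsPrime] (h0 : 𝔓 ≠ ⊥) :
    Ideal.relNorm (𝓞 K) 𝔓 = 𝔓.under (𝓞 K) ^ 𝔓.inertiaDeg (𝓞 K) := by
  haveI : (𝔓.under (𝓞 K)).IsPrime := Ideal.IsPrime.under (𝓞 K) 𝔓
  haveI : 𝔓.LiesOver (𝔓.under (𝓞 K)) := ⟨rfl⟩
  haveI hmax : 𝔓.IsMaximal := h𝔓.isMaximal h0
  haveI hmax' : (𝔓.under (𝓞 K)).IsMaximal :=
    Ideal.IsPrime.isMaximal inferInstance (under_ne_bot' h0)
  exact Ideal.relNorm_eq_pow_of_isMaximal 𝔓 (𝔓.under (𝓞 K))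

theorem relNorm0_prime (𝔓 : (Ideal (𝓞 E))⁰) (h : (𝔓 : Ideal (𝓞 E)).IsPrime) :
    relNorm0 K E 𝔓 = under0 K 𝔓 ^ (𝔓 : Ideal (𝓞 E)).inertiaDeg (𝓞 K) := by
  apply Subtype.ext
  rw [coe_relNorm0, SubmonoidClass.coe_pow, coe_under0]
  haveI := h
  exact relNorm_prime _ (nonZeroDivisors.coe_ne_zero 𝔓)

end Norm

section ArtinNorm

variable {K L E M : Type*} [Field K] [Field L] [Field E] [Field M] [NumberField K]
  [NumberField L] [NumberField E] [NumberField M]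
  [Algebra K L] [Algebra K E] [Algebra L M] [Algebra E M] [Algebra K M]
  [IsScalarTower K L M] [IsScalarTower K E M] [IsGalois K L] [IsGalois E M]

theorem artin_relNorm0_prime (hab : ∀ σ τ : Gal(L/K), σ * τ = τ * σ)
    (𝔓 : (Ideal (𝓞 E))⁰) (h : (𝔓 : Ideal (𝓞 E)).IsPrime) :
    artin K L hab (relNorm0 K E 𝔓) =
      frob K L ((𝔓 : Ideal (𝓞 E)).under (𝓞 K)) ^ (𝔓 : Ideal (𝓞 E)).inertiaDeg (𝓞 K) := by
  rw [relNorm0_prime 𝔓 h, map_pow, artin_prime hab (under0 K 𝔓) (Ideal.IsPrime.under (𝓞 K) _)]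
  rfl

/-- `artin ∘ relNorm` at a prime `𝔓E` of `E` is the restriction to `L` of any Frobenius of
`M / E` at any prime of `M` above `𝔓E`. -/
theorem artin_relNorm0_eq_res (hab : ∀ σ τ : Gal(L/K), σ * τ = τ * σ)
    (hunr : UnramifiedEverywhere K L) {σ : Gal(M/E)} {𝔓 : Ideal (𝓞 M)} [h𝔓 : 𝔓.IsPrime]
    (h0 : 𝔓 ≠ ⊥) (hσ : IsArithFrobAt (𝓞 E) σ 𝔓) (𝔓E : (Ideal (𝓞 E))⁰)
    (h : (𝔓E : Ideal (𝓞 E)) = 𝔓.under (𝓞 E)) :
    artin K L hab (relNorm0 K E 𝔓E) = res K L E M σ := by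
  have hp : (𝔓E : Ideal (𝓞 E)).IsPrime := h ▸ Ideal.IsPrime.under (𝓞 E) 𝔓
  rw [artin_relNorm0_prime hab 𝔓E hp, res_eq_frob_pow hab hunr h0 hσ, h, Ideal.under_under]

end ArtinNorm

section KillsNorms

variable {K L : Type*} [Field K] [Field L] [NumberField K] [NumberField L] [Algebra K L]
  [IsGalois K L]

theorem powAt_one_card (𝔔 : Ideal (𝓞 L)) [h𝔔 : 𝔔.IsPrime] (h0 : 𝔔 ≠ ⊥) :
    PowAt (1 : Gal(L/K)) 𝔔 (Nat.card (𝓞 L ⧸ 𝔔)) := by
  intro x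
  haveI hmax : 𝔔.IsMaximal := h𝔔.isMaximal h0
  letI : Field (𝓞 L ⧸ 𝔔) := Ideal.Quotient.field 𝔔
  haveI : Finite (𝓞 L ⧸ 𝔔) := Ideal.finiteQuotientOfFreeOfNeBot 𝔔 h0
  haveI := Fintype.ofFinite (𝓞 L ⧸ 𝔔)
  rw [one_smul, ← Ideal.Quotient.eq, map_pow, Nat.card_eq_fintype_card, FiniteField.pow_card]

/-- The Frobenius to the power the residue degree is trivial. -/
theorem frob_pow_inertiaDeg (hab : ∀ σ τ : Gal(L/K), σ * τ = τ * σ)
    (hunr : UnramifiedEverywhere K L) (𝔔 : Ideal (𝓞 L)) [h𝔔 : 𝔔.IsPrime] (h0 : 𝔔 ≠ ⊥) :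
    frob K L (𝔔.under (𝓞 K)) ^ 𝔔.inertiaDeg (𝓞 K) = 1 := by
  haveI h𝔭 : (𝔔.under (𝓞 K)).IsPrime := Ideal.IsPrime.under (𝓞 K) 𝔔
  have h𝔭0 : 𝔔.under (𝓞 K) ≠ ⊥ := under_ne_bot' h0
  have h2 : IsArithFrobAt (𝓞 K) (frob K L (𝔔.under (𝓞 K))) 𝔔 :=
    isFrob_frob hab (𝔔.under (𝓞 K)) h𝔭0 _ h𝔔 rfl
  have h3 := (powAt_of_isArithFrobAt h2).pow (𝔔.inertiaDeg (𝓞 K))
  rw [← card_quot_eq_pow 𝔔 h0] at h3
  exact PowAt.eq (hunr _ h𝔔 h0) h3 (powAt_one_card 𝔔 h0)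

/-- The Artin homomorphism kills the norms of the ideals of `L`. -/
theorem artin_relNorm0_self (hab : ∀ σ τ : Gal(L/K), σ * τ = τ * σ)
    (hunr : UnramifiedEverywhere K L) (𝔄 : (Ideal (𝓞 L))⁰) :
    artin K L hab (relNorm0 K L 𝔄) = 1 := by
  induction 𝔄 using ideal_induction L with
  | h1 => rw [map_one, map_one]
  | hp v =>
    have hp : ((primeIdeal L v : (Ideal (𝓞 L))⁰) : Ideal (𝓞 L)).IsPrime := v.isPrime
    rw [relNorm0_prime _ hp, map_pow,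
      artin_prime hab (under0 K (primeIdeal L v)) (Ideal.IsPrime.under (𝓞 K) _)]
    haveI := hp
    exact frob_pow_inertiaDeg hab hunr _ v.ne_bot
  | hmul I J hI hJ => rw [map_mul, map_mul, hI, hJ, mul_one]

end KillsNorms

/-! ### Descent to the class group -/

section Descent

variable {K : Type*} [Field K] [NumberField K]

/-- Every ideal class contains the inverse of an ideal prime to a given nonzero ideal. -/
theorem exists_mul_isPrincipal_coprime (J : (Ideal (𝓞 K))⁰) (𝔪 : Ideal (𝓞 K)) (h𝔪 : 𝔪 ≠ ⊥) :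
    ∃ K' : (Ideal (𝓞 K))⁰, ((J * K' : (Ideal (𝓞 K))⁰) : Ideal (𝓞 K)).IsPrincipal ∧
      (K' : Ideal (𝓞 K)) ⊔ 𝔪 = ⊤ := by
  have hJ0 : (J : Ideal (𝓞 K)) ≠ 0 := nonZeroDivisors.coe_ne_zero J
  by_cases htop : 𝔪 = ⊤
  · obtain ⟨K', hK'⟩ := ClassGroup.mk0_surjective (ClassGroup.mk0 J)⁻¹
    refine ⟨K', ?_, by rw [htop, sup_top_eq]⟩
    rw [← ClassGroup.mk0_eq_one_iff (J * K').2]
    change ClassGroup.mk0 (J * K') = 1
    rw [map_mul, hK', mul_inv_cancel]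
  have hle : (J : Ideal (𝓞 K)) * 𝔪 ≤ J := Ideal.mul_le_left
  have hne : (J : Ideal (𝓞 K)) * 𝔪 ≠ 0 := mul_ne_zero hJ0 h𝔪
  obtain ⟨a, ha⟩ := IsDedekindDomain.exists_sup_span_eq hle hne
  have haJ : Ideal.span {a} ≤ (J : Ideal (𝓞 K)) := by
    rw [← ha]
    exact le_sup_right
  obtain ⟨K', hK'⟩ := Ideal.dvd_iff_le.mpr haJ
  have hcop : 𝔪 ⊔ K' = ⊤ := by
    have h1 : (J : Ideal (𝓞 K)) * (𝔪 ⊔ K') = (J : Ideal (𝓞 K)) * ⊤ := by
      rw [Ideal.mul_sup, ← hK', ha, Ideal.mul_top]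
    exact mul_left_cancel₀ hJ0 h1
  have hK'0 : K' ≠ 0 := by
    rintro rfl
    apply htop
    rw [← hcop]
    simp
  refine ⟨⟨K', mem_nonZeroDivisors_of_ne_zero hK'0⟩, ?_, by rw [sup_comm]; exact hcop⟩
  rw [Submonoid.coe_mul]
  change ((J : Ideal (𝓞 K)) * K').IsPrincipal
  rw [← hK']
  exact ⟨⟨a, rfl⟩⟩

theorem sup_eq_top_mul {I J 𝔪 : Ideal (𝓞 K)} (hI : I ⊔ 𝔪 = ⊤) (hJ : J ⊔ 𝔪 = ⊤) :
    I * J ⊔ 𝔪 = ⊤ := by
  rw [← Ideal.isCoprime_iff_sup_eq] at hI hJ ⊢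
  exact IsCoprime.mul_left hI hJ

/-- **Descent to the class group, away from `𝔪`.**  A homomorphism on the nonzero ideals
which kills the principal ideals prime to `𝔪` induces a homomorphism on the class group,
with the same values on the ideals prime to `𝔪`. -/
theorem exists_classLift_away {A : Type*} [Group A] (𝔪 : Ideal (𝓞 K)) (h𝔪 : 𝔪 ≠ ⊥)
    (f : (Ideal (𝓞 K))⁰ →* A)
    (hf : ∀ I : (Ideal (𝓞 K))⁰, (I : Ideal (𝓞 K)).IsPrincipal →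
      (I : Ideal (𝓞 K)) ⊔ 𝔪 = ⊤ → f I = 1) :
    ∃ φ : ClassGroup (𝓞 K) →* A, ∀ I : (Ideal (𝓞 K))⁰, (I : Ideal (𝓞 K)) ⊔ 𝔪 = ⊤ →
      φ (ClassGroup.mk0 I) = f I := by
  have key : ∀ I I' : (Ideal (𝓞 K))⁰, (I : Ideal (𝓞 K)) ⊔ 𝔪 = ⊤ →
      (I' : Ideal (𝓞 K)) ⊔ 𝔪 = ⊤ → ClassGroup.mk0 I = ClassGroup.mk0 I' → f I = f I' := by
    intro I I' hI hI' hcl
    obtain ⟨K', hpr, hK'⟩ := exists_mul_isPrincipal_coprime I 𝔪 h𝔪
    have h1 : f (I * K') = 1 := hf _ hpr (by rw [Submonoid.coe_mul]; exact sup_eq_top_mul hI hK')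
    have hpr' : ((I' * K' : (Ideal (𝓞 K))⁰) : Ideal (𝓞 K)).IsPrincipal := by
      rw [← ClassGroup.mk0_eq_one_iff (I' * K').2]
      change ClassGroup.mk0 (I' * K') = 1
      rw [map_mul, ← hcl, ← map_mul]
      exact (ClassGroup.mk0_eq_one_iff (I * K').2).mpr hpr
    have h2 : f (I' * K') = 1 :=
      hf _ hpr' (by rw [Submonoid.coe_mul]; exact sup_eq_top_mul hI' hK')
    rw [map_mul] at h1 h2
    exact mul_right_cancel (h1.trans h2.symm)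
  have rep : ∀ c : ClassGroup (𝓞 K), ∃ I : (Ideal (𝓞 K))⁰, (I : Ideal (𝓞 K)) ⊔ 𝔪 = ⊤ ∧
      ClassGroup.mk0 I = c := by
    intro c
    obtain ⟨J, hJ⟩ := ClassGroup.mk0_surjective c⁻¹
    obtain ⟨K', hpr, hK'⟩ := exists_mul_isPrincipal_coprime J 𝔪 h𝔪
    refine ⟨K', hK', ?_⟩
    have h1 : ClassGroup.mk0 (J * K') = 1 := (ClassGroup.mk0_eq_one_iff (J * K').2).mpr hpr
    rw [map_mul, hJ] at h1
    exact (inv_mul_eq_one.mp h1).symm
  choose ρ hρ1 hρ2 using rep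
  have h1cop : ((1 : (Ideal (𝓞 K))⁰) : Ideal (𝓞 K)) ⊔ 𝔪 = ⊤ := by
    rw [Submonoid.coe_one, Ideal.one_eq_top, top_sup_eq]
  refine ⟨{ toFun := fun c => f (ρ c), map_one' := ?_, map_mul' := ?_ }, ?_⟩
  · rw [key (ρ 1) 1 (hρ1 1) h1cop (by rw [hρ2, map_one]), map_one]
  · intro c c'
    rw [← map_mul]
    refine key _ _ (hρ1 _) ?_ ?_
    · rw [Submonoid.coe_mul]
      exact sup_eq_top_mul (hρ1 c) (hρ1 c')
    · rw [hρ2, map_mul, hρ2, hρ2]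
  · intro I hI
    exact key _ _ (hρ1 _) hI (hρ2 _)

/-- **Descent to the class group.** -/
theorem exists_classLift {A : Type*} [Group A] (f : (Ideal (𝓞 K))⁰ →* A)
    (hf : ∀ I : (Ideal (𝓞 K))⁰, (I : Ideal (𝓞 K)).IsPrincipal → f I = 1) :
    ∃ φ : ClassGroup (𝓞 K) →* A, ∀ I : (Ideal (𝓞 K))⁰, φ (ClassGroup.mk0 I) = f I := by
  obtain ⟨φ, hφ⟩ := exists_classLift_away (⊤ : Ideal (𝓞 K)) top_ne_bot f
    (fun I hI _ => hf I hI)
  exact ⟨φ, fun I => hφ I (by rw [sup_top_eq])⟩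

/-- The norm homomorphism on class groups. -/
theorem exists_classNorm (K E : Type*) [Field K] [Field E] [NumberField K] [NumberField E]
    [Algebra K E] : ∃ N : ClassGroup (𝓞 E) →* ClassGroup (𝓞 K),
      ∀ I : (Ideal (𝓞 E))⁰, N (ClassGroup.mk0 I) = ClassGroup.mk0 (relNorm0 K E I) := by
  refine exists_classLift (ClassGroup.mk0.comp (relNorm0 K E)) ?_
  intro I hI
  rw [MonoidHom.comp_apply, ClassGroup.mk0_eq_one_iff (relNorm0 K E I).2, coe_relNorm0]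
  obtain ⟨⟨x, hx⟩⟩ := hI
  rw [hx, Ideal.submodule_span_eq, Ideal.relNorm_singleton]
  exact ⟨⟨_, rfl⟩⟩

end Descent

/-! ### Unramified base change, primes of degree one -/

section BaseChange

variable {K L E M : Type*} [Field K] [Field L] [Field E] [Field M] [NumberField K]
  [NumberField L] [NumberField E] [NumberField M]
  [Algebra K L] [Algebra K E] [Algebra L M] [Algebra E M] [Algebra K M]
  [IsScalarTower K L M] [IsScalarTower K E M] [IsGalois K L] [IsGalois E M]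

/-- If `L / K` is unramified everywhere and `Gal(M/E) → Gal(L/K)` is injective (`M = L E`),
then `M / E` is unramified everywhere. -/
theorem unramifiedEverywhere_of_res_injective (hunr : UnramifiedEverywhere K L)
    (hinj : Function.Injective (res K L E M)) : UnramifiedEverywhere E M := by
  apply Dict.unramifiedEverywhere_of_inertia_eq_one
  intro 𝔓 h𝔓 h0 γ hγ
  haveI := h𝔓
  haveI h𝔔 : (𝔓.under (𝓞 L)).IsPrime := Ideal.IsPrime.under (𝓞 L) 𝔓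
  have h𝔔0 : 𝔓.under (𝓞 L) ≠ ⊥ := under_ne_bot' h0
  have h1 : res K L E M γ ∈ (𝔓.under (𝓞 L)).inertia Gal(L/K) := by
    intro x
    change res K L E M γ • x - x ∈ Ideal.comap (algebraMap (𝓞 L) (𝓞 M)) 𝔓
    rw [Ideal.mem_comap, map_sub, algebraMap_res_smul]
    exact hγ _
  rw [inertia_eq_bot (hunr _ h𝔔 h𝔔0), Subgroup.mem_bot] at h1
  exact hinj (h1.trans (map_one _).symm)

end BaseChange

section DegreeOne

variable {K E Ω : Type*} [Field K] [Field E] [Field Ω] [NumberField K] [NumberField E]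
  [NumberField Ω] [Algebra K E] [Algebra E Ω] [Algebra K Ω] [IsScalarTower K E Ω]
  [IsGalois K Ω]

theorem card_le_of_pow_eq_self {F : Type*} [Field F] [Finite F] {q : ℕ} (hq : 1 < q)
    (h : ∀ y : F, y ^ q = y) : Nat.card F ≤ q := by
  classical
  haveI := Fintype.ofFinite F
  have hne : (Polynomial.X ^ q - Polynomial.X : Polynomial F) ≠ 0 :=
    FiniteField.X_pow_card_sub_X_ne_zero F hq
  have hsub : (Finset.univ : Finset F) ⊆
      (Polynomial.X ^ q - Polynomial.X : Polynomial F).roots.toFinset := by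
    intro y _
    rw [Multiset.mem_toFinset, Polynomial.mem_roots hne]
    simp [h y]
  calc Nat.card F = (Finset.univ : Finset F).card := by
        rw [Nat.card_eq_fintype_card, Finset.card_univ]
    _ ≤ (Polynomial.X ^ q - Polynomial.X : Polynomial F).roots.toFinset.card :=
        Finset.card_le_card hsub
    _ ≤ (Polynomial.X ^ q - Polynomial.X : Polynomial F).roots.card :=
        Multiset.toFinset_card_le _
    _ ≤ (Polynomial.X ^ q - Polynomial.X : Polynomial F).natDegree := Polynomial.card_roots' _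
    _ = q := FiniteField.X_pow_card_sub_X_natDegree_eq F hq

/-- If a Frobenius `τ` of `Ω / K` at `𝔓` fixes the intermediate field `E`, the prime of `E`
below `𝔓` has residue degree one over `K`. -/
theorem inertiaDeg_under_eq_one {τ : Gal(Ω/K)} {𝔓 : Ideal (𝓞 Ω)} [h𝔓 : 𝔓.IsPrime]
    (h0 : 𝔓 ≠ ⊥) (hτ : IsArithFrobAt (𝓞 K) τ 𝔓)
    (hfix : ∀ x : E, τ (algebraMap E Ω x) = algebraMap E Ω x) :
    (𝔓.under (𝓞 E)).inertiaDeg (𝓞 K) = 1 := by
  haveI h𝔓E : (𝔓.under (𝓞 E)).IsPrime := Ideal.IsPrime.under (𝓞 E) 𝔓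
  have h𝔓E0 : 𝔓.under (𝓞 E) ≠ ⊥ := under_ne_bot' h0
  have h𝔭0 : (𝔓.under (𝓞 E)).under (𝓞 K) ≠ ⊥ := under_ne_bot' h𝔓E0
  haveI h𝔭 : ((𝔓.under (𝓞 E)).under (𝓞 K)).IsPrime := Ideal.IsPrime.under (𝓞 K) _
  have hu : (𝔓.under (𝓞 E)).under (𝓞 K) = 𝔓.under (𝓞 K) := Ideal.under_under 𝔓
  haveI hmax : (𝔓.under (𝓞 E)).IsMaximal := h𝔓E.isMaximal h𝔓E0
  haveI hmax' : ((𝔓.under (𝓞 E)).under (𝓞 K)).IsMaximal := h𝔭.isMaximal h𝔭0
  letI : Field (𝓞 E ⧸ 𝔓.under (𝓞 E)) := Ideal.Quotient.field _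
  haveI : Finite (𝓞 E ⧸ 𝔓.under (𝓞 E)) := Ideal.finiteQuotientOfFreeOfNeBot _ h𝔓E0
  haveI : Finite (𝓞 K ⧸ (𝔓.under (𝓞 E)).under (𝓞 K)) :=
    Ideal.finiteQuotientOfFreeOfNeBot _ h𝔭0
  haveI : Nontrivial (𝓞 K ⧸ (𝔓.under (𝓞 E)).under (𝓞 K)) :=
    Ideal.Quotient.nontrivial_iff.2 h𝔭.ne_top
  obtain ⟨q, hq⟩ : ∃ q : ℕ, q = Nat.card (𝓞 K ⧸ (𝔓.under (𝓞 E)).under (𝓞 K)) := ⟨_, rfl⟩
  have hq1 : 1 < q := hq ▸ Finite.one_lt_card
  have hpow : ∀ y : 𝓞 E ⧸ 𝔓.under (𝓞 E), y ^ q = y := by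
    intro y
    obtain ⟨x, rfl⟩ := Ideal.Quotient.mk_surjective y
    rw [← map_pow, eq_comm, Ideal.Quotient.eq, Ideal.under_def, Ideal.mem_comap, map_sub,
      map_pow]
    have h1 := hτ (algebraMap (𝓞 E) (𝓞 Ω) x)
    have h2 : (MulSemiringAction.toAlgHom (𝓞 K) (𝓞 Ω) τ) (algebraMap (𝓞 E) (𝓞 Ω) x) =
        algebraMap (𝓞 E) (𝓞 Ω) x := by
      apply RingOfIntegers.ext
      exact hfix (x : E)
    rw [h2, ← hu, ← hq] at h1
    exact h1
  have hle := card_le_of_pow_eq_self hq1 hpow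
  rw [card_quot_eq_pow (K := K) (𝔓.under (𝓞 E)) h𝔓E0, ← hq] at hle
  have hpos : 0 < (𝔓.under (𝓞 E)).inertiaDeg (𝓞 K) := Ideal.inertiaDeg_pos _ _
  by_contra hne1
  have h2 : 2 ≤ (𝔓.under (𝓞 E)).inertiaDeg (𝓞 K) := by omega
  have : q ^ 2 ≤ q := le_trans (Nat.pow_le_pow_right (by omega) h2) hle
  nlinarith

/-- If a Frobenius `τ` of `Ω / K` at `𝔓` fixes the intermediate field `E`, the norm of the
prime of `E` below `𝔓` is the prime of `K` below `𝔓`. -/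
theorem relNorm_under_of_fixed {τ : Gal(Ω/K)} {𝔓 : Ideal (𝓞 Ω)} [h𝔓 : 𝔓.IsPrime]
    (h0 : 𝔓 ≠ ⊥) (hτ : IsArithFrobAt (𝓞 K) τ 𝔓)
    (hfix : ∀ x : E, τ (algebraMap E Ω x) = algebraMap E Ω x) :
    Ideal.relNorm (𝓞 K) (𝔓.under (𝓞 E)) = 𝔓.under (𝓞 K) := by
  haveI h𝔓E : (𝔓.under (𝓞 E)).IsPrime := Ideal.IsPrime.under (𝓞 E) 𝔓
  rw [relNorm_prime _ (under_ne_bot' h0), inertiaDeg_under_eq_one h0 hτ hfix, pow_one,
    Ideal.under_under]

end DegreeOne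

end Fermat.Agent.S14.Artin
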