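import Mathlib

/-!
# Descent to the class group away from an ideal

`R` is a Dedekind domain, `𝔪` a nonzero ideal, `G` a group and `φ` a monoid homomorphism from the
nonzero ideals of `R` to `G` which kills the principal ideals prime to `𝔪`. Then there is a
homomorphism `ψ : ClassGroup R →* G` with `ψ [𝔞] = φ 𝔞` for every ideal `𝔞` prime to `𝔪`.

* `exists_mk0_eq_of_sup_eq_top` : every ideal class contains an integral ideal prime to `𝔪`;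
* `map_eq_of_mk0_eq` : `φ` takes the same value on two ideals prime to `𝔪` in the same class;
* `exists_hom` : the homomorphism `ψ`.
-/

set_option autoImplicit false
set_option linter.style.haveILetI false
set_option linter.unusedSectionVars false

namespace Fermat.Agent.S14.CycloDescent

open nonZeroDivisors

variable {R : Type*} [CommRing R] [IsDedekindDomain R] {G : Type*} [Group G]

/-- Products of ideals prime to `𝔪` are prime to `𝔪`. -/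
theorem mul_sup_eq_top {𝔪 I J : Ideal R} (hI : I ⊔ 𝔪 = ⊤) (hJ : J ⊔ 𝔪 = ⊤) :
    I * J ⊔ 𝔪 = ⊤ := by
  rw [← Ideal.isCoprime_iff_sup_eq] at hI hJ ⊢
  exact IsCoprime.mul_left hI hJ

/-- Every ideal class contains an integral ideal prime to `𝔪`. -/
theorem exists_mk0_eq_of_sup_eq_top (𝔪 : Ideal R) (h𝔪 : 𝔪 ≠ ⊥) (c : ClassGroup R) :
    ∃ 𝔞 : (Ideal R)⁰, (𝔞 : Ideal R) ⊔ 𝔪 = ⊤ ∧ ClassGroup.mk0 𝔞 = c := by
  by_cases htop : 𝔪 = ⊤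
  · obtain ⟨𝔞, h𝔞⟩ := ClassGroup.mk0_surjective c
    exact ⟨𝔞, by rw [htop, sup_top_eq], h𝔞⟩
  obtain ⟨J, hJ⟩ := ClassGroup.mk0_surjective c⁻¹
  have hJ0 : (J : Ideal R) ≠ 0 := nonZeroDivisors.coe_ne_zero J
  obtain ⟨a, ha⟩ := IsDedekindDomain.exists_sup_span_eq (I := 𝔪 * (J : Ideal R))
    (J := (J : Ideal R)) Ideal.mul_le_right (mul_ne_zero h𝔪 hJ0)
  have hle : Ideal.span {a} ≤ (J : Ideal R) := by
    rw [← ha]
    exact le_sup_right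
  obtain ⟨𝔞, h𝔞⟩ := Ideal.dvd_iff_le.mpr hle
  have h1 : (J : Ideal R) * (𝔪 ⊔ 𝔞) = (J : Ideal R) * ⊤ := by
    rw [Ideal.mul_sup, mul_comm _ 𝔪, ← h𝔞, ha, Ideal.mul_top]
  have hcop : 𝔪 ⊔ 𝔞 = ⊤ := mul_left_cancel₀ hJ0 h1
  have h𝔞0 : 𝔞 ≠ 0 := by
    rintro rfl
    apply htop
    rw [← hcop, Ideal.zero_eq_bot, sup_bot_eq]
  refine ⟨⟨𝔞, mem_nonZeroDivisors_of_ne_zero h𝔞0⟩, by rw [sup_comm]; exact hcop, ?_⟩
  have ha0 : Ideal.span {a} ≠ 0 := by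
    rw [h𝔞]
    exact mul_ne_zero hJ0 h𝔞0
  have hmul : J * ⟨𝔞, mem_nonZeroDivisors_of_ne_zero h𝔞0⟩ =
      (⟨Ideal.span {a}, mem_nonZeroDivisors_of_ne_zero ha0⟩ : (Ideal R)⁰) :=
    Subtype.ext h𝔞.symm
  have hone : ClassGroup.mk0 (J * ⟨𝔞, mem_nonZeroDivisors_of_ne_zero h𝔞0⟩) = 1 := by
    rw [hmul, ClassGroup.mk0_eq_one_iff]
    exact ⟨⟨a, rfl⟩⟩
  rw [map_mul, hJ] at hone
  exact (inv_mul_eq_one.mp hone).symm ▸ rfl

variable (φ : (Ideal R)⁰ →* G) (𝔪 : Ideal R)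

/-- `φ` takes the same value on two ideals prime to `𝔪` in the same class. -/
theorem map_eq_of_mk0_eq (h𝔪 : 𝔪 ≠ ⊥)
    (hprin : ∀ (𝔞 : (Ideal R)⁰) (β : R), (𝔞 : Ideal R) = Ideal.span {β} →
      Ideal.span {β} ⊔ 𝔪 = ⊤ → φ 𝔞 = 1)
    {I J : (Ideal R)⁰} (hI : (I : Ideal R) ⊔ 𝔪 = ⊤) (hJ : (J : Ideal R) ⊔ 𝔪 = ⊤)
    (h : ClassGroup.mk0 I = ClassGroup.mk0 J) : φ I = φ J := by
  obtain ⟨𝔠, h𝔠, hc⟩ := exists_mk0_eq_of_sup_eq_top 𝔪 h𝔪 (ClassGroup.mk0 I)⁻¹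
  have key : ∀ I' : (Ideal R)⁰, (I' : Ideal R) ⊔ 𝔪 = ⊤ →
      ClassGroup.mk0 I' = ClassGroup.mk0 I → φ 𝔠 * φ I' = 1 := by
    intro I' hI' hcl
    have hone : ClassGroup.mk0 (𝔠 * I') = 1 := by
      rw [map_mul, hc, hcl, inv_mul_cancel]
    have hpr : ((𝔠 * I' : (Ideal R)⁰) : Ideal R).IsPrincipal :=
      (ClassGroup.mk0_eq_one_iff (𝔠 * I').2).mp hone
    obtain ⟨β, hβ⟩ := hpr.principal
    have hβ' : ((𝔠 * I' : (Ideal R)⁰) : Ideal R) = Ideal.span {β} := hβ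
    rw [← map_mul]
    refine hprin _ β hβ' ?_
    rw [← hβ']
    exact mul_sup_eq_top h𝔠 hI'
  have h1 := key I hI rfl
  have h2 := key J hJ h.symm
  exact mul_left_cancel (h1.trans h2.symm)

/-- **Descent to the class group away from `𝔪`.** -/
theorem exists_hom (h𝔪 : 𝔪 ≠ ⊥)
    (hprin : ∀ (𝔞 : (Ideal R)⁰) (β : R), (𝔞 : Ideal R) = Ideal.span {β} →
      Ideal.span {β} ⊔ 𝔪 = ⊤ → φ 𝔞 = 1) :
    ∃ ψ : ClassGroup R →* G, ∀ 𝔞 : (Ideal R)⁰, (𝔞 : Ideal R) ⊔ 𝔪 = ⊤ →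
      ψ (ClassGroup.mk0 𝔞) = φ 𝔞 := by
  have hex := exists_mk0_eq_of_sup_eq_top 𝔪 h𝔪
  have key : ∀ 𝔞 : (Ideal R)⁰, (𝔞 : Ideal R) ⊔ 𝔪 = ⊤ →
      φ (Classical.choose (hex (ClassGroup.mk0 𝔞))) = φ 𝔞 := fun 𝔞 h𝔞 =>
    map_eq_of_mk0_eq φ 𝔪 h𝔪 hprin (Classical.choose_spec (hex (ClassGroup.mk0 𝔞))).1 h𝔞
      (Classical.choose_spec (hex (ClassGroup.mk0 𝔞))).2
  refine ⟨MonoidHom.mk' (fun c => φ (Classical.choose (hex c))) ?_, key⟩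
  intro a b
  have ha := Classical.choose_spec (hex a)
  have hb := Classical.choose_spec (hex b)
  have hab := Classical.choose_spec (hex (a * b))
  rw [← map_mul]
  refine map_eq_of_mk0_eq φ 𝔪 h𝔪 hprin hab.1 ?_ ?_
  · exact mul_sup_eq_top ha.1 hb.1
  · rw [hab.2, map_mul, ha.2, hb.2]

end Fermat.Agent.S14.CycloDescent
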