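import Mathlib
import Fermat.Agent.S14.Defs
import Fermat.Agent.S14.Frob

/-!
# S14: Frobenius elements and cyclotomic extensions (module CF)

`F / E` is a Galois extension of number fields, unramified at every finite prime, and
`φ : (Ideal (𝓞 E))⁰ →* Gal(F/E)` is multiplicative with `φ 𝔮` a Frobenius at `𝔮` for every
nonzero prime `𝔮` (the Artin map on ideals).

* `map_relNorm_eq_one`, `map_span_intNorm_eq_one` : relative norms of ideals of `F`, in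
  particular the principal ideals generated by norms of elements, are killed by `φ`;
* `exists_frob_lift`, `exists_lift` : if `F ⊆ Ω = E(ζ_r)`, then for every ideal `𝔞` prime to `r`
  the element `φ 𝔞` is the restriction of an automorphism `g` of `Ω / E` with
  `g ζ = ζ ^ absNorm 𝔞` on the `r`-th roots of unity;
* `map_eq_one_of_sub_one_mem`, `map_span_eq_one` : if moreover `[F : E]` is odd, the principal
  ideals `(β)` with `β ≡ 1 mod r` are killed by `φ` (no sign condition is needed: the square of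
  `absNorm (β) = |N β|` is `≡ 1 mod r`).
-/

set_option autoImplicit false
set_option linter.unusedSectionVars false
set_option linter.style.haveILetI false

namespace Fermat.Agent.S14.CycloFrob

open NumberField nonZeroDivisors
open scoped Pointwise

variable {E F : Type*} [Field E] [Field F] [NumberField E] [NumberField F] [Algebra E F]
  [IsGalois E F]

/-- The nonzero ideal generated by a nonzero element. -/
def spanNZ (β : 𝓞 E) (hβ : β ≠ 0) : (Ideal (𝓞 E))⁰ :=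
  ⟨Ideal.span {β}, mem_nonZeroDivisors_of_ne_zero (by simpa using hβ)⟩

@[simp] theorem coe_spanNZ (β : 𝓞 E) (hβ : β ≠ 0) :
    ((spanNZ β hβ : (Ideal (𝓞 E))⁰) : Ideal (𝓞 E)) = Ideal.span {β} := rfl

/-! ### Norms are killed by the Artin map -/

/-- The Frobenius at an unramified prime `𝔮` has order dividing the residue degree of any prime
above `𝔮`. -/
theorem frob_pow_inertiaDeg {σ : Gal(F/E)} {𝔔 : Ideal (𝓞 F)} [h𝔔 : 𝔔.IsPrime]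
    (he : 𝔔.ramificationIdx (𝓞 E) = 1) (hσ : IsArithFrobAt (𝓞 E) σ 𝔔) :
    σ ^ (𝔔.inertiaDeg (𝓞 E)) = 1 := by
  have hmem : σ ∈ MulAction.stabilizer Gal(F/E) 𝔔 := hσ.mem_stabilizer
  have hcard := Frob.card_stabilizer (K := E) (L := F) (𝔔 := 𝔔) he
  have h1 : (⟨σ, hmem⟩ : MulAction.stabilizer Gal(F/E) 𝔔) ^
      Nat.card (MulAction.stabilizer Gal(F/E) 𝔔) = 1 := pow_card_eq_one'
  rw [hcard] at h1
  have := congrArg Subtype.val h1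
  simpa using this

theorem map_relNorm_eq_one (hunr : UnramifiedEverywhere E F)
    (φ : (Ideal (𝓞 E))⁰ →* Gal(F/E))
    (hφ : ∀ 𝔮 : (Ideal (𝓞 E))⁰, (𝔮 : Ideal (𝓞 E)).IsPrime → IsFrob E F (φ 𝔮) 𝔮)
    (𝔄 : Ideal (𝓞 F)) (h𝔄 : 𝔄 ≠ ⊥) (𝔞 : (Ideal (𝓞 E))⁰)
    (h : (𝔞 : Ideal (𝓞 E)) = Ideal.relNorm (𝓞 E) 𝔄) : φ 𝔞 = 1 := by
  induction 𝔄 using UniqueFactorizationMonoid.induction_on_prime generalizing 𝔞 with
  | h₁ => exact absurd rfl h𝔄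
  | h₂ 𝔄 hu =>
    have h1 : 𝔄 = ⊤ := Ideal.isUnit_iff.mp hu
    subst h1
    rw [Ideal.relNorm_top] at h
    have : 𝔞 = 1 := Subtype.ext (by rw [h]; exact Ideal.one_eq_top.symm)
    rw [this, map_one]
  | h₃ 𝔄 𝔔 h𝔄0 h𝔔 ih =>
    have h𝔔0 : 𝔔 ≠ ⊥ := h𝔔.ne_zero
    have h𝔔p : 𝔔.IsPrime := Ideal.isPrime_of_prime h𝔔
    have h𝔔m : 𝔔.IsMaximal := h𝔔p.isMaximal h𝔔0
    set 𝔮 : Ideal (𝓞 E) := 𝔔.under (𝓞 E) with h𝔮
    have h𝔮0 : 𝔮 ≠ ⊥ := Frob.under_ne_bot (K := E) h𝔔0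
    have h𝔮p : 𝔮.IsPrime := Ideal.IsPrime.under (𝓞 E) 𝔔
    have h𝔮m : 𝔮.IsMaximal := h𝔮p.isMaximal h𝔮0
    have hlo : 𝔔.LiesOver 𝔮 := ⟨rfl⟩
    have hrel : Ideal.relNorm (𝓞 E) 𝔔 = 𝔮 ^ 𝔔.inertiaDeg (𝓞 E) :=
      Ideal.relNorm_eq_pow_of_isMaximal 𝔔 𝔮
    have h𝔄' : 𝔄 ≠ ⊥ := h𝔄0
    let 𝔮' : (Ideal (𝓞 E))⁰ := ⟨𝔮, mem_nonZeroDivisors_of_ne_zero h𝔮0⟩
    have hn0 : Ideal.relNorm (𝓞 E) 𝔄 ≠ ⊥ := by
      rw [Ne, Ideal.relNorm_eq_bot_iff]; exact h𝔄'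
    let 𝔟 : (Ideal (𝓞 E))⁰ := ⟨Ideal.relNorm (𝓞 E) 𝔄, mem_nonZeroDivisors_of_ne_zero hn0⟩
    have hprod : 𝔞 = 𝔮' ^ 𝔔.inertiaDeg (𝓞 E) * 𝔟 := by
      apply Subtype.ext
      rw [h, map_mul, hrel]
      rfl
    rw [hprod, map_mul, map_pow, ih h𝔄' 𝔟 rfl, mul_one]
    have hF := hφ 𝔮' h𝔮p 𝔔 h𝔔p rfl
    exact frob_pow_inertiaDeg (hunr 𝔔 h𝔔p h𝔔0) hF

/-- **Norms are killed.** -/
theorem map_span_intNorm_eq_one (hunr : UnramifiedEverywhere E F)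
    (φ : (Ideal (𝓞 E))⁰ →* Gal(F/E))
    (hφ : ∀ 𝔮 : (Ideal (𝓞 E))⁰, (𝔮 : Ideal (𝓞 E)).IsPrime → IsFrob E F (φ 𝔮) 𝔮)
    (γ : 𝓞 F) (hγ : γ ≠ 0) (𝔞 : (Ideal (𝓞 E))⁰)
    (h : (𝔞 : Ideal (𝓞 E)) = Ideal.span {Algebra.intNorm (𝓞 E) (𝓞 F) γ}) : φ 𝔞 = 1 := by
  apply map_relNorm_eq_one hunr φ hφ (Ideal.span {γ}) (by simpa using hγ) 𝔞
  rw [h, Ideal.relNorm_singleton]

/-! ### Frobenius elements in a cyclotomic extension -/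

section Cyclo

variable {Ω : Type*} [Field Ω] [Algebra E Ω] [Algebra F Ω] [IsScalarTower E F Ω]

/-- An automorphism of a cyclotomic extension fixing the roots of unity is trivial. -/
theorem eq_one_of_fix {r : ℕ} [IsCyclotomicExtension {r} E Ω] (g : Gal(Ω/E))
    (h : ∀ ζ : Ω, ζ ^ r = 1 → g ζ = ζ) : g = 1 := by
  ext x
  have hx := IsCyclotomicExtension.adjoin_roots (S := {r}) (A := E) (B := Ω) x
  change g x = x
  induction hx using Algebra.adjoin_induction with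
  | mem y hy =>
    obtain ⟨n, hn, -, hy⟩ := hy
    rw [Set.mem_singleton_iff] at hn
    subst hn
    exact h y hy
  | algebraMap a => exact g.commutes a
  | add a b _ _ ha hb => rw [map_add, ha, hb]
  | mul a b _ _ ha hb => rw [map_mul, ha, hb]

/-- The Frobenius of a prime `𝔮` not dividing `r` in `F` is the restriction of an automorphism
of `Ω = E(ζ_r)` raising the `r`-th roots of unity to the power `absNorm 𝔮`. -/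
theorem exists_frob_lift (hunr : UnramifiedEverywhere E F) {r : ℕ}
    [IsCyclotomicExtension {r} E Ω] {𝔮 : Ideal (𝓞 E)} (h𝔮 : 𝔮.IsPrime) (h0 : 𝔮 ≠ ⊥)
    (hr𝔮 : (r : 𝓞 E) ∉ 𝔮) {σ : Gal(F/E)} (hσ : IsFrob E F σ 𝔮) :
    ∃ g : Gal(Ω/E), (∀ ζ : Ω, ζ ^ r = 1 → g ζ = ζ ^ Ideal.absNorm 𝔮) ∧
      AlgEquiv.restrictNormalHom F g = σ := by
  haveI : NumberField Ω := IsCyclotomicExtension.numberField {r} E Ω
  haveI : IsGalois E Ω := IsCyclotomicExtension.isGalois {r} E Ω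
  obtain ⟨𝔔, h𝔔p, h𝔔u⟩ := Frob.exists_prime_over (K := E) (L := Ω) 𝔮
  have h𝔔0 : 𝔔 ≠ ⊥ := Frob.ne_bot_of_under_ne_bot (K := E) (h𝔔u ▸ h0)
  haveI : Finite (𝓞 Ω ⧸ 𝔔) := Frob.finite_quotient h𝔔0
  obtain ⟨g, hg⟩ := IsArithFrobAt.exists_of_isInvariant (𝓞 E) Gal(Ω/E) 𝔔
  have hcard : Nat.card (𝓞 E ⧸ 𝔔.under (𝓞 E)) = Ideal.absNorm 𝔮 := by
    rw [h𝔔u, Ideal.absNorm_apply, Submodule.cardQuot_apply]
  refine ⟨g, ?_, ?_⟩
  · intro ζ hζ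
    have hr0 : r ≠ 0 := by
      rintro rfl
      apply hr𝔮
      simp
    have hint : IsIntegral ℤ ζ := by
      refine ⟨Polynomial.X ^ r - 1, Polynomial.monic_X_pow_sub_C 1 hr0, ?_⟩
      simp [hζ]
    let ζ' : 𝓞 Ω := ⟨ζ, hint⟩
    have hζ' : ζ' ^ r = 1 :=
      RingOfIntegers.ext (show ((ζ' ^ r : 𝓞 Ω) : Ω) = ((1 : 𝓞 Ω) : Ω) from hζ)
    have hrQ : ((r : ℕ) : 𝓞 Ω) ∉ 𝔔 := by
      intro hmem
      apply hr𝔮
      rw [← h𝔔u, Ideal.under_def, Ideal.mem_comap]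
      simpa using hmem
    have := hg.apply_of_pow_eq_one hζ' hrQ
    rw [hcard] at this
    have h2 : (((MulSemiringAction.toAlgHom (𝓞 E) (𝓞 Ω) g) ζ' : 𝓞 Ω) : Ω) =
        ((ζ' ^ Ideal.absNorm 𝔮 : 𝓞 Ω) : Ω) := congrArg (fun z : 𝓞 Ω => (z : Ω)) this
    exact h2
  · set τ : Gal(F/E) := AlgEquiv.restrictNormalHom F g with hτ
    set 𝔔F : Ideal (𝓞 F) := 𝔔.under (𝓞 F) with h𝔔F
    have h𝔔Fp : 𝔔F.IsPrime := Ideal.IsPrime.under (𝓞 F) 𝔔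
    have hunder : 𝔔F.under (𝓞 E) = 𝔮 := by
      rw [h𝔔F, Ideal.under_under, h𝔔u]
    have h𝔔F0 : 𝔔F ≠ ⊥ := Frob.ne_bot_of_under_ne_bot (K := E) (hunder ▸ h0)
    have hτF : IsArithFrobAt (𝓞 E) τ 𝔔F := by
      intro x
      rw [h𝔔F, Ideal.under_def, Ideal.mem_comap, hunder, ← h𝔔u]
      have hgx := hg (algebraMap (𝓞 F) (𝓞 Ω) x)
      have heq : algebraMap (𝓞 F) (𝓞 Ω)
          ((MulSemiringAction.toAlgHom (𝓞 E) (𝓞 F) τ) x - x ^ Nat.card (𝓞 E ⧸ 𝔔.under (𝓞 E))) =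
          (MulSemiringAction.toAlgHom (𝓞 E) (𝓞 Ω) g) (algebraMap (𝓞 F) (𝓞 Ω) x) -
            (algebraMap (𝓞 F) (𝓞 Ω) x) ^ Nat.card (𝓞 E ⧸ 𝔔.under (𝓞 E)) := by
        rw [map_sub, map_pow]
        congr 1
        apply RingOfIntegers.ext
        exact AlgEquiv.restrictNormal_commutes g F (x : F)
      rw [heq]
      exact hgx
    exact Frob.isArithFrobAt_unique (hunr 𝔔F h𝔔Fp h𝔔F0) hτF (hσ 𝔔F h𝔔Fp hunder)

/-- The Artin symbol of an ideal `𝔞` prime to `r` is the restriction of an automorphism of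
`Ω = E(ζ_r)` raising the `r`-th roots of unity to the power `absNorm 𝔞`. -/
theorem exists_lift (hunr : UnramifiedEverywhere E F) {r : ℕ}
    [IsCyclotomicExtension {r} E Ω] (φ : (Ideal (𝓞 E))⁰ →* Gal(F/E))
    (hφ : ∀ 𝔮 : (Ideal (𝓞 E))⁰, (𝔮 : Ideal (𝓞 E)).IsPrime → IsFrob E F (φ 𝔮) 𝔮)
    (𝔞 : Ideal (𝓞 E)) (h0 : 𝔞 ≠ ⊥) (hcop : 𝔞 ⊔ Ideal.span {(r : 𝓞 E)} = ⊤) :
    ∃ g : Gal(Ω/E), (∀ ζ : Ω, ζ ^ r = 1 → g ζ = ζ ^ Ideal.absNorm 𝔞) ∧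
      ∀ 𝔞' : (Ideal (𝓞 E))⁰, (𝔞' : Ideal (𝓞 E)) = 𝔞 →
        AlgEquiv.restrictNormalHom F g = φ 𝔞' := by
  induction 𝔞 using UniqueFactorizationMonoid.induction_on_prime with
  | h₁ => exact absurd rfl h0
  | h₂ 𝔞 hu =>
    have h1 : 𝔞 = ⊤ := Ideal.isUnit_iff.mp hu
    subst h1
    refine ⟨1, fun ζ _ => ?_, fun 𝔞' h => ?_⟩
    · rw [Ideal.absNorm_top, pow_one]
      rfl
    · have : 𝔞' = 1 := Subtype.ext (by rw [h]; exact Ideal.one_eq_top.symm)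
      rw [this, map_one, map_one]
  | h₃ 𝔟 𝔮 h𝔟0 h𝔮 ih =>
    have h𝔮0 : 𝔮 ≠ ⊥ := h𝔮.ne_zero
    have h𝔮p : 𝔮.IsPrime := Ideal.isPrime_of_prime h𝔮
    have h𝔟' : 𝔟 ≠ ⊥ := h𝔟0
    have hle1 : 𝔮 * 𝔟 ≤ 𝔮 := Ideal.mul_le_left
    have hle2 : 𝔮 * 𝔟 ≤ 𝔟 := Ideal.mul_le_right
    have hcop𝔮 : 𝔮 ⊔ Ideal.span {(r : 𝓞 E)} = ⊤ :=
      eq_top_iff.mpr (hcop ▸ sup_le_sup_right hle1 _)
    have hcop𝔟 : 𝔟 ⊔ Ideal.span {(r : 𝓞 E)} = ⊤ :=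
      eq_top_iff.mpr (hcop ▸ sup_le_sup_right hle2 _)
    have hr𝔮 : (r : 𝓞 E) ∉ 𝔮 := by
      intro hmem
      have : 𝔮 ⊔ Ideal.span {(r : 𝓞 E)} = 𝔮 := by
        rw [sup_eq_left, Ideal.span_singleton_le_iff_mem]
        exact hmem
      rw [this] at hcop𝔮
      exact h𝔮p.ne_top hcop𝔮
    let 𝔮' : (Ideal (𝓞 E))⁰ := ⟨𝔮, mem_nonZeroDivisors_of_ne_zero h𝔮0⟩
    let 𝔟' : (Ideal (𝓞 E))⁰ := ⟨𝔟, mem_nonZeroDivisors_of_ne_zero h𝔟'⟩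
    obtain ⟨g₁, hg₁, hg₁'⟩ := exists_frob_lift (Ω := Ω) hunr h𝔮p h𝔮0 hr𝔮 (hφ 𝔮' h𝔮p)
    obtain ⟨g₂, hg₂, hg₂'⟩ := ih h𝔟' hcop𝔟
    refine ⟨g₁ * g₂, fun ζ hζ => ?_, fun 𝔞' h => ?_⟩
    · rw [AlgEquiv.mul_apply, hg₂ ζ hζ, map_pow, hg₁ ζ hζ, ← pow_mul, map_mul]
    · have : 𝔞' = 𝔮' * 𝔟' := Subtype.ext h
      rw [this, map_mul, map_mul, hg₁', hg₂' 𝔟' rfl]

/-- The norm to `ℤ` of an element congruent to `1` modulo `r` is congruent to `1` modulo `r`. -/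
theorem norm_modEq_one {r : ℕ} {β : 𝓞 E} (hβ : β - 1 ∈ Ideal.span {(r : 𝓞 E)}) :
    ∃ k : ℤ, Algebra.norm ℤ β = 1 + k * r := by
  obtain ⟨t, ht⟩ := Ideal.mem_span_singleton'.mp hβ
  have hβ' : β = 1 + (r : ℤ) • t := by
    rw [zsmul_eq_mul]
    push_cast
    rw [mul_comm, ht]
    ring
  obtain ⟨c, hc⟩ := Algebra.norm_one_add_smul (A := ℤ) (B := 𝓞 E) (r : ℤ) t
  refine ⟨Algebra.trace ℤ (𝓞 E) t + c * r, ?_⟩
  rw [hβ', hc]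
  ring

/-- **Principal ideals generated by elements `≡ 1 mod r` are killed** by the Artin map of an
unramified extension of odd degree contained in `E(ζ_r)`. -/
theorem map_eq_one_of_sub_one_mem (hunr : UnramifiedEverywhere E F)
    (hodd : Odd (Module.finrank E F)) {r : ℕ}
    [IsCyclotomicExtension {r} E Ω] (φ : (Ideal (𝓞 E))⁰ →* Gal(F/E))
    (hφ : ∀ 𝔮 : (Ideal (𝓞 E))⁰, (𝔮 : Ideal (𝓞 E)).IsPrime → IsFrob E F (φ 𝔮) 𝔮)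
    (β : 𝓞 E) (hβ : β - 1 ∈ Ideal.span {(r : 𝓞 E)})
    (𝔞 : (Ideal (𝓞 E))⁰) (h : (𝔞 : Ideal (𝓞 E)) = Ideal.span {β}) : φ 𝔞 = 1 := by
  have h0 : Ideal.span {β} ≠ (⊥ : Ideal (𝓞 E)) := by
    rw [← h]
    exact nonZeroDivisors.coe_ne_zero 𝔞
  have hcop : Ideal.span {β} ⊔ Ideal.span {(r : 𝓞 E)} = ⊤ := by
    rw [Ideal.eq_top_iff_one]
    have h1 : (1 : 𝓞 E) = β - (β - 1) := by ring
    rw [h1]
    exact Ideal.sub_mem _ (Ideal.mem_sup_left (Ideal.mem_span_singleton_self β))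
      (Ideal.mem_sup_right hβ)
  obtain ⟨g, hg, hg'⟩ := exists_lift (Ω := Ω) hunr φ hφ (Ideal.span {β}) h0 hcop
  obtain ⟨k, hk⟩ := norm_modEq_one hβ
  -- `absNorm ^ 2 ≡ 1 mod r`
  have hmod : Ideal.absNorm (Ideal.span {β}) ^ 2 ≡ 1 [MOD r] := by
    rw [Ideal.absNorm_span_singleton]
    apply Int.natCast_modEq_iff.mp
    push_cast
    rw [sq_abs, hk]
    apply Int.modEq_iff_add_fac.mpr
    exact ⟨-(2 * k + k ^ 2 * r), by ring⟩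
  have hpow : ∀ ζ : Ω, ζ ^ r = 1 → ζ ^ (Ideal.absNorm (Ideal.span {β}) ^ 2) = ζ := by
    intro ζ hζ
    have h1 := pow_eq_pow_of_modEq (hmod.of_dvd (orderOf_dvd_of_pow_eq_one hζ))
      (pow_orderOf_eq_one ζ)
    rw [h1, pow_one]
  have hg2 : g ^ 2 = 1 := by
    apply eq_one_of_fix (r := r)
    intro ζ hζ
    have : (g ^ 2) ζ = g (g ζ) := by rw [pow_two]; rfl
    rw [this, hg ζ hζ, map_pow, hg ζ hζ, ← pow_mul, ← pow_two]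
    exact hpow ζ hζ
  have hφ2 : (φ 𝔞) ^ 2 = 1 := by
    rw [← hg' 𝔞 h, ← map_pow, hg2, map_one]
  -- odd order
  have hcard : Nat.card Gal(F/E) = Module.finrank E F := IsGalois.card_aut_eq_finrank E F
  have hord : orderOf (φ 𝔞) ∣ 2 := orderOf_dvd_of_pow_eq_one hφ2
  have hord' : orderOf (φ 𝔞) ∣ Module.finrank E F := by
    rw [← hcard]
    exact orderOf_dvd_natCard _
  have h1 : orderOf (φ 𝔞) = 1 := by
    rcases (Nat.dvd_prime Nat.prime_two).mp hord with h | h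
    · exact h
    · exfalso
      rw [h] at hord'
      exact (Nat.not_even_iff_odd.mpr hodd) (even_iff_two_dvd.mpr hord')
  exact orderOf_eq_one_iff.mp h1

/-- The same statement for the ideal `spanNZ β`. -/
theorem map_span_eq_one (hunr : UnramifiedEverywhere E F)
    (hodd : Odd (Module.finrank E F)) {r : ℕ}
    [IsCyclotomicExtension {r} E Ω] (φ : (Ideal (𝓞 E))⁰ →* Gal(F/E))
    (hφ : ∀ 𝔮 : (Ideal (𝓞 E))⁰, (𝔮 : Ideal (𝓞 E)).IsPrime → IsFrob E F (φ 𝔮) 𝔮)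
    (β : 𝓞 E) (hβ0 : β ≠ 0) (hβ : β - 1 ∈ Ideal.span {(r : 𝓞 E)}) :
    φ (spanNZ β hβ0) = 1 :=
  map_eq_one_of_sub_one_mem (Ω := Ω) hunr hodd φ hφ β hβ _ rfl

end Cyclo

end Fermat.Agent.S14.CycloFrob
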