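import Mathlib
import Fermat.Agent.S14.Defs
import Fermat.Agent.S14.Frob

/-!
# The local norm lemma

`F / E` is a Galois extension of number fields, unramified at every finite prime, of degree `n`.
For a nonzero ideal `𝔪` of `𝓞 E` containing an integer `m` prime to `n`, every `β : 𝓞 E` which is
invertible modulo `𝔪` is congruent modulo `𝔪` to the norm of an element of `𝓞 F`.

* residue fields: the norm of finite fields is onto, and the decomposition group of an unramified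
  prime is the Galois group of the residue field extension;
* prime powers: an element congruent to `1` modulo `𝔯` is an `n`-th power modulo `𝔯 ^ i`, because
  the residue characteristic is prime to `n`, and `N c = c ^ n` for `c : 𝓞 E`;
* products of coprime ideals: Chinese remainder theorem.
-/

set_option autoImplicit false
set_option linter.style.haveILetI false
set_option linter.unusedSectionVars false

namespace Fermat.Agent.S14.CycloNorm

open NumberField nonZeroDivisors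
open scoped Pointwise

variable {E F : Type*} [Field E] [Field F] [NumberField E] [NumberField F] [Algebra E F]
  [IsGalois E F]

/-- The norm of an integer is the product of its conjugates. -/
theorem algebraMap_intNorm (γ : 𝓞 F) :
    algebraMap (𝓞 E) (𝓞 F) (Algebra.intNorm (𝓞 E) (𝓞 F) γ) = ∏ σ : Gal(F/E), σ • γ := by
  apply FaithfulSMul.algebraMap_injective (𝓞 F) F
  rw [← IsScalarTower.algebraMap_apply, IsScalarTower.algebraMap_apply (𝓞 E) E F,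
    Algebra.algebraMap_intNorm (A := 𝓞 E) (K := E) (L := F) (B := 𝓞 F),
    Algebra.norm_eq_prod_automorphisms, map_prod]
  rfl

/-- The norm of an element of the base ring is its `n`-th power. -/
theorem intNorm_algebraMap (c : 𝓞 E) :
    Algebra.intNorm (𝓞 E) (𝓞 F) (algebraMap (𝓞 E) (𝓞 F) c) = c ^ Module.finrank E F := by
  apply FaithfulSMul.algebraMap_injective (𝓞 E) E
  rw [Algebra.algebraMap_intNorm (A := 𝓞 E) (K := E) (L := F) (B := 𝓞 F),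
    ← IsScalarTower.algebraMap_apply, IsScalarTower.algebraMap_apply (𝓞 E) E F,
    Algebra.norm_algebraMap, map_pow]

/-- Contraction of an extended ideal. -/
theorem mem_of_algebraMap_mem_map {𝔪 : Ideal (𝓞 E)} {a : 𝓞 E}
    (h : algebraMap (𝓞 E) (𝓞 F) a ∈ 𝔪.map (algebraMap (𝓞 E) (𝓞 F))) : a ∈ 𝔪 := by
  have := Ideal.comap_map_eq_self_of_faithfullyFlat (B := 𝓞 F) 𝔪
  rw [← this]
  exact h

/-! ### Residue fields -/

/-- **Residue field case**: modulo an unramified prime `P` of `F`, every element of `𝓞 E` is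
congruent to a norm. -/
theorem exists_prod_smul_sub_mem {P : Ideal (𝓞 F)} [hPp : P.IsPrime] (hP0 : P ≠ ⊥)
    (he : P.ramificationIdx (𝓞 E) = 1) (β : 𝓞 E) :
    ∃ γ : 𝓞 F, (∏ σ : Gal(F/E), σ • γ) - algebraMap (𝓞 E) (𝓞 F) β ∈ P := by
  classical
  set p : Ideal (𝓞 E) := P.under (𝓞 E) with hp
  haveI : P.LiesOver p := ⟨rfl⟩
  haveI hPmax : P.IsMaximal := Ring.DimensionLEOne.maximalOfPrime hP0 inferInstance
  haveI : p.IsPrime := Ideal.IsPrime.under (𝓞 E) P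
  have hp0 : p ≠ ⊥ := Frob.under_ne_bot hP0
  haveI : p.IsMaximal := Ring.DimensionLEOne.maximalOfPrime hp0 inferInstance
  haveI : Finite (𝓞 F ⧸ P) := Frob.finite_quotient hP0
  letI := Ideal.Quotient.field p
  letI := Ideal.Quotient.field P
  -- the norm of the residue fields is onto
  obtain ⟨g0bar, hg0⟩ :=
    FiniteField.norm_surjective (𝓞 E ⧸ p) (𝓞 F ⧸ P) (Ideal.Quotient.mk p β)
  obtain ⟨g0, rfl⟩ := Ideal.Quotient.mk_surjective g0bar
  -- Chinese remainder theorem: `γ ≡ g0 mod P`, `γ ≡ 1` modulo the other conjugates of `P`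
  set J : Ideal (𝓞 F) :=
    ∏ σ ∈ Finset.univ.filter (fun σ : Gal(F/E) => σ • P ≠ P), σ • P with hJ
  have hsmulmax : ∀ σ : Gal(F/E), (σ • P).IsMaximal := by
    intro σ
    rw [Ideal.pointwise_smul_eq_comap]
    exact Ideal.comap_isMaximal_of_surjective _ (MulSemiringAction.toRingEquiv _ _ σ⁻¹).surjective
  have hJP : ¬ J ≤ P := by
    intro h
    obtain ⟨σ, hσ, hle⟩ := (Ideal.IsPrime.prod_le hPp).mp h
    rw [Finset.mem_filter] at hσ
    exact hσ.2 ((hsmulmax σ).eq_of_le hPp.ne_top hle)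
  have hsup : P ⊔ J = ⊤ := by
    by_contra hne
    have := hPmax.eq_of_le hne le_sup_left
    exact hJP (this ▸ le_sup_right)
  obtain ⟨a, ha, e, he', hae⟩ := Submodule.mem_sup.mp ((Ideal.eq_top_iff_one _).mp hsup)
  refine ⟨g0 * e + a, ?_⟩
  set γ : 𝓞 F := g0 * e + a with hγ
  have hγ0 : γ - g0 ∈ P := by
    have : γ - g0 = a * (1 - g0) := by
      rw [hγ]; linear_combination g0 * hae
    rw [this]
    exact Ideal.mul_mem_right _ _ ha
  have hγ1 : γ - 1 ∈ J := by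
    have : γ - 1 = e * (g0 - 1) := by
      rw [hγ]; linear_combination hae
    rw [this]
    exact Ideal.mul_mem_right _ _ he'
  -- conjugates outside the decomposition group
  have hout : ∀ σ : Gal(F/E), σ • P ≠ P → Ideal.Quotient.mk P (σ • γ) = 1 := by
    intro σ hσ
    have hσ' : σ⁻¹ • P ≠ P := by
      intro h
      apply hσ
      have := congrArg (fun I => σ • I) h
      simpa using this.symm
    have hle : J ≤ σ⁻¹ • P := by
      refine le_trans Ideal.prod_le_inf ?_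
      exact Finset.inf_le (f := fun τ : Gal(F/E) => τ • P) (by simp [hσ'])
    have h1 : σ • (γ - 1) ∈ P := by
      have := hle hγ1
      rwa [Ideal.mem_pointwise_smul_iff_inv_smul_mem, inv_inv] at this
    rw [smul_sub, smul_one] at h1
    rw [← map_one (Ideal.Quotient.mk P)]
    exact Ideal.Quotient.eq.mpr h1
  -- conjugates in the decomposition group
  have hin : ∀ σ : MulAction.stabilizer Gal(F/E) P,
      Ideal.Quotient.mk P ((σ : Gal(F/E)) • γ) =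
        Ideal.Quotient.stabilizerHom P p Gal(F/E) σ (Ideal.Quotient.mk P g0) := by
    intro σ
    rw [Ideal.Quotient.stabilizerHom_apply]
    refine Ideal.Quotient.eq.mpr ?_
    have hσP : (σ : Gal(F/E)) • P = P := σ.2
    have : (σ : Gal(F/E)) • (γ - g0) ∈ (σ : Gal(F/E)) • P :=
      (Ideal.smul_mem_pointwise_smul_iff).mpr hγ0
    rw [hσP, smul_sub] at this
    exact this
  -- the decomposition group is the Galois group of the residue fields
  have hbij : Function.Bijective (Ideal.Quotient.stabilizerHom P p Gal(F/E)) := by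
    refine ⟨?_, Ideal.Quotient.stabilizerHom_surjective Gal(F/E) p P⟩
    rw [← MonoidHom.ker_eq_bot_iff]
    have h1 := Ideal.Quotient.map_ker_stabilizer_subtype P p Gal(F/E)
    rw [Frob.inertia_eq_bot he] at h1
    exact (Subgroup.map_eq_bot_iff_of_injective _ (Subgroup.subtype_injective _)).mp h1
  have key : Ideal.Quotient.mk P (∏ σ : Gal(F/E), σ • γ) =
      algebraMap (𝓞 E ⧸ p) (𝓞 F ⧸ P) (Ideal.Quotient.mk p β) := by
    rw [map_prod, ← Fintype.prod_subtype_mul_prod_subtype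
      (fun σ : Gal(F/E) => σ ∈ MulAction.stabilizer Gal(F/E) P)]
    rw [Finset.prod_eq_one (s := (Finset.univ : Finset {σ : Gal(F/E) //
      ¬ σ ∈ MulAction.stabilizer Gal(F/E) P})) (fun σ _ => hout σ.1 σ.2), mul_one]
    rw [← hg0, Algebra.norm_eq_prod_automorphisms]
    rw [← (Equiv.ofBijective _ hbij).prod_comp]
    exact Finset.prod_congr rfl (fun σ _ => hin σ)
  refine Ideal.Quotient.eq.mp ?_
  rw [key]
  rfl

/-- Modulo a nonzero prime `𝔯` of `E` (unramified in `F`) every element of `𝓞 E` is a norm. -/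
theorem exists_intNorm_sub_mem_prime (hunr : UnramifiedEverywhere E F) {𝔯 : Ideal (𝓞 E)}
    [h𝔯 : 𝔯.IsPrime] (h0 : 𝔯 ≠ ⊥) (β : 𝓞 E) :
    ∃ γ : 𝓞 F, Algebra.intNorm (𝓞 E) (𝓞 F) γ - β ∈ 𝔯 := by
  obtain ⟨P, hP, hPu⟩ := Frob.exists_prime_over (L := F) 𝔯
  haveI := hP
  have hP0 : P ≠ ⊥ := Frob.ne_bot_of_under_ne_bot (K := E) (hPu ▸ h0)
  obtain ⟨γ, hγ⟩ := exists_prod_smul_sub_mem (E := E) hP0 (hunr P hP hP0) β
  refine ⟨γ, ?_⟩
  rw [← algebraMap_intNorm, ← map_sub] at hγ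
  rw [← hPu]
  exact hγ

/-! ### Powers in a ring modulo powers of an ideal -/

section Ring

variable {R : Type*} [CommRing R]

theorem pow_sub_one_mem (I : Ideal R) {z : R} (hz : z - 1 ∈ I) (q : ℕ) : z ^ q - 1 ∈ I := by
  have : z ^ q - 1 = (∑ i ∈ Finset.range q, z ^ i) * (z - 1) := (geom_sum_mul z q).symm
  rw [this]
  exact Ideal.mul_mem_left _ _ hz

theorem geom_sum_mem (I : Ideal R) {ℓ : ℕ} (hℓ : (ℓ : R) ∈ I) {y : R} (hy : y - 1 ∈ I) :
    ∑ i ∈ Finset.range ℓ, y ^ i ∈ I := by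
  rw [← Ideal.Quotient.eq_zero_iff_mem] at hℓ ⊢
  have h1 : Ideal.Quotient.mk I y = 1 := by
    rw [← map_one (Ideal.Quotient.mk I)]
    exact Ideal.Quotient.eq.mpr hy
  rw [map_sum]
  simp only [map_pow, h1, one_pow, Finset.sum_const, Finset.card_range, nsmul_eq_mul, mul_one]
  rw [← map_natCast (Ideal.Quotient.mk I)]
  exact hℓ

/-- If `ℓ ∈ I` and `x ≡ 1 mod I` then `x ^ (ℓ ^ k) ≡ 1 mod I ^ (k + 1)`. -/
theorem pow_pow_sub_one_mem (I : Ideal R) {ℓ : ℕ} (hℓ : (ℓ : R) ∈ I) {x : R} (hx : x - 1 ∈ I)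
    (k : ℕ) : x ^ (ℓ ^ k) - 1 ∈ I ^ (k + 1) := by
  induction k with
  | zero => simpa using hx
  | succ k ih =>
    have hy : x ^ ℓ ^ k - 1 ∈ I := Ideal.pow_le_self (Nat.succ_ne_zero k) ih
    have h1 : x ^ ℓ ^ (k + 1) - 1 =
        (x ^ ℓ ^ k - 1) * ∑ i ∈ Finset.range ℓ, (x ^ ℓ ^ k) ^ i := by
      rw [pow_succ, pow_mul, mul_comm, geom_sum_mul]
    rw [h1, pow_succ (I) (k + 1)]
    exact Ideal.mul_mem_mul ih (geom_sum_mem I hℓ hy)

/-- If `ℓ ∈ I`, `n` is prime to `ℓ` and `x ≡ 1 mod I` then `x` is an `n`-th power modulo every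
power of `I`. -/
theorem exists_pow_sub_mem (I : Ideal R) {ℓ n : ℕ} (hℓ : (ℓ : R) ∈ I) (hn : Nat.Coprime n ℓ)
    {x : R} (hx : x - 1 ∈ I) (i : ℕ) : ∃ c : R, c ^ n - x ∈ I ^ i := by
  rcases Nat.eq_zero_or_pos ℓ with rfl | hℓpos
  · have hn1 : n = 1 := by simpa using hn
    exact ⟨x, by rw [hn1, pow_one, sub_self]; exact Ideal.zero_mem _⟩
  by_cases hM : 1 < ℓ ^ i
  · obtain ⟨a, -, ha⟩ := Nat.exists_mul_mod_eq_one_of_coprime (Nat.Coprime.pow_right i hn) hM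
    refine ⟨x ^ a, ?_⟩
    have hdiv := Nat.div_add_mod (n * a) (ℓ ^ i)
    rw [ha] at hdiv
    have h1 : (x ^ a) ^ n - x = x * ((x ^ ℓ ^ i) ^ (n * a / ℓ ^ i) - 1) := by
      rw [← pow_mul, ← pow_mul, mul_sub, mul_one, ← pow_succ', mul_comm a n]
      congr 2
      omega
    rw [h1]
    apply Ideal.mul_mem_left
    apply pow_sub_one_mem
    exact Ideal.pow_le_pow_right (Nat.le_succ i) (pow_pow_sub_one_mem I hℓ hx i)
  · -- `ℓ ^ i ≤ 1`: then `I ^ i = ⊤`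
    refine ⟨1, ?_⟩
    have htop : I ^ i = ⊤ := by
      rcases Nat.eq_zero_or_pos i with rfl | hi
      · simp
      · have hℓ1 : ℓ = 1 := by
          by_contra hc
          have : 1 < ℓ := by omega
          exact hM (Nat.one_lt_pow hi.ne' this)
        subst hℓ1
        have : (1 : R) ∈ I := by simpa using hℓ
        rw [(Ideal.eq_top_iff_one I).mpr this]
        simp
    rw [htop]
    exact Submodule.mem_top

end Ring

/-! ### Prime powers -/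

/-- **Prime power case** of the local norm lemma. -/
theorem exists_intNorm_sub_mem_prime_pow (hunr : UnramifiedEverywhere E F) {𝔯 : Ideal (𝓞 E)}
    [h𝔯 : 𝔯.IsPrime] (h0 : 𝔯 ≠ ⊥) {ℓ : ℕ} (hℓ : (ℓ : 𝓞 E) ∈ 𝔯)
    (hcop : Nat.Coprime (Module.finrank E F) ℓ) (i : ℕ) {β : 𝓞 E} (hβ : β ∉ 𝔯) :
    ∃ γ : 𝓞 F, Algebra.intNorm (𝓞 E) (𝓞 F) γ - β ∈ 𝔯 ^ i := by
  rcases Nat.eq_zero_or_pos i with rfl | hi
  · exact ⟨1, by simp⟩
  obtain ⟨γ₀, hγ₀⟩ := exists_intNorm_sub_mem_prime hunr h0 β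
  set ν := Algebra.intNorm (𝓞 E) (𝓞 F) γ₀ with hν
  have hνr : ν ∉ 𝔯 := by
    intro h
    apply hβ
    have : β = ν - (ν - β) := by ring
    rw [this]
    exact Ideal.sub_mem _ h hγ₀
  haveI hmax : 𝔯.IsMaximal := Ring.DimensionLEOne.maximalOfPrime h0 inferInstance
  -- `ν` is invertible modulo `𝔯 ^ i`
  have hsup : Ideal.span {ν} ⊔ 𝔯 = ⊤ := by
    by_contra hne
    have := hmax.eq_of_le hne le_sup_right
    apply hνr
    rw [this]
    exact Ideal.mem_sup_left (Ideal.mem_span_singleton_self ν)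
  have hsupi : Ideal.span {ν} ⊔ 𝔯 ^ i = ⊤ := by
    have hc : IsCoprime (Ideal.span {ν}) 𝔯 := Ideal.isCoprime_iff_sup_eq.mpr hsup
    exact Ideal.isCoprime_iff_sup_eq.mp (hc.pow_right)
  obtain ⟨a, ha, t, ht, hat⟩ := Submodule.mem_sup.mp ((Ideal.eq_top_iff_one _).mp hsupi)
  obtain ⟨ν', rfl⟩ := Ideal.mem_span_singleton'.mp ha
  -- `x = β ν' ≡ 1 mod 𝔯`
  have hx : β * ν' - 1 ∈ 𝔯 := by
    have : β * ν' - 1 = -(ν - β) * ν' - t := by linear_combination hat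
    rw [this]
    exact Ideal.sub_mem _ (Ideal.mul_mem_right _ _ ((Ideal.neg_mem_iff _).mpr hγ₀))
      (Ideal.pow_le_self hi.ne' ht)
  obtain ⟨c, hc⟩ := exists_pow_sub_mem 𝔯 hℓ hcop hx i
  refine ⟨γ₀ * algebraMap (𝓞 E) (𝓞 F) c, ?_⟩
  rw [map_mul, intNorm_algebraMap, ← hν]
  have : ν * c ^ Module.finrank E F - β =
      ν * (c ^ Module.finrank E F - β * ν') - β * t := by linear_combination β * hat
  rw [this]
  exact Ideal.sub_mem _ (Ideal.mul_mem_left _ _ hc) (Ideal.mul_mem_left _ _ ht)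

/-! ### Congruent elements have congruent norms -/

theorem smul_mem_map (𝔪 : Ideal (𝓞 E)) (σ : Gal(F/E)) {x : 𝓞 F}
    (hx : x ∈ 𝔪.map (algebraMap (𝓞 E) (𝓞 F))) : σ • x ∈ 𝔪.map (algebraMap (𝓞 E) (𝓞 F)) := by
  have hle : 𝔪.map (algebraMap (𝓞 E) (𝓞 F)) ≤
      (𝔪.map (algebraMap (𝓞 E) (𝓞 F))).comap
        (MulSemiringAction.toRingHom Gal(F/E) (𝓞 F) σ) := by
    rw [Ideal.map_le_iff_le_comap]
    intro a ha
    rw [Ideal.mem_comap, Ideal.mem_comap]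
    have : MulSemiringAction.toRingHom Gal(F/E) (𝓞 F) σ (algebraMap (𝓞 E) (𝓞 F) a) =
        algebraMap (𝓞 E) (𝓞 F) a := smul_algebraMap σ a
    rw [this]
    exact Ideal.mem_map_of_mem _ ha
  exact hle hx

theorem intNorm_sub_intNorm_mem (𝔪 : Ideal (𝓞 E)) {γ γ' : 𝓞 F}
    (h : γ - γ' ∈ 𝔪.map (algebraMap (𝓞 E) (𝓞 F))) :
    Algebra.intNorm (𝓞 E) (𝓞 F) γ - Algebra.intNorm (𝓞 E) (𝓞 F) γ' ∈ 𝔪 := by
  apply mem_of_algebraMap_mem_map (F := F)
  rw [map_sub, algebraMap_intNorm, algebraMap_intNorm]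
  refine Ideal.Quotient.eq.mp ?_
  rw [map_prod, map_prod]
  refine Finset.prod_congr rfl (fun σ _ => ?_)
  refine Ideal.Quotient.eq.mpr ?_
  rw [← smul_sub]
  exact smul_mem_map 𝔪 σ h

/-! ### Coprime ideals -/

theorem exists_intNorm_sub_mem_mul {𝔪₁ 𝔪₂ : Ideal (𝓞 E)} (hcop : 𝔪₁ ⊔ 𝔪₂ = ⊤) (β : 𝓞 E)
    (h₁ : ∃ γ : 𝓞 F, Algebra.intNorm (𝓞 E) (𝓞 F) γ - β ∈ 𝔪₁)
    (h₂ : ∃ γ : 𝓞 F, Algebra.intNorm (𝓞 E) (𝓞 F) γ - β ∈ 𝔪₂) :
    ∃ γ : 𝓞 F, Algebra.intNorm (𝓞 E) (𝓞 F) γ - β ∈ 𝔪₁ * 𝔪₂ := by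
  obtain ⟨γ₁, hγ₁⟩ := h₁
  obtain ⟨γ₂, hγ₂⟩ := h₂
  obtain ⟨e₁, he₁, e₂, he₂, he⟩ := Submodule.mem_sup.mp ((Ideal.eq_top_iff_one _).mp hcop)
  set γ : 𝓞 F := γ₁ * algebraMap (𝓞 E) (𝓞 F) e₂ + γ₂ * algebraMap (𝓞 E) (𝓞 F) e₁ with hγ
  have he' : algebraMap (𝓞 E) (𝓞 F) e₁ + algebraMap (𝓞 E) (𝓞 F) e₂ = 1 := by
    rw [← map_add, he, map_one]
  have hm₁ : γ - γ₁ ∈ 𝔪₁.map (algebraMap (𝓞 E) (𝓞 F)) := by
    have : γ - γ₁ = (γ₂ - γ₁) * algebraMap (𝓞 E) (𝓞 F) e₁ := by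
      rw [hγ]; linear_combination γ₁ * he'
    rw [this]
    exact Ideal.mul_mem_left _ _ (Ideal.mem_map_of_mem _ he₁)
  have hm₂ : γ - γ₂ ∈ 𝔪₂.map (algebraMap (𝓞 E) (𝓞 F)) := by
    have : γ - γ₂ = (γ₁ - γ₂) * algebraMap (𝓞 E) (𝓞 F) e₂ := by
      rw [hγ]; linear_combination γ₂ * he'
    rw [this]
    exact Ideal.mul_mem_left _ _ (Ideal.mem_map_of_mem _ he₂)
  refine ⟨γ, ?_⟩
  rw [Ideal.mul_eq_inf_of_coprime hcop]
  constructor
  · have := Ideal.add_mem _ (intNorm_sub_intNorm_mem 𝔪₁ hm₁) hγ₁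
    rwa [sub_add_sub_cancel] at this
  · have := Ideal.add_mem _ (intNorm_sub_intNorm_mem 𝔪₂ hm₂) hγ₂
    rwa [sub_add_sub_cancel] at this

/-! ### The local norm lemma -/

/-- **Local norm lemma**: `F / E` unramified of degree `n`, `𝔪` a nonzero ideal of `𝓞 E`
containing an integer `m` prime to `n`. Every `β` invertible modulo `𝔪` is congruent modulo `𝔪`
to a norm from `𝓞 F`. -/
theorem exists_intNorm_sub_mem (hunr : UnramifiedEverywhere E F) {m : ℕ}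
    (hm : Nat.Coprime (Module.finrank E F) m) (𝔪 : Ideal (𝓞 E)) (h𝔪 : 𝔪 ≠ ⊥)
    (hm𝔪 : (m : 𝓞 E) ∈ 𝔪) (β : 𝓞 E) (hβ : Ideal.span {β} ⊔ 𝔪 = ⊤) :
    ∃ γ : 𝓞 F, Algebra.intNorm (𝓞 E) (𝓞 F) γ - β ∈ 𝔪 := by
  revert h𝔪 hm𝔪 hβ
  induction 𝔪 using UniqueFactorizationMonoid.induction_on_coprime with
  | h0 => intro h; exact absurd rfl h
  | h1 hx =>
    intro _ _ _
    rw [Ideal.isUnit_iff.mp hx]
    exact ⟨1, Submodule.mem_top⟩
  | hpr i h𝔯 =>
    rename_i 𝔯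
    intro _ hm𝔪 hβ
    rcases Nat.eq_zero_or_pos i with rfl | hi
    · exact ⟨1, by simp⟩
    haveI : 𝔯.IsPrime := Ideal.isPrime_of_prime h𝔯
    have h0 : 𝔯 ≠ ⊥ := h𝔯.ne_zero
    have hβ' : β ∉ 𝔯 := by
      intro hmem
      have hle : Ideal.span {β} ⊔ 𝔯 ^ i ≤ 𝔯 :=
        sup_le ((Ideal.span_singleton_le_iff_mem _).mpr hmem) (Ideal.pow_le_self hi.ne')
      rw [hβ] at hle
      exact (Ideal.IsPrime.ne_top inferInstance) (top_le_iff.mp hle)
    exact exists_intNorm_sub_mem_prime_pow hunr h0 (Ideal.pow_le_self hi.ne' hm𝔪) hm i hβ'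
  | hcp hrel hx hy =>
    rename_i x y
    intro hxy hm𝔪 hβ
    have hx0 : x ≠ ⊥ := fun h => hxy (by rw [h]; simp)
    have hy0 : y ≠ ⊥ := fun h => hxy (by rw [h]; simp)
    have hcop : x ⊔ y = ⊤ := by
      have hu : IsUnit (x ⊔ y) :=
        hrel (Ideal.dvd_iff_le.mpr le_sup_left) (Ideal.dvd_iff_le.mpr le_sup_right)
      exact Ideal.isUnit_iff.mp hu
    have hβx : Ideal.span {β} ⊔ x = ⊤ :=
      top_le_iff.mp (hβ ▸ sup_le_sup_left Ideal.mul_le_left _)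
    have hβy : Ideal.span {β} ⊔ y = ⊤ :=
      top_le_iff.mp (hβ ▸ sup_le_sup_left Ideal.mul_le_right _)
    exact exists_intNorm_sub_mem_mul hcop β
      (hx hx0 (Ideal.mul_le_left hm𝔪) hβx) (hy hy0 (Ideal.mul_le_right hm𝔪) hβy)

/-- Inverse form of the local norm lemma: `β · N γ ≡ 1 mod 𝔪`. -/
theorem exists_mul_intNorm_sub_one_mem (hunr : UnramifiedEverywhere E F) {m : ℕ}
    (hm : Nat.Coprime (Module.finrank E F) m) (𝔪 : Ideal (𝓞 E)) (h𝔪 : 𝔪 ≠ ⊥)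
    (hm𝔪 : (m : 𝓞 E) ∈ 𝔪) (β : 𝓞 E) (hβ : Ideal.span {β} ⊔ 𝔪 = ⊤) :
    ∃ γ : 𝓞 F, β * Algebra.intNorm (𝓞 E) (𝓞 F) γ - 1 ∈ 𝔪 := by
  obtain ⟨a, ha, t, ht, hat⟩ := Submodule.mem_sup.mp ((Ideal.eq_top_iff_one _).mp hβ)
  obtain ⟨β', rfl⟩ := Ideal.mem_span_singleton'.mp ha
  have hβ' : Ideal.span {β'} ⊔ 𝔪 = ⊤ := by
    rw [Ideal.eq_top_iff_one]
    refine Submodule.mem_sup.mpr ⟨β' * β, ?_, t, ht, hat⟩
    exact Ideal.mem_span_singleton'.mpr ⟨β, by ring⟩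
  obtain ⟨γ, hγ⟩ := exists_intNorm_sub_mem hunr hm 𝔪 h𝔪 hm𝔪 β' hβ'
  refine ⟨γ, ?_⟩
  have : β * Algebra.intNorm (𝓞 E) (𝓞 F) γ - 1 =
      β * (Algebra.intNorm (𝓞 E) (𝓞 F) γ - β') - t := by linear_combination hat
  rw [this]
  exact Ideal.sub_mem _ (Ideal.mul_mem_left _ _ hγ) ht

end Fermat.Agent.S14.CycloNorm
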