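import Fermat.Agent.S14.NormLeOneLip

set_option autoImplicit false
set_option linter.unusedSectionVars false
set_option linter.unusedVariables false

namespace Fermat.Agent.S14.Count

open Ideal Module
open scoped nonZeroDivisors Real
open Filter NumberField NumberField.InfinitePlace NumberField.mixedEmbedding
  NumberField.mixedEmbedding.euclidean NumberField.mixedEmbedding.fundamentalCone Submodule
  Topology NumberField.Units
open Fermat.Agent.S14.Lattice Fermat.Agent.S14.NormLeOneLip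

variable (K : Type*) [Field K] [NumberField K]

/-- the density of the ideals in a class -/
noncomputable def kappa : ℝ :=
  (2 ^ nrRealPlaces K * (2 * π) ^ nrComplexPlaces K * regulator K) /
    (torsionOrder K * Real.sqrt |discr K|)

theorem kappa_pos : 0 < kappa K := by
  unfold kappa
  have hd : (0 : ℝ) < Real.sqrt |(discr K : ℝ)| := by
    rw [Real.sqrt_pos, abs_pos]
    exact_mod_cast discr_ne_zero K
  have hw : (0 : ℝ) < torsionOrder K :=
    Nat.cast_pos.mpr (Nat.pos_of_ne_zero (torsionOrder_ne_zero K))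
  have hr := regulator_pos K
  positivity

variable {C : ClassGroup (𝓞 K)} {J : (Ideal (𝓞 K))⁰} {s : ℝ}

theorem card_class_eq (hJ : ClassGroup.mk0 J = C⁻¹) :
    Nat.card {I : (Ideal (𝓞 K))⁰ // absNorm (I : Ideal (𝓞 K)) ≤ s ∧ ClassGroup.mk0 I = C}
      = Nat.card {I : (Ideal (𝓞 K))⁰ // (J : Ideal (𝓞 K)) ∣ I ∧ IsPrincipal (I : Ideal (𝓞 K)) ∧
        absNorm (I : Ideal (𝓞 K)) ≤ s * absNorm (J : Ideal (𝓞 K))} := by
  simp_rw [← nonZeroDivisors_dvd_iff_dvd_coe]
  refine Nat.card_congr ?_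
  refine ((Equiv.dvd J).subtypeEquiv fun I ↦ ?_).trans
    (Equiv.subtypeSubtypeEquivSubtypeInter (fun I : (Ideal (𝓞 K))⁰ ↦ J ∣ I) _)
  rw [← ClassGroup.mk0_eq_one_iff (SetLike.coe_mem _)]
  simp_rw [Equiv.dvd_apply, Submonoid.coe_mul, ← Submonoid.mul_def, _root_.map_mul, hJ,
    inv_mul_eq_one, Nat.cast_mul, mul_comm s, eq_comm, and_comm, and_congr_left_iff]
  exact fun _ ↦
    (mul_le_mul_iff_of_pos_left (Nat.cast_pos.mpr (absNorm_pos_of_nonZeroDivisors J))).symm

open scoped Classical in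
/-- the lattice points of the cone are the elements of `idealSet` -/
noncomputable def coneEquiv :
    ↑({x | x ∈ (toMixed K) ⁻¹' fundamentalCone K ∧ mixedEmbedding.norm ((toMixed K) x) ≤ s} ∩
      (ZLattice.comap ℝ (idealLattice K ((FractionalIdeal.mk0 K) J)) (toMixed K).toLinearMap))
        ≃ {a : idealSet K J // mixedEmbedding.norm (a : mixedSpace K) ≤ s} := by
  rw [ZLattice.coe_comap]
  refine (((toMixed K).toEquiv.image _).trans (Equiv.subtypeEquivProp ?_)).trans
    (Equiv.subtypeSubtypeEquivSubtypeInter _ (mixedEmbedding.norm · ≤ s)).symm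
  ext
  simp_rw [mem_idealSet, Set.mem_image, Set.mem_inter_iff, Set.mem_preimage, SetLike.mem_coe,
    mem_idealLattice, FractionalIdeal.coe_mk0]
  constructor
  · rintro ⟨_, ⟨⟨hx₁, hx₂⟩, _, ⟨x, hx₃, rfl⟩, h⟩, rfl⟩
    exact ⟨⟨hx₁, x, hx₃, h⟩, hx₂⟩
  · rintro ⟨⟨hx₁, ⟨x, hx₂, rfl⟩⟩, hx₃⟩
    exact ⟨(toMixed K).symm (mixedEmbedding K x), ⟨⟨hx₁, hx₃⟩, ⟨(x : K), by simp [hx₂], rfl⟩⟩, rfl⟩

variable (C) in
/-- **Ideals of bounded norm in a class, with error term.** -/
theorem abs_card_norm_le_and_mk_eq_sub_le :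
    ∃ B : ℝ, ∀ s : ℝ, 1 ≤ s →
      |(Nat.card {I : (Ideal (𝓞 K))⁰ //
          absNorm (I : Ideal (𝓞 K)) ≤ s ∧ ClassGroup.mk0 I = C} : ℝ) - kappa K * s| ≤
        B * s ^ (1 - 1 / (finrank ℚ K : ℝ)) := by
  classical
  have h₁ : ∀ s : ℝ,
    {x | x ∈ toMixed K ⁻¹' fundamentalCone K ∧ mixedEmbedding.norm (toMixed K x) ≤ s} =
      toMixed K ⁻¹' {x | x ∈ fundamentalCone K ∧ mixedEmbedding.norm x ≤ s} := fun _ ↦ rfl
  have h₂ : {x | x ∈ fundamentalCone K ∧ mixedEmbedding.norm x ≤ 1} = normLeOne K := by ext; simp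
  obtain ⟨J, hJ⟩ := ClassGroup.mk0_surjective C⁻¹
  have hJpos : (0 : ℝ) < absNorm (J : Ideal (𝓞 K)) :=
    Nat.cast_pos.mpr (absNorm_pos_of_nonZeroDivisors J)
  have hJ1 : (1 : ℝ) ≤ absNorm (J : Ideal (𝓞 K)) := by
    exact_mod_cast Nat.one_le_iff_ne_zero.mpr (absNorm_ne_zero_of_nonZeroDivisors J)
  have h₃ : (absNorm J.1 : ℝ) ≠ 0 := hJpos.ne'
  have hw : (0 : ℝ) < torsionOrder K := Nat.cast_pos.mpr (Nat.pos_of_ne_zero (torsionOrder_ne_zero K))
  obtain ⟨B, hB⟩ := abs_card_le_sub_le'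
    (ZLattice.comap ℝ (mixedEmbedding.idealLattice K (FractionalIdeal.mk0 K J))
      (toMixed K).toLinearMap) (κ := Idx K)
    (F := fun x ↦ mixedEmbedding.norm (toMixed K x)) (X := (toMixed K) ⁻¹' (fundamentalCone K))
    (fun _ _ _ h ↦ by rwa [Set.mem_preimage, map_smul, smul_mem_iff_mem h.ne'])
    (fun _ _ h ↦ by rw [map_smul, mixedEmbedding.norm_smul, euclidean.finrank, abs_of_nonneg h])
    ((toMixed K).antilipschitz.isBounded_preimage (isBounded_normLeOne K))
    ((toMixed K).continuous.measurable (measurableSet_normLeOne K))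
    (by rw [h₁, h₂]; exact lipCovered_frontier_preimage K)
    (by rw [card_idx, euclidean.finrank])
  have hvol : MeasureTheory.volume.real
      {x | x ∈ toMixed K ⁻¹' fundamentalCone K ∧ mixedEmbedding.norm (toMixed K x) ≤ 1} /
        ZLattice.covolume (ZLattice.comap ℝ (mixedEmbedding.idealLattice K
          (FractionalIdeal.mk0 K J)) (toMixed K).toLinearMap) * absNorm (J : Ideal (𝓞 K)) =
      kappa K * torsionOrder K := by
    rw [h₁, h₂, MeasureTheory.measureReal_def, (volumePreserving_toMixed K).measure_preimage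
      (measurableSet_normLeOne K).nullMeasurableSet, volume_normLeOne, ZLattice.covolume_comap
      _ _ _ (volumePreserving_toMixed K), covolume_idealLattice, ENNReal.toReal_mul,
      ENNReal.toReal_mul, ENNReal.toReal_pow, ENNReal.toReal_pow, ENNReal.toReal_ofNat,
      ENNReal.coe_toReal, NNReal.coe_real_pi, ENNReal.toReal_ofReal (regulator_pos K).le,
      FractionalIdeal.coe_mk0, FractionalIdeal.coeIdeal_absNorm, Rat.cast_natCast, kappa,
      inv_pow, mul_pow]
    have hd : (0 : ℝ) < Real.sqrt |(discr K : ℝ)| := by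
      rw [Real.sqrt_pos, abs_pos]
      exact_mod_cast discr_ne_zero K
    have h2 : (0 : ℝ) < 2 ^ nrComplexPlaces K := by positivity
    generalize (2 : ℝ) ^ nrComplexPlaces K = t at h2 ⊢
    field_simp
  rw [euclidean.finrank] at hB
  refine ⟨B * (absNorm (J : Ideal (𝓞 K)) : ℝ) / torsionOrder K, fun s hs => ?_⟩
  have hs0 : 0 < s := lt_of_lt_of_le zero_lt_one hs
  have hc : 1 ≤ s * absNorm (J : Ideal (𝓞 K)) := by nlinarith
  have key := hB _ hc
  rw [Nat.card_congr (coneEquiv K), ← card_isPrincipal_dvd_norm_le, ← card_class_eq K hJ,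
    Nat.cast_mul] at key
  set N : ℝ := (Nat.card {I : (Ideal (𝓞 K))⁰ //
          absNorm (I : Ideal (𝓞 K)) ≤ s ∧ ClassGroup.mk0 I = C} : ℝ) with hN
  set V := MeasureTheory.volume.real
      {x | x ∈ toMixed K ⁻¹' fundamentalCone K ∧ mixedEmbedding.norm (toMixed K x) ≤ 1} /
        ZLattice.covolume (ZLattice.comap ℝ (mixedEmbedding.idealLattice K
          (FractionalIdeal.mk0 K J)) (toMixed K).toLinearMap) with hV
  have hB0 : 0 ≤ B := by
    have h1 := hB 1 le_rfl
    rw [Real.one_rpow, mul_one] at h1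
    exact le_trans (abs_nonneg _) h1
  have hpow : (s * (absNorm (J : Ideal (𝓞 K)) : ℝ)) ^ (1 - 1 / (finrank ℚ K : ℝ)) ≤
      s ^ (1 - 1 / (finrank ℚ K : ℝ)) * absNorm (J : Ideal (𝓞 K)) := by
    rw [Real.mul_rpow hs0.le hJpos.le]
    refine mul_le_mul_of_nonneg_left ?_ (Real.rpow_nonneg hs0.le _)
    calc (absNorm (J : Ideal (𝓞 K)) : ℝ) ^ (1 - 1 / (finrank ℚ K : ℝ))
        ≤ (absNorm (J : Ideal (𝓞 K)) : ℝ) ^ (1 : ℝ) := by
          refine Real.rpow_le_rpow_of_exponent_le hJ1 ?_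
          have : (0 : ℝ) ≤ 1 / (finrank ℚ K : ℝ) := by positivity
          linarith
      _ = _ := Real.rpow_one _
  have e1 : N - kappa K * s =
      (N * torsionOrder K - s * absNorm (J : Ideal (𝓞 K)) * V) / torsionOrder K := by
    have : s * absNorm (J : Ideal (𝓞 K)) * V = s * (kappa K * torsionOrder K) := by
      rw [← hvol]; ring
    rw [this]
    field_simp
  rw [e1, abs_div, abs_of_pos hw, div_le_iff₀ hw]
  calc |N * torsionOrder K - s * absNorm (J : Ideal (𝓞 K)) * V|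
      ≤ B * (s * (absNorm (J : Ideal (𝓞 K)) : ℝ)) ^ (1 - 1 / (finrank ℚ K : ℝ)) := key
    _ ≤ B * (s ^ (1 - 1 / (finrank ℚ K : ℝ)) * absNorm (J : Ideal (𝓞 K))) :=
        mul_le_mul_of_nonneg_left hpow hB0
    _ = B * (absNorm (J : Ideal (𝓞 K)) : ℝ) / torsionOrder K *
          s ^ (1 - 1 / (finrank ℚ K : ℝ)) * torsionOrder K := by
        field_simp

end Fermat.Agent.S14.Count
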