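/-
S14 (class field theory project), module LBound (AN3 of the plan).

For a number field `K` and a NONTRIVIAL character `χ` of the class group, the `L`-function
`L(s, χ) = ∑_I χ([I]) N(I)^(-s)` (sum over the nonzero ideals) is bounded on the real interval
`(1, 2]`.  The input is the ideal counting estimate with a power saving (module Count), which is
taken as a HYPOTHESIS here (`norm_tsum_le_of_count`); everything else is proved from Mathlib:

* `norm_LSeries_le_of_sum_le`: Abel summation, partial sums `≤ C n^r` with `r < 1` give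
  `‖LSeries f s‖ ≤ 2 C / (1 - r)` for `s ∈ (1, 2]`;
* `coeff K w`: Dirichlet coefficients of a weight `w` on nonzero ideals, `LSeries_coeff_eq`:
  the sum over ideals is the `LSeries` of the coefficients; `summable_nrm_rpow`,
  `summable_wt_mul`: absolute convergence for `s > 1`;
* `sum_char_eq_zero`, `norm_sum_wt_le`: the partial sums of a nontrivial character are
  `O(n^r)`.
-/
import Mathlib

open Finset Filter MeasureTheory Topology Complex Asymptotics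
open NumberField Ideal nonZeroDivisors

namespace Fermat.Agent.S14.LBound

section analytic

/-- Abel summation bound: if the partial sums of `f` are `≤ C n^r` with `0 ≤ r < 1`, then the
L-series of `f` is bounded by `2 C / (1 - r)` on the real interval `(1, 2]`. -/
theorem norm_LSeries_le_of_sum_le {f : ℕ → ℂ} {r C : ℝ} (hr : 0 ≤ r) (hr1 : r < 1)
    (hA : ∀ n : ℕ, ‖∑ k ∈ Finset.Icc 1 n, f k‖ ≤ C * (n : ℝ) ^ r)
    {s : ℝ} (hs : 1 < s) (hs2 : s ≤ 2) (hS : LSeriesSummable f s) :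
    ‖LSeries f s‖ ≤ 2 * C / (1 - r) := by
  have hC : 0 ≤ C := by
    have := hA 1
    simp only [Nat.cast_one, Real.one_rpow, mul_one] at this
    exact (norm_nonneg _).trans this
  have hO : (fun n ↦ ∑ k ∈ Icc 1 n, f k) =O[atTop] fun n ↦ (n : ℝ) ^ r := by
    refine IsBigO.of_bound C (Eventually.of_forall fun n ↦ ?_)
    rw [Real.norm_of_nonneg (Real.rpow_nonneg (Nat.cast_nonneg _) _)]
    exact hA n
  have hsre : r < (s : ℂ).re := by simpa using hr1.trans hs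
  rw [LSeries_eq_mul_integral f hr hsre hS hO, norm_mul]
  have hsn : ‖(s : ℂ)‖ = s := by
    rw [Complex.norm_real, Real.norm_of_nonneg (by linarith)]
  rw [hsn]
  have hint : IntegrableOn (fun t : ℝ ↦ C * t ^ (r - s - 1)) (Set.Ioi 1) := by
    refine Integrable.const_mul ?_ _
    exact integrableOn_Ioi_rpow_of_lt (by linarith) zero_lt_one
  have hbound : ‖∫ t in Set.Ioi (1 : ℝ), (∑ k ∈ Icc 1 ⌊t⌋₊, f k) * (t : ℂ) ^ (-((s : ℂ) + 1))‖
      ≤ ∫ t in Set.Ioi (1 : ℝ), C * t ^ (r - s - 1) := by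
    refine norm_integral_le_of_norm_le hint ?_
    refine (ae_restrict_iff' measurableSet_Ioi).mpr (Eventually.of_forall fun t ht ↦ ?_)
    have ht0 : (0 : ℝ) < t := zero_lt_one.trans ht
    rw [norm_mul]
    have h1 : ‖(t : ℂ) ^ (-((s : ℂ) + 1))‖ = t ^ (-(s + 1)) := by
      rw [Complex.norm_cpow_eq_rpow_re_of_pos ht0]
      simp
    rw [h1]
    have h2 : ‖∑ k ∈ Icc 1 ⌊t⌋₊, f k‖ ≤ C * t ^ r := by
      refine (hA _).trans ?_
      gcongr
      exact Nat.floor_le ht0.le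
    calc ‖∑ k ∈ Icc 1 ⌊t⌋₊, f k‖ * t ^ (-(s + 1)) ≤ (C * t ^ r) * t ^ (-(s + 1)) := by
          gcongr
      _ = C * t ^ (r - s - 1) := by
          rw [mul_assoc, ← Real.rpow_add ht0]
          congr 2
          ring
  have hval : ∫ t in Set.Ioi (1 : ℝ), C * t ^ (r - s - 1) = C / (s - r) := by
    rw [integral_const_mul, integral_Ioi_rpow_of_lt (by linarith) zero_lt_one]
    simp only [Real.one_rpow]
    have : r - s - 1 + 1 = -(s - r) := by ring
    rw [this]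
    have hsr : s - r ≠ 0 := by linarith
    field_simp
  calc s * ‖∫ t in Set.Ioi (1 : ℝ), (∑ k ∈ Icc 1 ⌊t⌋₊, f k) * (t : ℂ) ^ (-((s : ℂ) + 1))‖
      ≤ s * (C / (s - r)) := by
        rw [← hval]
        exact mul_le_mul_of_nonneg_left hbound (by linarith)
    _ ≤ 2 * (C / (1 - r)) := by
        have h1r : 0 < 1 - r := by linarith
        have hsr : 0 < s - r := by linarith
        have : C / (s - r) ≤ C / (1 - r) := by
          apply div_le_div_of_nonneg_left hC h1r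
          linarith
        have h3 : 0 ≤ C / (1 - r) := div_nonneg hC h1r.le
        nlinarith
    _ = 2 * C / (1 - r) := by ring

end analytic

section ideals

variable (K : Type*) [Field K] [NumberField K]

/-- The absolute norm of a nonzero ideal, as a natural number. -/
noncomputable def nrm (I : (Ideal (𝓞 K))⁰) : ℕ := absNorm (I : Ideal (𝓞 K))

theorem nrm_pos (I : (Ideal (𝓞 K))⁰) : 0 < nrm K I :=
  absNorm_pos_of_nonZeroDivisors I

theorem nrm_ne_zero (I : (Ideal (𝓞 K))⁰) : nrm K I ≠ 0 := (nrm_pos K I).ne'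

theorem finite_nrm_le (n : ℕ) : {I : (Ideal (𝓞 K))⁰ | nrm K I ≤ n}.Finite :=
  Ideal.finite_setOfPred_absNorm_le₀ n

theorem finite_nrm_eq (m : ℕ) : {I : (Ideal (𝓞 K))⁰ | nrm K I = m}.Finite :=
  (finite_nrm_le K m).subset fun _ h ↦ le_of_eq h

/-- The finset of nonzero ideals of norm `≤ n`. -/
noncomputable def idealsLE (n : ℕ) : Finset (Ideal (𝓞 K))⁰ := (finite_nrm_le K n).toFinset

/-- The finset of nonzero ideals of norm `m`. -/
noncomputable def idealsEQ (m : ℕ) : Finset (Ideal (𝓞 K))⁰ := (finite_nrm_eq K m).toFinset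

@[simp] theorem mem_idealsLE {n : ℕ} {I : (Ideal (𝓞 K))⁰} : I ∈ idealsLE K n ↔ nrm K I ≤ n := by
  simp [idealsLE]

@[simp] theorem mem_idealsEQ {m : ℕ} {I : (Ideal (𝓞 K))⁰} : I ∈ idealsEQ K m ↔ nrm K I = m := by
  simp [idealsEQ]

/-- The Dirichlet coefficients attached to a weight function on nonzero ideals. -/
noncomputable def coeff (w : (Ideal (𝓞 K))⁰ → ℂ) (m : ℕ) : ℂ := ∑ I ∈ idealsEQ K m, w I

variable {K}

theorem sum_Icc_coeff (w : (Ideal (𝓞 K))⁰ → ℂ) (n : ℕ) :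
    ∑ k ∈ Finset.Icc 1 n, coeff K w k = ∑ I ∈ idealsLE K n, w I := by
  classical
  rw [← Finset.sum_fiberwise_of_maps_to (s := idealsLE K n) (t := Finset.Icc 1 n) (g := nrm K)]
  · refine Finset.sum_congr rfl fun k hk ↦ ?_
    unfold coeff
    refine Finset.sum_congr ?_ fun _ _ ↦ rfl
    ext I
    simp only [mem_idealsEQ, Finset.mem_filter, mem_idealsLE]
    have := (Finset.mem_Icc.mp hk).2
    constructor
    · intro h; exact ⟨h ▸ this, h⟩
    · intro h; exact h.2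
  · intro I hI
    exact Finset.mem_Icc.mpr ⟨nrm_pos K I, (mem_idealsLE K).mp hI⟩

theorem tsum_fiber_eq (w : (Ideal (𝓞 K))⁰ → ℂ) (m : ℕ) :
    ∑' I : (nrm K) ⁻¹' {m}, w I = coeff K w m := by
  classical
  have : (nrm K) ⁻¹' {m} = (idealsEQ K m : Set (Ideal (𝓞 K))⁰) := by
    ext I; simp
  rw [tsum_congr_set_coe w this, Finset.tsum_subtype']
  rfl

/-- The fibrewise description of the sum over ideals as an `LSeries`. -/
theorem hasSum_term_coeff (w : (Ideal (𝓞 K))⁰ → ℂ) (s : ℂ)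
    (h : Summable fun I : (Ideal (𝓞 K))⁰ ↦ w I * (nrm K I : ℂ) ^ (-s)) :
    HasSum (LSeries.term (coeff K w) s)
      (∑' I : (Ideal (𝓞 K))⁰, w I * (nrm K I : ℂ) ^ (-s)) := by
  have h1 := h.hasSum.tsum_fiberwise (nrm K)
  have h2 : LSeries.term (coeff K w) s =
      fun c ↦ ∑' (b : ↑(nrm K ⁻¹' {c})), w ↑b * ((nrm K ↑b : ℕ) : ℂ) ^ (-s) := by
    funext m
    rcases Nat.eq_zero_or_pos m with hm | hm
    · subst hm
      rw [LSeries.term_zero]
      have : IsEmpty ((nrm K) ⁻¹' {0}) := by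
        constructor
        rintro ⟨I, hI⟩
        exact nrm_ne_zero K I hI
      rw [tsum_empty]
    · rw [LSeries.term_of_ne_zero hm.ne', ← tsum_fiber_eq, div_eq_mul_inv, ← Complex.cpow_neg,
        ← tsum_mul_right]
      refine tsum_congr fun I ↦ ?_
      have : nrm K (I : (Ideal (𝓞 K))⁰) = m := I.2
      rw [this]
  rw [h2]
  exact h1

theorem LSeries_coeff_eq (w : (Ideal (𝓞 K))⁰ → ℂ) (s : ℂ)
    (h : Summable fun I : (Ideal (𝓞 K))⁰ ↦ w I * (nrm K I : ℂ) ^ (-s)) :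
    LSeries (coeff K w) s = ∑' I : (Ideal (𝓞 K))⁰, w I * (nrm K I : ℂ) ^ (-s) :=
  (hasSum_term_coeff w s h).tsum_eq

theorem LSeriesSummable_coeff (w : (Ideal (𝓞 K))⁰ → ℂ) (s : ℂ)
    (h : Summable fun I : (Ideal (𝓞 K))⁰ ↦ w I * (nrm K I : ℂ) ^ (-s)) :
    LSeriesSummable (coeff K w) s :=
  (hasSum_term_coeff w s h).summable

variable (K)

theorem card_idealsLE (n : ℕ) : ((idealsLE K n).card : ℝ) =
    (Nat.card {I : (Ideal (𝓞 K))⁰ // absNorm (I : Ideal (𝓞 K)) ≤ (n : ℝ)} : ℝ) := by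
  congr 1
  have : {I : (Ideal (𝓞 K))⁰ | nrm K I ≤ n} =
      {I : (Ideal (𝓞 K))⁰ | (absNorm (I : Ideal (𝓞 K)) : ℝ) ≤ (n : ℝ)} := by
    ext I; simp [nrm]
  rw [idealsLE, ← Set.ncard_eq_toFinset_card _ (finite_nrm_le K n), ← Nat.card_coe_set_eq]
  exact Nat.card_congr (Equiv.setCongr this)

theorem card_idealsLE_isBigO :
    (fun n : ℕ ↦ ((idealsLE K n).card : ℝ)) =O[atTop] fun n ↦ (n : ℝ) ^ (1 : ℝ) := by
  have h := ((Ideal.tendsto_norm_le_div_atTop₀ K).comp tendsto_natCast_atTop_atTop)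
  refine isBigO_atTop_natCast_rpow_of_tendsto_div_rpow (h.congr fun n ↦ ?_)
  simp [card_idealsLE]

theorem norm_coeff_le (w : (Ideal (𝓞 K))⁰ → ℂ) (hw : ∀ I, ‖w I‖ ≤ 1) (m : ℕ) :
    ‖coeff K w m‖ ≤ (idealsEQ K m).card := by
  unfold coeff
  refine (norm_sum_le _ _).trans ?_
  calc ∑ I ∈ idealsEQ K m, ‖w I‖ ≤ ∑ I ∈ idealsEQ K m, (1 : ℝ) := Finset.sum_le_sum fun I _ ↦ hw I
    _ = (idealsEQ K m).card := by simp

theorem sum_card_idealsEQ (n : ℕ) :
    ∑ k ∈ Finset.Icc 1 n, ((idealsEQ K k).card : ℝ) = (idealsLE K n).card := by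
  have h := sum_Icc_coeff (K := K) (fun _ ↦ (1 : ℂ)) n
  simp only [coeff, Finset.sum_const, nsmul_eq_mul, mul_one] at h
  exact_mod_cast h

/-- The `L`-series of a bounded weight converges absolutely for `Re s > 1`. -/
theorem LSeriesSummable_coeff_of_le (w : (Ideal (𝓞 K))⁰ → ℂ) (hw : ∀ I, ‖w I‖ ≤ 1) {s : ℂ}
    (hs : 1 < s.re) : LSeriesSummable (coeff K w) s := by
  refine LSeriesSummable_of_sum_norm_bigO (r := 1) ?_ zero_le_one hs
  refine IsBigO.trans ?_ (card_idealsLE_isBigO K)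
  refine IsBigO.of_bound 1 (Eventually.of_forall fun n ↦ ?_)
  rw [one_mul, Real.norm_of_nonneg (Finset.sum_nonneg fun _ _ ↦ norm_nonneg _),
    Real.norm_of_nonneg (Nat.cast_nonneg _), ← sum_card_idealsEQ]
  exact Finset.sum_le_sum fun k _ ↦ norm_coeff_le K w hw k

/-- Absolute convergence of `∑ N(I)^(-σ)` over the nonzero ideals, `σ > 1`. -/
theorem summable_nrm_rpow {σ : ℝ} (hσ : 1 < σ) :
    Summable fun I : (Ideal (𝓞 K))⁰ ↦ (nrm K I : ℝ) ^ (-σ) := by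
  have hL : LSeriesSummable (coeff K fun _ ↦ (1 : ℂ)) (σ : ℂ) :=
    LSeriesSummable_coeff_of_le K _ (fun _ ↦ by simp) (by simpa using hσ)
  rw [← (Equiv.sigmaFiberEquiv (nrm K)).summable_iff]
  rw [summable_sigma_of_nonneg (fun x ↦ by
    simp only [Function.comp_apply]; positivity)]
  constructor
  · intro m
    have : Finite {x // nrm K x = m} := (finite_nrm_eq K m).to_subtype
    exact Summable.of_finite
  · refine hL.norm.congr fun m ↦ ?_
    have hR : ∀ y : {x // nrm K x = m}, ((fun I ↦ (nrm K I : ℝ) ^ (-σ)) ∘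
        ⇑(Equiv.sigmaFiberEquiv (nrm K))) ⟨m, y⟩ = (m : ℝ) ^ (-σ) := by
      rintro ⟨I, hI⟩
      simp [Equiv.sigmaFiberEquiv, hI]
    rw [tsum_congr hR, tsum_const, nsmul_eq_mul]
    have hcard : Nat.card {x // nrm K x = m} = (idealsEQ K m).card := by
      rw [idealsEQ, ← Set.ncard_eq_toFinset_card _ (finite_nrm_eq K m), ← Nat.card_coe_set_eq]
      rfl
    rw [hcard]
    rcases Nat.eq_zero_or_pos m with hm | hm
    · subst hm
      have : (0 : ℝ) ^ (-σ) = 0 := Real.zero_rpow (by linarith)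
      simp [LSeries.term_zero, this]
    · rw [LSeries.term_of_ne_zero hm.ne', norm_div, Complex.norm_natCast_cpow_of_pos hm,
        Complex.ofReal_re, Real.rpow_neg (Nat.cast_nonneg _), div_eq_mul_inv]
      congr 1
      simp [coeff]


variable {K}

/-- The weight attached to a character of the class group. -/
noncomputable def wt (χ : ClassGroup (𝓞 K) →* ℂˣ) (I : (Ideal (𝓞 K))⁰) : ℂ :=
  (χ (ClassGroup.mk0 I) : ℂ)

theorem norm_char (χ : ClassGroup (𝓞 K) →* ℂˣ) (c : ClassGroup (𝓞 K)) : ‖(χ c : ℂ)‖ = 1 := by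
  have h : c ^ Fintype.card (ClassGroup (𝓞 K)) = 1 := pow_card_eq_one
  have h2 : ((χ c : ℂˣ) : ℂ) ^ Fintype.card (ClassGroup (𝓞 K)) = 1 := by
    rw [← Units.val_pow_eq_pow_val, ← map_pow, h, map_one, Units.val_one]
  exact Complex.norm_eq_one_of_pow_eq_one h2 Fintype.card_ne_zero

theorem norm_wt (χ : ClassGroup (𝓞 K) →* ℂˣ) (I : (Ideal (𝓞 K))⁰) : ‖wt χ I‖ = 1 :=
  norm_char χ _

theorem sum_char_eq_zero (χ : ClassGroup (𝓞 K) →* ℂˣ) (hχ : χ ≠ 1) :
    ∑ c : ClassGroup (𝓞 K), (χ c : ℂ) = 0 := by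
  have h := sum_hom_units_eq_zero ((Units.coeHom ℂ).comp χ) (fun h ↦ hχ ?_)
  · simpa using h
  · ext c
    have := DFunLike.congr_fun h c
    simpa using this

/-- The number of nonzero ideals of norm `≤ n` in the class `c`. -/
theorem card_filter_class (n : ℕ) (c : ClassGroup (𝓞 K)) [DecidableEq (ClassGroup (𝓞 K))] :
    (((idealsLE K n).filter fun I ↦ ClassGroup.mk0 I = c).card : ℝ) =
      (Nat.card {I : (Ideal (𝓞 K))⁰ // absNorm (I : Ideal (𝓞 K)) ≤ (n : ℝ) ∧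
        ClassGroup.mk0 I = c} : ℝ) := by
  congr 1
  rw [← Nat.card_eq_finsetCard]
  refine Nat.card_congr (Equiv.subtypeEquivRight fun I ↦ ?_)
  simp [nrm]

theorem sum_idealsLE_wt (χ : ClassGroup (𝓞 K) →* ℂˣ) (n : ℕ) :
    ∑ I ∈ idealsLE K n, wt χ I = ∑ c : ClassGroup (𝓞 K), (χ c : ℂ) *
      (Nat.card {I : (Ideal (𝓞 K))⁰ // absNorm (I : Ideal (𝓞 K)) ≤ (n : ℝ) ∧
        ClassGroup.mk0 I = c} : ℝ) := by
  classical
  rw [← Finset.sum_fiberwise (idealsLE K n) (fun I ↦ ClassGroup.mk0 I) (wt χ)]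
  refine Finset.sum_congr rfl fun c _ ↦ ?_
  rw [← card_filter_class n c]
  rw [Finset.sum_congr rfl (g := fun _ ↦ (χ c : ℂ)) (fun I hI ↦ by
    rw [wt, (Finset.mem_filter.mp hI).2])]
  simp [mul_comm]

/-- **Partial sums of a nontrivial class group character**, from the ideal counting estimate. -/
theorem norm_sum_wt_le {κ r : ℝ}
    (hcount : ∀ c : ClassGroup (𝓞 K), ∃ C : ℝ, ∀ x : ℝ, 1 ≤ x →
      |(Nat.card {I : (Ideal (𝓞 K))⁰ // absNorm (I : Ideal (𝓞 K)) ≤ x ∧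
        ClassGroup.mk0 I = c} : ℝ) - κ * x| ≤ C * x ^ r)
    (χ : ClassGroup (𝓞 K) →* ℂˣ) (hχ : χ ≠ 1) :
    ∃ C : ℝ, ∀ n : ℕ, ‖∑ k ∈ Finset.Icc 1 n, coeff K (wt χ) k‖ ≤ C * (n : ℝ) ^ r := by
  choose C hC using hcount
  refine ⟨∑ c : ClassGroup (𝓞 K), |C c|, fun n ↦ ?_⟩
  rcases Nat.eq_zero_or_pos n with hn | hn
  · subst hn
    simp only [Finset.Icc_eq_empty_of_lt zero_lt_one, Finset.sum_empty, norm_zero]
    exact mul_nonneg (Finset.sum_nonneg fun _ _ ↦ abs_nonneg _)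
      (Real.rpow_nonneg (Nat.cast_nonneg _) _)
  have hn1 : (1 : ℝ) ≤ n := by exact_mod_cast hn
  rw [sum_Icc_coeff, sum_idealsLE_wt]
  have h0 : ∑ c : ClassGroup (𝓞 K), (χ c : ℂ) * ((κ * n : ℝ) : ℂ) = 0 := by
    rw [← Finset.sum_mul, sum_char_eq_zero χ hχ, zero_mul]
  rw [← sub_zero (∑ c : ClassGroup (𝓞 K), _), ← h0, ← Finset.sum_sub_distrib, Finset.sum_mul]
  refine (norm_sum_le _ _).trans (Finset.sum_le_sum fun c _ ↦ ?_)
  rw [← mul_sub, norm_mul, norm_char, one_mul, ← Complex.ofReal_sub, Complex.norm_real,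
    Real.norm_eq_abs]
  refine (hC c n hn1).trans ?_
  gcongr
  exact le_abs_self _

/-- Absolute convergence of the sum defining `L(s, χ)`, `s > 1` real. -/
theorem summable_wt_mul (w : (Ideal (𝓞 K))⁰ → ℂ) (hw : ∀ I, ‖w I‖ ≤ 1) {s : ℂ} (hs : 1 < s.re) :
    Summable fun I : (Ideal (𝓞 K))⁰ ↦ w I * (nrm K I : ℂ) ^ (-s) := by
  refine Summable.of_norm_bounded (summable_nrm_rpow K hs) fun I ↦ ?_
  rw [norm_mul, Complex.norm_natCast_cpow_of_pos (nrm_pos K I), Complex.neg_re]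
  exact mul_le_of_le_one_left (Real.rpow_nonneg (Nat.cast_nonneg _) _) (hw I)

/-- The `L`-function of a character of the class group, as a sum over the nonzero ideals. -/
noncomputable def L (χ : ClassGroup (𝓞 K) →* ℂˣ) (s : ℂ) : ℂ :=
  ∑' I : (Ideal (𝓞 K))⁰, (χ (ClassGroup.mk0 I) : ℂ) * (absNorm (I : Ideal (𝓞 K)) : ℂ) ^ (-s)

theorem L_eq_LSeries (χ : ClassGroup (𝓞 K) →* ℂˣ) {s : ℂ} (hs : 1 < s.re) :
    L χ s = LSeries (coeff K (wt χ)) s :=
  (LSeries_coeff_eq (wt χ) s (summable_wt_mul (wt χ) (fun I ↦ (norm_wt χ I).le) hs)).symm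

/-- **AN3, relative to the counting estimate**: a nontrivial class group character has bounded
`L`-function on `(1, 2]`. -/
theorem norm_L_le_of_count {κ r : ℝ} (hr : 0 ≤ r) (hr1 : r < 1)
    (hcount : ∀ c : ClassGroup (𝓞 K), ∃ C : ℝ, ∀ x : ℝ, 1 ≤ x →
      |(Nat.card {I : (Ideal (𝓞 K))⁰ // absNorm (I : Ideal (𝓞 K)) ≤ x ∧
        ClassGroup.mk0 I = c} : ℝ) - κ * x| ≤ C * x ^ r)
    (χ : ClassGroup (𝓞 K) →* ℂˣ) (hχ : χ ≠ 1) :
    ∃ B : ℝ, ∀ s : ℝ, 1 < s → s ≤ 2 → ‖L χ (s : ℂ)‖ ≤ B := by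
  obtain ⟨C, hC⟩ := norm_sum_wt_le hcount χ hχ
  refine ⟨2 * C / (1 - r), fun s hs hs2 ↦ ?_⟩
  have hre : 1 < (s : ℂ).re := by simpa using hs
  rw [L_eq_LSeries χ hre]
  exact norm_LSeries_le_of_sum_le hr hr1 hC hs hs2
    (LSeriesSummable_coeff (wt χ) s (summable_wt_mul (wt χ) (fun I ↦ (norm_wt χ I).le) hre))

/-- The same statement with the sum over ideals written out. -/
theorem norm_tsum_le_of_count {κ r : ℝ} (hr : 0 ≤ r) (hr1 : r < 1)
    (hcount : ∀ c : ClassGroup (𝓞 K), ∃ C : ℝ, ∀ x : ℝ, 1 ≤ x →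
      |(Nat.card {I : (Ideal (𝓞 K))⁰ // absNorm (I : Ideal (𝓞 K)) ≤ x ∧
        ClassGroup.mk0 I = c} : ℝ) - κ * x| ≤ C * x ^ r)
    (χ : ClassGroup (𝓞 K) →* ℂˣ) (hχ : χ ≠ 1) :
    ∃ B : ℝ, ∀ s : ℝ, 1 < s → s ≤ 2 →
      ‖∑' I : (Ideal (𝓞 K))⁰, (χ (ClassGroup.mk0 I) : ℂ) *
        (absNorm (I : Ideal (𝓞 K)) : ℂ) ^ (-(s : ℂ))‖ ≤ B :=
  norm_L_le_of_count hr hr1 hcount χ hχ

end ideals

end Fermat.Agent.S14.LBound
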