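/-
S14 (class field theory project), module DensityAlg: the algebraic half of the density
arguments (AN-A, AN-B of the plan).

`L / K` is a Galois extension of number fields of degree `n`.  Primes are elements of
`HeightOneSpectrum`; `pw s v = N(v)^(-s)`.

* `finite_ramified`: only finitely many primes of `L` are ramified over `K` (different ideal);
* `absNorm_eq_pow`, `inertiaDeg_eq_one_of_prime`: `N(w) = N(v)^f`; a prime of prime norm has
  `f = 1`;
* `e_f_eq_of_under_eq`, `splitsCompletely_of_one`, `ncard_primesOver_mul`, `above`,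
  `card_above_le`, `card_above_eq`: the primes above a prime of `K`;
* `tsum_pw_L_le`: `∑_w N(w)^(-s) ≤ n ∑_{v good} N(v)^(-s) + ∑_{N(w) not prime} N(w)^(-s) + C`
  where `v` is good if `v ∉ S`, `N(v)` is prime and `v` splits completely;
* `mul_tsum_pw_K_le`: if every unramified prime of prime norm outside `S` splits completely, then
  `n ∑_v N(v)^(-s) ≤ ∑_w N(w)^(-s) + n ∑_{N(v) not prime} N(v)^(-s) + C`.
-/
import Mathlib
import Fermat.Agent.S14.Defs
import Fermat.Agent.S14.Frob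
import Fermat.Agent.S14.LBound

set_option autoImplicit false
set_option linter.style.haveILetI false
set_option linter.unusedSectionVars false

namespace Fermat.Agent.S14.DensityAlg

open NumberField nonZeroDivisors IsDedekindDomain
open scoped Pointwise

section pw

variable {F : Type*} [Field F] [NumberField F]

theorem one_lt_absNorm (v : HeightOneSpectrum (𝓞 F)) :
    1 < Ideal.absNorm v.asIdeal := by
  have h0 : Ideal.absNorm v.asIdeal ≠ 0 := by
    rw [Ne, Ideal.absNorm_eq_zero_iff]; exact v.ne_bot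
  have h1 : Ideal.absNorm v.asIdeal ≠ 1 := by
    rw [Ne, Ideal.absNorm_eq_one_iff]; exact v.isPrime.ne_top
  omega

/-- `N(v)^(-s)` for a nonzero prime `v`. -/
noncomputable def pw (s : ℝ) (v : HeightOneSpectrum (𝓞 F)) : ℝ :=
  (Ideal.absNorm v.asIdeal : ℝ) ^ (-s)

theorem pw_nonneg (s : ℝ) (v : HeightOneSpectrum (𝓞 F)) : 0 ≤ pw s v :=
  Real.rpow_nonneg (Nat.cast_nonneg _) _

theorem pw_pos (s : ℝ) (v : HeightOneSpectrum (𝓞 F)) : 0 < pw s v :=
  Real.rpow_pos_of_pos (by exact_mod_cast (zero_lt_one.trans (one_lt_absNorm v))) _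

theorem pw_le_one {s : ℝ} (hs : 0 ≤ s) (v : HeightOneSpectrum (𝓞 F)) : pw s v ≤ 1 := by
  unfold pw
  apply Real.rpow_le_one_of_one_le_of_nonpos
  · exact_mod_cast (one_lt_absNorm v).le
  · linarith

/-- The nonzero ideal attached to a nonzero prime. -/
noncomputable def toIdeal₀ (v : HeightOneSpectrum (𝓞 F)) : (Ideal (𝓞 F))⁰ :=
  ⟨v.asIdeal, mem_nonZeroDivisors_of_ne_zero v.ne_bot⟩

theorem toIdeal₀_injective : Function.Injective (toIdeal₀ (F := F)) := by
  intro v w h
  exact HeightOneSpectrum.ext (congrArg Subtype.val h)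

theorem summable_pw {s : ℝ} (hs : 1 < s) : Summable (pw (F := F) s) := by
  have h := (LBound.summable_nrm_rpow F hs).comp_injective (toIdeal₀_injective (F := F))
  refine h.congr fun v ↦ ?_
  simp only [Function.comp_apply, pw, toIdeal₀, LBound.nrm]

open Classical in
theorem summable_ite_pw {s : ℝ} (hs : 1 < s) (P : HeightOneSpectrum (𝓞 F) → Prop) :
    Summable fun v ↦ if P v then pw s v else 0 := by
  refine Summable.of_nonneg_of_le (fun v ↦ ?_) (fun v ↦ ?_) (summable_pw hs)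
  · split_ifs
    · exact pw_nonneg s v
    · exact le_rfl
  · split_ifs
    · exact le_rfl
    · exact pw_nonneg s v

open Classical in
/-- Decomposition of the sum over all primes: good primes, primes of non-prime norm, and a finite
exceptional set. -/
theorem tsum_pw_le_of_cover {s : ℝ} (hs : 1 < s) (G : HeightOneSpectrum (𝓞 F) → Prop)
    (B : Finset (HeightOneSpectrum (𝓞 F)))
    (hcov : ∀ v, G v ∨ ¬ (Ideal.absNorm v.asIdeal).Prime ∨ v ∈ B) :
    ∑' v, pw (F := F) s v ≤ (∑' v, if G v then pw s v else 0) +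
      (∑' v : HeightOneSpectrum (𝓞 F),
        if (Ideal.absNorm v.asIdeal).Prime then 0 else pw s v) + B.card := by
  have h1 := summable_ite_pw hs G
  have h2 : Summable fun v : HeightOneSpectrum (𝓞 F) ↦
      if (Ideal.absNorm v.asIdeal).Prime then 0 else pw s v := by
    refine (summable_ite_pw hs fun v ↦ ¬ (Ideal.absNorm v.asIdeal).Prime).congr fun v ↦ ?_
    by_cases h : (Ideal.absNorm v.asIdeal).Prime <;> simp [h]
  have h3 : Summable fun v : HeightOneSpectrum (𝓞 F) ↦ if v ∈ B then (1 : ℝ) else 0 :=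
    summable_of_ne_finset_zero (s := B) fun v hv ↦ by simp [hv]
  have h3' : ∑' v : HeightOneSpectrum (𝓞 F), (if v ∈ B then (1 : ℝ) else 0) = B.card := by
    rw [tsum_eq_sum (s := B) fun v hv ↦ by simp [hv]]
    rw [Finset.sum_congr rfl (g := fun _ ↦ (1 : ℝ)) fun v hv ↦ by simp [hv]]
    simp
  rw [← h3', ← (h1.tsum_add h2), ← (h1.add h2).tsum_add h3]
  refine (summable_pw hs).tsum_le_tsum (fun v ↦ ?_) ((h1.add h2).add h3)
  have hp := pw_nonneg s v
  have hp1 := pw_le_one (by linarith : (0:ℝ) ≤ s) v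
  rcases hcov v with h | h | h
  · by_cases h' : (Ideal.absNorm v.asIdeal).Prime <;> by_cases h'' : v ∈ B <;>
      simp [h, h', h''] <;> linarith
  · by_cases h' : G v <;> by_cases h'' : v ∈ B <;> simp [h, h', h''] <;> linarith
  · by_cases h' : G v <;> by_cases h'' : (Ideal.absNorm v.asIdeal).Prime <;>
      simp [h, h', h''] <;> linarith

end pw

section fiber

/-- Fibrewise comparison, upper bound: if `f a ≤ g (π a)` and the fibres of `π` on the support of
`f` have at most `n` elements, then `∑ f ≤ n ∑ g`. -/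
theorem tsum_le_mul_tsum_of_fiber {α β : Type*} (π : α → β) {f : α → ℝ} {g : β → ℝ}
    (hf : ∀ a, 0 ≤ f a) (hg : ∀ b, 0 ≤ g b) (hgs : Summable g) (n : ℕ)
    (hfg : ∀ a, f a ≤ g (π a))
    (hcard : ∀ (T : Finset α) (b : β) [DecidablePred fun a ↦ π a = b],
      (T.filter fun a ↦ π a = b).card ≤ n) :
    Summable f ∧ ∑' a, f a ≤ n * ∑' b, g b := by
  classical
  have key : ∀ T : Finset α, ∑ a ∈ T, f a ≤ n * ∑' b, g b := by
    intro T
    calc ∑ a ∈ T, f a ≤ ∑ a ∈ T, g (π a) := Finset.sum_le_sum fun a _ ↦ hfg a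
      _ = ∑ b ∈ T.image π, ∑ a ∈ T with π a = b, g (π a) :=
          (Finset.sum_fiberwise_of_maps_to (fun a ha ↦ Finset.mem_image_of_mem π ha) _).symm
      _ = ∑ b ∈ T.image π, ((T.filter fun a ↦ π a = b).card : ℝ) * g b := by
          refine Finset.sum_congr rfl fun b _ ↦ ?_
          rw [Finset.sum_congr rfl (g := fun _ ↦ g b)
            (fun a ha ↦ by rw [(Finset.mem_filter.mp ha).2])]
          simp
      _ ≤ ∑ b ∈ T.image π, (n : ℝ) * g b := by
          refine Finset.sum_le_sum fun b _ ↦ ?_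
          exact mul_le_mul_of_nonneg_right (by exact_mod_cast hcard T b) (hg b)
      _ = n * ∑ b ∈ T.image π, g b := by rw [Finset.mul_sum]
      _ ≤ n * ∑' b, g b := by
          refine mul_le_mul_of_nonneg_left ?_ (Nat.cast_nonneg _)
          exact hgs.sum_le_tsum _ fun b _ ↦ hg b
  exact ⟨summable_of_sum_le hf key, Real.tsum_le_of_sum_le hf key⟩

/-- Fibrewise comparison, lower bound: if every `b` has a finite set `A b` of preimages with
`n * g b ≤ ∑_{a ∈ A b} f a`, then `n ∑ g ≤ ∑ f`. -/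
theorem mul_tsum_le_tsum_of_fiber {α β : Type*} (π : α → β) {f : α → ℝ} {g : β → ℝ}
    (hf : ∀ a, 0 ≤ f a) (hfs : Summable f) (hg : ∀ b, 0 ≤ g b) (n : ℕ)
    (A : β → Finset α) (hA : ∀ b, ∀ a ∈ A b, π a = b)
    (hfg : ∀ b, n * g b ≤ ∑ a ∈ A b, f a) :
    Summable (fun b ↦ (n : ℝ) * g b) ∧ n * ∑' b, g b ≤ ∑' a, f a := by
  classical
  have key : ∀ T : Finset β, ∑ b ∈ T, (n : ℝ) * g b ≤ ∑' a, f a := by
    intro T
    calc ∑ b ∈ T, (n : ℝ) * g b ≤ ∑ b ∈ T, ∑ a ∈ A b, f a := Finset.sum_le_sum fun b _ ↦ hfg b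
      _ = ∑ a ∈ T.biUnion A, f a := by
          rw [Finset.sum_biUnion]
          intro b _ b' _ hbb'
          rw [Function.onFun, Finset.disjoint_left]
          intro a ha ha'
          exact hbb' ((hA b a ha).symm.trans (hA b' a ha'))
      _ ≤ ∑' a, f a := hfs.sum_le_tsum _ fun a _ ↦ hf a
  have hn : ∀ b, 0 ≤ (n : ℝ) * g b := fun b ↦ mul_nonneg (Nat.cast_nonneg _) (hg b)
  refine ⟨summable_of_sum_le hn key, ?_⟩
  rw [← tsum_mul_left]
  exact Real.tsum_le_of_sum_le hn key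

end fiber

variable {K L : Type*} [Field K] [Field L] [NumberField K] [NumberField L] [Algebra K L]

/-- Only finitely many primes of `L` are ramified over `K`. -/
theorem finite_ramified :
    {w : HeightOneSpectrum (𝓞 L) | w.asIdeal.ramificationIdx (𝓞 K) ≠ 1}.Finite := by
  letI : Algebra (FractionRing (𝓞 K)) (FractionRing (𝓞 L)) := FractionRing.liftAlgebra _ _
  have hne : differentIdeal (𝓞 K) (𝓞 L) ≠ ⊥ := differentIdeal_ne_bot
  refine (Ideal.finite_factors hne).subset fun w hw ↦ ?_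
  by_contra hnd
  haveI := w.isPrime
  have : Algebra.IsUnramifiedAt (𝓞 K) w.asIdeal := not_dvd_differentIdeal_iff.mp hnd
  exact hw (Ideal.ramificationIdx_eq_one _ _)

/-- The norm of a prime of `L` is a power of the norm of the prime of `K` below it. -/
theorem absNorm_eq_pow (w : HeightOneSpectrum (𝓞 L)) :
    Ideal.absNorm w.asIdeal =
      Ideal.absNorm (w.under (𝓞 K)).asIdeal ^ w.asIdeal.inertiaDeg (𝓞 K) := by
  haveI := w.isPrime
  haveI : w.asIdeal.LiesOver (w.under (𝓞 K)).asIdeal := ⟨rfl⟩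
  exact (Ideal.absNorm_pow_inertiaDeg (w.under (𝓞 K)).asIdeal w.asIdeal).symm

/-- A prime of `L` of prime norm has residue degree one over `K`, and the prime below has the
same norm. -/
theorem inertiaDeg_eq_one_of_prime (w : HeightOneSpectrum (𝓞 L))
    (hw : (Ideal.absNorm w.asIdeal).Prime) :
    w.asIdeal.inertiaDeg (𝓞 K) = 1 ∧
      Ideal.absNorm (w.under (𝓞 K)).asIdeal = Ideal.absNorm w.asIdeal := by
  have h := absNorm_eq_pow (K := K) w
  have h1 := one_lt_absNorm (w.under (𝓞 K))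
  rw [h] at hw
  have hf : w.asIdeal.inertiaDeg (𝓞 K) = 1 := by
    rcases Nat.eq_zero_or_pos (w.asIdeal.inertiaDeg (𝓞 K)) with h0 | h0
    · rw [h0, pow_zero] at hw; exact absurd hw Nat.not_prime_one
    · by_contra hne
      have h2 : 2 ≤ w.asIdeal.inertiaDeg (𝓞 K) := by omega
      exact Nat.Prime.not_prime_pow h2 hw
  refine ⟨hf, ?_⟩
  rw [h, hf, pow_one]

variable [IsGalois K L]

/-- In a Galois extension the ramification index and the residue degree only depend on the
prime below. -/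
theorem e_f_eq_of_under_eq {𝔔 𝔔' : Ideal (𝓞 L)} [𝔔.IsPrime] [𝔔'.IsPrime]
    (h : 𝔔.under (𝓞 K) = 𝔔'.under (𝓞 K)) :
    𝔔.ramificationIdx (𝓞 K) = 𝔔'.ramificationIdx (𝓞 K) ∧
      𝔔.inertiaDeg (𝓞 K) = 𝔔'.inertiaDeg (𝓞 K) := by
  haveI : 𝔔.LiesOver (𝔔.under (𝓞 K)) := ⟨rfl⟩
  haveI : 𝔔'.LiesOver (𝔔.under (𝓞 K)) := ⟨h⟩
  constructor
  · rw [← Ideal.ramificationIdxIn_eq_ramificationIdx (𝔔.under (𝓞 K)) 𝔔 Gal(L/K),
      ← Ideal.ramificationIdxIn_eq_ramificationIdx (𝔔.under (𝓞 K)) 𝔔' Gal(L/K)]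
  · rw [← Ideal.inertiaDegIn_eq_inertiaDeg (𝔔.under (𝓞 K)) 𝔔 Gal(L/K),
      ← Ideal.inertiaDegIn_eq_inertiaDeg (𝔔.under (𝓞 K)) 𝔔' Gal(L/K)]

/-- If one prime above `𝔮` has `e = f = 1`, then `𝔮` splits completely. -/
theorem splitsCompletely_of_one {𝔔 : Ideal (𝓞 L)} [𝔔.IsPrime]
    (he : 𝔔.ramificationIdx (𝓞 K) = 1) (hf : 𝔔.inertiaDeg (𝓞 K) = 1) :
    SplitsCompletely K L (𝔔.under (𝓞 K)) := by
  intro 𝔔' h𝔔' hu
  haveI := h𝔔'
  obtain ⟨h1, h2⟩ := e_f_eq_of_under_eq (K := K) (𝔔 := 𝔔') (𝔔' := 𝔔) hu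
  exact ⟨h1.trans he, h2.trans hf⟩

/-- The fundamental identity for a prime of `K` and a prime of `L` above it. -/
theorem ncard_primesOver_mul (𝔮 : Ideal (𝓞 K)) [𝔮.IsPrime] (𝔔 : Ideal (𝓞 L)) [𝔔.IsPrime]
    (h : 𝔔.under (𝓞 K) = 𝔮) :
    (𝔮.primesOver (𝓞 L)).ncard * (𝔔.ramificationIdx (𝓞 K) * 𝔔.inertiaDeg (𝓞 K)) =
      Module.finrank K L := by
  haveI : 𝔔.LiesOver 𝔮 := ⟨h.symm⟩
  rw [← Ideal.ramificationIdxIn_eq_ramificationIdx 𝔮 𝔔 Gal(L/K),
    ← Ideal.inertiaDegIn_eq_inertiaDeg 𝔮 𝔔 Gal(L/K),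
    Ideal.ncard_primesOver_mul_ramificationIdxIn_mul_inertiaDegIn 𝔮 (𝓞 L) Gal(L/K),
    IsGaloisGroup.card_eq_finrank Gal(L/K) K L]

theorem ncard_primesOver_le (𝔮 : Ideal (𝓞 K)) [𝔮.IsPrime] :
    (𝔮.primesOver (𝓞 L)).ncard ≤ Module.finrank K L := by
  obtain ⟨𝔔, h𝔔, hu⟩ := Frob.exists_prime_over (L := L) 𝔮
  haveI := h𝔔
  have h := ncard_primesOver_mul 𝔮 𝔔 hu
  have he : 0 < 𝔔.ramificationIdx (𝓞 K) := Ideal.ramificationIdx_pos 𝔔 (𝓞 K)
  have hf : 0 < 𝔔.inertiaDeg (𝓞 K) := Ideal.inertiaDeg_pos 𝔔 (𝓞 K)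
  calc (𝔮.primesOver (𝓞 L)).ncard ≤ (𝔮.primesOver (𝓞 L)).ncard *
        (𝔔.ramificationIdx (𝓞 K) * 𝔔.inertiaDeg (𝓞 K)) :=
        Nat.le_mul_of_pos_right _ (Nat.mul_pos he hf)
    _ = _ := h

theorem ncard_primesOver_eq (𝔮 : Ideal (𝓞 K)) [𝔮.IsPrime] (h : SplitsCompletely K L 𝔮) :
    (𝔮.primesOver (𝓞 L)).ncard = Module.finrank K L := by
  obtain ⟨𝔔, h𝔔, hu⟩ := Frob.exists_prime_over (L := L) 𝔮
  haveI := h𝔔
  have h1 := ncard_primesOver_mul 𝔮 𝔔 hu
  obtain ⟨he, hf⟩ := h 𝔔 h𝔔 hu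
  rwa [he, hf, mul_one, mul_one] at h1

theorem image_asIdeal_above (v : HeightOneSpectrum (𝓞 K)) :
    HeightOneSpectrum.asIdeal '' {w : HeightOneSpectrum (𝓞 L) | w.under (𝓞 K) = v} =
      v.asIdeal.primesOver (𝓞 L) := by
  ext 𝔔
  constructor
  · rintro ⟨w, hw, rfl⟩
    refine ⟨w.isPrime, ⟨?_⟩⟩
    rw [← (hw : w.under (𝓞 K) = v)]
    rfl
  · rintro ⟨h1, h2⟩
    have hu : 𝔔.under (𝓞 K) = v.asIdeal := h2.over.symm
    have hne : 𝔔 ≠ ⊥ := Frob.ne_bot_of_under_ne_bot (K := K) (hu ▸ v.ne_bot)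
    refine ⟨⟨𝔔, h1, hne⟩, ?_, rfl⟩
    exact HeightOneSpectrum.ext hu

theorem finite_above (v : HeightOneSpectrum (𝓞 K)) :
    {w : HeightOneSpectrum (𝓞 L) | w.under (𝓞 K) = v}.Finite := by
  refine Set.Finite.of_finite_image ?_ (fun _ _ _ _ h ↦ HeightOneSpectrum.ext h)
  rw [image_asIdeal_above]
  haveI := v.isPrime
  exact IsDedekindDomain.primesOver_finite v.asIdeal (𝓞 L)

/-- The finset of primes of `L` above the prime `v` of `K`. -/
noncomputable def above (v : HeightOneSpectrum (𝓞 K)) : Finset (HeightOneSpectrum (𝓞 L)) :=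
  (finite_above (L := L) v).toFinset

@[simp] theorem mem_above {v : HeightOneSpectrum (𝓞 K)} {w : HeightOneSpectrum (𝓞 L)} :
    w ∈ above v ↔ w.under (𝓞 K) = v := by
  simp [above]

theorem card_above (v : HeightOneSpectrum (𝓞 K)) :
    (above (L := L) v).card = (v.asIdeal.primesOver (𝓞 L)).ncard := by
  rw [above, ← Set.ncard_eq_toFinset_card _ (finite_above (L := L) v),
    ← image_asIdeal_above (L := L) v,
    Set.ncard_image_of_injective _ (fun _ _ h ↦ HeightOneSpectrum.ext h)]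

theorem card_above_le (v : HeightOneSpectrum (𝓞 K)) :
    (above (L := L) v).card ≤ Module.finrank K L := by
  haveI := v.isPrime
  rw [card_above]
  exact ncard_primesOver_le v.asIdeal

theorem card_above_eq (v : HeightOneSpectrum (𝓞 K)) (h : SplitsCompletely K L v.asIdeal) :
    (above (L := L) v).card = Module.finrank K L := by
  haveI := v.isPrime
  rw [card_above]
  exact ncard_primesOver_eq v.asIdeal h

/-! ### The comparison of the prime sums of `L` and `K` -/

variable (K L)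

/-- A prime of `L` is good (relative to the finite set `S` of ideals of `K`) if it has prime
norm, is unramified over `K` and does not lie over a prime in `S`. -/
def GoodL (S : Finset (Ideal (𝓞 K))) (w : HeightOneSpectrum (𝓞 L)) : Prop :=
  (Ideal.absNorm w.asIdeal).Prime ∧ w.asIdeal.ramificationIdx (𝓞 K) = 1 ∧
    (w.under (𝓞 K)).asIdeal ∉ S

/-- A prime of `K` is good (relative to `S`) if it is not in `S`, has prime norm and splits
completely in `L`. -/
def GoodK (S : Finset (Ideal (𝓞 K))) (v : HeightOneSpectrum (𝓞 K)) : Prop :=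
  v.asIdeal ∉ S ∧ (Ideal.absNorm v.asIdeal).Prime ∧ SplitsCompletely K L v.asIdeal

/-- The prime `v` of `K` is unramified in `L`. -/
def Unram (v : HeightOneSpectrum (𝓞 K)) : Prop :=
  ∀ 𝔔 : Ideal (𝓞 L), 𝔔.IsPrime → 𝔔.under (𝓞 K) = v.asIdeal → 𝔔.ramificationIdx (𝓞 K) = 1

/-- A prime of `K` outside `S`, of prime norm and unramified in `L`. -/
def GoodU (S : Finset (Ideal (𝓞 K))) (v : HeightOneSpectrum (𝓞 K)) : Prop :=
  v.asIdeal ∉ S ∧ (Ideal.absNorm v.asIdeal).Prime ∧ Unram K L v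

variable {K L}

theorem goodK_under {S : Finset (Ideal (𝓞 K))} {w : HeightOneSpectrum (𝓞 L)}
    (h : GoodL K L S w) (s : ℝ) :
    GoodK K L S (w.under (𝓞 K)) ∧ pw s w = pw s (w.under (𝓞 K)) := by
  obtain ⟨h1, h2, h3⟩ := h
  obtain ⟨hf, hN⟩ := inertiaDeg_eq_one_of_prime (K := K) w h1
  haveI := w.isPrime
  refine ⟨⟨h3, hN ▸ h1, splitsCompletely_of_one h2 hf⟩, ?_⟩
  unfold pw
  rw [hN]

theorem finite_over (S : Finset (Ideal (𝓞 K))) :
    {w : HeightOneSpectrum (𝓞 L) | (w.under (𝓞 K)).asIdeal ∈ S}.Finite := by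
  have hS : {v : HeightOneSpectrum (𝓞 K) | v.asIdeal ∈ S}.Finite :=
    Set.Finite.of_finite_image (S.finite_toSet.subset (by rintro _ ⟨v, hv, rfl⟩; exact hv))
      (fun _ _ _ _ h ↦ HeightOneSpectrum.ext h)
  refine (hS.biUnion fun v _ ↦ finite_above (L := L) v).subset fun w hw ↦ ?_
  simp only [Set.mem_iUnion, Set.mem_ofPred_eq]
  exact ⟨w.under (𝓞 K), hw, rfl⟩

open Classical in
/-- **Upper bound for the prime sum of `L`** by the sum over the good primes of `K`. -/
theorem tsum_pw_L_le (S : Finset (Ideal (𝓞 K))) :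
    ∃ C : ℝ, ∀ s : ℝ, 1 < s →
      ∑' w : HeightOneSpectrum (𝓞 L), pw s w ≤
        Module.finrank K L * (∑' v : HeightOneSpectrum (𝓞 K), if GoodK K L S v then pw s v else 0)
        + (∑' w : HeightOneSpectrum (𝓞 L),
            if (Ideal.absNorm w.asIdeal).Prime then 0 else pw s w) + C := by
  set B : Finset (HeightOneSpectrum (𝓞 L)) :=
    ((finite_ramified (K := K) (L := L)).union (finite_over (L := L) S)).toFinset with hB
  refine ⟨B.card, fun s hs ↦ ?_⟩
  have hcov : ∀ w : HeightOneSpectrum (𝓞 L),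
      GoodL K L S w ∨ ¬ (Ideal.absNorm w.asIdeal).Prime ∨ w ∈ B := by
    intro w
    by_cases h1 : (Ideal.absNorm w.asIdeal).Prime
    · by_cases h2 : w.asIdeal.ramificationIdx (𝓞 K) = 1
      · by_cases h3 : (w.under (𝓞 K)).asIdeal ∈ S
        · right; right
          simp only [hB, Set.Finite.mem_toFinset, Set.mem_union, Set.mem_ofPred_eq]
          exact Or.inr h3
        · exact Or.inl ⟨h1, h2, h3⟩
      · right; right
        simp only [hB, Set.Finite.mem_toFinset, Set.mem_union, Set.mem_ofPred_eq]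
        exact Or.inl h2
    · exact Or.inr (Or.inl h1)
  have h1 := tsum_pw_le_of_cover hs (GoodL K L S) B hcov
  have h2 := (tsum_le_mul_tsum_of_fiber (fun w : HeightOneSpectrum (𝓞 L) ↦ w.under (𝓞 K))
    (f := fun w ↦ if GoodL K L S w then pw s w else 0)
    (g := fun v ↦ if GoodK K L S v then pw s v else 0)
    (fun w ↦ by split_ifs; exacts [pw_nonneg s w, le_rfl])
    (fun v ↦ by split_ifs; exacts [pw_nonneg s v, le_rfl])
    (summable_ite_pw hs _) (Module.finrank K L)
    (fun w ↦ by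
      by_cases h : GoodL K L S w
      · obtain ⟨hg, he⟩ := goodK_under h s
        simp only [h, hg, if_true]
        exact he.le
      · simp only [h, if_false]
        split_ifs
        · exact pw_nonneg s _
        · exact le_rfl)
    (fun T v _ ↦ by
      refine (Finset.card_le_card fun w hw ↦ ?_).trans (card_above_le (L := L) v)
      exact mem_above.mpr (Finset.mem_filter.mp hw).2)).2
  linarith

open Classical in
/-- **Lower bound for the prime sum of `L`**: if every prime of `K` of prime norm outside `S`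
which is unramified in `L` splits completely, the prime sum of `L` is at least `n` times the one
of `K`, up to the primes of non-prime norm and a constant. -/
theorem mul_tsum_pw_K_le (S : Finset (Ideal (𝓞 K)))
    (hall : ∀ v : HeightOneSpectrum (𝓞 K), v.asIdeal ∉ S → (Ideal.absNorm v.asIdeal).Prime →
      Unram K L v → SplitsCompletely K L v.asIdeal) :
    ∃ C : ℝ, ∀ s : ℝ, 1 < s →
      Module.finrank K L * ∑' v : HeightOneSpectrum (𝓞 K), pw s v ≤
        ∑' w : HeightOneSpectrum (𝓞 L), pw s w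
        + Module.finrank K L * (∑' v : HeightOneSpectrum (𝓞 K),
            if (Ideal.absNorm v.asIdeal).Prime then 0 else pw s v) + C := by
  have hS : {v : HeightOneSpectrum (𝓞 K) | v.asIdeal ∈ S}.Finite :=
    Set.Finite.of_finite_image (S.finite_toSet.subset (by rintro _ ⟨v, hv, rfl⟩; exact hv))
      (fun _ _ _ _ h ↦ HeightOneSpectrum.ext h)
  have hR : ((fun w : HeightOneSpectrum (𝓞 L) ↦ w.under (𝓞 K)) ''
      {w : HeightOneSpectrum (𝓞 L) | w.asIdeal.ramificationIdx (𝓞 K) ≠ 1}).Finite :=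
    (finite_ramified (K := K) (L := L)).image _
  set B : Finset (HeightOneSpectrum (𝓞 K)) := (hS.union hR).toFinset with hB
  refine ⟨Module.finrank K L * B.card, fun s hs ↦ ?_⟩
  have hcov : ∀ v : HeightOneSpectrum (𝓞 K),
      GoodU K L S v ∨ ¬ (Ideal.absNorm v.asIdeal).Prime ∨ v ∈ B := by
    intro v
    by_cases h1 : (Ideal.absNorm v.asIdeal).Prime
    · by_cases h2 : v.asIdeal ∈ S
      · right; right
        simp only [hB, Set.Finite.mem_toFinset, Set.mem_union, Set.mem_ofPred_eq]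
        exact Or.inl h2
      · by_cases h3 : Unram K L v
        · exact Or.inl ⟨h2, h1, h3⟩
        · right; right
          simp only [hB, Set.Finite.mem_toFinset, Set.mem_union, Set.mem_ofPred_eq]
          right
          unfold Unram at h3
          push Not at h3
          obtain ⟨𝔔, h𝔔, hu, he⟩ := h3
          have hne : 𝔔 ≠ ⊥ := Frob.ne_bot_of_under_ne_bot (K := K) (hu ▸ v.ne_bot)
          exact ⟨⟨𝔔, h𝔔, hne⟩, he, HeightOneSpectrum.ext hu⟩
    · exact Or.inr (Or.inl h1)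
  have h1 := tsum_pw_le_of_cover hs (GoodU K L S) B hcov
  have h2 := (mul_tsum_le_tsum_of_fiber (fun w : HeightOneSpectrum (𝓞 L) ↦ w.under (𝓞 K))
    (f := fun w ↦ pw s w) (g := fun v ↦ if GoodU K L S v then pw s v else 0)
    (fun w ↦ pw_nonneg s w) (summable_pw hs)
    (fun v ↦ by split_ifs; exacts [pw_nonneg s v, le_rfl]) (Module.finrank K L)
    (fun v ↦ above (L := L) v) (fun v w hw ↦ mem_above.mp hw)
    (fun v ↦ by
      by_cases h : GoodU K L S v
      · simp only [h, if_true]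
        have hsp := hall v h.1 h.2.1 h.2.2
        rw [← card_above_eq (L := L) v hsp, ← nsmul_eq_mul, ← Finset.sum_const]
        refine (Finset.sum_congr rfl fun w hw ↦ ?_).le
        have hu : w.under (𝓞 K) = v := mem_above.mp hw
        have hf : w.asIdeal.inertiaDeg (𝓞 K) = 1 :=
          (hsp w.asIdeal w.isPrime (by rw [← hu]; rfl)).2
        have := absNorm_eq_pow (K := K) w
        rw [hf, pow_one, hu] at this
        unfold pw
        rw [this]
      · simp only [h, if_false, mul_zero]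
        exact Finset.sum_nonneg fun w _ ↦ pw_nonneg s w)).2
  have hn : (0 : ℝ) ≤ Module.finrank K L := Nat.cast_nonneg _
  have h3 := mul_le_mul_of_nonneg_left h1 hn
  rw [mul_add, mul_add] at h3
  linarith

end Fermat.Agent.S14.DensityAlg
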