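/-
S14 (class field theory project), module DensityCore: the analytic assembly of the density
statements AN-A and AN-B, RELATIVE to the two Euler product facts `EulerLog` and `EulerDeg`
(module Euler), which enter as hypotheses.

* `norm_L_le`: AN3, unconditional (LBound + Count);
* `L_one_eq_dedekindZeta`, `log_norm_L_one`: `log ‖L(s, 1)‖ = log (1/(s-1)) + O(1)` as `s → 1⁺`
  (Mathlib's class number formula);
* `sum_monoidHom_apply_one`, `sum_monoidHom_apply_of_ne`, `sum_primeSum`: orthogonality of the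
  characters of `Cl / H`;
* `index_le_of_euler` (AN-A), `exists_not_split_of_euler` (AN-B) and their forms
  `index_le'_of_euler`, `index_le_of_euler'`, `exists_not_split_of_euler'` in the vocabulary of
  `Defs`.
-/
import Mathlib
import Fermat.Agent.S14.Defs
import Fermat.Agent.S14.LBound
import Fermat.Agent.S14.Count
import Fermat.Agent.S14.DensityAlg

set_option autoImplicit false
set_option linter.style.haveILetI false
set_option linter.unusedSectionVars false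

namespace Fermat.Agent.S14.DensityCore

open NumberField nonZeroDivisors IsDedekindDomain Filter Topology
open Fermat.Agent.S14.DensityAlg

section single

variable (K : Type*) [Field K] [NumberField K]

/-- **AN3**: the `L`-function of a nontrivial class group character is bounded on `(1, 2]`. -/
theorem norm_L_le (χ : ClassGroup (𝓞 K) →* ℂˣ) (hχ : χ ≠ 1) :
    ∃ B : ℝ, ∀ s : ℝ, 1 < s → s ≤ 2 → ‖LBound.L χ (s : ℂ)‖ ≤ B := by
  have hd : (1 : ℝ) ≤ (Module.finrank ℚ K : ℝ) := by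
    exact_mod_cast Module.finrank_pos (R := ℚ) (M := K)
  have h1 : (0 : ℝ) < 1 / (Module.finrank ℚ K : ℝ) := by positivity
  have h2 : 1 / (Module.finrank ℚ K : ℝ) ≤ 1 := by
    rw [div_le_one (by linarith)]; exact hd
  exact LBound.norm_L_le_of_count (κ := Count.kappa K) (r := 1 - 1 / (Module.finrank ℚ K : ℝ))
    (by linarith) (by linarith) (fun c ↦ Count.abs_card_norm_le_and_mk_eq_sub_le K c) χ hχ

/-- For the trivial character, `L` is the Dedekind zeta function. -/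
theorem L_one_eq_dedekindZeta {s : ℂ} (hs : 1 < s.re) :
    LBound.L (1 : ClassGroup (𝓞 K) →* ℂˣ) s = dedekindZeta K s := by
  rw [LBound.L_eq_LSeries _ hs, dedekindZeta]
  refine LSeries_congr (fun {n} hn ↦ ?_) s
  have hcard : (LBound.idealsEQ K n).card = Nat.card {I : Ideal (𝓞 K) // Ideal.absNorm I = n} := by
    rw [← Nat.card_eq_finsetCard]
    refine Nat.card_congr ⟨fun I ↦ ⟨I.1.1, (LBound.mem_idealsEQ K).mp I.2⟩,
      fun I ↦ ⟨⟨I.1, ?_⟩, ?_⟩, fun I ↦ rfl, fun I ↦ rfl⟩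
    · refine mem_nonZeroDivisors_of_ne_zero ?_
      rintro h
      have := I.2
      rw [h, Ideal.zero_eq_bot, Ideal.absNorm_bot] at this
      exact hn this.symm
    · exact (LBound.mem_idealsEQ K).mpr I.2
  simp only [LBound.coeff, LBound.wt, MonoidHom.one_apply, Units.val_one, Finset.sum_const,
    nsmul_eq_mul, mul_one, hcard]

theorem tendsto_sub_one_mul_norm_L_one :
    Tendsto (fun s : ℝ ↦ (s - 1) * ‖LBound.L (1 : ClassGroup (𝓞 K) →* ℂˣ) (s : ℂ)‖)
      (𝓝[>] 1) (𝓝 (dedekindZeta_residue K)) := by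
  have h := (tendsto_sub_one_mul_dedekindZeta_nhdsGT K).norm
  rw [Complex.norm_real, Real.norm_of_nonneg (dedekindZeta_residue_pos K).le] at h
  refine h.congr' ?_
  filter_upwards [self_mem_nhdsWithin] with s hs
  have hs1 : (1 : ℝ) < s := hs
  rw [norm_mul, L_one_eq_dedekindZeta K (by simpa using hs1)]
  congr 1
  rw [← Complex.ofReal_one, ← Complex.ofReal_sub, Complex.norm_real,
    Real.norm_of_nonneg (by linarith)]

/-- `T(s) = log (1 / (s - 1))`, which tends to `+∞` when `s → 1⁺`. -/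
noncomputable def T (s : ℝ) : ℝ := -Real.log (s - 1)

theorem tendsto_T : Tendsto T (𝓝[>] 1) atTop := by
  have h1 : Tendsto (fun s : ℝ ↦ s - 1) (𝓝[>] 1) (𝓝[>] 0) := by
    refine tendsto_nhdsWithin_iff.mpr ⟨?_, ?_⟩
    · have : Tendsto (fun s : ℝ ↦ s - 1) (𝓝 1) (𝓝 (1 - 1)) :=
        (continuous_id.sub continuous_const).tendsto 1
      rw [sub_self] at this
      exact this.mono_left nhdsWithin_le_nhds
    · filter_upwards [self_mem_nhdsWithin] with s hs
      exact sub_pos.mpr (Set.mem_Ioi.mp hs)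
  exact tendsto_neg_atBot_atTop.comp (Real.tendsto_log_nhdsGT_zero.comp h1)

/-- The pole of the Dedekind zeta function: `log ‖L(s, 1)‖ = log (1/(s-1)) + O(1)`, `s → 1⁺`. -/
theorem log_norm_L_one :
    ∃ C : ℝ, ∀ᶠ s : ℝ in 𝓝[>] 1,
      |Real.log ‖LBound.L (1 : ClassGroup (𝓞 K) →* ℂˣ) (s : ℂ)‖ - T s| ≤ C := by
  have hρ := dedekindZeta_residue_pos K
  have h := (Real.continuousAt_log hρ.ne').tendsto.comp (tendsto_sub_one_mul_norm_L_one K)
  refine ⟨|Real.log (dedekindZeta_residue K)| + 1, ?_⟩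
  have h2 := (tendsto_order.mp (tendsto_sub_one_mul_norm_L_one K)).1 0 hρ
  have h3 : ∀ᶠ s : ℝ in 𝓝[>] 1, |Real.log ((s - 1) *
      ‖LBound.L (1 : ClassGroup (𝓞 K) →* ℂˣ) (s : ℂ)‖) - Real.log (dedekindZeta_residue K)| < 1 := by
    have := (Metric.tendsto_nhds.mp h) 1 one_pos
    simpa [Real.dist_eq] using this
  filter_upwards [h2, h3, self_mem_nhdsWithin] with s hs2 hs3 hs
  have hs1 : (0 : ℝ) < s - 1 := sub_pos.mpr (Set.mem_Ioi.mp hs)
  have hL : 0 < ‖LBound.L (1 : ClassGroup (𝓞 K) →* ℂˣ) (s : ℂ)‖ := by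
    by_contra hneg
    have : ‖LBound.L (1 : ClassGroup (𝓞 K) →* ℂˣ) (s : ℂ)‖ = 0 :=
      le_antisymm (not_lt.mp hneg) (norm_nonneg _)
    rw [this, mul_zero] at hs2
    exact lt_irrefl _ hs2
  rw [Real.log_mul hs1.ne' hL.ne'] at hs3
  have e : Real.log ‖LBound.L (1 : ClassGroup (𝓞 K) →* ℂˣ) (s : ℂ)‖ - T s =
      (Real.log (s - 1) + Real.log ‖LBound.L (1 : ClassGroup (𝓞 K) →* ℂˣ) (s : ℂ)‖ -
        Real.log (dedekindZeta_residue K)) + Real.log (dedekindZeta_residue K) := by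
    unfold T; ring
  rw [e]
  exact (abs_add_le _ _).trans (by linarith)

end single

section chars

variable (G : Type*) [CommGroup G] [Finite G]

theorem hasEnoughRootsOfUnity_complex : HasEnoughRootsOfUnity ℂ (Monoid.exponent G) := by
  haveI : NeZero (Monoid.exponent G) := ⟨Monoid.exponent_ne_zero_of_finite⟩
  haveI : NeZero ((Monoid.exponent G : ℕ) : ℂ) := ⟨by exact_mod_cast NeZero.ne (Monoid.exponent G)⟩
  infer_instance

theorem card_monoidHom_complex : Nat.card (G →* ℂˣ) = Nat.card G := by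
  haveI := hasEnoughRootsOfUnity_complex G
  exact CommGroup.card_monoidHom_of_hasEnoughRootsOfUnity G ℂ

theorem finite_monoidHom_complex : Finite (G →* ℂˣ) := by
  apply Nat.finite_of_card_ne_zero
  rw [card_monoidHom_complex]
  exact Nat.card_pos.ne'

variable {G}

/-- Orthogonality of characters of a finite abelian group, at the identity. -/
theorem sum_monoidHom_apply_one [Fintype (G →* ℂˣ)] :
    ∑ ψ : G →* ℂˣ, ((ψ 1 : ℂˣ) : ℂ) = (Nat.card G : ℂ) := by
  simp only [map_one, Units.val_one, Finset.sum_const, Finset.card_univ, nsmul_eq_mul, mul_one]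
  rw [← card_monoidHom_complex G, Nat.card_eq_fintype_card]

/-- Orthogonality of characters of a finite abelian group, away from the identity. -/
theorem sum_monoidHom_apply_of_ne [Fintype (G →* ℂˣ)] {g : G} (h : g ≠ 1) :
    ∑ ψ : G →* ℂˣ, ((ψ g : ℂˣ) : ℂ) = 0 := by
  haveI := hasEnoughRootsOfUnity_complex G
  obtain ⟨φ, hφ⟩ := CommGroup.exists_apply_ne_one_of_hasEnoughRootsOfUnity G ℂ h
  have key : ((φ g : ℂˣ) : ℂ) * ∑ ψ : G →* ℂˣ, ((ψ g : ℂˣ) : ℂ) =
      ∑ ψ : G →* ℂˣ, ((ψ g : ℂˣ) : ℂ) := by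
    rw [Finset.mul_sum]
    refine Fintype.sum_equiv (Equiv.mulLeft φ) _ _ fun ψ ↦ ?_
    simp [MonoidHom.mul_apply]
  have h1 : (((φ g : ℂˣ) : ℂ) - 1) * ∑ ψ : G →* ℂˣ, ((ψ g : ℂˣ) : ℂ) = 0 := by
    rw [sub_mul, key, one_mul, sub_self]
  rcases mul_eq_zero.mp h1 with h2 | h2
  · exfalso
    apply hφ
    ext
    rw [Units.val_one]
    exact sub_eq_zero.mp h2
  · exact h2

end chars

theorem false_of_eventually_le {a b M : ℝ} (hab : b < a)
    (h : ∀ᶠ s : ℝ in 𝓝[>] 1, a * T s ≤ b * T s + M) : False := by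
  have h1 : ∀ᶠ s in 𝓝[>] (1 : ℝ), M / (a - b) < T s := tendsto_T.eventually_gt_atTop _
  obtain ⟨s, hs1, hs2⟩ := (h.and h1).exists
  have hpos : 0 < a - b := sub_pos.mpr hab
  rw [div_lt_iff₀ hpos] at hs2
  nlinarith

theorem eventually_Ioc : ∀ᶠ s : ℝ in 𝓝[>] 1, 1 < s ∧ s ≤ 2 := by
  filter_upwards [self_mem_nhdsWithin, nhdsWithin_le_nhds (Iic_mem_nhds (by norm_num : (1:ℝ) < 2))]
    with s hs1 hs2
  exact ⟨hs1, hs2⟩

section euler

variable (F : Type*) [Field F] [NumberField F]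

/-- The class of a nonzero prime. -/
noncomputable def cls {F : Type*} [Field F] [NumberField F] (v : HeightOneSpectrum (𝓞 F)) :
    ClassGroup (𝓞 F) :=
  ClassGroup.mk0 (toIdeal₀ v)

/-- The prime sum `∑_v Re χ([v]) N(v)^(-s)` attached to a class group character. -/
noncomputable def primeSum {F : Type*} [Field F] [NumberField F]
    (χ : ClassGroup (𝓞 F) →* ℂˣ) (s : ℝ) : ℝ :=
  ∑' v : HeightOneSpectrum (𝓞 F), ((χ (cls v) : ℂˣ) : ℂ).re * pw s v

/-- The logarithmic form of the Euler product (to be provided by module Euler). -/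
def EulerLog : Prop :=
  ∀ χ : ClassGroup (𝓞 F) →* ℂˣ, ∃ C : ℝ, ∀ s : ℝ, 1 < s → s ≤ 2 →
    LBound.L χ (s : ℂ) ≠ 0 ∧ |Real.log ‖LBound.L χ (s : ℂ)‖ - primeSum χ s| ≤ C

/-- The primes of residue degree `≥ 2` contribute a bounded amount (to be provided by module
Euler). -/
def EulerDeg : Prop :=
  ∃ C : ℝ, ∀ s : ℝ, 1 < s → s ≤ 2 →
    (∑' v : HeightOneSpectrum (𝓞 F), if (Ideal.absNorm v.asIdeal).Prime then 0 else pw s v) ≤ C

variable {F}

theorem re_char_le (χ : ClassGroup (𝓞 F) →* ℂˣ) (c : ClassGroup (𝓞 F)) :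
    |((χ c : ℂˣ) : ℂ).re| ≤ 1 :=
  (Complex.abs_re_le_norm _).trans (LBound.norm_char χ c).le

theorem summable_re_mul_pw (χ : ClassGroup (𝓞 F) →* ℂˣ) {s : ℝ} (hs : 1 < s) :
    Summable fun v : HeightOneSpectrum (𝓞 F) ↦ ((χ (cls v) : ℂˣ) : ℂ).re * pw s v := by
  refine Summable.of_norm_bounded (summable_pw hs) fun v ↦ ?_
  rw [norm_mul, Real.norm_of_nonneg (pw_nonneg s v), Real.norm_eq_abs]
  exact mul_le_of_le_one_left (pw_nonneg s v) (re_char_le χ _)

theorem primeSum_one (s : ℝ) :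
    primeSum (1 : ClassGroup (𝓞 F) →* ℂˣ) s = ∑' v : HeightOneSpectrum (𝓞 F), pw s v := by
  unfold primeSum
  refine tsum_congr fun v ↦ ?_
  simp

open Classical in
/-- Orthogonality: the sum of the prime sums over the characters of `Cl / H`. -/
theorem sum_primeSum (H : Subgroup (ClassGroup (𝓞 F)))
    [Fintype (ClassGroup (𝓞 F) ⧸ H →* ℂˣ)] {s : ℝ} (hs : 1 < s) :
    ∑ ψ : ClassGroup (𝓞 F) ⧸ H →* ℂˣ, primeSum (ψ.comp (QuotientGroup.mk' H)) s =
      H.index * ∑' v : HeightOneSpectrum (𝓞 F), if cls v ∈ H then pw s v else 0 := by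
  unfold primeSum
  rw [← Summable.tsum_finsetSum fun ψ _ ↦ summable_re_mul_pw _ hs, ← tsum_mul_left]
  refine tsum_congr fun v ↦ ?_
  rw [← Finset.sum_mul]
  have h1 : ∑ ψ : ClassGroup (𝓞 F) ⧸ H →* ℂˣ,
      (((ψ.comp (QuotientGroup.mk' H)) (cls v) : ℂˣ) : ℂ).re =
      (∑ ψ : ClassGroup (𝓞 F) ⧸ H →* ℂˣ, ((ψ (QuotientGroup.mk' H (cls v)) : ℂˣ) : ℂ)).re := by
    rw [Complex.re_sum]
    rfl
  rw [h1]
  by_cases hv : cls v ∈ H
  · have : QuotientGroup.mk' H (cls v) = 1 := (QuotientGroup.eq_one_iff _).mpr hv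
    rw [this, sum_monoidHom_apply_one, if_pos hv, Complex.natCast_re]
    rfl
  · have : QuotientGroup.mk' H (cls v) ≠ 1 := fun h ↦ hv ((QuotientGroup.eq_one_iff _).mp h)
    rw [sum_monoidHom_apply_of_ne this, if_neg hv]
    simp

end euler


section main

variable {K L : Type*} [Field K] [Field L] [NumberField K] [NumberField L] [Algebra K L]
  [IsGalois K L]

open Classical in
/-- **AN-A relative to the Euler product facts**: a subgroup of the class group containing the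
classes of the good primes (outside `S`, of prime norm, splitting completely in `L`) has index at
most `[L : K]`. -/
theorem index_le_of_euler (hK : EulerLog K) (hL : EulerLog L) (hLd : EulerDeg L)
    (S : Finset (Ideal (𝓞 K))) (H : Subgroup (ClassGroup (𝓞 K)))
    (hH : ∀ v : HeightOneSpectrum (𝓞 K), GoodK K L S v → cls v ∈ H) :
    H.index ≤ Module.finrank K L := by
  by_contra hlt
  rw [not_le] at hlt
  haveI : Finite (ClassGroup (𝓞 K) ⧸ H →* ℂˣ) := finite_monoidHom_complex _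
  letI : Fintype (ClassGroup (𝓞 K) ⧸ H →* ℂˣ) := Fintype.ofFinite _
  set χ : (ClassGroup (𝓞 K) ⧸ H →* ℂˣ) → (ClassGroup (𝓞 K) →* ℂˣ) :=
    fun ψ ↦ ψ.comp (QuotientGroup.mk' H) with hχ
  have hχ1 : χ 1 = 1 := MonoidHom.one_comp _
  have hχne : ∀ ψ, ψ ≠ 1 → χ ψ ≠ 1 := by
    intro ψ hψ h
    apply hψ
    have h' : ψ.comp (QuotientGroup.mk' H) = (1 : ClassGroup (𝓞 K) ⧸ H →* ℂˣ).comp
        (QuotientGroup.mk' H) := by rw [MonoidHom.one_comp]; exact h
    exact (MonoidHom.cancel_right (QuotientGroup.mk'_surjective H)).mp h'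
  choose CK hCK using hK
  obtain ⟨CL, hCL⟩ := hL 1
  obtain ⟨CD, hCD⟩ := hLd
  obtain ⟨CA, hCA⟩ := tsum_pw_L_le (K := K) (L := L) S
  obtain ⟨C0, hC0⟩ := log_norm_L_one K
  obtain ⟨C1, hC1⟩ := log_norm_L_one L
  have hB : ∀ ψ : ClassGroup (𝓞 K) ⧸ H →* ℂˣ, ∃ B : ℝ, ψ ≠ 1 →
      ∀ s : ℝ, 1 < s → s ≤ 2 → ‖LBound.L (χ ψ) (s : ℂ)‖ ≤ B := by
    intro ψ
    by_cases hψ : ψ = 1
    · exact ⟨0, fun h ↦ absurd hψ h⟩
    · obtain ⟨B, hB⟩ := norm_L_le K (χ ψ) (hχne ψ hψ)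
      exact ⟨B, fun _ ↦ hB⟩
  choose B hB using hB
  set A : ℝ := C0 + ∑ ψ ∈ (Finset.univ.erase (1 : ClassGroup (𝓞 K) ⧸ H →* ℂˣ)),
    Real.log (max (B ψ) 1) + ∑ ψ : ClassGroup (𝓞 K) ⧸ H →* ℂˣ, CK (χ ψ) with hA
  set A' : ℝ := C1 + CL + CD + CA with hA'
  refine false_of_eventually_le (a := (H.index : ℝ)) (b := (Module.finrank K L : ℝ))
    (M := Module.finrank K L * A + H.index * A') (by exact_mod_cast hlt) ?_
  filter_upwards [eventually_Ioc, hC0, hC1] with s hs h0 h1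
  obtain ⟨hs1, hs2⟩ := hs
  set Gs : ℝ := ∑' v : HeightOneSpectrum (𝓞 K), if GoodK K L S v then pw s v else 0 with hGs
  -- the lower bound for the sum of the logarithms
  have step1 : (H.index : ℝ) * Gs ≤
      ∑ ψ : ClassGroup (𝓞 K) ⧸ H →* ℂˣ, (Real.log ‖LBound.L (χ ψ) (s : ℂ)‖ + CK (χ ψ)) := by
    have e1 : Gs ≤ ∑' v : HeightOneSpectrum (𝓞 K), if cls v ∈ H then pw s v else 0 := by
      refine (summable_ite_pw hs1 _).tsum_le_tsum (fun v ↦ ?_) (summable_ite_pw hs1 _)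
      by_cases hv : GoodK K L S v
      · rw [if_pos hv, if_pos (hH v hv)]
      · rw [if_neg hv]
        split_ifs
        · exact pw_nonneg s v
        · exact le_rfl
    calc (H.index : ℝ) * Gs
        ≤ H.index * ∑' v : HeightOneSpectrum (𝓞 K), if cls v ∈ H then pw s v else 0 :=
          mul_le_mul_of_nonneg_left e1 (Nat.cast_nonneg _)
      _ = ∑ ψ : ClassGroup (𝓞 K) ⧸ H →* ℂˣ, primeSum (χ ψ) s := (sum_primeSum H hs1).symm
      _ ≤ _ := by
          refine Finset.sum_le_sum fun ψ _ ↦ ?_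
          have := (hCK (χ ψ) s hs1 hs2).2
          rw [abs_le] at this
          linarith [this.1]
  -- the upper bound for the sum of the logarithms
  have step2 : ∑ ψ : ClassGroup (𝓞 K) ⧸ H →* ℂˣ, Real.log ‖LBound.L (χ ψ) (s : ℂ)‖ ≤
      T s + C0 + ∑ ψ ∈ (Finset.univ.erase (1 : ClassGroup (𝓞 K) ⧸ H →* ℂˣ)),
        Real.log (max (B ψ) 1) := by
    rw [← Finset.add_sum_erase Finset.univ _ (Finset.mem_univ (1 : ClassGroup (𝓞 K) ⧸ H →* ℂˣ))]
    refine add_le_add ?_ (Finset.sum_le_sum fun ψ hψ ↦ ?_)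
    · rw [hχ1]
      rw [abs_le] at h0
      linarith [h0.2]
    · have hψ1 : ψ ≠ 1 := (Finset.mem_erase.mp hψ).1
      have hne := (hCK (χ ψ) s hs1 hs2).1
      exact Real.log_le_log (norm_pos_iff.mpr hne)
        ((hB ψ hψ1 s hs1 hs2).trans (le_max_left _ _))
  -- the lower bound for the prime sum of `K` coming from `L`
  have step3 : T s ≤ Module.finrank K L * Gs + A' := by
    have e1 := (hCL s hs1 hs2).2
    rw [abs_le, primeSum_one] at e1
    have e2 := hCA s hs1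
    have e3 := hCD s hs1 hs2
    rw [abs_le] at h1
    linarith [h1.1, e1.2]
  have step4 : (H.index : ℝ) * Gs ≤ T s + A := by
    have : ∑ ψ : ClassGroup (𝓞 K) ⧸ H →* ℂˣ, (Real.log ‖LBound.L (χ ψ) (s : ℂ)‖ + CK (χ ψ)) =
        ∑ ψ : ClassGroup (𝓞 K) ⧸ H →* ℂˣ, Real.log ‖LBound.L (χ ψ) (s : ℂ)‖ +
          ∑ ψ : ClassGroup (𝓞 K) ⧸ H →* ℂˣ, CK (χ ψ) := Finset.sum_add_distrib
    linarith
  have hn : (0 : ℝ) ≤ Module.finrank K L := Nat.cast_nonneg _
  have hh : (0 : ℝ) ≤ H.index := Nat.cast_nonneg _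
  have m1 := mul_le_mul_of_nonneg_left step3 hh
  have m2 := mul_le_mul_of_nonneg_left step4 hn
  nlinarith

open Classical in
/-- **AN-B relative to the Euler product facts**: if `[L : K] > 1`, there is a prime of `K`
outside `S`, of prime norm, unramified in `L`, which does not split completely. -/
theorem exists_not_split_of_euler (hK : EulerLog K) (hL : EulerLog L) (hKd : EulerDeg K)
    (h : 1 < Module.finrank K L) (S : Finset (Ideal (𝓞 K))) :
    ∃ v : HeightOneSpectrum (𝓞 K), v.asIdeal ∉ S ∧ (Ideal.absNorm v.asIdeal).Prime ∧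
      Unram K L v ∧ ¬ SplitsCompletely K L v.asIdeal := by
  by_contra hno
  have hall : ∀ v : HeightOneSpectrum (𝓞 K), v.asIdeal ∉ S → (Ideal.absNorm v.asIdeal).Prime →
      Unram K L v → SplitsCompletely K L v.asIdeal := by
    intro v h1 h2 h3
    by_contra h4
    exact hno ⟨v, h1, h2, h3, h4⟩
  obtain ⟨CA, hCA⟩ := mul_tsum_pw_K_le (K := K) (L := L) S hall
  obtain ⟨CK, hCK⟩ := hK 1
  obtain ⟨CL, hCL⟩ := hL 1
  obtain ⟨CD, hCD⟩ := hKd
  obtain ⟨C0, hC0⟩ := log_norm_L_one K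
  obtain ⟨C1, hC1⟩ := log_norm_L_one L
  refine false_of_eventually_le (a := (Module.finrank K L : ℝ)) (b := 1)
    (M := C1 + CL + Module.finrank K L * CD + CA + Module.finrank K L * (C0 + CK))
    (by exact_mod_cast h) ?_
  filter_upwards [eventually_Ioc, hC0, hC1] with s hs h0 h1
  obtain ⟨hs1, hs2⟩ := hs
  have e1 := (hCK s hs1 hs2).2
  have e2 := (hCL s hs1 hs2).2
  rw [abs_le, primeSum_one] at e1 e2
  rw [abs_le] at h0 h1
  have e3 := hCA s hs1
  have e4 := hCD s hs1 hs2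
  have hn : (0 : ℝ) ≤ Module.finrank K L := Nat.cast_nonneg _
  have e5 : T s - C0 - CK ≤ ∑' v : HeightOneSpectrum (𝓞 K), pw s v := by linarith [h0.1, e1.2]
  have m1 := mul_le_mul_of_nonneg_left e5 hn
  have m2 := mul_le_mul_of_nonneg_left e4 hn
  nlinarith [h1.2, e2.1]

end main

section targets

variable {K L : Type*} [Field K] [Field L] [NumberField K] [NumberField L] [Algebra K L]
  [IsGalois K L]

/-- AN-A with a finite exceptional set, in the vocabulary of `Defs`. -/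
theorem index_le'_of_euler (hK : EulerLog K) (hL : EulerLog L) (hLd : EulerDeg L)
    (S : Finset (Ideal (𝓞 K))) (H : Subgroup (ClassGroup (𝓞 K)))
    (hH : ∀ 𝔮 : (Ideal (𝓞 K))⁰, (𝔮 : Ideal (𝓞 K)).IsPrime → (𝔮 : Ideal (𝓞 K)) ∉ S →
      (Ideal.absNorm (𝔮 : Ideal (𝓞 K))).Prime → SplitsCompletely K L 𝔮 →
      ClassGroup.mk0 𝔮 ∈ H) :
    H.index ≤ Module.finrank K L :=
  index_le_of_euler hK hL hLd S H fun v hv ↦ hH (toIdeal₀ v) v.isPrime hv.1 hv.2.1 hv.2.2

/-- AN-A in the vocabulary of `Defs`. -/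
theorem index_le_of_euler' (hK : EulerLog K) (hL : EulerLog L) (hLd : EulerDeg L)
    (H : Subgroup (ClassGroup (𝓞 K))) (hH : splitClassSet K L ⊆ H) :
    H.index ≤ Module.finrank K L :=
  index_le'_of_euler hK hL hLd ∅ H fun 𝔮 h1 _ _ h2 ↦ hH ⟨𝔮, h1, h2, rfl⟩

/-- AN-B in the vocabulary of `Defs`. -/
theorem exists_not_split_of_euler' (hK : EulerLog K) (hL : EulerLog L) (hKd : EulerDeg K)
    (h : 1 < Module.finrank K L) (S : Finset (Ideal (𝓞 K))) :
    ∃ 𝔮 : Ideal (𝓞 K), 𝔮.IsPrime ∧ 𝔮 ≠ ⊥ ∧ 𝔮 ∉ S ∧ (Ideal.absNorm 𝔮).Prime ∧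
      (∀ 𝔔 : Ideal (𝓞 L), 𝔔.IsPrime → 𝔔.under (𝓞 K) = 𝔮 → 𝔔.ramificationIdx (𝓞 K) = 1) ∧
      ¬ SplitsCompletely K L 𝔮 := by
  obtain ⟨v, h1, h2, h3, h4⟩ := exists_not_split_of_euler hK hL hKd h S
  exact ⟨v.asIdeal, v.isPrime, v.ne_bot, h1, h2, h3, h4⟩

end targets

end Fermat.Agent.S14.DensityCore
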