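import Mathlib
import Fermat.Agent.S14.EulerAbs
import Fermat.Agent.S14.EulerFactor
import Fermat.Agent.S14.LBound

/-!
# S14: Euler product and logarithm of the `L`-function of a class group character

For a number field `K`, a character `χ` of its class group and a real `s > 1`:

* `hasProd_L` : `L(s, χ) = ∏_v (1 - χ(v) N(v)^(-s))⁻¹` over the nonzero primes `v`;
* `L_ne_zero` : `L(s, χ) ≠ 0`;
* `abs_log_norm_L_sub_le` : `|log ‖L(s, χ)‖ - ∑_v Re χ(v) N(v)^(-s)| ≤ ∑_v N(v)^(-2)`;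
* `exists_log_bound` : the same in the shape consumed by the density module;
* `exists_deg_bound` : the primes whose norm is not a prime number contribute a bounded amount
  to `∑_v N(v)^(-s)`, uniformly in `s ∈ (1, 2]`.
-/

set_option autoImplicit false
set_option linter.unusedSectionVars false
set_option linter.style.haveILetI false

namespace Fermat.Agent.S14.Euler

open NumberField nonZeroDivisors IsDedekindDomain Ideal
open Fermat.Agent.S14.EulerAbs Fermat.Agent.S14.EulerFactor Fermat.Agent.S14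

variable {K : Type*} [Field K] [NumberField K]

/-- The norm of a prime, as a natural number. -/
noncomputable def nv (v : HeightOneSpectrum (𝓞 K)) : ℕ := absNorm v.asIdeal

theorem nv_eq (v : HeightOneSpectrum (𝓞 K)) : nv v = LBound.nrm K (primeIdeal K v) := rfl

theorem two_le_nv (v : HeightOneSpectrum (𝓞 K)) : 2 ≤ nv v := by
  have h0 : 0 < nv v := LBound.nrm_pos K (primeIdeal K v)
  have h1 : nv v ≠ 1 := by
    intro h
    have := (Ideal.absNorm_eq_one_iff (I := v.asIdeal)).1 h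
    exact v.isPrime.ne_top this
  omega

/-- The term `I ↦ χ(I) N(I)^(-s)` as a monoid homomorphism. -/
noncomputable def term (χ : ClassGroup (𝓞 K) →* ℂˣ) (s : ℂ) : (Ideal (𝓞 K))⁰ →* ℂ where
  toFun I := (χ (ClassGroup.mk0 I) : ℂ) * (absNorm (I : Ideal (𝓞 K)) : ℂ) ^ (-s)
  map_one' := by simp
  map_mul' I J := by
    rw [map_mul, map_mul, Units.val_mul, Submonoid.coe_mul, map_mul, Nat.cast_mul,
      Complex.natCast_mul_natCast_cpow]
    ring

theorem term_apply (χ : ClassGroup (𝓞 K) →* ℂˣ) (s : ℂ) (I : (Ideal (𝓞 K))⁰) :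
    term χ s I = (χ (ClassGroup.mk0 I) : ℂ) * (absNorm (I : Ideal (𝓞 K)) : ℂ) ^ (-s) := rfl

theorem norm_term (χ : ClassGroup (𝓞 K) →* ℂˣ) (s : ℝ) (I : (Ideal (𝓞 K))⁰) :
    ‖term χ (s : ℂ) I‖ = (LBound.nrm K I : ℝ) ^ (-s) := by
  rw [term_apply, norm_mul, LBound.norm_char, one_mul]
  have := Complex.norm_natCast_cpow_of_pos (LBound.nrm_pos K I) (-(s : ℂ))
  rw [LBound.nrm] at this
  rw [this]
  simp [LBound.nrm]

/-- The local term `g v = χ(v) N(v)^(-s)`. -/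
noncomputable def g (χ : ClassGroup (𝓞 K) →* ℂˣ) (s : ℂ) (v : HeightOneSpectrum (𝓞 K)) : ℂ :=
  term χ s (primeIdeal K v)

theorem norm_g (χ : ClassGroup (𝓞 K) →* ℂˣ) (s : ℝ) (v : HeightOneSpectrum (𝓞 K)) :
    ‖g χ (s : ℂ) v‖ = (nv v : ℝ) ^ (-s) :=
  norm_term χ s (primeIdeal K v)

theorem summable_norm_mon (χ : ClassGroup (𝓞 K) →* ℂˣ) {s : ℝ} (hs : 1 < s) :
    Summable fun m : HeightOneSpectrum (𝓞 K) →₀ ℕ => ‖mon (g χ (s : ℂ)) m‖ := by
  have h1 : Summable fun I : (Ideal (𝓞 K))⁰ => ‖term χ (s : ℂ) I‖ := by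
    simp_rw [norm_term]
    exact LBound.summable_nrm_rpow K hs
  have h2 := (EulerFactor.equiv K).summable_iff.2 h1
  refine h2.congr fun m => ?_
  simp only [Function.comp_apply, equiv_apply]
  rw [map_ofFinsupp]
  rfl

theorem tsum_mon_eq_L (χ : ClassGroup (𝓞 K) →* ℂˣ) (s : ℂ) :
    ∑' m : HeightOneSpectrum (𝓞 K) →₀ ℕ, mon (g χ s) m = LBound.L χ s := by
  rw [LBound.L, ← (EulerFactor.equiv K).tsum_eq]
  refine tsum_congr fun m => ?_
  rw [equiv_apply, ← term_apply, map_ofFinsupp]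
  rfl

/-- **Euler product** of `L(s, χ)`. -/
theorem hasProd_L (χ : ClassGroup (𝓞 K) →* ℂˣ) {s : ℝ} (hs : 1 < s) :
    HasProd (fun v : HeightOneSpectrum (𝓞 K) => (1 - g χ (s : ℂ) v)⁻¹) (LBound.L χ (s : ℂ)) := by
  classical
  have := EulerAbs.hasProd (g χ (s : ℂ)) (summable_norm_mon χ hs)
  rwa [tsum_mon_eq_L] at this


/-! ### Sums over the primes -/

theorem primeIdeal_injective : Function.Injective (primeIdeal K) := by
  intro v w h
  have := congrArg (fun I : (Ideal (𝓞 K))⁰ => (I : Ideal (𝓞 K))) h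
  exact HeightOneSpectrum.ext this

/-- `∑_v N(v)^(-σ)` converges for `σ > 1`. -/
theorem summable_nv_rpow {σ : ℝ} (hσ : 1 < σ) :
    Summable fun v : HeightOneSpectrum (𝓞 K) => (nv v : ℝ) ^ (-σ) := by
  have h := (LBound.summable_nrm_rpow K hσ).comp_injective (primeIdeal_injective (K := K))
  refine h.congr fun v => ?_
  rw [Function.comp_apply, nv_eq]

theorem nv_rpow_le_half (v : HeightOneSpectrum (𝓞 K)) {s : ℝ} (hs : 1 < s) :
    (nv v : ℝ) ^ (-s) ≤ 1 / 2 := by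
  have h2 : (2 : ℝ) ≤ nv v := by exact_mod_cast two_le_nv v
  have h1 : (nv v : ℝ) ^ (-s) ≤ (nv v : ℝ) ^ (-(1 : ℝ)) :=
    Real.rpow_le_rpow_of_exponent_le (by linarith) (by linarith)
  have h3 : (nv v : ℝ) ^ (-(1 : ℝ)) = (nv v : ℝ)⁻¹ := Real.rpow_neg_one _
  rw [h3] at h1
  have h4 : (nv v : ℝ)⁻¹ ≤ 2⁻¹ := inv_anti₀ (by norm_num) h2
  calc (nv v : ℝ) ^ (-s) ≤ (nv v : ℝ)⁻¹ := h1
    _ ≤ 2⁻¹ := h4
    _ = 1 / 2 := by norm_num

theorem nv_rpow_nonneg (v : HeightOneSpectrum (𝓞 K)) (s : ℝ) : 0 ≤ (nv v : ℝ) ^ (-s) :=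
  Real.rpow_nonneg (Nat.cast_nonneg _) _

theorem nv_rpow_sq_le (v : HeightOneSpectrum (𝓞 K)) {s : ℝ} (hs : 1 < s) :
    ((nv v : ℝ) ^ (-s)) ^ 2 ≤ (nv v : ℝ) ^ (-(2 : ℝ)) := by
  have h2 : (1 : ℝ) ≤ nv v := by
    have := two_le_nv v
    exact_mod_cast (by omega : 1 ≤ nv v)
  rw [← Real.rpow_natCast, ← Real.rpow_mul (Nat.cast_nonneg _)]
  apply Real.rpow_le_rpow_of_exponent_le h2
  push_cast
  linarith

/-! ### The logarithm of the Euler product -/

/-- The logarithm of the local factor. -/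
noncomputable def a (χ : ClassGroup (𝓞 K) →* ℂˣ) (s : ℂ) (v : HeightOneSpectrum (𝓞 K)) : ℂ :=
  Complex.log (1 - g χ s v)⁻¹

theorem norm_g_le_half (χ : ClassGroup (𝓞 K) →* ℂˣ) {s : ℝ} (hs : 1 < s)
    (v : HeightOneSpectrum (𝓞 K)) : ‖g χ (s : ℂ) v‖ ≤ 1 / 2 := by
  rw [norm_g]
  exact nv_rpow_le_half v hs

theorem one_sub_g_ne_zero (χ : ClassGroup (𝓞 K) →* ℂˣ) {s : ℝ} (hs : 1 < s)
    (v : HeightOneSpectrum (𝓞 K)) : 1 - g χ (s : ℂ) v ≠ 0 := by
  intro h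
  have h1 : g χ (s : ℂ) v = 1 := (sub_eq_zero.1 h).symm
  have h2 := norm_g_le_half χ hs v
  rw [h1, norm_one] at h2
  norm_num at h2

theorem norm_a_sub_g_le (χ : ClassGroup (𝓞 K) →* ℂˣ) {s : ℝ} (hs : 1 < s)
    (v : HeightOneSpectrum (𝓞 K)) :
    ‖a χ (s : ℂ) v - g χ (s : ℂ) v‖ ≤ (nv v : ℝ) ^ (-(2 : ℝ)) := by
  have hz := norm_g_le_half χ hs v
  have h1 := Complex.norm_log_one_sub_inv_sub_self_le (z := g χ (s : ℂ) v)
    (lt_of_le_of_lt hz (by norm_num))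
  have h2 : (1 - ‖g χ (s : ℂ) v‖)⁻¹ ≤ 2 := by
    have : (1 / 2 : ℝ) ≤ 1 - ‖g χ (s : ℂ) v‖ := by linarith
    calc (1 - ‖g χ (s : ℂ) v‖)⁻¹ ≤ (1 / 2 : ℝ)⁻¹ := inv_anti₀ (by norm_num) this
      _ = 2 := by norm_num
  have h3 : ‖g χ (s : ℂ) v‖ ^ 2 * (1 - ‖g χ (s : ℂ) v‖)⁻¹ / 2 ≤ ‖g χ (s : ℂ) v‖ ^ 2 := by
    have hsq : 0 ≤ ‖g χ (s : ℂ) v‖ ^ 2 := sq_nonneg _
    nlinarith
  calc ‖a χ (s : ℂ) v - g χ (s : ℂ) v‖ ≤ ‖g χ (s : ℂ) v‖ ^ 2 * (1 - ‖g χ (s : ℂ) v‖)⁻¹ / 2 := h1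
    _ ≤ ‖g χ (s : ℂ) v‖ ^ 2 := h3
    _ = ((nv v : ℝ) ^ (-s)) ^ 2 := by rw [norm_g]
    _ ≤ (nv v : ℝ) ^ (-(2 : ℝ)) := nv_rpow_sq_le v hs

theorem summable_a_sub_g (χ : ClassGroup (𝓞 K) →* ℂˣ) {s : ℝ} (hs : 1 < s) :
    Summable fun v : HeightOneSpectrum (𝓞 K) => a χ (s : ℂ) v - g χ (s : ℂ) v :=
  Summable.of_norm_bounded (summable_nv_rpow (by norm_num : (1 : ℝ) < 2))
    (fun v => norm_a_sub_g_le χ hs v)

theorem summable_g (χ : ClassGroup (𝓞 K) →* ℂˣ) {s : ℝ} (hs : 1 < s) :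
    Summable fun v : HeightOneSpectrum (𝓞 K) => g χ (s : ℂ) v :=
  Summable.of_norm_bounded (summable_nv_rpow hs) (fun v => (norm_g χ s v).le)

theorem summable_a (χ : ClassGroup (𝓞 K) →* ℂˣ) {s : ℝ} (hs : 1 < s) :
    Summable fun v : HeightOneSpectrum (𝓞 K) => a χ (s : ℂ) v := by
  have := (summable_a_sub_g χ hs).add (summable_g χ hs)
  refine this.congr fun v => ?_
  ring

/-- `L(s, χ)` is the exponential of the sum of the logarithms of the local factors. -/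
theorem L_eq_exp (χ : ClassGroup (𝓞 K) →* ℂˣ) {s : ℝ} (hs : 1 < s) :
    LBound.L χ (s : ℂ) = Complex.exp (∑' v : HeightOneSpectrum (𝓞 K), a χ (s : ℂ) v) := by
  have h1 : HasProd (fun v : HeightOneSpectrum (𝓞 K) => (1 - g χ (s : ℂ) v)⁻¹)
      (Complex.exp (∑' v : HeightOneSpectrum (𝓞 K), a χ (s : ℂ) v)) :=
    Complex.hasProd_of_hasSum_log (fun v => inv_ne_zero (one_sub_g_ne_zero χ hs v))
      (summable_a χ hs).hasSum
  exact (hasProd_L χ hs).unique h1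

theorem L_ne_zero (χ : ClassGroup (𝓞 K) →* ℂˣ) {s : ℝ} (hs : 1 < s) :
    LBound.L χ (s : ℂ) ≠ 0 := by
  rw [L_eq_exp χ hs]
  exact Complex.exp_ne_zero _

theorem log_norm_L (χ : ClassGroup (𝓞 K) →* ℂˣ) {s : ℝ} (hs : 1 < s) :
    Real.log ‖LBound.L χ (s : ℂ)‖ = ∑' v : HeightOneSpectrum (𝓞 K), (a χ (s : ℂ) v).re := by
  rw [L_eq_exp χ hs, Complex.norm_exp, Real.log_exp, Complex.re_tsum (summable_a χ hs)]

theorem re_g (χ : ClassGroup (𝓞 K) →* ℂˣ) (s : ℝ) (v : HeightOneSpectrum (𝓞 K)) :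
    (g χ (s : ℂ) v).re =
      ((χ (ClassGroup.mk0 (primeIdeal K v)) : ℂˣ) : ℂ).re * (nv v : ℝ) ^ (-s) := by
  have h : ((absNorm ((primeIdeal K v : (Ideal (𝓞 K))⁰) : Ideal (𝓞 K)) : ℕ) : ℂ) ^ (-(s : ℂ)) =
      (((nv v : ℝ) ^ (-s) : ℝ) : ℂ) := by
    rw [Complex.ofReal_cpow (Nat.cast_nonneg _)]
    simp [nv]
  rw [g, term_apply, h, Complex.re_mul_ofReal]

/-- **Logarithmic form of the Euler product.** -/
theorem abs_log_norm_L_sub_le (χ : ClassGroup (𝓞 K) →* ℂˣ) {s : ℝ} (hs : 1 < s) :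
    |Real.log ‖LBound.L χ (s : ℂ)‖ - ∑' v : HeightOneSpectrum (𝓞 K),
        ((χ (ClassGroup.mk0 (primeIdeal K v)) : ℂˣ) : ℂ).re * (nv v : ℝ) ^ (-s)| ≤
      ∑' v : HeightOneSpectrum (𝓞 K), (nv v : ℝ) ^ (-(2 : ℝ)) := by
  have hsa : Summable fun v : HeightOneSpectrum (𝓞 K) => (a χ (s : ℂ) v).re :=
    (Complex.hasSum_re (summable_a χ hs).hasSum).summable
  have hsg : Summable fun v : HeightOneSpectrum (𝓞 K) => (g χ (s : ℂ) v).re :=
    (Complex.hasSum_re (summable_g χ hs).hasSum).summable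
  have h2 : Summable fun v : HeightOneSpectrum (𝓞 K) => (nv v : ℝ) ^ (-(2 : ℝ)) :=
    summable_nv_rpow (by norm_num : (1 : ℝ) < 2)
  rw [log_norm_L χ hs]
  simp_rw [← re_g]
  rw [← Summable.tsum_sub hsa hsg, ← Real.norm_eq_abs]
  refine tsum_of_norm_bounded h2.hasSum fun v => ?_
  rw [← Complex.sub_re, Real.norm_eq_abs]
  exact (Complex.abs_re_le_norm _).trans (norm_a_sub_g_le χ hs v)

/-- The shape consumed by the density module. -/
theorem exists_log_bound (χ : ClassGroup (𝓞 K) →* ℂˣ) :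
    ∃ C : ℝ, ∀ s : ℝ, 1 < s → s ≤ 2 → LBound.L χ (s : ℂ) ≠ 0 ∧
      |Real.log ‖LBound.L χ (s : ℂ)‖ - ∑' v : HeightOneSpectrum (𝓞 K),
        ((χ (ClassGroup.mk0 ⟨v.asIdeal, mem_nonZeroDivisors_of_ne_zero v.ne_bot⟩) : ℂˣ) : ℂ).re *
          (absNorm v.asIdeal : ℝ) ^ (-s)| ≤ C :=
  ⟨∑' v : HeightOneSpectrum (𝓞 K), (nv v : ℝ) ^ (-(2 : ℝ)), fun _ hs _ =>
    ⟨L_ne_zero χ hs, abs_log_norm_L_sub_le χ hs⟩⟩


/-! ### Primes of residue degree at least two -/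

/-- The rational prime below a prime of `K`. -/
noncomputable def pv (v : HeightOneSpectrum (𝓞 K)) : ℕ := absNorm (under ℤ v.asIdeal)

theorem pv_prime (v : HeightOneSpectrum (𝓞 K)) : (pv v).Prime := by
  haveI : NeZero v.asIdeal := ⟨v.ne_bot⟩
  haveI := v.isPrime
  exact Nat.absNorm_under_prime v.asIdeal

theorem exists_nv_eq_pow (v : HeightOneSpectrum (𝓞 K)) : ∃ f : ℕ, f ≠ 0 ∧ nv v = pv v ^ f := by
  haveI := v.isPrime
  haveI : v.asIdeal.LiesOver (span {((pv v : ℕ) : ℤ)}) := Int.liesOver_span_absNorm v.asIdeal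
  haveI : (span {((pv v : ℕ) : ℤ)}).IsMaximal :=
    haveI : Fact (pv v).Prime := ⟨pv_prime v⟩
    Int.ideal_span_isMaximal_of_prime (pv v)
  refine ⟨(span {((pv v : ℕ) : ℤ)}).inertiaDeg' v.asIdeal, ?_, ?_⟩
  · exact Ideal.inertiaDeg'_ne_zero _ _
  · exact Ideal.absNorm_eq_pow_inertiaDeg' v.asIdeal (pv_prime v)

theorem sq_pv_le_nv (v : HeightOneSpectrum (𝓞 K)) (h : ¬ (nv v).Prime) : pv v ^ 2 ≤ nv v := by
  obtain ⟨f, hf0, hf⟩ := exists_nv_eq_pow v
  have hf1 : f ≠ 1 := by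
    rintro rfl
    rw [pow_one] at hf
    exact h (hf ▸ pv_prime v)
  rw [hf]
  exact Nat.pow_le_pow_right (pv_prime v).pos (by omega)

/-- The primes above a given rational prime, as primes over the ideal `(p)`. -/
noncomputable def toPrimesOver (p : ℕ) (v : {v : HeightOneSpectrum (𝓞 K) // pv v = p}) :
    (span {(p : ℤ)}).primesOver (𝓞 K) :=
  ⟨v.1.asIdeal, v.1.isPrime, by
    have := Int.liesOver_span_absNorm v.1.asIdeal
    have h : absNorm (under ℤ v.1.asIdeal) = p := v.2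
    rwa [h] at this⟩

theorem toPrimesOver_injective (p : ℕ) : Function.Injective (toPrimesOver (K := K) p) := by
  intro v w h
  have := congrArg (fun I : (span {(p : ℤ)}).primesOver (𝓞 K) => (I : Ideal (𝓞 K))) h
  exact Subtype.ext (HeightOneSpectrum.ext this)

theorem finite_fiber (p : ℕ) : Finite {v : HeightOneSpectrum (𝓞 K) // pv v = p} := by
  by_cases hp : p.Prime
  · haveI : (span {(p : ℤ)}).IsMaximal :=
      haveI : Fact p.Prime := ⟨hp⟩
      Int.ideal_span_isMaximal_of_prime p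
    exact Finite.of_injective _ (toPrimesOver_injective (K := K) p)
  · haveI : IsEmpty {v : HeightOneSpectrum (𝓞 K) // pv v = p} :=
      ⟨fun v => hp (v.2 ▸ pv_prime v.1)⟩
    infer_instance

theorem card_fiber_le (p : ℕ) :
    Nat.card {v : HeightOneSpectrum (𝓞 K) // pv v = p} ≤ Module.finrank ℤ (𝓞 K) := by
  by_cases hp : p.Prime
  · haveI : (span {(p : ℤ)}).IsMaximal :=
      haveI : Fact p.Prime := ⟨hp⟩
      Int.ideal_span_isMaximal_of_prime p
    have h1 : Nat.card {v : HeightOneSpectrum (𝓞 K) // pv v = p} ≤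
        Nat.card ((span {(p : ℤ)}).primesOver (𝓞 K)) :=
      Nat.card_le_card_of_injective _ (toPrimesOver_injective (K := K) p)
    have h2 := Ideal.sum_ramification_inertia_eq_finrank (span {(p : ℤ)}) (𝓞 K)
    have h3 : Fintype.card ((span {(p : ℤ)}).primesOver (𝓞 K)) ≤
        ∑ q : (span {(p : ℤ)}).primesOver (𝓞 K),
          q.1.ramificationIdx ℤ * q.1.inertiaDeg ℤ := by
      rw [Fintype.card_eq_sum_ones]
      refine Finset.sum_le_sum fun q _ => ?_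
      haveI := q.2.1
      haveI := q.2.2
      have he : q.1.ramificationIdx ℤ ≠ 0 := (Ideal.ramificationIdx_pos q.1 ℤ).ne'
      have hf : q.1.inertiaDeg ℤ ≠ 0 := (Ideal.inertiaDeg_pos q.1 ℤ).ne'
      exact Nat.one_le_iff_ne_zero.2 (mul_ne_zero he hf)
    have h4 : Nat.card ((span {(p : ℤ)}).primesOver (𝓞 K)) =
        Fintype.card ((span {(p : ℤ)}).primesOver (𝓞 K)) := Nat.card_eq_fintype_card
    rw [h4] at h1
    exact h1.trans (h3.trans h2.le)
  · haveI : IsEmpty {v : HeightOneSpectrum (𝓞 K) // pv v = p} :=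
      ⟨fun v => hp (v.2 ▸ pv_prime v.1)⟩
    simp

/-- `∑_v p_v^(-2)` converges. -/
theorem summable_pv_rpow :
    Summable fun v : HeightOneSpectrum (𝓞 K) => (pv v : ℝ) ^ (-(2 : ℝ)) := by
  rw [← (Equiv.sigmaFiberEquiv (pv (K := K))).summable_iff]
  rw [summable_sigma_of_nonneg (fun x => by
    simp only [Function.comp_apply]; positivity)]
  constructor
  · intro p
    haveI := finite_fiber (K := K) p
    exact Summable.of_finite
  · have hsum : Summable fun p : ℕ => (Module.finrank ℤ (𝓞 K) : ℝ) * (p : ℝ) ^ (-(2 : ℝ)) :=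
      (Real.summable_nat_rpow.2 (by norm_num)).mul_left _
    refine Summable.of_nonneg_of_le (fun p => tsum_nonneg fun y => ?_) (fun p => ?_) hsum
    · simp only [Function.comp_apply]; positivity
    · have hR : ∀ y : {v : HeightOneSpectrum (𝓞 K) // pv v = p},
          ((fun v : HeightOneSpectrum (𝓞 K) => (pv v : ℝ) ^ (-(2 : ℝ))) ∘
            ⇑(Equiv.sigmaFiberEquiv (pv (K := K)))) ⟨p, y⟩ = (p : ℝ) ^ (-(2 : ℝ)) := by
        rintro ⟨v, hv⟩
        simp [Equiv.sigmaFiberEquiv, hv]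
      haveI := finite_fiber (K := K) p
      rw [tsum_congr hR, tsum_const, nsmul_eq_mul]
      have := card_fiber_le (K := K) p
      gcongr

/-- The contribution of the primes whose norm is not a prime number. -/
noncomputable def degTerm (s : ℝ) (v : HeightOneSpectrum (𝓞 K)) : ℝ :=
  if (absNorm v.asIdeal).Prime then 0 else (absNorm v.asIdeal : ℝ) ^ (-s)

theorem degTerm_nonneg (s : ℝ) (v : HeightOneSpectrum (𝓞 K)) : 0 ≤ degTerm s v := by
  unfold degTerm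
  split_ifs
  · exact le_rfl
  · positivity

theorem degTerm_le (v : HeightOneSpectrum (𝓞 K)) {s : ℝ} (hs : 1 ≤ s) :
    degTerm s v ≤ (pv v : ℝ) ^ (-(2 : ℝ)) := by
  unfold degTerm
  split_ifs with h
  · positivity
  · have h1 : (1 : ℝ) ≤ absNorm v.asIdeal := by
      have := two_le_nv v
      rw [nv] at this
      exact_mod_cast (by omega : 1 ≤ absNorm v.asIdeal)
    have h2 : ((pv v : ℝ)) ^ 2 ≤ absNorm v.asIdeal := by
      have := sq_pv_le_nv v h
      rw [nv] at this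
      exact_mod_cast this
    have hpv : (0 : ℝ) < pv v := by
      exact_mod_cast (pv_prime v).pos
    calc (absNorm v.asIdeal : ℝ) ^ (-s) ≤ (absNorm v.asIdeal : ℝ) ^ (-(1 : ℝ)) :=
          Real.rpow_le_rpow_of_exponent_le h1 (by linarith)
      _ = ((absNorm v.asIdeal : ℝ))⁻¹ := Real.rpow_neg_one _
      _ ≤ ((pv v : ℝ) ^ 2)⁻¹ := inv_anti₀ (by positivity) h2
      _ = (pv v : ℝ) ^ (-(2 : ℝ)) := by
          rw [Real.rpow_neg hpv.le]
          norm_num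

theorem summable_degTerm {s : ℝ} (hs : 1 ≤ s) :
    Summable fun v : HeightOneSpectrum (𝓞 K) => degTerm s v :=
  Summable.of_nonneg_of_le (degTerm_nonneg s) (fun v => degTerm_le v hs) summable_pv_rpow

/-- The shape consumed by the density module: the primes whose norm is not a prime number
contribute a bounded amount. -/
theorem exists_deg_bound :
    ∃ C : ℝ, ∀ s : ℝ, 1 < s → s ≤ 2 →
      ∑' v : HeightOneSpectrum (𝓞 K),
        (if (absNorm v.asIdeal).Prime then 0 else (absNorm v.asIdeal : ℝ) ^ (-s)) ≤ C :=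
  ⟨∑' v : HeightOneSpectrum (𝓞 K), (pv v : ℝ) ^ (-(2 : ℝ)), fun _ hs _ =>
    (summable_degTerm hs.le).tsum_le_tsum (fun v => degTerm_le v hs.le) summable_pv_rpow⟩

end Fermat.Agent.S14.Euler
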