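/-
S14 (class field theory project), module Density: the two density statements AN-A and AN-B
of the plan, unconditionally.

`L / K` is a Galois extension of number fields.

* `index_le`: a subgroup of the class group of `K` containing the classes of all primes that
  split completely in `L` has index at most `[L : K]`;
* `index_le'`: the same with a finite exceptional set `S` of primes;
* `index_le''`: the same, where only the split primes of prime norm outside `S` are required to
  have their class in the subgroup;
* `exists_not_split`: if `[L : K] > 1`, then outside every finite set there is a prime of `K` of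
  prime norm, unramified in `L`, which does not split completely.

Inputs: `DensityCore` (the assembly), `Euler` (the Euler product facts), and through them
`Count`, `LBound`, `DensityAlg`.
-/
import Mathlib
import Fermat.Agent.S14.Defs
import Fermat.Agent.S14.Euler
import Fermat.Agent.S14.DensityCore

set_option autoImplicit false
set_option linter.unusedSectionVars false

namespace Fermat.Agent.S14.Density

open NumberField nonZeroDivisors IsDedekindDomain
open Fermat.Agent.S14.DensityAlg Fermat.Agent.S14.DensityCore

/-- The logarithmic form of the Euler product, in the vocabulary of `DensityCore`. -/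
theorem eulerLog (F : Type*) [Field F] [NumberField F] : EulerLog F := by
  intro χ
  obtain ⟨C, hC⟩ := Euler.exists_log_bound (K := F) χ
  exact ⟨C, fun s hs hs2 ↦ hC s hs hs2⟩

/-- The primes of non-prime norm contribute a bounded amount, in the vocabulary of
`DensityCore`. -/
theorem eulerDeg (F : Type*) [Field F] [NumberField F] : EulerDeg F := by
  obtain ⟨C, hC⟩ := Euler.exists_deg_bound (K := F)
  refine ⟨C, fun s hs hs2 ↦ le_trans (le_of_eq ?_) (hC s hs hs2)⟩
  refine tsum_congr fun v ↦ ?_
  by_cases h : (Ideal.absNorm v.asIdeal).Prime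
  · rw [if_pos h, if_pos h]
  · rw [if_neg h, if_neg h]
    rfl

variable {K L : Type*} [Field K] [Field L] [NumberField K] [NumberField L] [Algebra K L]
  [IsGalois K L]

/-- **AN-A with an exceptional set, strongest form**: only the primes of prime norm outside `S`
which split completely are required to have their class in `H`. -/
theorem index_le'' (S : Finset (Ideal (𝓞 K))) (H : Subgroup (ClassGroup (𝓞 K)))
    (hH : ∀ 𝔮 : (Ideal (𝓞 K))⁰, (𝔮 : Ideal (𝓞 K)).IsPrime → (𝔮 : Ideal (𝓞 K)) ∉ S →
      (Ideal.absNorm (𝔮 : Ideal (𝓞 K))).Prime → SplitsCompletely K L 𝔮 →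
      ClassGroup.mk0 𝔮 ∈ H) :
    H.index ≤ Module.finrank K L :=
  index_le'_of_euler (eulerLog K) (eulerLog L) (eulerDeg L) S H hH

/-- **AN-A with a finite exceptional set** `S` of primes. -/
theorem index_le' (S : Finset (Ideal (𝓞 K))) (H : Subgroup (ClassGroup (𝓞 K)))
    (hH : ∀ 𝔮 : (Ideal (𝓞 K))⁰, (𝔮 : Ideal (𝓞 K)).IsPrime → (𝔮 : Ideal (𝓞 K)) ∉ S →
      SplitsCompletely K L 𝔮 → ClassGroup.mk0 𝔮 ∈ H) :
    H.index ≤ Module.finrank K L :=
  index_le'' S H fun 𝔮 h1 h2 _ h3 ↦ hH 𝔮 h1 h2 h3

/-- **AN-A**: a subgroup of the class group containing the classes of the primes which split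
completely in `L` has index at most `[L : K]`. -/
theorem index_le (H : Subgroup (ClassGroup (𝓞 K))) (hH : splitClassSet K L ⊆ H) :
    H.index ≤ Module.finrank K L :=
  index_le_of_euler' (eulerLog K) (eulerLog L) (eulerDeg L) H hH

/-- **AN-B**: if `[L : K] > 1`, there is a prime of `K` outside `S`, of prime norm, unramified
in `L`, which does not split completely in `L`. -/
theorem exists_not_split (h : 1 < Module.finrank K L) (S : Finset (Ideal (𝓞 K))) :
    ∃ 𝔮 : Ideal (𝓞 K), 𝔮.IsPrime ∧ 𝔮 ≠ ⊥ ∧ 𝔮 ∉ S ∧ (Ideal.absNorm 𝔮).Prime ∧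
      (∀ 𝔔 : Ideal (𝓞 L), 𝔔.IsPrime → 𝔔.under (𝓞 K) = 𝔮 → 𝔔.ramificationIdx (𝓞 K) = 1) ∧
      ¬ SplitsCompletely K L 𝔮 :=
  exists_not_split_of_euler' (eulerLog K) (eulerLog L) (eulerDeg K) h S

end Fermat.Agent.S14.Density
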