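import Mathlib
import Fermat.Agent.S14.CycloNorm

/-!
# The local norm lemma modulo the primes above a rational prime

`M / E` is a Galois extension of number fields and `r` a rational prime such that every prime of
`M` containing `r` is unramified over `E`.

* `exists_intNorm_sub_mem` : every `β : 𝓞 E` is congruent to a norm from `𝓞 M` modulo all the
  primes of `E` containing `r` simultaneously;
* `exists_intNorm_pow_sub_mem` : hence `(N γ) ^ (r ^ n) ≡ β ^ (r ^ n)` modulo `r 𝓞 E` for some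
  `n`, because `𝓞 E / r` has characteristic `r`;
* `absNorm_sq_congr` : congruent elements modulo `r` have absolute norms with the same square
  modulo `r`.
-/

set_option autoImplicit false
set_option linter.style.haveILetI false
set_option linter.unusedSectionVars false
set_option linter.unusedVariables false

namespace Fermat.Agent.S14.LocalNorm

open NumberField

section

variable {E M : Type*} [Field E] [Field M] [NumberField E] [NumberField M] [Algebra E M]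
  [IsGalois E M]

/-- Every element of `𝓞 E` is a norm modulo the radical of a nonzero ideal `𝔪`, provided the
primes of `M` above the primes containing `𝔪` are unramified. -/
theorem exists_intNorm_sub_mem_radical (𝔪 : Ideal (𝓞 E)) (h𝔪 : 𝔪 ≠ ⊥)
    (hunr : ∀ 𝔔 : Ideal (𝓞 M), 𝔔.IsPrime → 𝔪 ≤ 𝔔.under (𝓞 E) →
      𝔔.ramificationIdx (𝓞 E) = 1) (β : 𝓞 E) :
    ∃ γ : 𝓞 M, Algebra.intNorm (𝓞 E) (𝓞 M) γ - β ∈ 𝔪.radical := by
  revert h𝔪 hunr
  induction 𝔪 using UniqueFactorizationMonoid.induction_on_coprime with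
  | h0 => intro h; exact absurd rfl h
  | h1 hx =>
    intro _ _
    rw [Ideal.isUnit_iff.mp hx, Ideal.radical_top]
    exact ⟨1, Submodule.mem_top⟩
  | hpr i h𝔯 =>
    rename_i 𝔯
    intro _ hunr
    rcases Nat.eq_zero_or_pos i with rfl | hi
    · rw [pow_zero, Ideal.one_eq_top, Ideal.radical_top]
      exact ⟨1, Submodule.mem_top⟩
    haveI h𝔯p : 𝔯.IsPrime := Ideal.isPrime_of_prime h𝔯
    rw [Ideal.radical_pow _ hi.ne', Ideal.IsPrime.radical h𝔯p]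
    obtain ⟨P, hP, hPu⟩ := Frob.exists_prime_over (L := M) 𝔯
    haveI := hP
    have hP0 : P ≠ ⊥ := Frob.ne_bot_of_under_ne_bot (K := E) (hPu ▸ h𝔯.ne_zero)
    obtain ⟨γ, hγ⟩ := CycloNorm.exists_prod_smul_sub_mem (E := E) hP0
      (hunr P hP (hPu ▸ Ideal.pow_le_self hi.ne')) β
    refine ⟨γ, ?_⟩
    rw [← CycloNorm.algebraMap_intNorm, ← map_sub] at hγ
    rw [← hPu]
    exact hγ
  | hcp hrel hx hy =>
    rename_i x y
    intro hxy hunr
    have hx0 : x ≠ ⊥ := fun h => hxy (by rw [h]; simp)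
    have hy0 : y ≠ ⊥ := fun h => hxy (by rw [h]; simp)
    have hcop : x ⊔ y = ⊤ := by
      have hu : IsUnit (x ⊔ y) :=
        hrel (Ideal.dvd_iff_le.mpr le_sup_left) (Ideal.dvd_iff_le.mpr le_sup_right)
      exact Ideal.isUnit_iff.mp hu
    have hcop' : x.radical ⊔ y.radical = ⊤ :=
      top_le_iff.mp (hcop ▸ sup_le_sup Ideal.le_radical Ideal.le_radical)
    obtain ⟨γ, hγ⟩ := CycloNorm.exists_intNorm_sub_mem_mul (F := M) hcop' β
      (hx hx0 (fun 𝔔 h1 h2 => hunr 𝔔 h1 (le_trans Ideal.mul_le_left h2)))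
      (hy hy0 (fun 𝔔 h1 h2 => hunr 𝔔 h1 (le_trans Ideal.mul_le_right h2)))
    refine ⟨γ, ?_⟩
    rw [Ideal.radical_mul]
    exact Ideal.mul_le_inf hγ

/-- **Local norm lemma modulo the primes above `r`.** -/
theorem exists_intNorm_sub_mem {r : ℕ} (hr : r.Prime)
    (hunr : ∀ 𝔔 : Ideal (𝓞 M), 𝔔.IsPrime → (r : 𝓞 M) ∈ 𝔔 → 𝔔.ramificationIdx (𝓞 E) = 1)
    (β : 𝓞 E) (hβ : ∀ 𝔯 : Ideal (𝓞 E), 𝔯.IsPrime → (r : 𝓞 E) ∈ 𝔯 → β ∉ 𝔯) :
    ∃ γ : 𝓞 M, ∀ 𝔯 : Ideal (𝓞 E), 𝔯.IsPrime → (r : 𝓞 E) ∈ 𝔯 →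
      Algebra.intNorm (𝓞 E) (𝓞 M) γ - β ∈ 𝔯 := by
  have hr0 : (r : 𝓞 E) ≠ 0 := Nat.cast_ne_zero.mpr hr.ne_zero
  have h𝔪 : Ideal.span {(r : 𝓞 E)} ≠ ⊥ := by
    rw [Ne, Ideal.span_singleton_eq_bot]
    exact hr0
  obtain ⟨γ, hγ⟩ := exists_intNorm_sub_mem_radical (M := M) (Ideal.span {(r : 𝓞 E)}) h𝔪
    (fun 𝔔 h1 h2 => hunr 𝔔 h1 (by
      have h3 : (r : 𝓞 E) ∈ 𝔔.under (𝓞 E) := h2 (Ideal.mem_span_singleton_self _)
      rw [Ideal.under_def, Ideal.mem_comap, map_natCast] at h3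
      exact h3)) β
  refine ⟨γ, fun 𝔯 h1 h2 => ?_⟩
  have hle : (Ideal.span {(r : 𝓞 E)}).radical ≤ 𝔯 :=
    (Ideal.IsPrime.radical_le_iff h1).mpr ((Ideal.span_singleton_le_iff_mem _).mpr h2)
  exact hle hγ

/-- A rational prime is not a unit of the ring of integers. -/
theorem natCast_mem_nonunits {r : ℕ} (hr : r.Prime) : (r : 𝓞 E) ∈ nonunits (𝓞 E) := by
  intro hu
  have h1 : IsUnit (Algebra.norm ℤ (r : 𝓞 E)) := hu.map (Algebra.norm ℤ)
  have h2 : Algebra.norm ℤ (r : 𝓞 E) = (r : ℤ) ^ Module.finrank ℤ (𝓞 E) := by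
    have := Algebra.norm_algebraMap (R := ℤ) (S := 𝓞 E) (r : ℤ)
    simpa using this
  rw [h2] at h1
  have hpos : 0 < Module.finrank ℤ (𝓞 E) := Module.finrank_pos
  have h3 : IsUnit (r : ℤ) := (isUnit_pow_iff hpos.ne').mp h1
  have h4 : (r : ℤ).natAbs = 1 := Int.isUnit_iff_natAbs_eq.mp h3
  rw [Int.natAbs_natCast] at h4
  exact hr.one_lt.ne' h4

/-- **Local norm lemma modulo `r`, up to `r`-power exponents.** -/
theorem exists_intNorm_pow_sub_mem {r : ℕ} (hr : r.Prime)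
    (hunr : ∀ 𝔔 : Ideal (𝓞 M), 𝔔.IsPrime → (r : 𝓞 M) ∈ 𝔔 → 𝔔.ramificationIdx (𝓞 E) = 1)
    (β : 𝓞 E) (hβ : ∀ 𝔯 : Ideal (𝓞 E), 𝔯.IsPrime → (r : 𝓞 E) ∈ 𝔯 → β ∉ 𝔯) :
    ∃ (γ : 𝓞 M) (n : ℕ),
      Algebra.intNorm (𝓞 E) (𝓞 M) γ ^ r ^ n - β ^ r ^ n ∈ Ideal.span {(r : 𝓞 E)} := by
  have hr0 : (r : 𝓞 E) ≠ 0 := Nat.cast_ne_zero.mpr hr.ne_zero
  have h𝔪 : Ideal.span {(r : 𝓞 E)} ≠ ⊥ := by
    rw [Ne, Ideal.span_singleton_eq_bot]
    exact hr0
  obtain ⟨γ, hγ⟩ := exists_intNorm_sub_mem_radical (M := M) (Ideal.span {(r : 𝓞 E)}) h𝔪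
    (fun 𝔔 h1 h2 => hunr 𝔔 h1 (by
      have h3 : (r : 𝓞 E) ∈ 𝔔.under (𝓞 E) := h2 (Ideal.mem_span_singleton_self _)
      rw [Ideal.under_def, Ideal.mem_comap, map_natCast] at h3
      exact h3)) β
  obtain ⟨k, hk⟩ := hγ
  refine ⟨γ, k, ?_⟩
  haveI : Fact r.Prime := ⟨hr⟩
  haveI : CharP (𝓞 E ⧸ Ideal.span {(r : 𝓞 E)}) r :=
    CharP.quotient (𝓞 E) r (natCast_mem_nonunits (E := E) hr)
  have hle : k ≤ r ^ k := (Nat.lt_pow_self hr.one_lt).le
  have hpow : (Algebra.intNorm (𝓞 E) (𝓞 M) γ - β) ^ r ^ k ∈ Ideal.span {(r : 𝓞 E)} :=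
    Ideal.pow_mem_of_pow_mem _ hk hle
  rw [← Ideal.Quotient.eq_zero_iff_mem] at hpow ⊢
  rw [map_sub, map_pow, map_pow]
  rw [map_pow, map_sub, sub_pow_char_pow] at hpow
  exact hpow

end

/-- Congruent integers of `E` modulo `r` have absolute norms with the same square modulo `r`. -/
theorem absNorm_sq_congr {E : Type*} [Field E] [NumberField E] {r : ℕ} (hr : r.Prime)
    (b c : 𝓞 E) (h : b - c ∈ Ideal.span {(r : 𝓞 E)}) :
    ((Ideal.absNorm (Ideal.span {b}) : ℕ) : ZMod r) ^ 2 =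
      ((Ideal.absNorm (Ideal.span {c}) : ℕ) : ZMod r) ^ 2 := by
  classical
  obtain ⟨t, ht⟩ := Ideal.mem_span_singleton'.mp h
  have hb : b = c + t * (r : 𝓞 E) := by rw [ht]; ring
  -- norms are congruent modulo `r`
  have hnorm : ((Algebra.norm ℤ b : ℤ) : ZMod r) = ((Algebra.norm ℤ c : ℤ) : ZMod r) := by
    let bas := RingOfIntegers.basis E
    rw [Algebra.norm_eq_matrix_det bas, Algebra.norm_eq_matrix_det bas]
    show (Int.castRingHom (ZMod r)) _ = (Int.castRingHom (ZMod r)) _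
    rw [RingHom.map_det, RingHom.map_det]
    congr 1
    rw [hb, map_add, map_mul]
    ext i j
    simp only [RingHom.mapMatrix_apply, Matrix.map_apply, Matrix.add_apply, map_add]
    have : (Algebra.leftMulMatrix bas) ((r : 𝓞 E)) = (r : ℤ) • (1 : Matrix _ _ ℤ) := by
      have h1 : ((r : 𝓞 E)) = algebraMap ℤ (𝓞 E) (r : ℤ) := by simp
      rw [h1, AlgHom.commutes, Algebra.algebraMap_eq_smul_one]
    rw [this, Matrix.mul_smul, Matrix.mul_one, Matrix.smul_apply, smul_eq_mul, map_mul,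
      eq_intCast (Int.castRingHom (ZMod r)) (r : ℤ), Int.cast_natCast, ZMod.natCast_self,
      zero_mul, add_zero]
  have e1 : ∀ z : ℤ, ((z.natAbs : ℕ) : ZMod r) ^ 2 = ((z : ℤ) : ZMod r) ^ 2 := by
    intro z
    have : ((z.natAbs : ℤ)) ^ 2 = z ^ 2 := Int.natAbs_sq z
    have h2 := congrArg (Int.cast : ℤ → ZMod r) this
    rw [Int.cast_pow, Int.cast_pow, Int.cast_natCast] at h2
    exact h2
  rw [Ideal.absNorm_span_singleton, Ideal.absNorm_span_singleton, e1, e1, hnorm]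

end Fermat.Agent.S14.LocalNorm
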