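import Mathlib
import Fermat.Agent.S14.Defs
import Fermat.Agent.S14.Frob
import Fermat.Agent.S14.CycloNorm
import Fermat.Agent.S14.LocalNorm
import Fermat.Agent.S14.CycloDescent
import Fermat.Agent.S14.CycloFrob
import Fermat.Agent.S14.Density

/-!
# Artin reciprocity for an unramified extension of prime degree inside a cyclotomic extension

`F / E` is a Galois extension of number fields of odd prime degree `p`, unramified at every finite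
prime, and contained in `Ω = E(ζ_r)` for a prime `r ≠ p`. Let `φ` be a monoid homomorphism from
the nonzero ideals of `E` to `Gal(F/E)` whose value at every prime is a Frobenius (the Artin map on
ideals).

* `map_eq_one_of_principal` : `φ` kills the principal ideals prime to `r`
  (local norm lemma + Frobenius in the cyclotomic extension);
* `exists_hom` : there is `ψ : ClassGroup (𝓞 E) →* Gal(F/E)` with `ψ [𝔞] = φ 𝔞` for all `𝔞` prime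
  to `r`;
* `mk0_mem_normClasses` : if `𝔞` is prime to `r` and `φ 𝔞 = 1` then the class of `𝔞` lies in
  `normClasses E F p` (universal norm index inequality + a non-split prime).
-/

set_option autoImplicit false
set_option linter.style.haveILetI false
set_option linter.unusedSectionVars false
set_option linter.unusedVariables false

namespace Fermat.Agent.S14.Cyclo

open NumberField nonZeroDivisors IsDedekindDomain

variable {E F : Type*} [Field E] [Field F] [NumberField E] [NumberField F] [Algebra E F]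
  [IsGalois E F]

variable {Ω : Type*} [Field Ω] [Algebra E Ω] [Algebra F Ω] [IsScalarTower E F Ω]

theorem span_natCast_ne_bot {r : ℕ} (hr : r.Prime) : Ideal.span {(r : 𝓞 E)} ≠ ⊥ := by
  rw [Ne, Ideal.span_singleton_eq_bot]
  exact Nat.cast_ne_zero.mpr hr.ne_zero

theorem span_natCast_ne_top {r : ℕ} (hr : r.Prime) : Ideal.span {(r : 𝓞 E)} ≠ ⊤ := by
  intro h
  rw [Ideal.span_singleton_eq_top] at h
  exact LocalNorm.natCast_mem_nonunits (E := E) hr h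

/-- **C7 (i) + (ii)**: the Artin map kills the principal ideals prime to `r`. -/
theorem map_eq_one_of_principal (hunr : UnramifiedEverywhere E F) {p r : ℕ} (hp : p.Prime)
    (hp2 : p ≠ 2) (hdeg : Module.finrank E F = p) (hr : r.Prime) (hrp : r ≠ p)
    [IsCyclotomicExtension {r} E Ω] (φ : (Ideal (𝓞 E))⁰ →* Gal(F/E))
    (hφ : ∀ 𝔮 : (Ideal (𝓞 E))⁰, (𝔮 : Ideal (𝓞 E)).IsPrime → IsFrob E F (φ 𝔮) 𝔮)
    (𝔞 : (Ideal (𝓞 E))⁰) (β : 𝓞 E) (h : (𝔞 : Ideal (𝓞 E)) = Ideal.span {β})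
    (hcop : Ideal.span {β} ⊔ Ideal.span {(r : 𝓞 E)} = ⊤) : φ 𝔞 = 1 := by
  have hcopr : Nat.Coprime (Module.finrank E F) r := by
    rw [hdeg]
    exact (Nat.coprime_primes hp hr).mpr hrp.symm
  obtain ⟨γ, hγ⟩ := CycloNorm.exists_mul_intNorm_sub_one_mem (F := F) hunr hcopr
    (Ideal.span {(r : 𝓞 E)}) (span_natCast_ne_bot hr) (Ideal.mem_span_singleton_self _) β hcop
  have hγ0 : γ ≠ 0 := by
    rintro rfl
    rw [Algebra.intNorm_zero, mul_zero, zero_sub] at hγ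
    apply span_natCast_ne_top (E := E) hr
    rw [Ideal.eq_top_iff_one]
    simpa using Ideal.neg_mem_iff _ |>.mp hγ
  have hN0 : Algebra.intNorm (𝓞 E) (𝓞 F) γ ≠ 0 := Algebra.intNorm_ne_zero.mpr hγ0
  have hodd : Odd (Module.finrank E F) := by
    rw [hdeg]
    exact hp.odd_of_ne_two hp2
  set 𝔫 : (Ideal (𝓞 E))⁰ := CycloFrob.spanNZ (Algebra.intNorm (𝓞 E) (𝓞 F) γ) hN0 with h𝔫
  have h1 : φ (𝔞 * 𝔫) = 1 := by
    refine CycloFrob.map_eq_one_of_sub_one_mem (Ω := Ω) hunr hodd φ hφ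
      (β * Algebra.intNorm (𝓞 E) (𝓞 F) γ) hγ (𝔞 * 𝔫) ?_
    rw [Submonoid.coe_mul, h, h𝔫, CycloFrob.coe_spanNZ, Ideal.span_singleton_mul_span_singleton]
  have h2 : φ 𝔫 = 1 :=
    CycloFrob.map_span_intNorm_eq_one hunr φ hφ γ hγ0 𝔫 (by rw [h𝔫, CycloFrob.coe_spanNZ])
  rw [map_mul, h2, mul_one] at h1
  exact h1

/-- **C7**: the Artin map descends to the class group on the ideals prime to `r`. -/
theorem exists_hom (hunr : UnramifiedEverywhere E F) {p r : ℕ} (hp : p.Prime)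
    (hp2 : p ≠ 2) (hdeg : Module.finrank E F = p) (hr : r.Prime) (hrp : r ≠ p)
    [IsCyclotomicExtension {r} E Ω] (φ : (Ideal (𝓞 E))⁰ →* Gal(F/E))
    (hφ : ∀ 𝔮 : (Ideal (𝓞 E))⁰, (𝔮 : Ideal (𝓞 E)).IsPrime → IsFrob E F (φ 𝔮) 𝔮) :
    ∃ ψ : ClassGroup (𝓞 E) →* Gal(F/E), ∀ 𝔞 : (Ideal (𝓞 E))⁰,
      (𝔞 : Ideal (𝓞 E)) ⊔ Ideal.span {(r : 𝓞 E)} = ⊤ → ψ (ClassGroup.mk0 𝔞) = φ 𝔞 :=
  CycloDescent.exists_hom φ (Ideal.span {(r : 𝓞 E)}) (span_natCast_ne_bot hr)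
    (fun 𝔞 β h hcop => map_eq_one_of_principal (Ω := Ω) hunr hp hp2 hdeg hr hrp φ hφ 𝔞 β h hcop)

/-- The finite set of the primes of `E` containing `r`. -/
theorem exists_finset_primes {r : ℕ} (hr : r.Prime) :
    ∃ S : Finset (Ideal (𝓞 E)), ∀ 𝔮 : Ideal (𝓞 E), 𝔮.IsPrime → (r : 𝓞 E) ∈ 𝔮 → 𝔮 ∈ S := by
  classical
  have hfin := Ideal.finite_factors (span_natCast_ne_bot (E := E) hr)
  refine ⟨hfin.toFinset.image (fun v => v.asIdeal), fun 𝔮 h𝔮 hr𝔮 => ?_⟩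
  have h0 : 𝔮 ≠ ⊥ := by
    rintro rfl
    exact Nat.cast_ne_zero.mpr hr.ne_zero ((Ideal.mem_bot).mp hr𝔮)
  rw [Finset.mem_image]
  refine ⟨⟨𝔮, h𝔮, h0⟩, ?_, rfl⟩
  rw [Set.Finite.mem_toFinset]
  exact Ideal.dvd_iff_le.mpr ((Ideal.span_singleton_le_iff_mem _).mpr hr𝔮)

/-- A prime not containing `r` is prime to `r`. -/
theorem sup_span_eq_top_of_notMem {r : ℕ} {𝔮 : Ideal (𝓞 E)} (h𝔮 : 𝔮.IsPrime) (h0 : 𝔮 ≠ ⊥)
    (hr𝔮 : (r : 𝓞 E) ∉ 𝔮) : 𝔮 ⊔ Ideal.span {(r : 𝓞 E)} = ⊤ := by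
  haveI hmax : 𝔮.IsMaximal := Ring.DimensionLEOne.maximalOfPrime h0 h𝔮
  by_contra hne
  have := hmax.eq_of_le hne le_sup_left
  apply hr𝔮
  rw [this]
  exact Ideal.mem_sup_right (Ideal.mem_span_singleton_self _)

/-- **C8**: an ideal prime to `r` with trivial Artin symbol has its class in `normClasses`. -/
theorem mk0_mem_normClasses (hunr : UnramifiedEverywhere E F) {p r : ℕ} (hp : p.Prime)
    (hp2 : p ≠ 2) (hdeg : Module.finrank E F = p) (hr : r.Prime) (hrp : r ≠ p)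
    [IsCyclotomicExtension {r} E Ω] (φ : (Ideal (𝓞 E))⁰ →* Gal(F/E))
    (hφ : ∀ 𝔮 : (Ideal (𝓞 E))⁰, (𝔮 : Ideal (𝓞 E)).IsPrime → IsFrob E F (φ 𝔮) 𝔮)
    (𝔞 : (Ideal (𝓞 E))⁰) (h𝔞 : (𝔞 : Ideal (𝓞 E)) ⊔ Ideal.span {(r : 𝓞 E)} = ⊤)
    (h1 : φ 𝔞 = 1) : ClassGroup.mk0 𝔞 ∈ normClasses E F p := by
  classical
  obtain ⟨ψ, hψ⟩ := exists_hom (Ω := Ω) hunr hp hp2 hdeg hr hrp φ hφ
  obtain ⟨S, hS⟩ := exists_finset_primes (E := E) hr
  have hcard : Nat.card Gal(F/E) = p := by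
    rw [IsGalois.card_aut_eq_finrank, hdeg]
  haveI : Fact p.Prime := ⟨hp⟩
  -- `ψ` is onto
  obtain ⟨𝔮, h𝔮p, h𝔮0, h𝔮S, -, -, hns⟩ :=
    Density.exists_not_split (K := E) (L := F) (by rw [hdeg]; exact hp.one_lt) S
  have hr𝔮 : (r : 𝓞 E) ∉ 𝔮 := fun h => h𝔮S (hS 𝔮 h𝔮p h)
  set 𝔮' : (Ideal (𝓞 E))⁰ := ⟨𝔮, mem_nonZeroDivisors_of_ne_zero h𝔮0⟩ with h𝔮'
  have hψ𝔮 : ψ (ClassGroup.mk0 𝔮') ≠ 1 := by
    rw [hψ 𝔮' (sup_span_eq_top_of_notMem h𝔮p h𝔮0 hr𝔮)]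
    intro h
    haveI := h𝔮p
    apply hns
    have hF := hφ 𝔮' h𝔮p
    rw [h] at hF
    exact (Frob.isFrob_one_iff (K := E) (L := F) h𝔮0
      (Frob.unramifiedAt_of_unramifiedEverywhere hunr h𝔮0)).mp hF
  have hrange : ψ.range = ⊤ := by
    haveI : Fact (Nat.card Gal(F/E)).Prime := ⟨hcard ▸ hp⟩
    rcases Subgroup.eq_bot_or_eq_top_of_prime_card (ψ.range) with h | h
    · exfalso
      apply hψ𝔮
      have : ψ (ClassGroup.mk0 𝔮') ∈ ψ.range := ⟨_, rfl⟩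
      rw [h, Subgroup.mem_bot] at this
      exact this
    · exact h
  have hidx : ψ.ker.index = p := by
    rw [Subgroup.index_ker, hrange, Subgroup.card_top, hcard]
  -- the subgroup `H`
  set H : Subgroup (ClassGroup (𝓞 E)) := ψ.ker ⊓ normClasses E F p with hH
  have hHidx : H.index ≤ p := by
    rw [← hdeg]
    refine Density.index_le' (K := E) (L := F) S H (fun 𝔮₁ h1p h1S hsplit => ?_)
    have h10 : (𝔮₁ : Ideal (𝓞 E)) ≠ ⊥ := nonZeroDivisors.coe_ne_zero 𝔮₁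
    have hr1 : (r : 𝓞 E) ∉ (𝔮₁ : Ideal (𝓞 E)) := fun h => h1S (hS _ h1p h)
    refine Subgroup.mem_inf.mpr ⟨?_, ?_⟩
    · rw [MonoidHom.mem_ker, hψ 𝔮₁ (sup_span_eq_top_of_notMem h1p h10 hr1)]
      haveI := h1p
      have hone : IsFrob E F 1 (𝔮₁ : Ideal (𝓞 E)) :=
        (Frob.isFrob_one_iff (K := E) (L := F) h10
          (Frob.unramifiedAt_of_unramifiedEverywhere hunr h10)).mpr hsplit
      exact Frob.IsFrob.unique (Frob.unramifiedAt_of_unramifiedEverywhere hunr h10)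
        (hφ 𝔮₁ h1p) hone
    · exact Subgroup.subset_closure (Or.inl ⟨𝔮₁, h1p, hsplit, rfl⟩)
  have hle : H ≤ ψ.ker := inf_le_left
  have hH0 : H.index ≠ 0 := Subgroup.index_ne_zero_of_finite
  have hrel : H.relIndex ψ.ker = 1 := by
    have hmul := Subgroup.relIndex_mul_index hle
    rw [hidx] at hmul
    have hpos : 0 < H.relIndex ψ.ker := by
      rcases Nat.eq_zero_or_pos (H.relIndex ψ.ker) with h | h
      · rw [h, zero_mul] at hmul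
        exact absurd hmul.symm hH0
      · exact h
    have : H.relIndex ψ.ker * p ≤ 1 * p := by
      rw [hmul, one_mul]
      exact hHidx
    have := Nat.le_of_mul_le_mul_right this hp.pos
    omega
  have hker : ψ.ker ≤ H := Subgroup.relIndex_eq_one.mp hrel
  have hmem : ClassGroup.mk0 𝔞 ∈ ψ.ker := by
    rw [MonoidHom.mem_ker, hψ 𝔞 h𝔞, h1]
  exact (hker hmem).2

/-! ### Arbitrary modulus prime to the degree

The same statements for `Ω = E(ζ_m)` with an arbitrary modulus `m` prime to `p`. -/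

theorem ne_zero_of_coprime {p m : ℕ} (hp : p.Prime) (hm : Nat.Coprime p m) : m ≠ 0 := by
  rintro rfl
  rw [Nat.coprime_zero_right] at hm
  exact hp.one_lt.ne' hm

theorem span_natCast_ne_bot' {m : ℕ} (hm : m ≠ 0) : Ideal.span {(m : 𝓞 E)} ≠ ⊥ := by
  rw [Ne, Ideal.span_singleton_eq_bot]
  exact Nat.cast_ne_zero.mpr hm

/-- **C7 (i) + (ii)**, modulus `m`: the Artin map kills the principal ideals prime to `m`. -/
theorem map_eq_one_of_principal_of_coprime (hunr : UnramifiedEverywhere E F) {p m : ℕ}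
    (hp : p.Prime) (hp2 : p ≠ 2) (hdeg : Module.finrank E F = p) (hm : Nat.Coprime p m)
    [IsCyclotomicExtension {m} E Ω] (φ : (Ideal (𝓞 E))⁰ →* Gal(F/E))
    (hφ : ∀ 𝔮 : (Ideal (𝓞 E))⁰, (𝔮 : Ideal (𝓞 E)).IsPrime → IsFrob E F (φ 𝔮) 𝔮)
    (𝔞 : (Ideal (𝓞 E))⁰) (β : 𝓞 E) (h : (𝔞 : Ideal (𝓞 E)) = Ideal.span {β})
    (hcop : Ideal.span {β} ⊔ Ideal.span {(m : 𝓞 E)} = ⊤) : φ 𝔞 = 1 := by
  have hm0 : m ≠ 0 := ne_zero_of_coprime hp hm
  have hcopr : Nat.Coprime (Module.finrank E F) m := by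
    rw [hdeg]
    exact hm
  have hodd : Odd (Module.finrank E F) := by
    rw [hdeg]
    exact hp.odd_of_ne_two hp2
  -- a nonzero `γ` with `β N γ ≡ 1 mod m`
  obtain ⟨γ, hγ0, hγ⟩ : ∃ γ : 𝓞 F, γ ≠ 0 ∧
      β * Algebra.intNorm (𝓞 E) (𝓞 F) γ - 1 ∈ Ideal.span {(m : 𝓞 E)} := by
    by_cases htop : Ideal.span {(m : 𝓞 E)} = ⊤
    · exact ⟨1, one_ne_zero, by rw [htop]; exact Submodule.mem_top⟩
    · obtain ⟨γ, hγ⟩ := CycloNorm.exists_mul_intNorm_sub_one_mem (F := F) hunr hcopr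
        (Ideal.span {(m : 𝓞 E)}) (span_natCast_ne_bot' hm0) (Ideal.mem_span_singleton_self _)
        β hcop
      refine ⟨γ, ?_, hγ⟩
      rintro rfl
      rw [Algebra.intNorm_zero, mul_zero, zero_sub] at hγ
      apply htop
      rw [Ideal.eq_top_iff_one]
      simpa using Ideal.neg_mem_iff _ |>.mp hγ
  have hN0 : Algebra.intNorm (𝓞 E) (𝓞 F) γ ≠ 0 := Algebra.intNorm_ne_zero.mpr hγ0
  set 𝔫 : (Ideal (𝓞 E))⁰ := CycloFrob.spanNZ (Algebra.intNorm (𝓞 E) (𝓞 F) γ) hN0 with h𝔫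
  have h1 : φ (𝔞 * 𝔫) = 1 := by
    refine CycloFrob.map_eq_one_of_sub_one_mem (Ω := Ω) hunr hodd φ hφ
      (β * Algebra.intNorm (𝓞 E) (𝓞 F) γ) hγ (𝔞 * 𝔫) ?_
    rw [Submonoid.coe_mul, h, h𝔫, CycloFrob.coe_spanNZ, Ideal.span_singleton_mul_span_singleton]
  have h2 : φ 𝔫 = 1 :=
    CycloFrob.map_span_intNorm_eq_one hunr φ hφ γ hγ0 𝔫 (by rw [h𝔫, CycloFrob.coe_spanNZ])
  rw [map_mul, h2, mul_one] at h1
  exact h1

/-- **C7**, modulus `m`: the Artin map descends to the class group on the ideals prime to `m`. -/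
theorem exists_hom_of_coprime (hunr : UnramifiedEverywhere E F) {p m : ℕ} (hp : p.Prime)
    (hp2 : p ≠ 2) (hdeg : Module.finrank E F = p) (hm : Nat.Coprime p m)
    [IsCyclotomicExtension {m} E Ω] (φ : (Ideal (𝓞 E))⁰ →* Gal(F/E))
    (hφ : ∀ 𝔮 : (Ideal (𝓞 E))⁰, (𝔮 : Ideal (𝓞 E)).IsPrime → IsFrob E F (φ 𝔮) 𝔮) :
    ∃ ψ : ClassGroup (𝓞 E) →* Gal(F/E), ∀ 𝔞 : (Ideal (𝓞 E))⁰,
      (𝔞 : Ideal (𝓞 E)) ⊔ Ideal.span {(m : 𝓞 E)} = ⊤ → ψ (ClassGroup.mk0 𝔞) = φ 𝔞 :=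
  CycloDescent.exists_hom φ (Ideal.span {(m : 𝓞 E)})
    (span_natCast_ne_bot' (ne_zero_of_coprime hp hm))
    (fun 𝔞 β h hcop =>
      map_eq_one_of_principal_of_coprime (Ω := Ω) hunr hp hp2 hdeg hm φ hφ 𝔞 β h hcop)

/-- The finite set of the primes of `E` containing `m ≠ 0`. -/
theorem exists_finset_primes' {m : ℕ} (hm : m ≠ 0) :
    ∃ S : Finset (Ideal (𝓞 E)), ∀ 𝔮 : Ideal (𝓞 E), 𝔮.IsPrime → (m : 𝓞 E) ∈ 𝔮 → 𝔮 ∈ S := by
  classical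
  have hfin := Ideal.finite_factors (span_natCast_ne_bot' (E := E) hm)
  refine ⟨hfin.toFinset.image (fun v => v.asIdeal), fun 𝔮 h𝔮 hr𝔮 => ?_⟩
  have h0 : 𝔮 ≠ ⊥ := by
    rintro rfl
    exact Nat.cast_ne_zero.mpr hm ((Ideal.mem_bot).mp hr𝔮)
  rw [Finset.mem_image]
  refine ⟨⟨𝔮, h𝔮, h0⟩, ?_, rfl⟩
  rw [Set.Finite.mem_toFinset]
  exact Ideal.dvd_iff_le.mpr ((Ideal.span_singleton_le_iff_mem _).mpr hr𝔮)

/-- **C8**, modulus `m`: an ideal prime to `m` with trivial Artin symbol has its class in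
`normClasses E F p`. -/
theorem mk0_mem_normClasses_of_coprime (hunr : UnramifiedEverywhere E F) {p m : ℕ}
    (hp : p.Prime) (hp2 : p ≠ 2) (hdeg : Module.finrank E F = p) (hm : Nat.Coprime p m)
    [IsCyclotomicExtension {m} E Ω] (φ : (Ideal (𝓞 E))⁰ →* Gal(F/E))
    (hφ : ∀ 𝔮 : (Ideal (𝓞 E))⁰, (𝔮 : Ideal (𝓞 E)).IsPrime → IsFrob E F (φ 𝔮) 𝔮)
    (𝔞 : (Ideal (𝓞 E))⁰) (h𝔞 : (𝔞 : Ideal (𝓞 E)) ⊔ Ideal.span {(m : 𝓞 E)} = ⊤)
    (h1 : φ 𝔞 = 1) : ClassGroup.mk0 𝔞 ∈ normClasses E F p := by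
  classical
  obtain ⟨ψ, hψ⟩ := exists_hom_of_coprime (Ω := Ω) hunr hp hp2 hdeg hm φ hφ
  obtain ⟨S, hS⟩ := exists_finset_primes' (E := E) (ne_zero_of_coprime hp hm)
  have hcard : Nat.card Gal(F/E) = p := by
    rw [IsGalois.card_aut_eq_finrank, hdeg]
  haveI : Fact p.Prime := ⟨hp⟩
  -- `ψ` is onto
  obtain ⟨𝔮, h𝔮p, h𝔮0, h𝔮S, -, -, hns⟩ :=
    Density.exists_not_split (K := E) (L := F) (by rw [hdeg]; exact hp.one_lt) S
  have hr𝔮 : (m : 𝓞 E) ∉ 𝔮 := fun h => h𝔮S (hS 𝔮 h𝔮p h)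
  set 𝔮' : (Ideal (𝓞 E))⁰ := ⟨𝔮, mem_nonZeroDivisors_of_ne_zero h𝔮0⟩ with h𝔮'
  have hψ𝔮 : ψ (ClassGroup.mk0 𝔮') ≠ 1 := by
    rw [hψ 𝔮' (sup_span_eq_top_of_notMem h𝔮p h𝔮0 hr𝔮)]
    intro h
    haveI := h𝔮p
    apply hns
    have hF := hφ 𝔮' h𝔮p
    rw [h] at hF
    exact (Frob.isFrob_one_iff (K := E) (L := F) h𝔮0
      (Frob.unramifiedAt_of_unramifiedEverywhere hunr h𝔮0)).mp hF
  have hrange : ψ.range = ⊤ := by
    haveI : Fact (Nat.card Gal(F/E)).Prime := ⟨hcard ▸ hp⟩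
    rcases Subgroup.eq_bot_or_eq_top_of_prime_card (ψ.range) with h | h
    · exfalso
      apply hψ𝔮
      have : ψ (ClassGroup.mk0 𝔮') ∈ ψ.range := ⟨_, rfl⟩
      rw [h, Subgroup.mem_bot] at this
      exact this
    · exact h
  have hidx : ψ.ker.index = p := by
    rw [Subgroup.index_ker, hrange, Subgroup.card_top, hcard]
  -- the subgroup `H`
  set H : Subgroup (ClassGroup (𝓞 E)) := ψ.ker ⊓ normClasses E F p with hH
  have hHidx : H.index ≤ p := by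
    rw [← hdeg]
    refine Density.index_le' (K := E) (L := F) S H (fun 𝔮₁ h1p h1S hsplit => ?_)
    have h10 : (𝔮₁ : Ideal (𝓞 E)) ≠ ⊥ := nonZeroDivisors.coe_ne_zero 𝔮₁
    have hr1 : (m : 𝓞 E) ∉ (𝔮₁ : Ideal (𝓞 E)) := fun h => h1S (hS _ h1p h)
    refine Subgroup.mem_inf.mpr ⟨?_, ?_⟩
    · rw [MonoidHom.mem_ker, hψ 𝔮₁ (sup_span_eq_top_of_notMem h1p h10 hr1)]
      haveI := h1p
      have hone : IsFrob E F 1 (𝔮₁ : Ideal (𝓞 E)) :=
        (Frob.isFrob_one_iff (K := E) (L := F) h10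
          (Frob.unramifiedAt_of_unramifiedEverywhere hunr h10)).mpr hsplit
      exact Frob.IsFrob.unique (Frob.unramifiedAt_of_unramifiedEverywhere hunr h10)
        (hφ 𝔮₁ h1p) hone
    · exact Subgroup.subset_closure (Or.inl ⟨𝔮₁, h1p, hsplit, rfl⟩)
  have hle : H ≤ ψ.ker := inf_le_left
  have hH0 : H.index ≠ 0 := Subgroup.index_ne_zero_of_finite
  have hrel : H.relIndex ψ.ker = 1 := by
    have hmul := Subgroup.relIndex_mul_index hle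
    rw [hidx] at hmul
    have hpos : 0 < H.relIndex ψ.ker := by
      rcases Nat.eq_zero_or_pos (H.relIndex ψ.ker) with h | h
      · rw [h, zero_mul] at hmul
        exact absurd hmul.symm hH0
      · exact h
    have : H.relIndex ψ.ker * p ≤ 1 * p := by
      rw [hmul, one_mul]
      exact hHidx
    have := Nat.le_of_mul_le_mul_right this hp.pos
    omega
  have hker : ψ.ker ≤ H := Subgroup.relIndex_eq_one.mp hrel
  have hmem : ClassGroup.mk0 𝔞 ∈ ψ.ker := by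
    rw [MonoidHom.mem_ker, hψ 𝔞 h𝔞, h1]
  exact (hker hmem).2

/-- Two-ideal form of **C8**: two ideals prime to `m` with the same Artin symbol have the same
class modulo `normClasses E F p`. -/
theorem mk0_mul_inv_mem_normClasses_of_coprime (hunr : UnramifiedEverywhere E F) {p m : ℕ}
    (hp : p.Prime) (hp2 : p ≠ 2) (hdeg : Module.finrank E F = p) (hm : Nat.Coprime p m)
    [IsCyclotomicExtension {m} E Ω] (φ : (Ideal (𝓞 E))⁰ →* Gal(F/E))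
    (hφ : ∀ 𝔮 : (Ideal (𝓞 E))⁰, (𝔮 : Ideal (𝓞 E)).IsPrime → IsFrob E F (φ 𝔮) 𝔮)
    (𝔞 𝔟 : (Ideal (𝓞 E))⁰) (h𝔞 : (𝔞 : Ideal (𝓞 E)) ⊔ Ideal.span {(m : 𝓞 E)} = ⊤)
    (h𝔟 : (𝔟 : Ideal (𝓞 E)) ⊔ Ideal.span {(m : 𝓞 E)} = ⊤) (h : φ 𝔞 = φ 𝔟) :
    ClassGroup.mk0 𝔞 * (ClassGroup.mk0 𝔟)⁻¹ ∈ normClasses E F p := by
  have hcard : Nat.card Gal(F/E) = p := by
    rw [IsGalois.card_aut_eq_finrank, hdeg]
  -- `𝔠 := 𝔞 𝔟 ^ (p - 1)` has trivial symbol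
  have hpow : φ 𝔟 ^ p = 1 := by
    rw [← hcard]
    exact pow_card_eq_one'
  have hp1 : p - 1 + 1 = p := Nat.sub_add_cancel hp.pos
  have h1 : φ (𝔞 * 𝔟 ^ (p - 1)) = 1 := by
    rw [map_mul, map_pow, h, ← pow_succ', hp1, hpow]
  have hc : ((𝔞 * 𝔟 ^ (p - 1) : (Ideal (𝓞 E))⁰) : Ideal (𝓞 E)) ⊔ Ideal.span {(m : 𝓞 E)} = ⊤ := by
    rw [Submonoid.coe_mul, SubmonoidClass.coe_pow]
    refine CycloDescent.mul_sup_eq_top h𝔞 ?_
    rw [← Ideal.isCoprime_iff_sup_eq] at h𝔟 ⊢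
    exact IsCoprime.pow_left h𝔟
  have hmem := mk0_mem_normClasses_of_coprime (Ω := Ω) hunr hp hp2 hdeg hm φ hφ _ hc h1
  rw [map_mul, map_pow] at hmem
  have hpm : (ClassGroup.mk0 𝔟) ^ p ∈ normClasses E F p := pow_mem_normClasses E F p _
  have : ClassGroup.mk0 𝔞 * (ClassGroup.mk0 𝔟)⁻¹ =
      (ClassGroup.mk0 𝔞 * ClassGroup.mk0 𝔟 ^ (p - 1)) * ((ClassGroup.mk0 𝔟) ^ p)⁻¹ := by
    rw [mul_assoc]
    congr 1
    rw [eq_mul_inv_iff_mul_eq, ← hp1, pow_succ, hp1]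
    group
  rw [this]
  exact Subgroup.mul_mem _ hmem (Subgroup.inv_mem _ hpm)

end Fermat.Agent.S14.Cyclo
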