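import Mathlib
import Fermat.Agent.S14.Defs
import Fermat.Agent.S14.Frob
import Fermat.Agent.S14.Artin
import Fermat.Agent.S14.ClassNorm
import Fermat.Agent.S14.Density
import Fermat.Agent.S14.Cyclo

/-!
# S14: the crossing calculation

The generic engine behind the pair statement `PAIR` of `PairToRec`:

* `cross_group` : the group theory. In a group `G` of prime order `p` with `g₁ = ρ ^ n₁`,
  `g₂ = ρ ^ n₂`, `g₁ = g₂ ^ e`, and in an abelian group `A` with a subgroup `H` containing the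
  `p`-th powers, `c₁ ≡ c ^ n₁`, `c₂ ≡ c ^ n₂` modulo `H` imply `c₁ ≡ c₂ ^ e` modulo `H`;
* `exists_prime_frob_ne_one` : a prime `𝔅` of degree one of `E`, outside a finite set, whose
  trace on `K` has nontrivial Frobenius in `L / K` (from `Density.exists_not_split`);
* `pair_of_fields` : the pair statement for two primes of `K`, given auxiliary fields `Eᵢ`
  (with homomorphisms `ψᵢ` on their class groups) inside a common field `E`;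
* `exists_pow_of_top`, `pair_of_top` : the same inside a common Galois top field `Ω = Eᵢ(ζ_m)`,
  with Frobenius elements of `Ω / K` fixing `Eᵢ` in the hypotheses and `Cyclo` as the source of
  the homomorphisms.
-/

set_option autoImplicit false
set_option linter.unusedSectionVars false
set_option linter.style.haveILetI false

namespace Fermat.Agent.S14.CrossCalc

open NumberField nonZeroDivisors
open Fermat.Agent.S14.Frob Fermat.Agent.S14.Artin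

/-! ### The group theory of the crossing -/

/-- In a group of prime order `p`, `ρ ^ a = ρ ^ b` with `ρ ≠ 1` forces `a ≡ b mod p`. -/
theorem modEq_of_pow_eq {G : Type*} [Group G] {p : ℕ} (hp : p.Prime) (hcard : Nat.card G = p)
    {ρ : G} (hρ : ρ ≠ 1) {a b : ℕ} (h : ρ ^ a = ρ ^ b) : a ≡ b [MOD p] := by
  have hρp : ρ ^ p = 1 := by rw [← hcard]; exact pow_card_eq_one'
  have hord : orderOf ρ = p := by
    rcases (Nat.dvd_prime hp).mp (orderOf_dvd_of_pow_eq_one hρp) with h1 | h1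
    · exact absurd (orderOf_eq_one_iff.mp h1) hρ
    · exact h1
  rw [← hord]
  exact pow_eq_pow_iff_modEq.mp h

/-- If `H` contains the `p`-th powers then `c ^ a ≡ c ^ b mod H` for `a ≡ b mod p`. -/
theorem pow_mul_inv_mem {A : Type*} [CommGroup A] (H : Subgroup A) {p : ℕ}
    (hH : ∀ a : A, a ^ p ∈ H) (c : A) {a b : ℕ} (h : a ≡ b [MOD p]) :
    c ^ a * (c ^ b)⁻¹ ∈ H := by
  wlog hab : b ≤ a generalizing a b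
  · have := this h.symm (le_of_not_ge hab)
    have h2 := H.inv_mem this
    rwa [mul_inv_rev, inv_inv] at h2
  obtain ⟨k, hk⟩ := (Nat.modEq_iff_dvd' hab).mp h.symm
  have : c ^ a * (c ^ b)⁻¹ = (c ^ k) ^ p := by
    rw [← pow_mul, mul_comm k p, ← hk, pow_sub c hab]
  rw [this]
  exact hH _

/-- **The crossing, in group-theoretic form.** -/
theorem cross_group {G A : Type*} [Group G] [CommGroup A] {p : ℕ} (hp : p.Prime)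
    (hcard : Nat.card G = p) (H : Subgroup A) (hH : ∀ a : A, a ^ p ∈ H)
    {ρ g₁ g₂ : G} (hρ : ρ ≠ 1) {c c₁ c₂ : A} {n₁ n₂ e : ℕ}
    (h₁ : g₁ = ρ ^ n₁) (h₂ : g₂ = ρ ^ n₂) (hc₁ : c₁ * (c ^ n₁)⁻¹ ∈ H)
    (hc₂ : c₂ * (c ^ n₂)⁻¹ ∈ H) (he : g₁ = g₂ ^ e) : c₁ * (c₂ ^ e)⁻¹ ∈ H := by
  have hmod : n₁ ≡ n₂ * e [MOD p] := by
    apply modEq_of_pow_eq hp hcard hρ
    rw [← h₁, he, h₂, pow_mul]
  have h3 := pow_mul_inv_mem H hH c hmod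
  have h4 : (c₂ * (c ^ n₂)⁻¹) ^ e ∈ H := pow_mem hc₂ e
  have h5 := H.mul_mem (H.mul_mem hc₁ h3) (H.inv_mem h4)
  have : c₁ * (c ^ n₁)⁻¹ * (c ^ n₁ * (c ^ (n₂ * e))⁻¹) * ((c₂ * (c ^ n₂)⁻¹) ^ e)⁻¹ =
      c₁ * (c₂ ^ e)⁻¹ := by
    rw [mul_pow, inv_pow, ← pow_mul]
    group
  rwa [this] at h5

/-! ### Primes containing a given integer -/

/-- The primes of a number field containing a nonzero integer form a finite set. -/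
theorem finite_primes_mem (E : Type*) [Field E] [NumberField E] {r : ℕ} (hr : r ≠ 0) :
    {𝔅 : Ideal (𝓞 E) | 𝔅.IsPrime ∧ (r : 𝓞 E) ∈ 𝔅}.Finite := by
  have hr' : (r : 𝓞 E) ≠ 0 := Nat.cast_ne_zero.mpr hr
  have hN : Ideal.absNorm (Ideal.span {(r : 𝓞 E)}) ≠ 0 := by
    rw [Ne, Ideal.absNorm_eq_zero_iff, Ideal.span_singleton_eq_bot]
    exact hr'
  refine Set.Finite.subset
    (Ideal.finite_setOfPred_absNorm_le (S := 𝓞 E) (Ideal.absNorm (Ideal.span {(r : 𝓞 E)}))) ?_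
  rintro 𝔅 ⟨-, hmem⟩
  have hle : Ideal.span {(r : 𝓞 E)} ≤ 𝔅 := (Ideal.span_singleton_le_iff_mem 𝔅).mpr hmem
  exact Nat.le_of_dvd (Nat.pos_of_ne_zero hN) (Ideal.absNorm_dvd_absNorm_of_le hle)

/-- A prime of absolute degree one has residue degree one over every subfield. -/
theorem inertiaDeg_eq_one_of_absNorm_prime {K E : Type*} [Field K] [Field E] [NumberField K]
    [NumberField E] [Algebra K E] {𝔅 : Ideal (𝓞 E)} (h𝔅 : 𝔅.IsPrime) (h0 : 𝔅 ≠ ⊥)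
    (hN : (Ideal.absNorm 𝔅).Prime) : 𝔅.inertiaDeg (𝓞 K) = 1 := by
  haveI := h𝔅
  have h1 := Artin.card_quot_eq_pow (K := K) 𝔅 h0
  have h2 : Ideal.absNorm 𝔅 = Nat.card (𝓞 E ⧸ 𝔅) := by
    rw [Ideal.absNorm_apply, Submodule.cardQuot_apply]
  rw [h2, h1] at hN
  have hpos : 0 < 𝔅.inertiaDeg (𝓞 K) := Ideal.inertiaDeg_pos _ _
  by_contra hne
  exact Nat.Prime.not_prime_pow (by omega) hN

/-! ### Restriction of Frobenius elements -/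

section Single

variable {K L E F : Type*} [Field K] [Field L] [Field E] [Field F] [NumberField K]
  [NumberField L] [NumberField E] [NumberField F]
  [Algebra K L] [Algebra K E] [Algebra L F] [Algebra E F] [Algebra K F]
  [IsScalarTower K L F] [IsScalarTower K E F] [IsGalois K L] [IsGalois E F]

/-- A Frobenius of `F / E` at a prime `𝔓` of `E` restricts to the `f`-th power of the Frobenius
of `L / K` at the prime below. -/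
theorem res_of_isFrob (hab : ∀ σ τ : Gal(L/K), σ * τ = τ * σ) (hunr : UnramifiedEverywhere K L)
    {τ : Gal(F/E)} {𝔓 : Ideal (𝓞 E)} (h𝔓 : 𝔓.IsPrime) (h0 : 𝔓 ≠ ⊥) (hτ : IsFrob E F τ 𝔓) :
    res K L E F τ = frob K L (𝔓.under (𝓞 K)) ^ 𝔓.inertiaDeg (𝓞 K) := by
  haveI := h𝔓
  obtain ⟨𝔓', h𝔓', hu⟩ := Frob.exists_prime_over (K := E) (L := F) 𝔓
  haveI := h𝔓'
  have h0' : 𝔓' ≠ ⊥ := Frob.ne_bot_of_under_ne_bot (K := E) (hu ▸ h0)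
  have h1 := res_eq_frob_pow (K := K) (L := L) (E := E) (M := F) hab hunr h0' (hτ 𝔓' h𝔓' hu)
  rw [hu] at h1
  rw [h1]
  congr 2
  rw [← hu, Ideal.under_under]

/-- The kernel of `res ∘ ψ` is mapped into the norm classes of `L / K` by the norm. -/
theorem classNorm_mem_of_res_eq_one {p : ℕ} (hp : p.Prime) (hdeg : Module.finrank K L = p)
    (hunr : UnramifiedEverywhere K L) (hinj : Function.Injective (res K L E F))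
    (ψ : ClassGroup (𝓞 E) →* Gal(F/E))
    (hker : ∀ c : ClassGroup (𝓞 E), ψ c = 1 → c ∈ normClasses E F p)
    {c : ClassGroup (𝓞 E)} (hc : res K L E F (ψ c) = 1) :
    ClassNorm.classNorm K E c ∈ normClasses K L p := by
  have h1 : ψ c = 1 := hinj (hc.trans (map_one _).symm)
  exact ClassNorm.map_normClasses_le (K := K) (L := L) (E := E) (F := F) hp hdeg hunr
    (Subgroup.mem_map_of_mem _ (hker c h1))

/-- The conclusion for one auxiliary field: the class of `𝔮` is congruent to a power of the class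
of `b` modulo the norm classes, with the same exponent as for the Frobenius elements. -/
theorem exists_pow_of_field {p : ℕ} (hp : p.Prime) (hdeg : Module.finrank K L = p)
    (hunr : UnramifiedEverywhere K L) (hinj : Function.Injective (res K L E F))
    {r : ℕ} (ψ : ClassGroup (𝓞 E) →* Gal(F/E))
    (hψ : ∀ 𝔓 : (Ideal (𝓞 E))⁰, (𝔓 : Ideal (𝓞 E)).IsPrime → (r : 𝓞 E) ∉ (𝔓 : Ideal (𝓞 E)) →
      IsFrob E F (ψ (ClassGroup.mk0 𝔓)) 𝔓)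
    (hker : ∀ c : ClassGroup (𝓞 E), ψ c = 1 → c ∈ normClasses E F p)
    (𝔮 b : (Ideal (𝓞 K))⁰)
    (𝔔 : (Ideal (𝓞 E))⁰) (h𝔔 : (𝔔 : Ideal (𝓞 E)).IsPrime)
    (h𝔔u : (𝔔 : Ideal (𝓞 E)).under (𝓞 K) = 𝔮)
    (h𝔔f : (𝔔 : Ideal (𝓞 E)).inertiaDeg (𝓞 K) = 1) (h𝔔r : (r : 𝓞 E) ∉ (𝔔 : Ideal (𝓞 E)))
    (𝔟 : (Ideal (𝓞 E))⁰) (h𝔟 : (𝔟 : Ideal (𝓞 E)).IsPrime)
    (h𝔟u : (𝔟 : Ideal (𝓞 E)).under (𝓞 K) = b)
    (h𝔟f : (𝔟 : Ideal (𝓞 E)).inertiaDeg (𝓞 K) = 1) (h𝔟r : (r : 𝓞 E) ∉ (𝔟 : Ideal (𝓞 E)))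
    (hρ : frob K L (b : Ideal (𝓞 K)) ≠ 1) :
    ∃ n : ℕ, frob K L (𝔮 : Ideal (𝓞 K)) = frob K L (b : Ideal (𝓞 K)) ^ n ∧
      ClassGroup.mk0 𝔮 * (ClassGroup.mk0 b ^ n)⁻¹ ∈ normClasses K L p := by
  have hcard : Nat.card Gal(L/K) = p := by rw [IsGalois.card_aut_eq_finrank, hdeg]
  have hab : ∀ σ τ : Gal(L/K), σ * τ = τ * σ := by
    haveI : Fact p.Prime := ⟨hp⟩
    haveI : IsCyclic Gal(L/K) := isCyclic_of_prime_card hcard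
    intro σ τ
    obtain ⟨g, hg⟩ := IsCyclic.exists_generator (α := Gal(L/K))
    obtain ⟨a, rfl⟩ := Subgroup.mem_zpowers_iff.mp (hg σ)
    obtain ⟨b, rfl⟩ := Subgroup.mem_zpowers_iff.mp (hg τ)
    rw [← zpow_add, ← zpow_add, add_comm]
  -- the values of `res ∘ ψ`
  have h1 : res K L E F (ψ (ClassGroup.mk0 𝔔)) = frob K L (𝔮 : Ideal (𝓞 K)) := by
    rw [res_of_isFrob hab hunr h𝔔 (nonZeroDivisors.coe_ne_zero 𝔔) (hψ 𝔔 h𝔔 h𝔔r), h𝔔u, h𝔔f,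
      pow_one]
  have h2 : res K L E F (ψ (ClassGroup.mk0 𝔟)) = frob K L (b : Ideal (𝓞 K)) := by
    rw [res_of_isFrob hab hunr h𝔟 (nonZeroDivisors.coe_ne_zero 𝔟) (hψ 𝔟 h𝔟 h𝔟r), h𝔟u, h𝔟f,
      pow_one]
  -- the exponent
  obtain ⟨n, hn⟩ : ∃ n : ℕ, frob K L (b : Ideal (𝓞 K)) ^ n = frob K L (𝔮 : Ideal (𝓞 K)) := by
    haveI : Fact p.Prime := ⟨hp⟩
    have htop : Subgroup.zpowers (frob K L (b : Ideal (𝓞 K))) = ⊤ :=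
      zpowers_eq_top_of_prime_card hcard hρ
    have hmem : frob K L (𝔮 : Ideal (𝓞 K)) ∈ Subgroup.zpowers (frob K L (b : Ideal (𝓞 K))) := by
      rw [htop]; trivial
    haveI : Finite Gal(L/K) := Nat.finite_of_card_ne_zero (hcard ▸ hp.ne_zero)
    obtain ⟨n, hn⟩ := mem_powers_iff_mem_zpowers.mpr hmem
    exact ⟨n, hn⟩
  refine ⟨n, hn.symm, ?_⟩
  have h3 : res K L E F (ψ (ClassGroup.mk0 𝔔 * (ClassGroup.mk0 𝔟 ^ n)⁻¹)) = 1 := by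
    rw [map_mul, map_mul, map_inv, map_inv, map_pow, map_pow, h1, h2, hn, mul_inv_cancel]
  have h4 := classNorm_mem_of_res_eq_one hp hdeg hunr hinj ψ hker h3
  rw [map_mul, map_inv, map_pow, ClassNorm.classNorm_mk0_prime 𝔔 h𝔔 𝔮 h𝔔u,
    ClassNorm.classNorm_mk0_prime 𝔟 h𝔟 b h𝔟u, h𝔔f, h𝔟f, pow_one, pow_one] at h4
  exact h4

end Single

/-! ### The common prime -/

section Common

variable {K L E F : Type*} [Field K] [Field L] [Field E] [Field F] [NumberField K]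
  [NumberField L] [NumberField E] [NumberField F]
  [Algebra K L] [Algebra K E] [Algebra L F] [Algebra E F] [Algebra K F]
  [IsScalarTower K L F] [IsScalarTower K E F] [IsGalois K L] [IsGalois E F]

/-- There is a prime `𝔅` of `E` of absolute degree one, outside a given finite set, such that
the Frobenius of `L / K` at the prime of `K` below `𝔅` is not trivial. -/
theorem exists_prime_frob_ne_one (hab : ∀ σ τ : Gal(L/K), σ * τ = τ * σ)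
    (hunr : UnramifiedEverywhere K L) (hinj : Function.Injective (res K L E F))
    (hdegF : 1 < Module.finrank E F) (S : Finset (Ideal (𝓞 E))) :
    ∃ 𝔅 : Ideal (𝓞 E), 𝔅.IsPrime ∧ 𝔅 ≠ ⊥ ∧ 𝔅 ∉ S ∧ (Ideal.absNorm 𝔅).Prime ∧
      frob K L (𝔅.under (𝓞 K)) ≠ 1 := by
  obtain ⟨𝔅, h𝔅, h0, hS, hN, hunr𝔅, hns⟩ := Density.exists_not_split (K := E) (L := F) hdegF S
  refine ⟨𝔅, h𝔅, h0, hS, hN, ?_⟩
  haveI := h𝔅
  have habF : ∀ σ τ : Gal(F/E), σ * τ = τ * σ := by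
    intro σ τ
    apply hinj
    rw [map_mul, map_mul, hab]
  have hF := Frob.isFrob_frob habF 𝔅 h0
  have hne : frob E F 𝔅 ≠ 1 := by
    intro h1
    apply hns
    rw [← Frob.isFrob_one_iff h0 hunr𝔅, ← h1]
    exact hF
  have hres := res_of_isFrob (K := K) (L := L) hab hunr h𝔅 h0 hF
  rw [inertiaDeg_eq_one_of_absNorm_prime (K := K) h𝔅 h0 hN, pow_one] at hres
  intro h1
  apply hne
  apply hinj
  rw [hres, h1, map_one]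

end Common

/-- The prime below a prime of degree one in an intermediate field. -/
theorem exists_under_prime {K E' E : Type*} [Field K] [Field E'] [Field E] [NumberField K]
    [NumberField E'] [NumberField E] [Algebra K E'] [Algebra K E] [Algebra E' E]
    [IsScalarTower K E' E] {𝔅 : Ideal (𝓞 E)} (h𝔅 : 𝔅.IsPrime) (h𝔅0 : 𝔅 ≠ ⊥)
    (hfK : 𝔅.inertiaDeg (𝓞 K) = 1) {r : ℕ} (hr : (r : 𝓞 E) ∉ 𝔅) :
    ∃ 𝔟 : (Ideal (𝓞 E'))⁰, (𝔟 : Ideal (𝓞 E')).IsPrime ∧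
      (𝔟 : Ideal (𝓞 E')).under (𝓞 K) = 𝔅.under (𝓞 K) ∧
      (𝔟 : Ideal (𝓞 E')).inertiaDeg (𝓞 K) = 1 ∧ (r : 𝓞 E') ∉ (𝔟 : Ideal (𝓞 E')) := by
  haveI := h𝔅
  have h0 : 𝔅.under (𝓞 E') ≠ ⊥ := under_ne_bot' h𝔅0
  haveI hprime : (𝔅.under (𝓞 E')).IsPrime := Ideal.IsPrime.under (𝓞 E') 𝔅
  haveI : 𝔅.LiesOver (𝔅.under (𝓞 E')) := ⟨rfl⟩
  refine ⟨⟨𝔅.under (𝓞 E'), mem_nonZeroDivisors_of_ne_zero h0⟩, hprime, ?_, ?_, ?_⟩
  · exact Ideal.under_under 𝔅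
  · have h1 : 𝔅.inertiaDeg (𝓞 K) =
        (𝔅.under (𝓞 E')).inertiaDeg (𝓞 K) * 𝔅.inertiaDeg (𝓞 E') :=
      Ideal.inertiaDeg_tower (𝔅.under (𝓞 E')) 𝔅
    rw [hfK] at h1
    exact Nat.eq_one_of_mul_eq_one_right h1.symm
  · intro hmem
    apply hr
    have : algebraMap (𝓞 E') (𝓞 E) (r : 𝓞 E') ∈ 𝔅 := hmem
    simpa using this

/-! ### The pair statement for given auxiliary fields -/

section Pair

variable {K L E₁ F₁ E₂ F₂ E F : Type*} [Field K] [Field L] [Field E₁] [Field F₁] [Field E₂]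
  [Field F₂] [Field E] [Field F] [NumberField K] [NumberField L] [NumberField E₁]
  [NumberField F₁] [NumberField E₂] [NumberField F₂] [NumberField E] [NumberField F]
  [Algebra K L] [IsGalois K L]
  [Algebra K E₁] [Algebra L F₁] [Algebra E₁ F₁] [Algebra K F₁]
  [IsScalarTower K L F₁] [IsScalarTower K E₁ F₁] [IsGalois E₁ F₁]
  [Algebra K E₂] [Algebra L F₂] [Algebra E₂ F₂] [Algebra K F₂]
  [IsScalarTower K L F₂] [IsScalarTower K E₂ F₂] [IsGalois E₂ F₂]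
  [Algebra K E] [Algebra L F] [Algebra E F] [Algebra K F]
  [IsScalarTower K L F] [IsScalarTower K E F] [IsGalois E F]
  [Algebra E₁ E] [IsScalarTower K E₁ E] [Algebra E₂ E] [IsScalarTower K E₂ E]

/-- **The pair statement** for two primes `𝔮₁, 𝔮₂` of `K`, given auxiliary fields `E₁, E₂`
(with `Fᵢ = L Eᵢ`, homomorphisms `ψᵢ` on the class group of `Eᵢ` with Frobenius values away
from `rᵢ` and kernel in the norm classes, and primes `𝔔ᵢ` of degree one above `𝔮ᵢ`) and a common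
extension `E ⊇ E₁, E₂` with `F = L E ≠ E`. -/
theorem pair_of_fields {p : ℕ} (hp : p.Prime) (hdeg : Module.finrank K L = p)
    (hunr : UnramifiedEverywhere K L)
    (hinj₁ : Function.Injective (res K L E₁ F₁)) (hinj₂ : Function.Injective (res K L E₂ F₂))
    (hinj : Function.Injective (res K L E F)) (hdegF : 1 < Module.finrank E F)
    {r₁ r₂ : ℕ} (hr₁ : r₁ ≠ 0) (hr₂ : r₂ ≠ 0)
    (ψ₁ : ClassGroup (𝓞 E₁) →* Gal(F₁/E₁))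
    (hψ₁ : ∀ 𝔓 : (Ideal (𝓞 E₁))⁰, (𝔓 : Ideal (𝓞 E₁)).IsPrime →
      (r₁ : 𝓞 E₁) ∉ (𝔓 : Ideal (𝓞 E₁)) → IsFrob E₁ F₁ (ψ₁ (ClassGroup.mk0 𝔓)) 𝔓)
    (hker₁ : ∀ c : ClassGroup (𝓞 E₁), ψ₁ c = 1 → c ∈ normClasses E₁ F₁ p)
    (ψ₂ : ClassGroup (𝓞 E₂) →* Gal(F₂/E₂))
    (hψ₂ : ∀ 𝔓 : (Ideal (𝓞 E₂))⁰, (𝔓 : Ideal (𝓞 E₂)).IsPrime →
      (r₂ : 𝓞 E₂) ∉ (𝔓 : Ideal (𝓞 E₂)) → IsFrob E₂ F₂ (ψ₂ (ClassGroup.mk0 𝔓)) 𝔓)
    (hker₂ : ∀ c : ClassGroup (𝓞 E₂), ψ₂ c = 1 → c ∈ normClasses E₂ F₂ p)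
    (𝔮₁ 𝔮₂ : (Ideal (𝓞 K))⁰)
    (𝔔₁ : (Ideal (𝓞 E₁))⁰) (h𝔔₁ : (𝔔₁ : Ideal (𝓞 E₁)).IsPrime)
    (h𝔔₁u : (𝔔₁ : Ideal (𝓞 E₁)).under (𝓞 K) = 𝔮₁)
    (h𝔔₁f : (𝔔₁ : Ideal (𝓞 E₁)).inertiaDeg (𝓞 K) = 1)
    (h𝔔₁r : (r₁ : 𝓞 E₁) ∉ (𝔔₁ : Ideal (𝓞 E₁)))
    (𝔔₂ : (Ideal (𝓞 E₂))⁰) (h𝔔₂ : (𝔔₂ : Ideal (𝓞 E₂)).IsPrime)
    (h𝔔₂u : (𝔔₂ : Ideal (𝓞 E₂)).under (𝓞 K) = 𝔮₂)
    (h𝔔₂f : (𝔔₂ : Ideal (𝓞 E₂)).inertiaDeg (𝓞 K) = 1)
    (h𝔔₂r : (r₂ : 𝓞 E₂) ∉ (𝔔₂ : Ideal (𝓞 E₂)))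
    (σ : Gal(L/K)) (e : ℕ) (h𝔮₁ : (𝔮₁ : Ideal (𝓞 K)).IsPrime)
    (h𝔮₂ : (𝔮₂ : Ideal (𝓞 K)).IsPrime)
    (hF₂ : IsFrob K L σ 𝔮₂) (hF₁ : IsFrob K L (σ ^ e) 𝔮₁) :
    ClassGroup.mk0 𝔮₁ * (ClassGroup.mk0 𝔮₂ ^ e)⁻¹ ∈ normClasses K L p := by
  classical
  have hcard : Nat.card Gal(L/K) = p := by rw [IsGalois.card_aut_eq_finrank, hdeg]
  have hab : ∀ σ τ : Gal(L/K), σ * τ = τ * σ := by
    haveI : Fact p.Prime := ⟨hp⟩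
    haveI : IsCyclic Gal(L/K) := isCyclic_of_prime_card hcard
    intro σ τ
    obtain ⟨g, hg⟩ := IsCyclic.exists_generator (α := Gal(L/K))
    obtain ⟨a, rfl⟩ := Subgroup.mem_zpowers_iff.mp (hg σ)
    obtain ⟨b, rfl⟩ := Subgroup.mem_zpowers_iff.mp (hg τ)
    rw [← zpow_add, ← zpow_add, add_comm]
  -- the common prime
  set S : Finset (Ideal (𝓞 E)) :=
    ((finite_primes_mem E hr₁).toFinset ∪ (finite_primes_mem E hr₂).toFinset) with hS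
  obtain ⟨𝔅, h𝔅, h𝔅0, h𝔅S, h𝔅N, hρ⟩ :=
    exists_prime_frob_ne_one (K := K) (L := L) (E := E) (F := F) hab hunr hinj hdegF S
  haveI := h𝔅
  have hr₁𝔅 : (r₁ : 𝓞 E) ∉ 𝔅 := fun h => h𝔅S (by
    rw [hS, Finset.mem_union, Set.Finite.mem_toFinset]; exact Or.inl ⟨h𝔅, h⟩)
  have hr₂𝔅 : (r₂ : 𝓞 E) ∉ 𝔅 := fun h => h𝔅S (by
    rw [hS, Finset.mem_union, Set.Finite.mem_toFinset, Set.Finite.mem_toFinset]
    exact Or.inr ⟨h𝔅, h⟩)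
  set b : (Ideal (𝓞 K))⁰ := ⟨𝔅.under (𝓞 K),
    mem_nonZeroDivisors_of_ne_zero (under_ne_bot' h𝔅0)⟩ with hb
  have hfK : 𝔅.inertiaDeg (𝓞 K) = 1 := inertiaDeg_eq_one_of_absNorm_prime (K := K) h𝔅 h𝔅0 h𝔅N
  -- the primes below in `E₁` and `E₂`
  obtain ⟨𝔟₁, h𝔟₁, h𝔟₁u, h𝔟₁f, h𝔟₁r⟩ :=
    exists_under_prime (K := K) (E' := E₁) h𝔅 h𝔅0 hfK hr₁𝔅
  obtain ⟨𝔟₂, h𝔟₂, h𝔟₂u, h𝔟₂f, h𝔟₂r⟩ :=
    exists_under_prime (K := K) (E' := E₂) h𝔅 h𝔅0 hfK hr₂𝔅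
  obtain ⟨n₁, hn₁, hc₁⟩ := exists_pow_of_field (K := K) (L := L) (E := E₁) (F := F₁) hp hdeg
    hunr hinj₁ ψ₁ hψ₁ hker₁ 𝔮₁ b 𝔔₁ h𝔔₁ h𝔔₁u h𝔔₁f h𝔔₁r 𝔟₁ h𝔟₁ h𝔟₁u h𝔟₁f h𝔟₁r hρ
  obtain ⟨n₂, hn₂, hc₂⟩ := exists_pow_of_field (K := K) (L := L) (E := E₂) (F := F₂) hp hdeg
    hunr hinj₂ ψ₂ hψ₂ hker₂ 𝔮₂ b 𝔔₂ h𝔔₂ h𝔔₂u h𝔔₂f h𝔔₂r 𝔟₂ h𝔟₂ h𝔟₂u h𝔟₂f h𝔟₂r hρ
  have hu₁ : Frob.UnramifiedAt K L (𝔮₁ : Ideal (𝓞 K)) :=
    Frob.unramifiedAt_of_unramifiedEverywhere hunr (nonZeroDivisors.coe_ne_zero 𝔮₁)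
  have hu₂ : Frob.UnramifiedAt K L (𝔮₂ : Ideal (𝓞 K)) :=
    Frob.unramifiedAt_of_unramifiedEverywhere hunr (nonZeroDivisors.coe_ne_zero 𝔮₂)
  have hg₁ : frob K L (𝔮₁ : Ideal (𝓞 K)) = σ ^ e :=
    haveI := h𝔮₁
    Frob.frob_eq hab (nonZeroDivisors.coe_ne_zero 𝔮₁) hu₁ hF₁
  have hg₂ : frob K L (𝔮₂ : Ideal (𝓞 K)) = σ :=
    haveI := h𝔮₂
    Frob.frob_eq hab (nonZeroDivisors.coe_ne_zero 𝔮₂) hu₂ hF₂
  exact cross_group hp hcard (normClasses K L p) (pow_mem_normClasses K L p) hρ hn₁ hn₂ hc₁ hc₂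
    (by rw [hg₁, hg₂])

end Pair

/-! ### The pair statement inside a common top field -/

section Top

variable {K L : Type*} [Field K] [Field L] [NumberField K] [NumberField L]
  [Algebra K L] [IsGalois K L]

section One

variable {E F Ω : Type*} [Field E] [Field F] [Field Ω] [NumberField E] [NumberField F]
  [NumberField Ω]
  [Algebra K E] [Algebra L F] [Algebra E F] [Algebra K F]
  [IsScalarTower K L F] [IsScalarTower K E F] [IsGalois E F]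
  [Algebra K Ω] [Algebra E Ω] [Algebra F Ω] [IsScalarTower E F Ω] [IsScalarTower K E Ω]
  [IsGalois K Ω]

/-- The prime of `E` below a prime `𝔓` of `Ω` with a Frobenius over `K` fixing `E`. -/
theorem exists_under_of_fixed {τ : Gal(Ω/K)} {𝔓 : Ideal (𝓞 Ω)} (h𝔓 : 𝔓.IsPrime)
    (h0 : 𝔓 ≠ ⊥) (hτ : IsArithFrobAt (𝓞 K) τ 𝔓)
    (hfix : ∀ x : E, τ (algebraMap E Ω x) = algebraMap E Ω x) {m : ℕ}
    (hm : (m : 𝓞 K) ∉ 𝔓.under (𝓞 K)) :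
    ∃ 𝔟 : (Ideal (𝓞 E))⁰, (𝔟 : Ideal (𝓞 E)).IsPrime ∧
      (𝔟 : Ideal (𝓞 E)).under (𝓞 K) = 𝔓.under (𝓞 K) ∧
      (𝔟 : Ideal (𝓞 E)).inertiaDeg (𝓞 K) = 1 ∧ (m : 𝓞 E) ∉ (𝔟 : Ideal (𝓞 E)) := by
  haveI := h𝔓
  have h0' : 𝔓.under (𝓞 E) ≠ ⊥ := under_ne_bot' h0
  haveI hprime : (𝔓.under (𝓞 E)).IsPrime := Ideal.IsPrime.under (𝓞 E) 𝔓
  have hu : (𝔓.under (𝓞 E)).under (𝓞 K) = 𝔓.under (𝓞 K) := Ideal.under_under 𝔓
  refine ⟨⟨𝔓.under (𝓞 E), mem_nonZeroDivisors_of_ne_zero h0'⟩, hprime, hu,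
    inertiaDeg_under_eq_one h0 hτ hfix, ?_⟩
  intro hmem
  apply hm
  rw [← hu]
  have : algebraMap (𝓞 K) (𝓞 E) (m : 𝓞 K) ∈ 𝔓.under (𝓞 E) := by
    rw [map_natCast]
    exact hmem
  exact this

/-- The conclusion for one auxiliary field `E ⊆ Ω = E(ζ_m)`, `F = L E`: if `𝔮` and `b` both have
a prime of `Ω` above them with a Frobenius over `K` fixing `E`, then `[𝔮] ≡ [b] ^ n` modulo the
norm classes, where `Frob 𝔮 = (Frob b) ^ n`. -/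
theorem exists_pow_of_top {p m : ℕ} (hp : p.Prime) (hp2 : p ≠ 2)
    (hdeg : Module.finrank K L = p) (hunr : UnramifiedEverywhere K L) (hm : Nat.Coprime p m)
    [IsCyclotomicExtension {m} E Ω]
    (hinj : Function.Injective (res K L E F)) (hdegF : Module.finrank E F = p)
    (𝔮 b : (Ideal (𝓞 K))⁰)
    {g : Gal(Ω/K)} {𝔓 : Ideal (𝓞 Ω)} (h𝔓 : 𝔓.IsPrime) (h𝔓0 : 𝔓 ≠ ⊥)
    (hg : IsArithFrobAt (𝓞 K) g 𝔓) (hgfix : ∀ x : E, g (algebraMap E Ω x) = algebraMap E Ω x)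
    (h𝔓u : 𝔓.under (𝓞 K) = 𝔮) (h𝔮m : (m : 𝓞 K) ∉ (𝔮 : Ideal (𝓞 K)))
    {τ : Gal(Ω/K)} {𝔓' : Ideal (𝓞 Ω)} (h𝔓' : 𝔓'.IsPrime) (h𝔓'0 : 𝔓' ≠ ⊥)
    (hτ : IsArithFrobAt (𝓞 K) τ 𝔓') (hτfix : ∀ x : E, τ (algebraMap E Ω x) = algebraMap E Ω x)
    (h𝔓'u : 𝔓'.under (𝓞 K) = b) (hbm : (m : 𝓞 K) ∉ (b : Ideal (𝓞 K)))
    (hρ : frob K L (b : Ideal (𝓞 K)) ≠ 1) :
    ∃ n : ℕ, frob K L (𝔮 : Ideal (𝓞 K)) = frob K L (b : Ideal (𝓞 K)) ^ n ∧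
      ClassGroup.mk0 𝔮 * (ClassGroup.mk0 b ^ n)⁻¹ ∈ normClasses K L p := by
  have hcard : Nat.card Gal(L/K) = p := by rw [IsGalois.card_aut_eq_finrank, hdeg]
  have hab : ∀ σ τ : Gal(L/K), σ * τ = τ * σ := by
    haveI : Fact p.Prime := ⟨hp⟩
    haveI : IsCyclic Gal(L/K) := isCyclic_of_prime_card hcard
    intro σ τ
    obtain ⟨g, hg⟩ := IsCyclic.exists_generator (α := Gal(L/K))
    obtain ⟨a, rfl⟩ := Subgroup.mem_zpowers_iff.mp (hg σ)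
    obtain ⟨b, rfl⟩ := Subgroup.mem_zpowers_iff.mp (hg τ)
    rw [← zpow_add, ← zpow_add, add_comm]
  have habF : ∀ σ τ : Gal(F/E), σ * τ = τ * σ := by
    intro σ τ
    apply hinj
    rw [map_mul, map_mul, hab]
  have hunrF : UnramifiedEverywhere E F := unramifiedEverywhere_of_res_injective hunr hinj
  obtain ⟨𝔔, h𝔔, h𝔔u, h𝔔f, h𝔔m⟩ :=
    exists_under_of_fixed (E := E) h𝔓 h𝔓0 hg hgfix (m := m) (h𝔓u ▸ h𝔮m)
  obtain ⟨𝔟, h𝔟, h𝔟u, h𝔟f, h𝔟m⟩ :=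
    exists_under_of_fixed (E := E) h𝔓' h𝔓'0 hτ hτfix (m := m) (h𝔓'u ▸ hbm)
  rw [h𝔓u] at h𝔔u
  rw [h𝔓'u] at h𝔟u
  -- the values of `res ∘ artin`
  have h1 : res K L E F (artin E F habF 𝔔) = frob K L (𝔮 : Ideal (𝓞 K)) := by
    rw [res_of_isFrob hab hunr h𝔔 (nonZeroDivisors.coe_ne_zero 𝔔) (isFrob_artin habF 𝔔 h𝔔),
      h𝔔u, h𝔔f, pow_one]
  have h2 : res K L E F (artin E F habF 𝔟) = frob K L (b : Ideal (𝓞 K)) := by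
    rw [res_of_isFrob hab hunr h𝔟 (nonZeroDivisors.coe_ne_zero 𝔟) (isFrob_artin habF 𝔟 h𝔟),
      h𝔟u, h𝔟f, pow_one]
  obtain ⟨n, hn⟩ : ∃ n : ℕ, frob K L (b : Ideal (𝓞 K)) ^ n = frob K L (𝔮 : Ideal (𝓞 K)) := by
    haveI : Fact p.Prime := ⟨hp⟩
    have htop : Subgroup.zpowers (frob K L (b : Ideal (𝓞 K))) = ⊤ :=
      zpowers_eq_top_of_prime_card hcard hρ
    have hmem : frob K L (𝔮 : Ideal (𝓞 K)) ∈ Subgroup.zpowers (frob K L (b : Ideal (𝓞 K))) := by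
      rw [htop]; trivial
    haveI : Finite Gal(L/K) := Nat.finite_of_card_ne_zero (hcard ▸ hp.ne_zero)
    obtain ⟨n, hn⟩ := mem_powers_iff_mem_zpowers.mpr hmem
    exact ⟨n, hn⟩
  refine ⟨n, hn.symm, ?_⟩
  have h3 : artin E F habF 𝔔 = artin E F habF (𝔟 ^ n) := by
    apply hinj
    rw [map_pow, map_pow, h1, h2, hn]
  have hc𝔔 : (𝔔 : Ideal (𝓞 E)) ⊔ Ideal.span {(m : 𝓞 E)} = ⊤ :=
    Cyclo.sup_span_eq_top_of_notMem h𝔔 (nonZeroDivisors.coe_ne_zero 𝔔) h𝔔m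
  have hc𝔟 : ((𝔟 ^ n : (Ideal (𝓞 E))⁰) : Ideal (𝓞 E)) ⊔ Ideal.span {(m : 𝓞 E)} = ⊤ := by
    have h𝔟c : (𝔟 : Ideal (𝓞 E)) ⊔ Ideal.span {(m : 𝓞 E)} = ⊤ :=
      Cyclo.sup_span_eq_top_of_notMem h𝔟 (nonZeroDivisors.coe_ne_zero 𝔟) h𝔟m
    rw [SubmonoidClass.coe_pow]
    rw [← Ideal.isCoprime_iff_sup_eq] at h𝔟c ⊢
    exact IsCoprime.pow_left h𝔟c
  have h4 := Cyclo.mk0_mul_inv_mem_normClasses_of_coprime (Ω := Ω) hunrF hp hp2 hdegF hm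
    (artin E F habF) (fun 𝔮' h' => isFrob_artin habF 𝔮' h') 𝔔 (𝔟 ^ n) hc𝔔 hc𝔟 h3
  have h5 := ClassNorm.map_normClasses_le (K := K) (L := L) (E := E) (F := F) hp hdeg hunr
    (Subgroup.mem_map_of_mem _ h4)
  rw [map_mul, map_inv, map_pow, map_pow, ClassNorm.classNorm_mk0_prime 𝔔 h𝔔 𝔮 h𝔔u,
    ClassNorm.classNorm_mk0_prime 𝔟 h𝔟 b h𝔟u, h𝔔f, h𝔟f, pow_one, pow_one] at h5
  exact h5

end One

section Two

variable {E₁ F₁ E₂ F₂ E F Ω : Type*} [Field E₁] [Field F₁] [Field E₂] [Field F₂] [Field E]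
  [Field F] [Field Ω] [NumberField E₁] [NumberField F₁] [NumberField E₂] [NumberField F₂]
  [NumberField E] [NumberField F] [NumberField Ω]
  [Algebra K Ω] [IsGalois K Ω]
  [Algebra K E₁] [Algebra L F₁] [Algebra E₁ F₁] [Algebra K F₁]
  [IsScalarTower K L F₁] [IsScalarTower K E₁ F₁] [IsGalois E₁ F₁]
  [Algebra E₁ Ω] [Algebra F₁ Ω] [IsScalarTower E₁ F₁ Ω] [IsScalarTower K E₁ Ω]
  [Algebra K E₂] [Algebra L F₂] [Algebra E₂ F₂] [Algebra K F₂]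
  [IsScalarTower K L F₂] [IsScalarTower K E₂ F₂] [IsGalois E₂ F₂]
  [Algebra E₂ Ω] [Algebra F₂ Ω] [IsScalarTower E₂ F₂ Ω] [IsScalarTower K E₂ Ω]
  [Algebra K E] [Algebra L F] [Algebra E F] [Algebra K F]
  [IsScalarTower K L F] [IsScalarTower K E F] [IsGalois E F]
  [Algebra E Ω] [IsScalarTower K E Ω] [IsGalois E Ω]

/-- A Frobenius of `Ω / E` at a prime `𝔓` whose trace on `E` has residue degree one over `K`
is a Frobenius of `Ω / K` at `𝔓`. -/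
theorem isArithFrobAt_restrictScalars {τ : Gal(Ω/E)} {𝔓 : Ideal (𝓞 Ω)} (h𝔓 : 𝔓.IsPrime)
    (h0 : 𝔓 ≠ ⊥) (hτ : IsArithFrobAt (𝓞 E) τ 𝔓)
    (hf : (𝔓.under (𝓞 E)).inertiaDeg (𝓞 K) = 1) :
    IsArithFrobAt (𝓞 K) (τ.restrictScalars K : Gal(Ω/K)) 𝔓 := by
  haveI := h𝔓
  have h0' : 𝔓.under (𝓞 E) ≠ ⊥ := under_ne_bot' h0
  haveI hprime : (𝔓.under (𝓞 E)).IsPrime := Ideal.IsPrime.under (𝓞 E) 𝔓
  have hu : (𝔓.under (𝓞 E)).under (𝓞 K) = 𝔓.under (𝓞 K) := Ideal.under_under 𝔓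
  have hcard := Artin.card_quot_eq_pow (K := K) (𝔓.under (𝓞 E)) h0'
  rw [hf, pow_one, hu] at hcard
  intro x
  have h1 := hτ x
  rw [hcard] at h1
  exact h1

/-- **The pair statement inside a common top field.**  `Ω / K` is Galois, `E₁, E₂ ⊆ E` are
subfields of `Ω` with `Ω = Eᵢ(ζ_m)`, `Fᵢ = L Eᵢ` and `F = L E ≠ E`; the primes `𝔮₁, 𝔮₂` of `K`
(prime to `m`) have Frobenius elements `gᵢ` in `Gal(Ω/K)` fixing `Eᵢ`.  Then the classes of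
`𝔮₁` and `𝔮₂` satisfy the same relation modulo the norm classes as their Frobenius elements in
`Gal(L/K)`. -/
theorem pair_of_top {p m : ℕ} (hp : p.Prime) (hp2 : p ≠ 2)
    (hdeg : Module.finrank K L = p) (hunr : UnramifiedEverywhere K L) (hm : Nat.Coprime p m)
    [IsCyclotomicExtension {m} E₁ Ω] [IsCyclotomicExtension {m} E₂ Ω]
    (hinj₁ : Function.Injective (res K L E₁ F₁)) (hdeg₁ : Module.finrank E₁ F₁ = p)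
    (hinj₂ : Function.Injective (res K L E₂ F₂)) (hdeg₂ : Module.finrank E₂ F₂ = p)
    (hinj : Function.Injective (res K L E F)) (hdegF : 1 < Module.finrank E F)
    (hfix₁ : ∀ (g : Gal(Ω/E)) (x : E₁), g (algebraMap E₁ Ω x) = algebraMap E₁ Ω x)
    (hfix₂ : ∀ (g : Gal(Ω/E)) (x : E₂), g (algebraMap E₂ Ω x) = algebraMap E₂ Ω x)
    (𝔮₁ 𝔮₂ : (Ideal (𝓞 K))⁰)
    (h𝔮₁ : (𝔮₁ : Ideal (𝓞 K)).IsPrime) (h𝔮₂ : (𝔮₂ : Ideal (𝓞 K)).IsPrime)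
    (h𝔮₁m : (m : 𝓞 K) ∉ (𝔮₁ : Ideal (𝓞 K))) (h𝔮₂m : (m : 𝓞 K) ∉ (𝔮₂ : Ideal (𝓞 K)))
    {g₁ : Gal(Ω/K)} {𝔓₁ : Ideal (𝓞 Ω)} (h𝔓₁ : 𝔓₁.IsPrime) (h𝔓₁0 : 𝔓₁ ≠ ⊥)
    (hg₁ : IsArithFrobAt (𝓞 K) g₁ 𝔓₁)
    (hg₁fix : ∀ x : E₁, g₁ (algebraMap E₁ Ω x) = algebraMap E₁ Ω x)
    (h𝔓₁u : 𝔓₁.under (𝓞 K) = 𝔮₁)
    {g₂ : Gal(Ω/K)} {𝔓₂ : Ideal (𝓞 Ω)} (h𝔓₂ : 𝔓₂.IsPrime) (h𝔓₂0 : 𝔓₂ ≠ ⊥)
    (hg₂ : IsArithFrobAt (𝓞 K) g₂ 𝔓₂)
    (hg₂fix : ∀ x : E₂, g₂ (algebraMap E₂ Ω x) = algebraMap E₂ Ω x)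
    (h𝔓₂u : 𝔓₂.under (𝓞 K) = 𝔮₂)
    (σ : Gal(L/K)) (e : ℕ)
    (hF₂ : IsFrob K L σ 𝔮₂) (hF₁ : IsFrob K L (σ ^ e) 𝔮₁) :
    ClassGroup.mk0 𝔮₁ * (ClassGroup.mk0 𝔮₂ ^ e)⁻¹ ∈ normClasses K L p := by
  classical
  have hcard : Nat.card Gal(L/K) = p := by rw [IsGalois.card_aut_eq_finrank, hdeg]
  have hab : ∀ σ τ : Gal(L/K), σ * τ = τ * σ := by
    haveI : Fact p.Prime := ⟨hp⟩
    haveI : IsCyclic Gal(L/K) := isCyclic_of_prime_card hcard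
    intro σ τ
    obtain ⟨g, hg⟩ := IsCyclic.exists_generator (α := Gal(L/K))
    obtain ⟨a, rfl⟩ := Subgroup.mem_zpowers_iff.mp (hg σ)
    obtain ⟨b, rfl⟩ := Subgroup.mem_zpowers_iff.mp (hg τ)
    rw [← zpow_add, ← zpow_add, add_comm]
  have hm0 : m ≠ 0 := by
    rintro rfl
    apply h𝔮₁m
    rw [Nat.cast_zero]
    exact Ideal.zero_mem _
  -- the common prime
  obtain ⟨𝔅, h𝔅, h𝔅0, h𝔅S, h𝔅N, hρ⟩ :=
    exists_prime_frob_ne_one (K := K) (L := L) (E := E) (F := F) hab hunr hinj hdegF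
      (finite_primes_mem E hm0).toFinset
  haveI := h𝔅
  have hm𝔅 : (m : 𝓞 E) ∉ 𝔅 := fun h => h𝔅S (by
    rw [Set.Finite.mem_toFinset]; exact ⟨h𝔅, h⟩)
  have hfK : 𝔅.inertiaDeg (𝓞 K) = 1 := inertiaDeg_eq_one_of_absNorm_prime (K := K) h𝔅 h𝔅0 h𝔅N
  set b : (Ideal (𝓞 K))⁰ := ⟨𝔅.under (𝓞 K),
    mem_nonZeroDivisors_of_ne_zero (under_ne_bot' h𝔅0)⟩ with hb
  have hbm : (m : 𝓞 K) ∉ (b : Ideal (𝓞 K)) := by
    intro hmem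
    apply hm𝔅
    have h1 : algebraMap (𝓞 K) (𝓞 E) (m : 𝓞 K) ∈ 𝔅 := hmem
    rwa [map_natCast] at h1
  -- a prime of `Ω` above it and its Frobenius
  obtain ⟨𝔓, h𝔓, h𝔓u⟩ := Frob.exists_prime_over (K := E) (L := Ω) 𝔅
  haveI := h𝔓
  have h𝔓0 : 𝔓 ≠ ⊥ := Frob.ne_bot_of_under_ne_bot (K := E) (h𝔓u ▸ h𝔅0)
  haveI : Finite (𝓞 Ω ⧸ 𝔓) := Ideal.finiteQuotientOfFreeOfNeBot 𝔓 h𝔓0
  obtain ⟨τ, hτ⟩ := IsArithFrobAt.exists_of_isInvariant (𝓞 E) Gal(Ω/E) 𝔓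
  have hτK : IsArithFrobAt (𝓞 K) (τ.restrictScalars K : Gal(Ω/K)) 𝔓 :=
    isArithFrobAt_restrictScalars (K := K) h𝔓 h𝔓0 hτ (by rw [h𝔓u]; exact hfK)
  have h𝔓b : 𝔓.under (𝓞 K) = b := by
    rw [hb]
    show 𝔓.under (𝓞 K) = 𝔅.under (𝓞 K)
    rw [← h𝔓u, Ideal.under_under]
  obtain ⟨n₁, hn₁, hc₁⟩ := exists_pow_of_top (K := K) (L := L) (E := E₁) (F := F₁) (Ω := Ω)
    hp hp2 hdeg hunr hm hinj₁ hdeg₁ 𝔮₁ b h𝔓₁ h𝔓₁0 hg₁ hg₁fix h𝔓₁u h𝔮₁m h𝔓 h𝔓0 hτK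
    (fun x => hfix₁ τ x) h𝔓b hbm hρ
  obtain ⟨n₂, hn₂, hc₂⟩ := exists_pow_of_top (K := K) (L := L) (E := E₂) (F := F₂) (Ω := Ω)
    hp hp2 hdeg hunr hm hinj₂ hdeg₂ 𝔮₂ b h𝔓₂ h𝔓₂0 hg₂ hg₂fix h𝔓₂u h𝔮₂m h𝔓 h𝔓0 hτK
    (fun x => hfix₂ τ x) h𝔓b hbm hρ
  have hu₁ : Frob.UnramifiedAt K L (𝔮₁ : Ideal (𝓞 K)) :=
    Frob.unramifiedAt_of_unramifiedEverywhere hunr (nonZeroDivisors.coe_ne_zero 𝔮₁)
  have hu₂ : Frob.UnramifiedAt K L (𝔮₂ : Ideal (𝓞 K)) :=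
    Frob.unramifiedAt_of_unramifiedEverywhere hunr (nonZeroDivisors.coe_ne_zero 𝔮₂)
  have hfr₁ : frob K L (𝔮₁ : Ideal (𝓞 K)) = σ ^ e :=
    haveI := h𝔮₁
    Frob.frob_eq hab (nonZeroDivisors.coe_ne_zero 𝔮₁) hu₁ hF₁
  have hfr₂ : frob K L (𝔮₂ : Ideal (𝓞 K)) = σ :=
    haveI := h𝔮₂
    Frob.frob_eq hab (nonZeroDivisors.coe_ne_zero 𝔮₂) hu₂ hF₂
  exact cross_group hp hcard (normClasses K L p) (pow_mem_normClasses K L p) hρ hn₁ hn₂ hc₁ hc₂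
    (by rw [hfr₁, hfr₂])

end Two

end Top

end Fermat.Agent.S14.CrossCalc
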