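import Mathlib
import Fermat.Agent.S14.Defs
import Fermat.Agent.S14.Dict
import Fermat.Agent.S14.Frob

/-!
# S14: base change of an unramified Galois extension is unramified

`K ⊆ L ⊆ F` and `K ⊆ E ⊆ F` are number fields, `L / K` and `F / E` are Galois and restriction
`Gal(F/E) → Gal(L/K)` is injective (for instance `F = L E`). If `L / K` is unramified at every
finite prime, so is `F / E`.
-/

set_option autoImplicit false
set_option linter.unusedSectionVars false

namespace Fermat.Agent.S14.UnramBase

open NumberField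
open scoped Pointwise

variable {K L E F : Type*} [Field K] [Field L] [Field E] [Field F]
  [NumberField K] [NumberField L] [NumberField E] [NumberField F]
  [Algebra K L] [Algebra K E] [Algebra L F] [Algebra E F] [Algebra K F]
  [IsScalarTower K L F] [IsScalarTower K E F] [IsGalois K L] [IsGalois E F]

/-- Restriction of automorphisms from `F / E` to `L / K`. -/
noncomputable def res : Gal(F/E) →* Gal(L/K) :=
  (AlgEquiv.restrictNormalHom (F := K) (K₁ := F) L).comp
    (AlgEquiv.restrictScalarsHom K : Gal(F/E) →* Gal(F/K))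

theorem res_commutes (g : Gal(F/E)) (y : L) :
    algebraMap L F (res (K := K) (L := L) g y) = g (algebraMap L F y) :=
  AlgEquiv.restrictNormal_commutes (g.restrictScalars K) L y

/-- The restriction of an element of the inertia group of a prime `𝔓` of `F` lies in the
inertia group of the prime of `L` below `𝔓`. -/
theorem res_mem_inertia (𝔓 : Ideal (𝓞 F)) (g : Gal(F/E)) (hg : g ∈ 𝔓.inertia Gal(F/E)) :
    res (K := K) (L := L) g ∈ (𝔓.under (𝓞 L)).inertia Gal(L/K) := by
  intro y
  show res (K := K) (L := L) g • y - y ∈ 𝔓.under (𝓞 L)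
  rw [Ideal.under_def, Ideal.mem_comap]
  have h1 := hg (algebraMap (𝓞 L) (𝓞 F) y)
  have h2 : algebraMap (𝓞 L) (𝓞 F) (res (K := K) (L := L) g • y - y) =
      g • (algebraMap (𝓞 L) (𝓞 F) y) - algebraMap (𝓞 L) (𝓞 F) y := by
    apply RingOfIntegers.ext
    show algebraMap L F ((res (K := K) (L := L) g • y - y : 𝓞 L) : L) =
      g (algebraMap L F (y : L)) - algebraMap L F (y : L)
    rw [← res_commutes (K := K) g (y : L), ← map_sub]
    rfl
  rw [h2]
  exact h1

/-- **Base change.** If `L / K` is unramified at every finite prime and restriction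
`Gal(F/E) → Gal(L/K)` is injective, then `F / E` is unramified at every finite prime. -/
theorem unramifiedEverywhere_of_tower
    (hinj : ∀ g : Gal(F/E), (∀ y : L, g (algebraMap L F y) = algebraMap L F y) → g = 1)
    (hunr : UnramifiedEverywhere K L) : UnramifiedEverywhere E F := by
  apply Fermat.Agent.S14.Dict.unramifiedEverywhere_of_inertia_eq_one
  intro 𝔓 h𝔓 h0 g hg
  apply hinj
  intro y
  have hprime : (𝔓.under (𝓞 L)).IsPrime := Ideal.IsPrime.under (𝓞 L) 𝔓
  have hne : 𝔓.under (𝓞 L) ≠ ⊥ := fun h => h0 (Ideal.eq_bot_of_comap_eq_bot (R := 𝓞 L) h)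
  have hbot : Ideal.inertia Gal(L/K) (𝔓.under (𝓞 L)) = ⊥ :=
    Fermat.Agent.S14.Frob.inertia_eq_bot (hunr _ hprime hne)
  have h1 := res_mem_inertia (K := K) (L := L) 𝔓 g hg
  rw [hbot, Subgroup.mem_bot] at h1
  rw [← res_commutes (K := K) g y, h1]
  rfl

end Fermat.Agent.S14.UnramBase
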