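import Mathlib
import Fermat.Agent.S14.Defs
import Fermat.Agent.S14.ArtinTower
import Fermat.Agent.S14.UnramBase

/-!
# S14: subfields of a finite Galois extension attached to a subgroup

`K ⊆ L ⊆ Ω` are number fields, `L / K` and `Ω / K` are Galois, and `D` is a subgroup of
`Gal(Ω/K)`. We put

* `EF D` : the fixed field of `D` (an intermediate field of `Ω / K`);
* `FF L D` : the fixed field of the elements of `D` which are trivial on `L`, i.e. the
  compositum of `L` and `EF D` (an intermediate field of `Ω / EF D`).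

Then `FF L D / EF D` is Galois, restriction `Gal(FF L D / EF D) → Gal(L/K)` is injective, and
bijective as soon as `D` maps onto `Gal(L/K)`; `FF L D / EF D` is unramified everywhere if
`L / K` is; and `Ω = (EF D)(ζ)` for every element `ζ` whose stabiliser in `D` is trivial.
-/

set_option autoImplicit false
set_option linter.unusedSectionVars false

namespace Fermat.Agent.S14.FixedSub

open NumberField
open scoped Pointwise

variable {K : Type*} (L : Type*) {Ω : Type*} [Field K] [Field L] [Field Ω]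
  [NumberField K] [NumberField L] [NumberField Ω]
  [Algebra K L] [Algebra L Ω] [Algebra K Ω] [IsScalarTower K L Ω]
  [IsGalois K L] [IsGalois K Ω]

variable (D : Subgroup Gal(Ω/K))

/-- The base field: the fixed field of `D`. -/
abbrev EF : IntermediateField K Ω := IntermediateField.fixedField D

/-- The subgroup of `D` of the elements which are trivial on `L`. -/
noncomputable abbrev sub : Subgroup Gal(Ω/K) :=
  D ⊓ (AlgEquiv.restrictNormalHom (F := K) (K₁ := Ω) L).ker

/-- The top field: the fixed field of the elements of `D` which are trivial on `L`, as an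
intermediate field of `Ω / EF D`. -/
noncomputable abbrev FF : IntermediateField (EF D) Ω :=
  IntermediateField.extendScalars (F := EF D) (E := IntermediateField.fixedField (sub L D))
    (IntermediateField.fixedField_le inf_le_left)

variable {D}

/-! ### Membership -/

theorem mem_ker_iff (τ : Gal(Ω/K)) :
    τ ∈ (AlgEquiv.restrictNormalHom (F := K) (K₁ := Ω) L).ker ↔
      ∀ y : L, τ (algebraMap L Ω y) = algebraMap L Ω y := by
  rw [MonoidHom.mem_ker]
  constructor
  · intro h y
    have h1 := AlgEquiv.restrictNormal_commutes τ L y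
    have h2 : τ.restrictNormal L = 1 := h
    rw [h2] at h1
    exact h1.symm
  · intro h
    ext y
    apply (algebraMap L Ω).injective
    have h1 := AlgEquiv.restrictNormal_commutes τ L y
    exact h1.trans (h y)

variable {L}

theorem mem_EF_iff (x : Ω) : x ∈ EF D ↔ ∀ τ ∈ D, τ x = x :=
  IntermediateField.mem_fixedField_iff D x

theorem mem_FF_iff (x : Ω) :
    x ∈ FF L D ↔ ∀ τ ∈ D, (∀ y : L, τ (algebraMap L Ω y) = algebraMap L Ω y) → τ x = x := by
  rw [FF, IntermediateField.mem_extendScalars, IntermediateField.mem_fixedField_iff]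
  constructor
  · intro h τ hτ hy
    exact h τ ⟨hτ, (mem_ker_iff L τ).2 hy⟩
  · intro h τ hτ
    exact h τ hτ.1 ((mem_ker_iff L τ).1 hτ.2)

theorem algebraMap_mem_FF (y : L) : algebraMap L Ω y ∈ FF L D :=
  (mem_FF_iff _).2 fun _ _ h => h y

/-- `τ ∈ D` iff `τ` fixes the fixed field of `D` pointwise. -/
theorem mem_iff_fixes (τ : Gal(Ω/K)) : τ ∈ D ↔ ∀ x ∈ EF D, τ x = x := by
  have h1 : (EF D).fixingSubgroup = D := IntermediateField.fixingSubgroup_fixedField D
  constructor
  · intro h x hx
    exact (mem_EF_iff x).1 hx τ h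
  · intro h
    rw [← h1, IntermediateField.mem_fixingSubgroup_iff]
    exact h

theorem restrictScalars_mem (g : Gal(Ω/EF D)) : g.restrictScalars K ∈ D := by
  rw [mem_iff_fixes]
  intro x hx
  exact g.commutes ⟨x, hx⟩

/-- An element of `D` as an automorphism of `Ω` over the fixed field of `D`. -/
noncomputable def lift (τ : Gal(Ω/K)) (hτ : τ ∈ D) : Gal(Ω/EF D) :=
  IntermediateField.fixingSubgroupEquiv (EF D)
    ⟨τ, (IntermediateField.mem_fixingSubgroup_iff _ _).2 ((mem_iff_fixes τ).1 hτ)⟩

theorem lift_apply (τ : Gal(Ω/K)) (hτ : τ ∈ D) (x : Ω) : lift τ hτ x = τ x := rfl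

theorem restrictScalars_lift (τ : Gal(Ω/K)) (hτ : τ ∈ D) : (lift τ hτ).restrictScalars K = τ :=
  rfl

/-- The elements of `D` fix the fixed field of `D`. -/
theorem apply_algebraMap_EF {τ : Gal(Ω/K)} (hτ : τ ∈ D) (x : EF D) :
    τ (algebraMap (EF D) Ω x) = algebraMap (EF D) Ω x :=
  (mem_EF_iff (x : Ω)).1 x.2 τ hτ

/-- The elements of `D` which are trivial on `L` fix `FF L D`. -/
theorem apply_algebraMap_FF {τ : Gal(Ω/K)} (hτ : τ ∈ D)
    (hL : ∀ y : L, τ (algebraMap L Ω y) = algebraMap L Ω y) (x : FF L D) :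
    τ (algebraMap (FF L D) Ω x) = algebraMap (FF L D) Ω x :=
  (mem_FF_iff (x : Ω)).1 x.2 τ hτ hL

/-! ### Instances -/

variable (L D)

noncomputable instance algebraFF : Algebra L (FF L D) :=
  RingHom.toAlgebra
    { toFun := fun y => ⟨algebraMap L Ω y, algebraMap_mem_FF y⟩
      map_one' := Subtype.ext (map_one _)
      map_mul' := fun _ _ => Subtype.ext (map_mul _ _ _)
      map_zero' := Subtype.ext (map_zero _)
      map_add' := fun _ _ => Subtype.ext (map_add _ _ _) }

theorem coe_algebraMap_FF (y : L) : ((algebraMap L (FF L D) y : FF L D) : Ω) = algebraMap L Ω y :=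
  rfl

instance isScalarTower_FF_top : IsScalarTower L (FF L D) Ω :=
  IsScalarTower.of_algebraMap_eq fun _ => rfl

instance isScalarTower_base_FF : IsScalarTower K L (FF L D) :=
  IsScalarTower.of_algebraMap_eq fun x => Subtype.ext (IsScalarTower.algebraMap_apply K L Ω x)

instance isScalarTower_base_FF_top : IsScalarTower K (FF L D) Ω :=
  IsScalarTower.of_algebraMap_eq fun _ => rfl

theorem fixingSubgroup_FF_normal : (FF L D).fixingSubgroup.Normal := by
  refine ⟨fun n hn g => ?_⟩
  rw [IntermediateField.mem_fixingSubgroup_iff] at hn ⊢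
  intro x hx
  have h1 : (g⁻¹ : Gal(Ω/EF D)) x ∈ FF L D := by
    rw [mem_FF_iff] at hx ⊢
    intro τ hτ hy
    set g₀ : Gal(Ω/K) := g.restrictScalars K with hg₀
    have hg₀D : g₀ ∈ D := restrictScalars_mem g
    have h2 : g₀ * τ * g₀⁻¹ ∈ D := D.mul_mem (D.mul_mem hg₀D hτ) (D.inv_mem hg₀D)
    have h3 : g₀ * τ * g₀⁻¹ ∈ (AlgEquiv.restrictNormalHom (F := K) (K₁ := Ω) L).ker :=
      (inferInstance : (AlgEquiv.restrictNormalHom (F := K) (K₁ := Ω) L).ker.Normal).conj_mem τ
        ((mem_ker_iff L τ).2 hy) g₀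
    have h4 := hx _ h2 ((mem_ker_iff L _).1 h3)
    have h5 : g₀ (τ (g₀⁻¹ x)) = x := h4
    have h6 := congrArg (g₀⁻¹ : Gal(Ω/K)) h5
    rw [show (g₀⁻¹ : Gal(Ω/K)) (g₀ (τ (g₀⁻¹ x))) = τ (g₀⁻¹ x) from g₀.symm_apply_apply _] at h6
    exact h6
  show g (n ((g⁻¹ : Gal(Ω/EF D)) x)) = x
  rw [hn _ h1]
  exact g.apply_symm_apply x

instance isGalois_FF : IsGalois (EF D) (FF L D) :=
  (InfiniteGalois.normal_iff_isGalois (FF L D)).mp (fixingSubgroup_FF_normal L D)

/-! ### Restriction to `L` -/

variable {L D}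

/-- Restriction from `FF / EF` to `L / K` of the restriction of an automorphism of
`Ω / EF D`. -/
theorem resHom_restrictNormalHom (g : Gal(Ω/EF D)) :
    ArtinTower.resHom K L (EF D) (FF L D) (AlgEquiv.restrictNormalHom (FF L D) g) =
      AlgEquiv.restrictNormalHom (F := K) (K₁ := Ω) L (g.restrictScalars K) := by
  ext y
  apply (algebraMap L Ω).injective
  have h1 := AlgEquiv.restrictNormal_commutes (g.restrictScalars K) L y
  have h2 := ArtinTower.algebraMap_resHom (K := K) (L := L) (E := EF D) (F := FF L D)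
    (AlgEquiv.restrictNormalHom (FF L D) g) y
  have h3 := AlgEquiv.restrictNormal_commutes g (FF L D) (algebraMap L (FF L D) y)
  have h4 := congrArg (algebraMap (FF L D) Ω) h2
  refine Eq.trans ?_ h1.symm
  refine Eq.trans ?_ (h4.trans h3)
  rfl

theorem eq_one_of_fixes (g : Gal(FF L D/EF D))
    (hg : ∀ y : L, g (algebraMap L (FF L D) y) = algebraMap L (FF L D) y) : g = 1 := by
  ext x
  set g' : Gal(Ω/EF D) := g.liftNormal Ω with hg'
  have hD : g'.restrictScalars K ∈ D := restrictScalars_mem g'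
  have hx : (x : Ω) ∈ FF L D := x.2
  rw [mem_FF_iff] at hx
  have h1 := hx _ hD (fun y => by
    have h2 := g.liftNormal_commutes Ω (algebraMap L (FF L D) y)
    rw [hg y] at h2
    exact h2)
  have h3 := g.liftNormal_commutes Ω x
  exact h3.symm.trans h1

theorem resHom_injective : Function.Injective (ArtinTower.resHom K L (EF D) (FF L D)) := by
  rw [injective_iff_map_eq_one]
  intro g hg
  apply eq_one_of_fixes
  intro y
  have h := ArtinTower.algebraMap_resHom (K := K) (L := L) (E := EF D) (F := FF L D) g y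
  rw [hg] at h
  exact h.symm

theorem resHom_surjective
    (hD : ∀ s : Gal(L/K), ∃ τ ∈ D, AlgEquiv.restrictNormalHom (F := K) (K₁ := Ω) L τ = s) :
    Function.Surjective (ArtinTower.resHom K L (EF D) (FF L D)) := by
  intro s
  obtain ⟨τ, hτ, hs⟩ := hD s
  refine ⟨AlgEquiv.restrictNormalHom (FF L D) (lift τ hτ), ?_⟩
  rw [resHom_restrictNormalHom, restrictScalars_lift, hs]

theorem finrank_FF
    (hD : ∀ s : Gal(L/K), ∃ τ ∈ D, AlgEquiv.restrictNormalHom (F := K) (K₁ := Ω) L τ = s) :
    Module.finrank (EF D) (FF L D) = Module.finrank K L := by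
  rw [← IsGalois.card_aut_eq_finrank, ← IsGalois.card_aut_eq_finrank]
  exact Nat.card_congr (Equiv.ofBijective _ ⟨resHom_injective, resHom_surjective hD⟩)

theorem card_aut_FF
    (hD : ∀ s : Gal(L/K), ∃ τ ∈ D, AlgEquiv.restrictNormalHom (F := K) (K₁ := Ω) L τ = s) :
    Nat.card Gal(FF L D/EF D) = Nat.card Gal(L/K) :=
  Nat.card_congr (Equiv.ofBijective _ ⟨resHom_injective, resHom_surjective hD⟩)

/-- `Gal(FF L D / EF D)` is commutative if `Gal(L/K)` is. -/
theorem mul_comm_of_mul_comm (hab : ∀ σ τ : Gal(L/K), σ * τ = τ * σ)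
    (σ τ : Gal(FF L D/EF D)) : σ * τ = τ * σ := by
  apply resHom_injective
  rw [map_mul, map_mul, hab]

theorem unramifiedEverywhere_FF (hunr : UnramifiedEverywhere K L) :
    UnramifiedEverywhere (EF D) (FF L D) :=
  UnramBase.unramifiedEverywhere_of_tower (K := K) (L := L) eq_one_of_fixes hunr

/-! ### Cyclotomic extensions -/

theorem adjoin_eq_top {ζ : Ω} (h1 : ∀ τ ∈ D, τ ζ = ζ → τ = 1) :
    IntermediateField.adjoin (EF D) {ζ} = ⊤ := by
  have h2 : (IntermediateField.adjoin (EF D) {ζ}).fixingSubgroup = ⊥ := by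
    rw [eq_bot_iff]
    intro g hg
    rw [IntermediateField.mem_fixingSubgroup_iff] at hg
    have h3 := hg ζ (IntermediateField.mem_adjoin_simple_self _ ζ)
    have h4 := h1 _ (restrictScalars_mem g) h3
    rw [Subgroup.mem_bot]
    ext y
    exact DFunLike.congr_fun h4 y
  rw [← IsGalois.fixedField_fixingSubgroup (IntermediateField.adjoin (EF D) {ζ}), h2,
      IntermediateField.fixedField_bot]

theorem isCyclotomicExtension {m : ℕ} [NeZero m] {ζ : Ω} (hζ : IsPrimitiveRoot ζ m)
    (h1 : ∀ τ ∈ D, τ ζ = ζ → τ = 1) : IsCyclotomicExtension {m} (EF D) Ω := by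
  rw [IsCyclotomicExtension.iff_singleton]
  refine ⟨⟨ζ, hζ⟩, fun x => ?_⟩
  have h5 := adjoin_eq_top h1
  have h6 : x ∈ (IntermediateField.adjoin (EF D) {ζ}).toSubalgebra := by
    rw [h5]; trivial
  have h7 : IsAlgebraic (EF D) ζ := Algebra.IsAlgebraic.isAlgebraic ζ
  have h8 : (IntermediateField.adjoin (EF D) {ζ}).toSubalgebra = Algebra.adjoin (EF D) {ζ} :=
    IntermediateField.adjoin_simple_toSubalgebra_of_isAlgebraic h7
  rw [h8] at h6
  have h9 : ({ζ} : Set Ω) ⊆ {b : Ω | b ^ m = 1} := Set.singleton_subset_iff.2 hζ.pow_eq_one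
  exact Algebra.adjoin_mono h9 h6

end Fermat.Agent.S14.FixedSub
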