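import Mathlib
import Fermat.Agent.S14.Defs
import Fermat.Agent.S14.Frob
import Fermat.Agent.S14.Artin
import Fermat.Agent.S14.FixedSub
import Fermat.Agent.S14.AuxField
import Fermat.Agent.S14.CrossCalc

/-!
# S14: the pair statement for two subgroups of `Gal(Ω/K)`

`CrossCalc.pair_of_top` instantiated at the fields `EF Dᵢ`, `FF L Dᵢ` of `FixedSub`:
for subgroups `D₁, D₂` of `Gal(Ω/K)` such that an element of `Dᵢ` fixing a primitive `m`-th root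
of unity is trivial and such that `D₁ ⊓ D₂` restricts onto `Gal(L/K)`, two primes `𝔮₁, 𝔮₂` of
`K` (prime to `m`) with Frobenius elements `gᵢ ∈ Dᵢ` satisfy the pair statement.
-/

set_option autoImplicit false
set_option linter.unusedSectionVars false
set_option linter.style.haveILetI false

namespace Fermat.Agent.S14.CrossInst

open NumberField nonZeroDivisors
open Fermat.Agent.S14.Frob Fermat.Agent.S14.Artin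

variable {K L Ω : Type*} [Field K] [Field L] [Field Ω]
  [NumberField K] [NumberField L] [NumberField Ω]
  [Algebra K L] [Algebra L Ω] [Algebra K Ω] [IsScalarTower K L Ω]
  [IsGalois K L] [IsGalois K Ω]

/-- The pair statement for two subgroups `D₁, D₂` of `Gal(Ω/K)`. -/
theorem pair_of_subgroups {p m : ℕ} [NeZero m] (hp : p.Prime) (hp2 : p ≠ 2)
    (hdeg : Module.finrank K L = p) (hunr : UnramifiedEverywhere K L) (hm : Nat.Coprime p m)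
    {ζ : Ω} (hζ : IsPrimitiveRoot ζ m) (D₁ D₂ : Subgroup Gal(Ω/K))
    (h1₁ : ∀ τ ∈ D₁, τ ζ = ζ → τ = 1) (h1₂ : ∀ τ ∈ D₂, τ ζ = ζ → τ = 1)
    (hD : ∀ s : Gal(L/K), ∃ τ ∈ D₁ ⊓ D₂, AlgEquiv.restrictNormalHom (F := K) (K₁ := Ω) L τ = s)
    (𝔮₁ 𝔮₂ : (Ideal (𝓞 K))⁰)
    (h𝔮₁ : (𝔮₁ : Ideal (𝓞 K)).IsPrime) (h𝔮₂ : (𝔮₂ : Ideal (𝓞 K)).IsPrime)
    (h𝔮₁m : (m : 𝓞 K) ∉ (𝔮₁ : Ideal (𝓞 K))) (h𝔮₂m : (m : 𝓞 K) ∉ (𝔮₂ : Ideal (𝓞 K)))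
    {g₁ : Gal(Ω/K)} {𝔓₁ : Ideal (𝓞 Ω)} (h𝔓₁ : 𝔓₁.IsPrime) (h𝔓₁0 : 𝔓₁ ≠ ⊥)
    (hg₁ : IsArithFrobAt (𝓞 K) g₁ 𝔓₁) (hg₁D : g₁ ∈ D₁) (h𝔓₁u : 𝔓₁.under (𝓞 K) = 𝔮₁)
    {g₂ : Gal(Ω/K)} {𝔓₂ : Ideal (𝓞 Ω)} (h𝔓₂ : 𝔓₂.IsPrime) (h𝔓₂0 : 𝔓₂ ≠ ⊥)
    (hg₂ : IsArithFrobAt (𝓞 K) g₂ 𝔓₂) (hg₂D : g₂ ∈ D₂) (h𝔓₂u : 𝔓₂.under (𝓞 K) = 𝔮₂)
    (σ : Gal(L/K)) (e : ℕ)
    (hF₂ : IsFrob K L σ 𝔮₂) (hF₁ : IsFrob K L (σ ^ e) 𝔮₁) :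
    ClassGroup.mk0 𝔮₁ * (ClassGroup.mk0 𝔮₂ ^ e)⁻¹ ∈ normClasses K L p := by
  have hD₁ : ∀ s : Gal(L/K), ∃ τ ∈ D₁, AlgEquiv.restrictNormalHom (F := K) (K₁ := Ω) L τ = s := by
    intro s
    obtain ⟨τ, hτ, hs⟩ := hD s
    exact ⟨τ, hτ.1, hs⟩
  have hD₂ : ∀ s : Gal(L/K), ∃ τ ∈ D₂, AlgEquiv.restrictNormalHom (F := K) (K₁ := Ω) L τ = s := by
    intro s
    obtain ⟨τ, hτ, hs⟩ := hD s
    exact ⟨τ, hτ.2, hs⟩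
  haveI : IsCyclotomicExtension {m} (FixedSub.EF D₁) Ω := FixedSub.isCyclotomicExtension hζ h1₁
  haveI : IsCyclotomicExtension {m} (FixedSub.EF D₂) Ω := FixedSub.isCyclotomicExtension hζ h1₂
  have hdegF : 1 < Module.finrank (FixedSub.EF (D₁ ⊓ D₂)) (FixedSub.FF L (D₁ ⊓ D₂)) := by
    rw [FixedSub.finrank_FF hD, hdeg]
    exact hp.one_lt
  exact CrossCalc.pair_of_top (K := K) (L := L)
    (E₁ := FixedSub.EF D₁) (F₁ := FixedSub.FF L D₁)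
    (E₂ := FixedSub.EF D₂) (F₂ := FixedSub.FF L D₂)
    (E := FixedSub.EF (D₁ ⊓ D₂)) (F := FixedSub.FF L (D₁ ⊓ D₂)) (Ω := Ω)
    hp hp2 hdeg hunr hm
    FixedSub.resHom_injective ((FixedSub.finrank_FF hD₁).trans hdeg)
    FixedSub.resHom_injective ((FixedSub.finrank_FF hD₂).trans hdeg)
    FixedSub.resHom_injective hdegF
    (fun g x => FixedSub.apply_algebraMap_EF (D := D₁) (FixedSub.restrictScalars_mem g).1 x)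
    (fun g x => FixedSub.apply_algebraMap_EF (D := D₂) (FixedSub.restrictScalars_mem g).2 x)
    𝔮₁ 𝔮₂ h𝔮₁ h𝔮₂ h𝔮₁m h𝔮₂m
    h𝔓₁ h𝔓₁0 hg₁ (fun x => FixedSub.apply_algebraMap_EF hg₁D x) h𝔓₁u
    h𝔓₂ h𝔓₂0 hg₂ (fun x => FixedSub.apply_algebraMap_EF hg₂D x) h𝔓₂u
    σ e hF₂ hF₁

end Fermat.Agent.S14.CrossInst
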