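import Mathlib
import Fermat.Agent.S14.Defs
import Fermat.Agent.S14.Frob
import Fermat.Agent.S14.ArtinLemma
import Fermat.Agent.S14.CycloDisjoint
import Fermat.Agent.S14.AuxField
import Fermat.Agent.S14.CrossInst

/-!
# S14: the pair statement (crossing with cyclotomic fields)

`L / K` is a Galois extension of number fields of odd prime degree `p`, unramified at every finite
prime.  For two primes `𝔮₁, 𝔮₂` of `K` with Frobenius `σ ^ e` and `σ` (both nontrivial) the class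
`[𝔮₁] [𝔮₂] ^ (-e)` lies in `normClasses K L p`.

Proof: choose primes `r₁ ≠ r₂` (Artin's lemma) such that `p` divides the order of `N 𝔮ᵢ` modulo
`rᵢ`, prime to everything in sight; in `Ω = L(ζ_{r₁ r₂})` the groups `Dᵢ = dGroup sᵢ rᵢ (N 𝔮ᵢ)` of
`AuxField` contain Frobenius elements over `𝔮ᵢ`, act faithfully on `ζ` and `D₁ ⊓ D₂` restricts
onto `Gal(L/K)`; conclude by `CrossInst.pair_of_subgroups`.
-/

set_option autoImplicit false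
set_option linter.style.haveILetI false
set_option linter.unusedSectionVars false

namespace Fermat.Agent.S14.Crossing

open NumberField nonZeroDivisors

/-- A natural number prime to the norm of a prime ideal does not lie in it. -/
theorem natCast_notMem_of_coprime {K : Type*} [Field K] [NumberField K] {𝔮 : Ideal (𝓞 K)}
    (h𝔮 : 𝔮.IsPrime) {m : ℕ} (hm : Nat.Coprime (Ideal.absNorm 𝔮) m) : (m : 𝓞 K) ∉ 𝔮 := by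
  intro hmem
  have h1 : ((Ideal.absNorm 𝔮 : ℕ) : 𝓞 K) ∈ 𝔮 := Ideal.absNorm_mem 𝔮
  have h2 : ((Nat.gcd (Ideal.absNorm 𝔮) m : ℕ) : 𝓞 K) ∈ 𝔮 := by
    have h3 := Nat.gcd_eq_gcd_ab (Ideal.absNorm 𝔮) m
    have h4 : ((Nat.gcd (Ideal.absNorm 𝔮) m : ℕ) : 𝓞 K) =
        ((Ideal.absNorm 𝔮 : ℕ) : 𝓞 K) * ((Nat.gcdA (Ideal.absNorm 𝔮) m : ℤ) : 𝓞 K) +
          (m : 𝓞 K) * ((Nat.gcdB (Ideal.absNorm 𝔮) m : ℤ) : 𝓞 K) := by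
      have := congrArg (fun z : ℤ => (z : 𝓞 K)) h3
      simpa using this
    rw [h4]
    exact 𝔮.add_mem (𝔮.mul_mem_right _ h1) (𝔮.mul_mem_right _ hmem)
  rw [hm, Nat.cast_one] at h2
  exact h𝔮.ne_top ((Ideal.eq_top_iff_one _).mpr h2)

section Aux

variable {K L Ω : Type*} [Field K] [Field L] [Field Ω]
  [NumberField K] [NumberField L] [NumberField Ω]
  [Algebra K L] [Algebra K Ω] [Algebra L Ω] [IsScalarTower K L Ω] [IsGalois K L] [IsGalois K Ω]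

/-- The crossing argument inside a given `Ω = L(ζ_{r₁ r₂})`. -/
theorem pair_aux {p r₁ r₂ : ℕ} (hp : p.Prime) (hp2 : p ≠ 2) (hdeg : Module.finrank K L = p)
    (hunr : UnramifiedEverywhere K L) (hr₁ : r₁.Prime) (hr₂ : r₂.Prime) (hne : r₁ ≠ r₂)
    (hr₁p : r₁ ≠ p) (hr₂p : r₂ ≠ p)
    [NeZero (r₁ * r₂)] [IsCyclotomicExtension {r₁ * r₂} L Ω]
    (hdisc : IsCoprime ((r₁ * r₂ : ℕ) : ℤ) (discr L))
    (𝔮₁ 𝔮₂ : (Ideal (𝓞 K))⁰) (h𝔮₁ : (𝔮₁ : Ideal (𝓞 K)).IsPrime)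
    (h𝔮₂ : (𝔮₂ : Ideal (𝓞 K)).IsPrime)
    (hord₁ : p ∣ orderOf ((Ideal.absNorm (𝔮₁ : Ideal (𝓞 K)) : ℕ) : ZMod r₁))
    (hord₂ : p ∣ orderOf ((Ideal.absNorm (𝔮₂ : Ideal (𝓞 K)) : ℕ) : ZMod r₂))
    (hcop₁ : Nat.Coprime (Ideal.absNorm (𝔮₁ : Ideal (𝓞 K))) (r₁ * r₂))
    (hcop₂ : Nat.Coprime (Ideal.absNorm (𝔮₂ : Ideal (𝓞 K))) (r₁ * r₂))
    (σ : Gal(L/K)) (e : ℕ) (hσ : σ ≠ 1) (hσe : σ ^ e ≠ 1)
    (hF₂ : IsFrob K L σ 𝔮₂) (hF₁ : IsFrob K L (σ ^ e) 𝔮₁) :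
    ClassGroup.mk0 𝔮₁ * (ClassGroup.mk0 𝔮₂ ^ e)⁻¹ ∈ normClasses K L p := by
  classical
  have hcard : Nat.card Gal(L/K) = p := by rw [IsGalois.card_aut_eq_finrank, hdeg]
  have hpow : ∀ s : Gal(L/K), s ^ p = 1 := fun s => by
    rw [← hcard]; exact pow_card_eq_one'
  set m := r₁ * r₂ with hm
  have hpm : Nat.Coprime p m := by
    rw [hm]
    exact Nat.Coprime.mul_right ((Nat.coprime_primes hp hr₁).mpr (Ne.symm hr₁p))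
      ((Nat.coprime_primes hp hr₂).mpr (Ne.symm hr₂p))
  have hr₁₂ : Nat.Coprime r₁ r₂ := (Nat.coprime_primes hr₁ hr₂).mpr hne
  obtain ⟨ζ, hζ⟩ := IsCyclotomicExtension.exists_isPrimitiveRoot L Ω
    (Set.mem_singleton m) (NeZero.ne _)
  -- the two Frobenius elements of `Ω / K`
  have hm₁ : (m : 𝓞 K) ∉ (𝔮₁ : Ideal (𝓞 K)) := natCast_notMem_of_coprime h𝔮₁ hcop₁
  have hm₂ : (m : 𝓞 K) ∉ (𝔮₂ : Ideal (𝓞 K)) := natCast_notMem_of_coprime h𝔮₂ hcop₂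
  obtain ⟨𝔓₁, g₁, h𝔓₁, h𝔓₁0, hu₁, hg₁F, hg₁L, hg₁ζ⟩ :=
    AuxField.exists_frob (Ω := Ω) hunr h𝔮₁ (nonZeroDivisors.coe_ne_zero 𝔮₁) hm₁ hF₁
  obtain ⟨𝔓₂, g₂, h𝔓₂, h𝔓₂0, hu₂, hg₂F, hg₂L, hg₂ζ⟩ :=
    AuxField.exists_frob (Ω := Ω) hunr h𝔮₂ (nonZeroDivisors.coe_ne_zero 𝔮₂) hm₂ hF₂
  set a₁ := Ideal.absNorm (𝔮₁ : Ideal (𝓞 K)) with ha₁
  set a₂ := Ideal.absNorm (𝔮₂ : Ideal (𝓞 K)) with ha₂
  set D₁ : Subgroup Gal(Ω/K) := AuxField.dGroup (σ ^ e) r₁ a₁ with hD₁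
  set D₂ : Subgroup Gal(Ω/K) := AuxField.dGroup σ r₂ a₂ with hD₂
  have hg₁D : g₁ ∈ D₁ := AuxField.mem_dGroup_of_frob (Dvd.intro _ rfl) hg₁L hg₁ζ
  have hg₂D : g₂ ∈ D₂ := AuxField.mem_dGroup_of_frob (Dvd.intro_left _ rfl) hg₂L hg₂ζ
  -- (H1)
  have H1₁ : ∀ τ ∈ D₁, τ ζ = ζ → τ = 1 := fun τ hτ hfix =>
    AuxField.eq_one_of_mem_dGroup hζ (hpow _) hr₁.pos (Dvd.intro _ rfl) hord₁ hτ hfix
  have H1₂ : ∀ τ ∈ D₂, τ ζ = ζ → τ = 1 := fun τ hτ hfix =>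
    AuxField.eq_one_of_mem_dGroup hζ (hpow _) hr₂.pos (Dvd.intro_left _ rfl) hord₂ hτ hfix
  -- (H2)
  have H2 : ∀ s : Gal(L/K), ∃ τ ∈ D₁ ⊓ D₂,
      AlgEquiv.restrictNormalHom (F := K) (K₁ := Ω) L τ = s := fun s =>
    AuxField.exists_mem_inf_dGroup hp hcard hr₁₂
      (Nat.Coprime.coprime_mul_right_right hcop₁)
      (Nat.Coprime.coprime_mul_left_right hcop₂) hdisc hσe hσ s
  exact CrossInst.pair_of_subgroups hp hp2 hdeg hunr hpm hζ D₁ D₂ H1₁ H1₂ H2 𝔮₁ 𝔮₂ h𝔮₁ h𝔮₂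
    hm₁ hm₂ h𝔓₁ h𝔓₁0 hg₁F hg₁D hu₁ h𝔓₂ h𝔓₂0 hg₂F hg₂D hu₂ σ e hF₂ hF₁

end Aux

section Main

variable {K L : Type*} [Field K] [Field L] [NumberField K] [NumberField L] [Algebra K L]
  [IsGalois K L]

theorem two_le_absNorm {𝔮 : Ideal (𝓞 K)} (h𝔮 : 𝔮.IsPrime) (h0 : 𝔮 ≠ ⊥) :
    2 ≤ Ideal.absNorm 𝔮 := by
  have h1 : Ideal.absNorm 𝔮 ≠ 0 := by
    rw [Ne, Ideal.absNorm_eq_zero_iff]
    exact h0
  have h2 : Ideal.absNorm 𝔮 ≠ 1 := by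
    rw [Ne, Ideal.absNorm_eq_one_iff]
    exact h𝔮.ne_top
  omega

theorem coprime_of_prime_gt {r a : ℕ} (hr : r.Prime) (ha : 0 < a) (har : a < r) :
    Nat.Coprime a r := by
  rw [Nat.coprime_comm, Nat.Prime.coprime_iff_not_dvd hr]
  intro h
  exact absurd (Nat.le_of_dvd ha h) (by omega)

/-- **The pair statement** (crossing with cyclotomic fields). -/
theorem pair {p : ℕ} (hp : p.Prime) (hp2 : p ≠ 2) (hdeg : Module.finrank K L = p)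
    (hunr : UnramifiedEverywhere K L) :
    ∀ (𝔮₁ 𝔮₂ : (Ideal (𝓞 K))⁰), (𝔮₁ : Ideal (𝓞 K)).IsPrime →
      (𝔮₂ : Ideal (𝓞 K)).IsPrime → ∀ (σ : Gal(L/K)) (e : ℕ), σ ≠ 1 → σ ^ e ≠ 1 →
      IsFrob K L σ 𝔮₂ → IsFrob K L (σ ^ e) 𝔮₁ →
        ClassGroup.mk0 𝔮₁ * (ClassGroup.mk0 𝔮₂ ^ e)⁻¹ ∈ normClasses K L p := by
  intro 𝔮₁ 𝔮₂ h𝔮₁ h𝔮₂ σ e hσ hσe hF₂ hF₁
  have ha₁ := two_le_absNorm h𝔮₁ (nonZeroDivisors.coe_ne_zero 𝔮₁)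
  have ha₂ := two_le_absNorm h𝔮₂ (nonZeroDivisors.coe_ne_zero 𝔮₂)
  set a₁ := Ideal.absNorm (𝔮₁ : Ideal (𝓞 K)) with ha₁'
  set a₂ := Ideal.absNorm (𝔮₂ : Ideal (𝓞 K)) with ha₂'
  have hd0 : 0 < (discr L).natAbs := Int.natAbs_pos.mpr (discr_ne_zero L)
  obtain ⟨r₁, hr₁, hB₁, hr₁p, -, hord₁⟩ :=
    ArtinLemma.exists_prime_dvd_orderOf hp hp2 ha₁ (a₁ + a₂ + (discr L).natAbs)
  obtain ⟨r₂, hr₂, hB₂, hr₂p, -, hord₂⟩ :=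
    ArtinLemma.exists_prime_dvd_orderOf hp hp2 ha₂ (a₁ + a₂ + (discr L).natAbs + r₁)
  have hne : r₁ ≠ r₂ := by omega
  have hcop₁ : Nat.Coprime a₁ (r₁ * r₂) :=
    Nat.Coprime.mul_right (coprime_of_prime_gt hr₁ (by omega) (by omega))
      (coprime_of_prime_gt hr₂ (by omega) (by omega))
  have hcop₂ : Nat.Coprime a₂ (r₁ * r₂) :=
    Nat.Coprime.mul_right (coprime_of_prime_gt hr₁ (by omega) (by omega))
      (coprime_of_prime_gt hr₂ (by omega) (by omega))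
  have hdisc : IsCoprime ((r₁ * r₂ : ℕ) : ℤ) (discr L) := by
    rw [Int.isCoprime_iff_gcd_eq_one, Int.gcd, Int.natAbs_natCast]
    exact (Nat.Coprime.mul_right (coprime_of_prime_gt hr₁ hd0 (by omega))
      (coprime_of_prime_gt hr₂ hd0 (by omega))).symm
  haveI : NeZero (r₁ * r₂) := ⟨Nat.mul_ne_zero hr₁.ne_zero hr₂.ne_zero⟩
  -- the field `Ω = L(ζ_{r₁ r₂})`
  haveI : IsGalois K (CyclotomicField (r₁ * r₂) L) :=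
    CycloDisjoint.isGalois_of_cyclotomic K L (r₁ * r₂)
  exact pair_aux (Ω := CyclotomicField (r₁ * r₂) L) hp hp2 hdeg hunr hr₁ hr₂ hne hr₁p hr₂p
    hdisc 𝔮₁ 𝔮₂ h𝔮₁ h𝔮₂ hord₁ hord₂ hcop₁ hcop₂ σ e hσ hσe hF₂ hF₁

end Main

end Fermat.Agent.S14.Crossing
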