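import Mathlib
import Fermat.Prelude.Def_FLTPrelim_Ramification
import Fermat.Agent.S14.Defs
import Fermat.Agent.S14.Dict
import Fermat.Agent.Lib.Minkowski

/-!
# S14: the dictionary for fixed fields

`Ω` is a Galois extension of `ℚ` (for instance an algebraic closure), `H` and `N` are open
subgroups of `Gal(Ω/ℚ)` with `N ≤ H` and `N` normal. The fixed field `KF H` of `H` and the fixed
field `LF H N _` of `N` (as an intermediate field of `Ω / KF H`) are number fields, `LF / KF` is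
Galois of degree `[H : N]`, every element of its Galois group is the restriction of an element
of `H`, and `LF / KF` is unramified at every finite prime as soon as every inertia group meets
`H` inside `N`. Finally `exists_sigma` produces the hypotheses of `Core.core` on the action of
`Gal(KF/ℚ)` on `Gal(LF/KF)`.
-/

set_option autoImplicit false
set_option linter.unusedSectionVars false

namespace Fermat.Agent.S14.DictFixed

open NumberField
open scoped Pointwise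

section

variable {Ω : Type*} [Field Ω] [Algebra ℚ Ω] [IsGalois ℚ Ω]
variable (H N : Subgroup (Ω ≃ₐ[ℚ] Ω))

/-- The base field: the fixed field of `H`. -/
abbrev KF : IntermediateField ℚ Ω := IntermediateField.fixedField H

/-- The top field: the fixed field of `N`, as an intermediate field of `Ω / KF H`. -/
abbrev LF (hNH : N ≤ H) : IntermediateField (KF H) Ω :=
  IntermediateField.extendScalars (IntermediateField.fixedField_le hNH)

variable {H N}

theorem mem_LF_iff (hNH : N ≤ H) (x : Ω) : x ∈ LF H N hNH ↔ ∀ n ∈ N, n x = x := by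
  rw [LF, IntermediateField.mem_extendScalars, IntermediateField.mem_fixedField_iff]

theorem numberField_KF (hH : IsOpen (H : Set (Ω ≃ₐ[ℚ] Ω))) : NumberField (KF H) :=
  Fermat.Agent.Lib.Minkowski.numberField_fixedField H hH


theorem finiteDimensional_LF (hNH : N ≤ H) (hN : IsOpen (N : Set (Ω ≃ₐ[ℚ] Ω))) :
    FiniteDimensional ℚ (LF H N hNH) := by
  have h1 : FiniteDimensional ℚ (IntermediateField.fixedField N) :=
    Fermat.Agent.Lib.Minkowski.finiteDimensional_fixedField N hN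
  exact h1

theorem numberField_LF (hNH : N ≤ H) (hN : IsOpen (N : Set (Ω ≃ₐ[ℚ] Ω))) :
    NumberField (LF H N hNH) := by
  have h1 : CharZero (LF H N hNH) := algebraRat.charZero _
  have h2 := finiteDimensional_LF hNH hN
  refine @NumberField.mk _ _ h1 ?_
  convert h2
  exact Subsingleton.elim _ _

/-- The fixed field of a normal subgroup is stable under the whole Galois group. -/
theorem map_mem_fixedField [N.Normal] (τ : Ω ≃ₐ[ℚ] Ω) {x : Ω}
    (hx : x ∈ IntermediateField.fixedField N) : τ x ∈ IntermediateField.fixedField N := by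
  rw [IntermediateField.mem_fixedField_iff] at hx ⊢
  intro n hn
  have h1 : τ⁻¹ * n * τ ∈ N := by
    have := (inferInstance : N.Normal).conj_mem n hn τ⁻¹
    simpa using this
  have h2 := hx _ h1
  have h3 : τ⁻¹ (n (τ x)) = x := h2
  have h4 := congrArg τ h3
  rw [show τ (τ⁻¹ (n (τ x))) = n (τ x) from τ.apply_symm_apply _] at h4
  exact h4

theorem isGalois_KF_top : IsGalois (KF H) Ω := IsGalois.tower_top_of_isGalois ℚ (KF H) Ω

theorem fixingSubgroup_LF_normal [N.Normal] (hNH : N ≤ H) :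
    (LF H N hNH).fixingSubgroup.Normal := by
  refine ⟨fun n hn g => ?_⟩
  rw [IntermediateField.mem_fixingSubgroup_iff] at hn ⊢
  intro x hx
  have hx' : x ∈ IntermediateField.fixedField N := hx
  have h1 : (g⁻¹ : Ω ≃ₐ[KF H] Ω) x ∈ LF H N hNH :=
    map_mem_fixedField ((g⁻¹ : Ω ≃ₐ[KF H] Ω).restrictScalars ℚ) hx'
  show g (n ((g⁻¹ : Ω ≃ₐ[KF H] Ω) x)) = x
  rw [hn _ h1]
  exact g.apply_symm_apply x

theorem isGalois_LF [N.Normal] (hNH : N ≤ H) : IsGalois (KF H) (LF H N hNH) := by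
  have := isGalois_KF_top (H := H)
  exact (InfiniteGalois.normal_iff_isGalois (LF H N hNH)).mp (fixingSubgroup_LF_normal hNH)

/-- The inclusion of `Gal(Ω / KF H)` into the Galois group of `Ω / ℚ`. -/
def incl (H : Subgroup (Ω ≃ₐ[ℚ] Ω)) : (Ω ≃ₐ[KF H] Ω) →* (Ω ≃ₐ[ℚ] Ω) :=
  (Subgroup.subtype _).comp (IntermediateField.fixingSubgroupEquiv (KF H)).symm.toMonoidHom

theorem incl_apply (g : Ω ≃ₐ[KF H] Ω) (x : Ω) : incl H g x = g x := rfl

theorem incl_injective : Function.Injective (incl H) := by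
  intro g g' h
  ext x
  exact DFunLike.congr_fun h x

theorem range_incl (hH : IsOpen (H : Set (Ω ≃ₐ[ℚ] Ω))) : (incl H).range = H := by
  ext τ
  constructor
  · rintro ⟨g, rfl⟩
    have h1 : incl H g ∈ (KF H).fixingSubgroup :=
      ((IntermediateField.fixingSubgroupEquiv (KF H)).symm g).2
    rwa [Fermat.Agent.Lib.Minkowski.fixingSubgroup_fixedField_of_isOpen H hH] at h1
  · intro hτ
    have h1 : τ ∈ (KF H).fixingSubgroup := by
      rwa [Fermat.Agent.Lib.Minkowski.fixingSubgroup_fixedField_of_isOpen H hH]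
    exact ⟨IntermediateField.fixingSubgroupEquiv (KF H) ⟨τ, h1⟩, rfl⟩

theorem incl_mem (hH : IsOpen (H : Set (Ω ≃ₐ[ℚ] Ω))) (g : Ω ≃ₐ[KF H] Ω) : incl H g ∈ H := by
  have h : incl H g ∈ (incl H).range := ⟨g, rfl⟩
  exact (SetLike.ext_iff.mp (range_incl hH) _).mp h

theorem comap_incl (hNH : N ≤ H) (hN : IsOpen (N : Set (Ω ≃ₐ[ℚ] Ω))) :
    N.comap (incl H) = (LF H N hNH).fixingSubgroup := by
  ext g
  rw [Subgroup.mem_comap, IntermediateField.mem_fixingSubgroup_iff]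
  constructor
  · intro hg x hx
    have hx' : x ∈ IntermediateField.fixedField N := hx
    rw [IntermediateField.mem_fixedField_iff] at hx'
    exact hx' _ hg
  · intro hg
    rw [← Fermat.Agent.Lib.Minkowski.fixingSubgroup_fixedField_of_isOpen N hN,
      IntermediateField.mem_fixingSubgroup_iff]
    intro x hx
    exact hg x hx

/-- The degree of the fixed field of `N` over the fixed field of `H`. -/
theorem finrank_LF [N.Normal] (hNH : N ≤ H) (hH : IsOpen (H : Set (Ω ≃ₐ[ℚ] Ω)))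
    (hN : IsOpen (N : Set (Ω ≃ₐ[ℚ] Ω))) :
    Module.finrank (KF H) (LF H N hNH) = N.relIndex H := by
  have hG := isGalois_KF_top (H := H)
  have hGL := isGalois_LF (H := H) (N := N) hNH
  have hfin : FiniteDimensional (KF H) (LF H N hNH) := by
    have h1 := finiteDimensional_LF hNH hN
    exact Module.Finite.of_restrictScalars_finite ℚ (KF H) (LF H N hNH)
  have h1 : N.relIndex H = N.relIndex (incl H).range := by rw [range_incl hH]
  rw [← IsGalois.card_aut_eq_finrank, h1, ← Subgroup.index_comap,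
    comap_incl hNH hN, ← IntermediateField.restrictNormalHom_ker, Subgroup.index_ker]
  have hsurj : Function.Surjective (AlgEquiv.restrictNormalHom (F := KF H) (K₁ := Ω)
      (LF H N hNH)) := AlgEquiv.restrictNormalHom_surjective Ω
  rw [MonoidHom.range_eq_top.mpr hsurj]
  exact (Nat.card_congr (Subgroup.topEquiv).toEquiv).symm

/-- **Dictionary, fixed-field form.** If every inertia group meets `H` inside `N`, the fixed
field of `N` is unramified at every finite prime over the fixed field of `H`. -/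
theorem unramifiedEverywhere_LF [N.Normal] (hNH : N ≤ H) (hH : IsOpen (H : Set (Ω ≃ₐ[ℚ] Ω)))
    (hN : IsOpen (N : Set (Ω ≃ₐ[ℚ] Ω)))
    (hI : ∀ ℓ : ℕ, ℓ.Prime → ∀ A : ValuationSubring Ω, A.LiesOverPrime ℓ →
      A.inertiaSubgroupIn ℚ ⊓ H ≤ N) :
    UnramifiedEverywhere (KF H) (LF H N hNH) := by
  have := numberField_KF hH
  have := numberField_LF hNH hN
  have := isGalois_LF (H := H) (N := N) hNH
  apply Fermat.Agent.S14.Dict.unramifiedEverywhere_of_inertia (Ω := Ω)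
  intro ℓ hℓ A hA σ hσ hK y
  have hσH : σ ∈ H := by
    rw [← Fermat.Agent.Lib.Minkowski.fixingSubgroup_fixedField_of_isOpen H hH,
      IntermediateField.mem_fixingSubgroup_iff]
    intro x hx
    exact hK ⟨x, hx⟩
  have hσN : σ ∈ N := hI ℓ hℓ A hA ⟨hσ, hσH⟩
  have hy : (y : Ω) ∈ IntermediateField.fixedField N := y.2
  rw [IntermediateField.mem_fixedField_iff] at hy
  exact hy σ hσN

/-- Every element of `Gal(LF / KF)` is the restriction of an element of `H`. -/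
theorem exists_lift [N.Normal] (hNH : N ≤ H) (hH : IsOpen (H : Set (Ω ≃ₐ[ℚ] Ω)))
    (s : (LF H N hNH) ≃ₐ[KF H] (LF H N hNH)) :
    ∃ s₀ : Ω ≃ₐ[ℚ] Ω, s₀ ∈ H ∧ ∀ y : LF H N hNH, s₀ (y : Ω) = ((s y : LF H N hNH) : Ω) := by
  have hG := isGalois_KF_top (H := H)
  have hGL := isGalois_LF (H := H) (N := N) hNH
  refine ⟨incl H (s.liftNormal Ω), incl_mem hH _, fun y => ?_⟩
  rw [incl_apply]
  exact s.liftNormal_commutes Ω y

/-- The restriction of an element of the Galois group to the fixed field of a normal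
subgroup, as a ring automorphism. -/
def restrictEquiv (N : Subgroup (Ω ≃ₐ[ℚ] Ω)) [N.Normal] (τ : Ω ≃ₐ[ℚ] Ω) :
    (IntermediateField.fixedField N) ≃+* (IntermediateField.fixedField N) where
  toFun x := ⟨τ x, map_mem_fixedField τ x.2⟩
  invFun x := ⟨τ⁻¹ x, map_mem_fixedField τ⁻¹ x.2⟩
  left_inv x := Subtype.ext (τ.symm_apply_apply x)
  right_inv x := Subtype.ext (τ.apply_symm_apply x)
  map_mul' _ _ := Subtype.ext (map_mul τ _ _)
  map_add' _ _ := Subtype.ext (map_add τ _ _)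

theorem restrictEquiv_coe [N.Normal] (τ : Ω ≃ₐ[ℚ] Ω) (x : IntermediateField.fixedField N) :
    ((restrictEquiv N τ x : IntermediateField.fixedField N) : Ω) = τ x := rfl

theorem restrictEquiv_symm_coe [N.Normal] (τ : Ω ≃ₐ[ℚ] Ω)
    (x : IntermediateField.fixedField N) :
    (((restrictEquiv N τ).symm x : IntermediateField.fixedField N) : Ω) = τ⁻¹ x := rfl

/-- The same restriction, on the top field `LF`. -/
def restrictEquivL [N.Normal] (hNH : N ≤ H) (τ : Ω ≃ₐ[ℚ] Ω) :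
    (LF H N hNH) ≃+* (LF H N hNH) where
  toFun x := ⟨τ x, map_mem_fixedField (N := N) τ x.2⟩
  invFun x := ⟨τ⁻¹ x, map_mem_fixedField (N := N) τ⁻¹ x.2⟩
  left_inv x := Subtype.ext (τ.symm_apply_apply x)
  right_inv x := Subtype.ext (τ.apply_symm_apply x)
  map_mul' _ _ := Subtype.ext (map_mul τ _ _)
  map_add' _ _ := Subtype.ext (map_add τ _ _)

theorem restrictEquivL_coe [N.Normal] (hNH : N ≤ H) (τ : Ω ≃ₐ[ℚ] Ω) (x : LF H N hNH) :
    ((restrictEquivL hNH τ x : LF H N hNH) : Ω) = τ x := rfl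

theorem restrictEquivL_symm_coe [N.Normal] (hNH : N ≤ H) (τ : Ω ≃ₐ[ℚ] Ω) (x : LF H N hNH) :
    (((restrictEquivL hNH τ).symm x : LF H N hNH) : Ω) = τ⁻¹ x := rfl

/-- The restriction of an element of the Galois group to the fixed field of a normal subgroup,
as an element of the Galois group of that field over `ℚ`. -/
noncomputable def sigmaOf (H : Subgroup (Ω ≃ₐ[ℚ] Ω)) [H.Normal] (τ : Ω ≃ₐ[ℚ] Ω) :
    (KF H) ≃ₐ[ℚ] (KF H) :=
  AlgEquiv.ofRingEquiv (f := restrictEquiv H τ) (fun q => RingHom.map_rat_algebraMap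
    ((restrictEquiv H τ : KF H ≃+* KF H) : KF H →+* KF H) q)

theorem sigmaOf_coe [H.Normal] (τ : Ω ≃ₐ[ℚ] Ω) (x : KF H) :
    ((sigmaOf H τ x : KF H) : Ω) = τ x := rfl

/-- Conjugation by (the restriction of) `τ` on `Gal(LF / KF)`. -/
noncomputable def conj [H.Normal] [N.Normal] (hNH : N ≤ H) (τ : Ω ≃ₐ[ℚ] Ω)
    (s : (LF H N hNH) ≃ₐ[KF H] (LF H N hNH)) : (LF H N hNH) ≃ₐ[KF H] (LF H N hNH) :=
  AlgEquiv.ofRingEquiv
    (f := ((restrictEquivL hNH τ).symm.trans s.toRingEquiv).trans (restrictEquivL hNH τ))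
    (by
      intro x
      apply Subtype.ext
      show τ ((s ((restrictEquivL hNH τ).symm (algebraMap (KF H) (LF H N hNH) x)) :
        LF H N hNH) : Ω) = (x : Ω)
      have h1 : (restrictEquivL hNH τ).symm (algebraMap (KF H) (LF H N hNH) x) =
          algebraMap (KF H) (LF H N hNH) ((restrictEquiv H τ).symm x) := by
        apply Subtype.ext
        rfl
      rw [h1, s.commutes]
      show τ (τ⁻¹ (x : Ω)) = (x : Ω)
      exact τ.apply_symm_apply _)

theorem conj_apply [H.Normal] [N.Normal] (hNH : N ≤ H) (τ : Ω ≃ₐ[ℚ] Ω)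
    (s : (LF H N hNH) ≃ₐ[KF H] (LF H N hNH)) (x : LF H N hNH) :
    conj hNH τ s x = restrictEquivL hNH τ (s ((restrictEquivL hNH τ).symm x)) := rfl

theorem conj_pow_coe [H.Normal] [N.Normal] (hNH : N ≤ H) (τ : Ω ≃ₐ[ℚ] Ω)
    (s : (LF H N hNH) ≃ₐ[KF H] (LF H N hNH)) (s₀ : Ω ≃ₐ[ℚ] Ω)
    (hs : ∀ y : LF H N hNH, s₀ (y : Ω) = ((s y : LF H N hNH) : Ω)) (k : ℕ) (y : LF H N hNH) :
    ((((conj hNH τ s) ^ k) y : LF H N hNH) : Ω) = (τ * s₀ ^ k * τ⁻¹) (y : Ω) := by
  induction k generalizing y with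
  | zero =>
    simp
  | succ k ih =>
    rw [pow_succ', AlgEquiv.mul_apply, conj_apply, restrictEquivL_coe, ← hs,
      restrictEquivL_symm_coe, ih]
    simp only [AlgEquiv.mul_apply, pow_succ']
    rw [show (τ⁻¹ : Ω ≃ₐ[ℚ] Ω) (τ ((s₀ ^ k) (τ⁻¹ (y : Ω)))) = (s₀ ^ k) (τ⁻¹ (y : Ω)) from
      τ.symm_apply_apply _]

/-- If `τ s₀ ^ e τ⁻¹ ≡ s₀` modulo `N` for all `s₀ ∈ H`, `[H : N] = p` and `e d ≡ 1` modulo `p`,
then conjugation by `τ` is the `d`-th power map on `Gal(LF / KF)`. -/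
theorem conj_eq_pow [H.Normal] [N.Normal] (hNH : N ≤ H) (hH : IsOpen (H : Set (Ω ≃ₐ[ℚ] Ω)))
    (hN : IsOpen (N : Set (Ω ≃ₐ[ℚ] Ω))) {p : ℕ} (hidx : N.relIndex H = p)
    (τ : Ω ≃ₐ[ℚ] Ω) (e d : ℕ) (hed : ∃ k : ℕ, e * d = 1 + p * k)
    (hτ : ∀ s₀ ∈ H, τ * s₀ ^ e * τ⁻¹ * s₀⁻¹ ∈ N)
    (s : (LF H N hNH) ≃ₐ[KF H] (LF H N hNH)) : conj hNH τ s = s ^ d := by
  have hGL := isGalois_LF (H := H) (N := N) hNH
  have hfin : FiniteDimensional (KF H) (LF H N hNH) := by
    have h1 := finiteDimensional_LF hNH hN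
    exact Module.Finite.of_restrictScalars_finite ℚ (KF H) (LF H N hNH)
  have hcard : Nat.card ((LF H N hNH) ≃ₐ[KF H] (LF H N hNH)) = p := by
    rw [IsGalois.card_aut_eq_finrank, finrank_LF hNH hH hN, hidx]
  have hpow : ∀ t : (LF H N hNH) ≃ₐ[KF H] (LF H N hNH), t ^ p = 1 := by
    intro t
    rw [← hcard]
    exact pow_card_eq_one'
  obtain ⟨s₀, hs₀H, hs₀⟩ := exists_lift hNH hH s
  -- the `e`-th power of the conjugate is `s`
  have hE : (conj hNH τ s) ^ e = s := by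
    ext y
    rw [conj_pow_coe hNH τ s s₀ hs₀ e y, ← hs₀]
    have h1 := hτ s₀ hs₀H
    have h2 : (s₀ (y : Ω)) ∈ IntermediateField.fixedField N := by
      rw [hs₀]
      exact (s y).2
    rw [IntermediateField.mem_fixedField_iff] at h2
    have h3 := h2 _ h1
    have h4 : (τ * s₀ ^ e * τ⁻¹ * s₀⁻¹) (s₀ (y : Ω)) = (τ * s₀ ^ e * τ⁻¹) (y : Ω) := by
      simp only [AlgEquiv.mul_apply]
      rw [show (s₀⁻¹ : Ω ≃ₐ[ℚ] Ω) (s₀ (y : Ω)) = (y : Ω) from s₀.symm_apply_apply _]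
    rw [← h4, h3]
  obtain ⟨k, hk⟩ := hed
  calc conj hNH τ s = (conj hNH τ s) ^ (e * d) := by
        rw [hk, pow_add, pow_one, pow_mul, hpow, one_pow, mul_one]
    _ = s ^ d := by rw [pow_mul, hE]

/-- The number-field data for the core argument: for a surjective character `ω` of the Galois
group with values in `(ZMod p)ˣ` and kernel `H`, and an open normal subgroup `N` of index `p` in
`H` such that `τ s ^ e τ⁻¹ ≡ s` modulo `N` for `s ∈ H` whenever `e ≡ ω τ`, the Galois group of the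
fixed field `KF` of `H` acts on `Gal(LF / KF)` through the inverse of `ω`. -/
theorem exists_sigma {p : ℕ} [Fact p.Prime] (ω : (Ω ≃ₐ[ℚ] Ω) →* (ZMod p)ˣ)
    (hωs : Function.Surjective ω) (hH : IsOpen (ω.ker : Set (Ω ≃ₐ[ℚ] Ω)))
    [N.Normal] (hNH : N ≤ ω.ker) (hN : IsOpen (N : Set (Ω ≃ₐ[ℚ] Ω)))
    (hidx : N.relIndex ω.ker = p)
    (hconj : ∀ τ : Ω ≃ₐ[ℚ] Ω, ∃ e : ℕ, (e : ZMod p) = (ω τ : ZMod p) ∧
      ∀ s ∈ ω.ker, τ * s ^ e * τ⁻¹ * s⁻¹ ∈ N) :
    ∃ σ : (ZMod p)ˣ → ((KF ω.ker) ≃ₐ[ℚ] (KF ω.ker)),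
      (∀ c : (ZMod p)ˣ, ∃ τ₀ : Ω ≃ₐ[ℚ] Ω, ω τ₀ = c ∧
        ∀ x : KF ω.ker, ((σ c x : KF ω.ker) : Ω) = τ₀ (x : Ω)) ∧
      ∀ c : (ZMod p)ˣ, ∃ τ : (LF ω.ker N hNH) ≃+* (LF ω.ker N hNH),
        (∀ x : KF ω.ker, τ (algebraMap (KF ω.ker) (LF ω.ker N hNH) x) =
          algebraMap (KF ω.ker) (LF ω.ker N hNH) (σ c x)) ∧
        ∀ (s : (LF ω.ker N hNH) ≃ₐ[KF ω.ker] (LF ω.ker N hNH)) (x : LF ω.ker N hNH),
          τ (s (τ.symm x)) = (s ^ (((c⁻¹ : (ZMod p)ˣ) : ZMod p).val)) x := by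
  have hp : p.Prime := Fact.out
  choose τ₀ hτ₀ using hωs
  refine ⟨fun c => sigmaOf ω.ker (τ₀ c), fun c => ⟨τ₀ c, hτ₀ c, fun x => rfl⟩, fun c => ?_⟩
  refine ⟨restrictEquivL hNH (τ₀ c), fun x => Subtype.ext rfl, fun s x => ?_⟩
  obtain ⟨e, he, hes⟩ := hconj (τ₀ c)
  rw [hτ₀ c] at he
  have hed : ∃ k : ℕ, e * (((c⁻¹ : (ZMod p)ˣ) : ZMod p).val) = 1 + p * k := by
    have h1 : ((e * (((c⁻¹ : (ZMod p)ˣ) : ZMod p).val) : ℕ) : ZMod p) = ((1 : ℕ) : ZMod p) := by
      push_cast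
      rw [he, ZMod.natCast_val, ZMod.cast_id', id]
      exact mul_inv_cancel₀ (Units.ne_zero c)
    have h2 := (ZMod.natCast_eq_natCast_iff' _ _ _).mp h1
    have hp1 : 1 < p := hp.one_lt
    rw [Nat.mod_eq_of_lt hp1] at h2
    refine ⟨e * (((c⁻¹ : (ZMod p)ˣ) : ZMod p).val) / p, ?_⟩
    have := Nat.div_add_mod (e * (((c⁻¹ : (ZMod p)ˣ) : ZMod p).val)) p
    omega
  have h := conj_eq_pow hNH hH hN hidx (τ₀ c) e _ hed hes s
  rw [← h]
  rfl

end

end Fermat.Agent.S14.DictFixed
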