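import Mathlib
import Fermat.Prelude.Def_Stickelberger_Basic

/-!
# Stickelberger via Jacobi sums (S14, leaf `Jacobi`)

For the `p`-th cyclotomic field `K` (`p` an odd prime) and a prime `𝔮` of `𝓞 K` of degree one
(absolute norm a prime `q ≠ p`), the ideal `∏_{0 < c < p/2} σ_c⁻¹ 𝔮` is principal: it is generated by
the Jacobi sum `J(χ, χ)` of the `p`-th power residue character `χ` modulo `𝔮`.

* the congruence `J(χ^c, χ^c) ≡ ∑ x^{ck} (1 - x)^{ck} ≡ 0 mod 𝔮` for `0 < c < p / 2`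
  (`k = (q - 1) / p`) shows `J ∈ σ_c⁻¹ 𝔮`;
* the primes `σ_c⁻¹ 𝔮` are pairwise distinct, hence their product divides `(J)`;
* `J · σ₋₁ J = q` gives `N (J) = q ^ ((p - 1) / 2)`, which is the norm of the product.
-/

set_option autoImplicit false
set_option linter.unusedSectionVars false
set_option linter.style.haveILetI false

namespace Fermat.Agent.S14.Jacobi

open NumberField nonZeroDivisors Finset
open scoped Pointwise

/-! ### Power sums over a finite field -/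

section PowerSums


variable (F : Type*) [Field F] [Fintype F]

/-- `∑ x, x ^ m * (1 - x) ^ m = 0` over a finite field with more than `2 m + 1` elements. -/
theorem sum_pow_mul_one_sub_pow (m : ℕ) (h : 2 * m < Fintype.card F - 1) :
    ∑ x : F, x ^ m * (1 - x) ^ m = 0 := by
  have h1 : ∀ x : F, x ^ m * (1 - x) ^ m =
      ∑ j ∈ range (m + 1), ((-1) ^ j * (m.choose j : F)) * x ^ (m + j) := by
    intro x
    have : (1 - x) ^ m = ∑ j ∈ range (m + 1), (-x) ^ j * 1 ^ (m - j) * (m.choose j : F) := by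
      rw [← add_pow]
      ring
    rw [this, mul_sum]
    refine sum_congr rfl fun j _ => ?_
    rw [one_pow, mul_one, neg_pow, pow_add]
    ring
  simp_rw [h1]
  rw [sum_comm]
  refine sum_eq_zero fun j hj => ?_
  rw [← mul_sum]
  have hj' : j < m + 1 := mem_range.mp hj
  rw [FiniteField.sum_pow_lt_card_sub_one F (m + j) (by omega), mul_zero]

end PowerSums

/-! ### The power residue character -/


section Character

variable {R : Type*} [CommRing R] [IsDomain R] {F : Type*} [Field F] [Fintype F]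
  (π : R →+* F) {p : ℕ} [hp : Fact p.Prime]

include π in
/-- The reduction of a primitive `p`-th root of unity is a primitive `p`-th root of unity if
`p ≠ 0` in the residue field. -/
theorem isPrimitiveRoot_map {ζ₀ : R} (hζ₀ : IsPrimitiveRoot ζ₀ p) (hpF : (p : F) ≠ 0) :
    IsPrimitiveRoot (π ζ₀) p := by
  have h1 : (π ζ₀) ^ p = 1 := by rw [← map_pow, hζ₀.pow_eq_one, map_one]
  have h2 : π ζ₀ ≠ 1 := by
    intro h
    have hs := hζ₀.geom_sum_eq_zero hp.out.one_lt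
    have := congrArg π hs
    rw [map_sum, map_zero] at this
    simp only [map_pow, h, one_pow, sum_const, card_range, nsmul_eq_mul, mul_one] at this
    exact hpF this
  have h3 : orderOf (π ζ₀) = p := orderOf_eq_prime h1 h2
  rw [← h3]
  exact IsPrimitiveRoot.orderOf (π ζ₀)

include π in
theorem prime_dvd_card_sub_one {ζ₀ : R} (hζ₀ : IsPrimitiveRoot ζ₀ p) (hpF : (p : F) ≠ 0) :
    p ∣ Fintype.card F - 1 := by
  have h := isPrimitiveRoot_map π hζ₀ hpF
  have h0 : π ζ₀ ≠ 0 := h.ne_zero hp.out.ne_zero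
  have h1 : (π ζ₀) ^ (Fintype.card F - 1) = 1 := FiniteField.pow_card_sub_one_eq_one _ h0
  exact h.dvd_of_pow_eq_one _ h1

/-- There is a unit of the finite field whose `2k`-th power is not `1`, `2k < |Fˣ|`. -/
theorem exists_unit_pow_ne_one (m : ℕ) (hm0 : 0 < m) (hm : m < Fintype.card F - 1) :
    ∃ x : Fˣ, (x : F) ^ m ≠ 1 := by
  classical
  obtain ⟨g, hg⟩ := IsCyclic.exists_generator (α := Fˣ)
  refine ⟨g, fun h => ?_⟩
  have h1 : g ^ m = 1 := by
    apply Units.ext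
    rw [Units.val_pow_eq_pow_val, h, Units.val_one]
  have h2 : orderOf g = Fintype.card F - 1 := by
    rw [orderOf_eq_card_of_forall_mem_zpowers hg, Nat.card_eq_fintype_card, Fintype.card_units]
  have h3 := orderOf_dvd_of_pow_eq_one h1
  rw [h2] at h3
  exact absurd (Nat.le_of_dvd hm0 h3) (not_le.mpr hm)

include π in
/-- **The `p`-th power residue character**: a multiplicative character `χ₀` on the residue field
with values in `R`, such that `χ₀ x ≡ x ^ ((q - 1) / p)` and `χ₀ x ^ p = 1` for `x ≠ 0`. -/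
theorem exists_mulChar {ζ₀ : R} (hζ₀ : IsPrimitiveRoot ζ₀ p) (hpF : (p : F) ≠ 0) :
    ∃ χ₀ : MulChar F R, (∀ x : F, π (χ₀ x) = x ^ ((Fintype.card F - 1) / p)) ∧
      (∀ x : F, x ≠ 0 → χ₀ x ^ p = 1) := by
  classical
  have hz := isPrimitiveRoot_map π hζ₀ hpF
  obtain ⟨k, hk⟩ := prime_dvd_card_sub_one π hζ₀ hpF
  have hp0 : p ≠ 0 := hp.out.ne_zero
  have hcard : 1 < Fintype.card F := Fintype.one_lt_card
  have hk0 : k ≠ 0 := by
    rintro rfl
    omega
  have hkdiv : (Fintype.card F - 1) / p = k := by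
    rw [hk, Nat.mul_div_cancel_left _ hp.out.pos]
  rw [hkdiv]
  obtain ⟨g, hg⟩ := IsCyclic.exists_generator (α := Fˣ)
  have hgk : ((g : F) ^ k) ^ p = 1 := by
    rw [← pow_mul, mul_comm, ← hk]
    exact FiniteField.pow_card_sub_one_eq_one _ g.ne_zero
  haveI : NeZero p := ⟨hp0⟩
  obtain ⟨i, -, hi⟩ := hz.eq_pow_of_pow_eq_one hgk
  -- the root of unity `ζ = ζ₀ ^ i` reduces to `g ^ k`
  have hζp : (ζ₀ ^ i) ^ p = 1 := by
    rw [← pow_mul, mul_comm, pow_mul, hζ₀.pow_eq_one, one_pow]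
  have hunit : IsUnit (ζ₀ ^ i) := IsUnit.of_pow_eq_one hζp hp0
  obtain ⟨ζ, hζ⟩ := hunit
  have hζp' : ζ ^ p = 1 := by
    apply Units.ext
    rw [Units.val_pow_eq_pow_val, hζ, hζp, Units.val_one]
  have hmem : ζ ∈ rootsOfUnity (Fintype.card Fˣ) R := by
    rw [mem_rootsOfUnity, Fintype.card_units, hk, pow_mul, hζp', one_pow]
  set χ₀ : MulChar F R := MulChar.ofRootOfUnity hmem hg with hχ₀
  have hspec : χ₀ (g : F) = ζ := MulChar.ofRootOfUnity_spec hmem hg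
  have hpow : ∀ n : ℕ, χ₀ ((g : F) ^ n) = (ζ₀ ^ i) ^ n := by
    intro n
    rw [map_pow, hspec, hζ]
  have hgen : ∀ x : F, x ≠ 0 → ∃ n : ℕ, (g : F) ^ n = x := by
    intro x hx
    have hx' : Units.mk0 x hx ∈ Subgroup.zpowers g := hg _
    rw [← mem_powers_iff_mem_zpowers] at hx'
    obtain ⟨n, hn⟩ := hx'
    refine ⟨n, ?_⟩
    have := congrArg Units.val hn
    simpa using this
  refine ⟨χ₀, fun x => ?_, fun x hx => ?_⟩
  · by_cases hx : x = 0
    · subst hx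
      rw [MulChar.map_zero, map_zero, zero_pow hk0]
    · obtain ⟨n, rfl⟩ := hgen x hx
      rw [hpow, map_pow, map_pow, hi, ← pow_mul, ← pow_mul, mul_comm]
  · obtain ⟨n, rfl⟩ := hgen x hx
    rw [hpow, ← pow_mul, mul_comm, pow_mul, hζp, one_pow]

include π in
/-- The congruence `J(χ₀^c, χ₀^c) ≡ ∑ x^{ck} (1-x)^{ck} ≡ 0` for `0 < c < p/2`. -/
theorem map_sum_pow_eq_zero {χ₀ : MulChar F R}
    (h1 : ∀ x : F, π (χ₀ x) = x ^ ((Fintype.card F - 1) / p))
    (hdvd : p ∣ Fintype.card F - 1) {c : ℕ} (hc : 2 * c < p) :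
    π (∑ x : F, χ₀ x ^ c * χ₀ (1 - x) ^ c) = 0 := by
  obtain ⟨k, hk⟩ := hdvd
  have hkdiv : (Fintype.card F - 1) / p = k := by
    rw [hk, Nat.mul_div_cancel_left _ hp.out.pos]
  rw [hkdiv] at h1
  have hcard : 1 < Fintype.card F := Fintype.one_lt_card
  have hk0 : 0 < k := by
    rcases Nat.eq_zero_or_pos k with h | h
    · subst h; omega
    · exact h
  rw [map_sum]
  have : ∀ x : F, π (χ₀ x ^ c * χ₀ (1 - x) ^ c) = x ^ (k * c) * (1 - x) ^ (k * c) := by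
    intro x
    rw [map_mul, map_pow, map_pow, h1, h1, ← pow_mul, ← pow_mul]
  simp_rw [this]
  apply sum_pow_mul_one_sub_pow
  rw [hk]
  calc 2 * (k * c) = k * (2 * c) := by ring
    _ < k * p := Nat.mul_lt_mul_of_pos_left hc hk0
    _ = p * k := mul_comm _ _

end Character


/-! ### Galois action, norms -/

section Galois

variable {K : Type*} [Field K] [NumberField K]

/-- The absolute norm is invariant under the Galois action on ideals. -/
theorem absNorm_smul (σ : Gal(K/ℚ)) (I : Ideal (𝓞 K)) :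
    Ideal.absNorm (σ • I) = Ideal.absNorm I := by
  rw [Ideal.absNorm_apply, Ideal.absNorm_apply, Submodule.cardQuot_apply, Submodule.cardQuot_apply]
  have e : (𝓞 K ⧸ I) ≃+* (𝓞 K ⧸ (σ • I)) :=
    Ideal.quotientEquiv I (σ • I) (MulSemiringAction.toRingEquiv Gal(K/ℚ) (𝓞 K) σ) rfl
  exact (Nat.card_congr e.toEquiv).symm

theorem coe_smul (σ : Gal(K/ℚ)) (a : 𝓞 K) : ((σ • a : 𝓞 K) : K) = σ (a : K) := rfl

theorem smul_natCast' (σ : Gal(K/ℚ)) (n : ℕ) : σ • (n : 𝓞 K) = (n : 𝓞 K) := by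
  apply RingOfIntegers.ext
  rw [coe_smul]
  simp

/-- The Galois action on a sum of products of roots of unity. -/
theorem smul_jacobiSum {p : ℕ} {F : Type*} [Field F] [Fintype F] (χ₀ : MulChar F (𝓞 K))
    (h2 : ∀ x : F, x ≠ 0 → χ₀ x ^ p = 1) (σ : Gal(K/ℚ)) {c : ℕ} (hc : c ≠ 0)
    (hσ : ∀ ζ : K, ζ ^ p = 1 → σ ζ = ζ ^ c) :
    σ • jacobiSum χ₀ χ₀ = ∑ x : F, χ₀ x ^ c * χ₀ (1 - x) ^ c := by
  have key : ∀ y : F, σ • χ₀ y = χ₀ y ^ c := by
    intro y
    by_cases hy : y = 0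
    · subst hy
      rw [MulChar.map_zero, smul_zero, zero_pow hc]
    · apply RingOfIntegers.ext
      rw [coe_smul, RingOfIntegers.coe_eq_algebraMap, RingOfIntegers.coe_eq_algebraMap, map_pow]
      apply hσ
      rw [← map_pow, h2 y hy, map_one]
  rw [jacobiSum, Finset.smul_sum]
  refine Finset.sum_congr rfl fun x _ => ?_
  rw [smul_mul', key, key]

/-- The inverse character in terms of powers. -/
theorem jacobiSum_inv {p : ℕ} [hp : Fact p.Prime] {F : Type*} [Field F] [Fintype F]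
    (χ₀ : MulChar F (𝓞 K)) (h2 : ∀ x : F, x ≠ 0 → χ₀ x ^ p = 1) :
    jacobiSum χ₀⁻¹ χ₀⁻¹ = ∑ x : F, χ₀ x ^ (p - 1) * χ₀ (1 - x) ^ (p - 1) := by
  have hp1 : p - 1 ≠ 0 := by have := hp.out.two_le; omega
  have key : ∀ y : F, χ₀⁻¹ y = χ₀ y ^ (p - 1) := by
    intro y
    by_cases hy : y = 0
    · subst hy
      rw [MulChar.map_zero, MulChar.map_zero, zero_pow hp1]
    · rw [MulChar.inv_apply_eq_inv]
      have h : χ₀ y ^ (p - 1) * χ₀ y = 1 := by
        rw [← pow_succ, Nat.sub_add_cancel hp.out.one_le, h2 y hy]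
      have hu : IsUnit (χ₀ y) := IsUnit.of_mul_eq_one_right _ h
      exact (hu.mul_right_cancel (by rw [h, Ring.inverse_mul_cancel _ hu] :
        Ring.inverse (χ₀ y) * χ₀ y = χ₀ y ^ (p - 1) * χ₀ y))
  rw [jacobiSum]
  refine Finset.sum_congr rfl fun x _ => ?_
  rw [key, key]

/-! ### New part -/

theorem smul_span_singleton (σ : Gal(K/ℚ)) (a : 𝓞 K) :
    σ • Ideal.span {a} = Ideal.span {σ • a} := by
  rw [Ideal.pointwise_smul_def, Ideal.map_span, Set.image_singleton]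
  rfl

section Cyclo

variable {p : ℕ} [hp : Fact p.Prime] [IsCyclotomicExtension {p} ℚ K]

theorem finrank_int_eq : Module.finrank ℤ (𝓞 K) = p - 1 := by
  haveI : NeZero p := ⟨hp.out.ne_zero⟩
  rw [RingOfIntegers.rank,
    IsCyclotomicExtension.finrank K (Polynomial.cyclotomic.irreducible_rat hp.out.pos),
    Nat.totient_prime hp.out]

/-- `J · σ₋₁ J = q`. -/
theorem jacobiSum_mul_smul {F : Type*} [Field F] [Fintype F]
    (hcard : (Fintype.card F).Prime)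
    (χ₀ : MulChar F (𝓞 K)) (h2 : ∀ x : F, x ≠ 0 → χ₀ x ^ p = 1)
    (hx : ∃ a : Fˣ, χ₀ a ≠ 1 ∧ χ₀ a * χ₀ a ≠ 1)
    (σm : Gal(K/ℚ)) (hσm : ∀ ζ : K, ζ ^ p = 1 → σm ζ = ζ ^ (p - 1)) :
    jacobiSum χ₀ χ₀ * σm • jacobiSum χ₀ χ₀ = (Fintype.card F : 𝓞 K) := by
  have hp1 : p - 1 ≠ 0 := by have := hp.out.two_le; omega
  have hinj : Function.Injective (algebraMap (𝓞 K) K) := RingOfIntegers.coe_injective
  obtain ⟨a, ha1, ha2⟩ := hx
  set χ : MulChar F K := χ₀.ringHomComp (algebraMap (𝓞 K) K) with hχ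
  have hχ1 : χ ≠ 1 := by
    rw [MulChar.ne_one_iff]
    refine ⟨a, fun h => ha1 (hinj ?_)⟩
    rw [map_one, ← h, hχ, MulChar.ringHomComp_apply]
  have hχ2 : χ * χ ≠ 1 := by
    rw [MulChar.ne_one_iff]
    refine ⟨a, fun h => ha2 (hinj ?_)⟩
    rw [map_one, ← h, hχ, MulChar.mul_apply, MulChar.ringHomComp_apply, map_mul]
  have hchar : ringChar K ≠ ringChar F := by
    rw [ringChar.eq_zero]
    haveI : Fact (Fintype.card F).Prime := ⟨hcard⟩
    haveI := charP_of_card_eq_prime (R := F) rfl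
    rw [ringChar.eq F (Fintype.card F)]
    exact hcard.ne_zero.symm
  have h := jacobiSum_mul_jacobiSum_inv hchar hχ1 hχ1 hχ2
  rw [hχ, MulChar.ringHomComp_inv, jacobiSum_ringHomComp, jacobiSum_ringHomComp, ← map_mul,
    ← map_natCast (algebraMap (𝓞 K) K)] at h
  have h' := hinj h
  rw [← h', smul_jacobiSum χ₀ h2 σm hp1 hσm, jacobiSum_inv χ₀ h2]

theorem absNorm_span_jacobiSum {F : Type*} [Field F] [Fintype F]
    (hcard : (Fintype.card F).Prime)
    (χ₀ : MulChar F (𝓞 K)) (h2 : ∀ x : F, x ≠ 0 → χ₀ x ^ p = 1)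
    (hx : ∃ a : Fˣ, χ₀ a ≠ 1 ∧ χ₀ a * χ₀ a ≠ 1)
    (σm : Gal(K/ℚ)) (hσm : ∀ ζ : K, ζ ^ p = 1 → σm ζ = ζ ^ (p - 1)) (hp2 : p ≠ 2) :
    Ideal.absNorm (Ideal.span {jacobiSum χ₀ χ₀}) = Fintype.card F ^ ((p - 1) / 2) := by
  have h := jacobiSum_mul_smul hcard χ₀ h2 hx σm hσm
  have h1 : Ideal.absNorm (Ideal.span {jacobiSum χ₀ χ₀}) *
      Ideal.absNorm (Ideal.span {jacobiSum χ₀ χ₀}) = Fintype.card F ^ (p - 1) := by
    have hA : Ideal.absNorm (Ideal.span {σm • jacobiSum χ₀ χ₀}) =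
        Ideal.absNorm (Ideal.span {jacobiSum χ₀ χ₀}) := by
      rw [← smul_span_singleton, absNorm_smul]
    calc Ideal.absNorm (Ideal.span {jacobiSum χ₀ χ₀}) *
          Ideal.absNorm (Ideal.span {jacobiSum χ₀ χ₀})
        = Ideal.absNorm (Ideal.span {jacobiSum χ₀ χ₀}) *
          Ideal.absNorm (Ideal.span {σm • jacobiSum χ₀ χ₀}) := by rw [hA]
      _ = Fintype.card F ^ (p - 1) := by
        rw [← map_mul, Ideal.span_singleton_mul_span_singleton, h,
          Ideal.absNorm_span_natCast, finrank_int_eq (p := p)]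
  have hodd : p % 2 = 1 := by
    rcases hp.out.eq_two_or_odd with h | h
    · exact absurd h hp2
    · exact h
  have h3 : p - 1 = (p - 1) / 2 * 2 := by omega
  rw [h3, pow_mul, sq] at h1
  exact Nat.mul_self_inj.mp h1


/-! ### The exponent set -/

theorem exponentSet_eq_Ioc (hp2 : p ≠ 2) :
    Stickelberger.exponentSet p = Finset.Ioc 0 ((p - 1) / 2) := by
  have hodd : p % 2 = 1 := by
    rcases hp.out.eq_two_or_odd with h | h
    · exact absurd h hp2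
    · exact h
  ext c
  simp only [Stickelberger.mem_exponentSet, Finset.mem_Ioc]
  omega

theorem card_exponentSet (hp2 : p ≠ 2) : (Stickelberger.exponentSet p).card = (p - 1) / 2 := by
  rw [exponentSet_eq_Ioc hp2, Nat.card_Ioc, Nat.sub_zero]

theorem val_expUnit {c : ℕ} (hc : c ∈ Stickelberger.exponentSet p) :
    ((Stickelberger.expUnit p c : (ZMod p)ˣ) : ZMod p).val = c := by
  rw [Stickelberger.mem_exponentSet] at hc
  have hcp : c < p := by omega
  have hcop : Nat.Coprime c p := (Nat.coprime_of_lt_prime hc.1.ne' hcp hp.out).symm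
  rw [Stickelberger.expUnit, dif_pos hcop, ZMod.coe_unitOfCoprime, ZMod.val_natCast_of_lt hcp]

theorem val_neg_one_unit : (((-1 : (ZMod p)ˣ) : (ZMod p)ˣ) : ZMod p).val = p - 1 := by
  haveI : NeZero p := ⟨hp.out.ne_zero⟩
  haveI : Fact (1 < p) := ⟨hp.out.one_lt⟩
  rw [Units.val_neg, Units.val_one, ZMod.neg_val, if_neg one_ne_zero, ZMod.val_one]

/-- For a primitive `p`-th root of unity `z`: `z ^ m = z ↔ m ≡ 1 mod p`. -/
theorem pow_eq_self_iff {M : Type*} [CommMonoid M] {z : M} (hz : IsPrimitiveRoot z p) (m : ℕ) :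
    z ^ m = z ↔ (m : ZMod p) = 1 := by
  have h1 : z ^ m = z ^ (m % p) := by
    conv_rhs => rw [hz.eq_orderOf]
    exact (pow_mod_orderOf z m).symm
  have hlt : m % p < p := Nat.mod_lt _ hp.out.pos
  have h1p : 1 % p = 1 := Nat.mod_eq_of_lt hp.out.one_lt
  have h2 : (m : ZMod p) = 1 ↔ m % p = 1 := by
    rw [← Nat.cast_one, ZMod.natCast_eq_natCast_iff', h1p]
  rw [h2, h1]
  constructor
  · intro h
    exact hz.pow_inj hlt hp.out.one_lt (by rw [h, pow_one])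
  · intro h
    rw [h, pow_one]

/-! ### The primes `σ_c⁻¹ 𝔮` are distinct -/

theorem exists_toInteger_primitiveRoot :
    ∃ ζ₀ : 𝓞 K, IsPrimitiveRoot ζ₀ p := by
  haveI : NeZero p := ⟨hp.out.ne_zero⟩
  obtain ⟨ζ, hζ⟩ := IsCyclotomicExtension.exists_isPrimitiveRoot ℚ K (Set.mem_singleton p)
    hp.out.ne_zero
  exact ⟨hζ.toInteger, hζ.toInteger_isPrimitiveRoot⟩

theorem smul_primitiveRoot (σ : (ZMod p)ˣ → Gal(K/ℚ))
    (hσ : ∀ (c : (ZMod p)ˣ) (ζ : K), ζ ^ p = 1 → σ c ζ = ζ ^ (c : ZMod p).val)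
    {ζ₀ : 𝓞 K} (hζ₀ : IsPrimitiveRoot ζ₀ p) (v : (ZMod p)ˣ) :
    σ v • ζ₀ = ζ₀ ^ (v : ZMod p).val := by
  apply RingOfIntegers.ext
  rw [coe_smul, RingOfIntegers.coe_eq_algebraMap, RingOfIntegers.coe_eq_algebraMap, map_pow]
  apply hσ
  rw [← map_pow, hζ₀.pow_eq_one, map_one]

theorem unit_eq_of_smul_eq (σ : (ZMod p)ˣ → Gal(K/ℚ))
    (hσ : ∀ (c : (ZMod p)ˣ) (ζ : K), ζ ^ p = 1 → σ c ζ = ζ ^ (c : ZMod p).val)
    (𝔮 : Ideal (𝓞 K)) {F : Type*} [Field F] [Fintype F] (π : 𝓞 K →+* F)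
    (hker : ∀ x, π x = 0 ↔ x ∈ 𝔮) (hcard : (Fintype.card F).Prime) (hpF : (p : F) ≠ 0)
    {u u' : (ZMod p)ˣ} (h : (σ u)⁻¹ • 𝔮 = (σ u')⁻¹ • 𝔮) : u = u' := by
  haveI : NeZero p := ⟨hp.out.ne_zero⟩
  obtain ⟨ζ₀, hζ₀⟩ := exists_toInteger_primitiveRoot (K := K) (p := p)
  have hz := isPrimitiveRoot_map π hζ₀ hpF
  -- every element of `F` is a natural number
  obtain ⟨n, hn⟩ : ∃ n : ℕ, (n : F) = π ζ₀ := by
    haveI : NeZero (Fintype.card F) := ⟨hcard.ne_zero⟩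
    let e := ZMod.ringEquivOfPrime F hcard rfl
    refine ⟨(e.symm (π ζ₀)).val, ?_⟩
    rw [← map_natCast e, ZMod.natCast_zmod_val, RingEquiv.apply_symm_apply]
  set a : ℕ := ((u⁻¹ : (ZMod p)ˣ) : ZMod p).val with ha
  have hπ : ∀ v : (ZMod p)ˣ, π (σ v • (ζ₀ ^ a - (n : 𝓞 K))) = 0 ↔ v = u := by
    intro v
    rw [smul_sub, smul_pow', smul_natCast', smul_primitiveRoot σ hσ hζ₀, map_sub, map_pow,
      map_pow, map_natCast, hn, sub_eq_zero, ← pow_mul, pow_eq_self_iff hz, Nat.cast_mul,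
      ha, ZMod.natCast_zmod_val, ZMod.natCast_zmod_val, ← Units.val_mul, Units.val_eq_one,
      mul_inv_eq_one]
  have hmem : ζ₀ ^ a - (n : 𝓞 K) ∈ (σ u)⁻¹ • 𝔮 := by
    rw [Ideal.mem_inv_pointwise_smul_iff, ← hker, hπ]
  rw [h, Ideal.mem_inv_pointwise_smul_iff, ← hker, hπ] at hmem
  exact hmem.symm

/-! ### The Jacobi sum lies in `σ_c⁻¹ 𝔮` -/

theorem jacobiSum_mem (σ : (ZMod p)ˣ → Gal(K/ℚ))
    (hσ : ∀ (c : (ZMod p)ˣ) (ζ : K), ζ ^ p = 1 → σ c ζ = ζ ^ (c : ZMod p).val)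
    (𝔮 : Ideal (𝓞 K)) {F : Type*} [Field F] [Fintype F] (π : 𝓞 K →+* F)
    (hker : ∀ x, π x = 0 ↔ x ∈ 𝔮) {χ₀ : MulChar F (𝓞 K)}
    (h1 : ∀ x : F, π (χ₀ x) = x ^ ((Fintype.card F - 1) / p))
    (h2 : ∀ x : F, x ≠ 0 → χ₀ x ^ p = 1)
    (hdvd : p ∣ Fintype.card F - 1) {c : ℕ} (hc : c ∈ Stickelberger.exponentSet p) :
    jacobiSum χ₀ χ₀ ∈ (σ (Stickelberger.expUnit p c))⁻¹ • 𝔮 := by
  have hc' := Stickelberger.mem_exponentSet.mp hc
  rw [Ideal.mem_inv_pointwise_smul_iff, ← hker,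
    smul_jacobiSum χ₀ h2 (σ (Stickelberger.expUnit p c)) hc'.1.ne'
      (fun ζ hζ => by rw [hσ _ ζ hζ, val_expUnit hc])]
  exact map_sum_pow_eq_zero π h1 hdvd hc'.2

/-! ### The core: the product is generated by the Jacobi sum -/

theorem core_isPrincipal (hp2 : p ≠ 2) (σ : (ZMod p)ˣ → Gal(K/ℚ))
    (hσ : ∀ (c : (ZMod p)ˣ) (ζ : K), ζ ^ p = 1 → σ c ζ = ζ ^ (c : ZMod p).val)
    (𝔮 : Ideal (𝓞 K)) (h𝔮 : 𝔮.IsPrime) {F : Type*} [Field F] [Fintype F] (π : 𝓞 K →+* F)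
    (hker : ∀ x, π x = 0 ↔ x ∈ 𝔮) (hcard : (Fintype.card F).Prime)
    (hnorm : Ideal.absNorm 𝔮 = Fintype.card F) (hqp : Fintype.card F ≠ p) :
    (∏ c ∈ Stickelberger.exponentSet p,
      (σ (Stickelberger.expUnit p c))⁻¹ • 𝔮).IsPrincipal := by
  classical
  haveI : NeZero p := ⟨hp.out.ne_zero⟩
  haveI : Fact (Fintype.card F).Prime := ⟨hcard⟩
  haveI hchar : CharP F (Fintype.card F) := charP_of_card_eq_prime (R := F) rfl
  have hpF : (p : F) ≠ 0 := by
    intro h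
    rw [CharP.cast_eq_zero_iff F (Fintype.card F), Nat.prime_dvd_prime_iff_eq hcard hp.out] at h
    exact hqp h
  obtain ⟨ζ₀, hζ₀⟩ := exists_toInteger_primitiveRoot (K := K) (p := p)
  obtain ⟨χ₀, h1, h2⟩ := exists_mulChar π hζ₀ hpF
  have hdvd := prime_dvd_card_sub_one π hζ₀ hpF
  have hodd : p % 2 = 1 := by
    rcases hp.out.eq_two_or_odd with h | h
    · exact absurd h hp2
    · exact h
  have hp3 : 3 ≤ p := by have := hp.out.two_le; omega
  -- the character and its square are nontrivial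
  have hx : ∃ a : Fˣ, χ₀ a ≠ 1 ∧ χ₀ a * χ₀ a ≠ 1 := by
    obtain ⟨k, hk⟩ := hdvd
    have hkdiv : (Fintype.card F - 1) / p = k := by
      rw [hk, Nat.mul_div_cancel_left _ hp.out.pos]
    have hcard1 : 1 < Fintype.card F := Fintype.one_lt_card
    have hk0 : 0 < k := by
      rcases Nat.eq_zero_or_pos k with h | h
      · subst h; omega
      · exact h
    have hlt : 2 * k < Fintype.card F - 1 := by
      rw [hk]
      calc 2 * k < 3 * k := by omega
        _ ≤ p * k := Nat.mul_le_mul_right k hp3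
    obtain ⟨x, hx⟩ := exists_unit_pow_ne_one (F := F) (2 * k) (by omega) hlt
    rw [hkdiv] at h1
    refine ⟨x, fun h => hx ?_, fun h => hx ?_⟩
    · have := congrArg π h
      rw [h1, map_one] at this
      rw [mul_comm, pow_mul, this, one_pow]
    · have := congrArg π h
      rw [map_mul, h1, map_one, ← pow_two, ← pow_mul, mul_comm] at this
      exact this
  have hσm : ∀ ζ : K, ζ ^ p = 1 → σ (-1) ζ = ζ ^ (p - 1) := by
    intro ζ hζ
    rw [hσ _ ζ hζ, val_neg_one_unit]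
  have hN := absNorm_span_jacobiSum hcard χ₀ h2 hx (σ (-1)) hσm hp2
  set J := jacobiSum χ₀ χ₀ with hJ
  set f : ℕ → Ideal (𝓞 K) := fun c => (σ (Stickelberger.expUnit p c))⁻¹ • 𝔮 with hf
  have hq0 : Fintype.card F ≠ 0 := hcard.ne_zero
  have hfnorm : ∀ c, Ideal.absNorm (f c) = Fintype.card F := by
    intro c
    rw [hf, absNorm_smul, hnorm]
  have hfprime : ∀ c, Prime (f c) := by
    intro c
    refine Ideal.prime_of_isPrime ?_ ?_
    · intro h
      have := hfnorm c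
      rw [h, Ideal.absNorm_bot] at this
      exact hq0 this.symm
    · haveI := h𝔮
      exact Ideal.IsPrime.smul _
  have hinj : Set.InjOn f (Stickelberger.exponentSet p : Set ℕ) := by
    intro c hc c' hc' h
    have hu := unit_eq_of_smul_eq σ hσ 𝔮 π hker hcard hpF h
    rw [← val_expUnit (p := p) hc, ← val_expUnit (p := p) hc', hu]
  have hdvdI : ∏ c ∈ Stickelberger.exponentSet p, f c ∣ Ideal.span {J} := by
    rw [← Finset.prod_image (f := fun I : Ideal (𝓞 K) => I) hinj]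
    refine Finset.prod_primes_dvd _ ?_ ?_
    · intro I hI
      obtain ⟨c, -, rfl⟩ := Finset.mem_image.mp hI
      exact hfprime c
    · intro I hI
      obtain ⟨c, hc, rfl⟩ := Finset.mem_image.mp hI
      rw [Ideal.dvd_span_singleton]
      exact jacobiSum_mem σ hσ 𝔮 π hker h1 h2 hdvd hc
  obtain ⟨X, hX⟩ := hdvdI
  have hNI : Ideal.absNorm (∏ c ∈ Stickelberger.exponentSet p, f c) =
      Fintype.card F ^ ((p - 1) / 2) := by
    rw [map_prod, Finset.prod_congr rfl (fun c _ => hfnorm c), Finset.prod_const,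
      card_exponentSet hp2]
  have hXnorm : Ideal.absNorm X = 1 := by
    have := congrArg Ideal.absNorm hX
    rw [map_mul, hN, hNI] at this
    have hpos : 0 < Fintype.card F ^ ((p - 1) / 2) := pow_pos (Nat.pos_of_ne_zero hq0) _
    exact (Nat.eq_of_mul_eq_mul_left hpos (by rw [mul_one]; exact this)).symm
  rw [Ideal.absNorm_eq_one_iff] at hXnorm
  rw [hXnorm, Ideal.mul_top] at hX
  rw [← hX]
  exact ⟨⟨J, rfl⟩⟩

end Cyclo

end Galois

/-! ### The main theorem -/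

section Main

variable {K : Type*} [Field K] [NumberField K] {p : ℕ} [Fact p.Prime]
  [IsCyclotomicExtension {p} ℚ K]

/-- **Stickelberger's relation for degree-one primes, `θ⁺` part**: the product of the classes of
`σ_c⁻¹ 𝔮`, `0 < c < p / 2`, is trivial in the class group of the `p`-th cyclotomic field. -/
theorem prod_mk0_eq_one (hp : p ≠ 2) (σ : (ZMod p)ˣ → Gal(K/ℚ))
    (hσ : ∀ (c : (ZMod p)ˣ) (ζ : K), ζ ^ p = 1 → σ c ζ = ζ ^ (c : ZMod p).val)
    (𝔮 : (Ideal (𝓞 K))⁰) (h𝔮 : (𝔮 : Ideal (𝓞 K)).IsPrime)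
    (hdeg : (Ideal.absNorm (𝔮 : Ideal (𝓞 K))).Prime)
    (hqp : Ideal.absNorm (𝔮 : Ideal (𝓞 K)) ≠ p)
    (τ : (ZMod p)ˣ → (Ideal (𝓞 K))⁰)
    (hτ : ∀ c, (τ c : Ideal (𝓞 K)) = (σ c)⁻¹ • (𝔮 : Ideal (𝓞 K))) :
    ∏ c ∈ Stickelberger.exponentSet p, ClassGroup.mk0 (τ (Stickelberger.expUnit p c)) = 1 := by
  have hne : (𝔮 : Ideal (𝓞 K)) ≠ ⊥ := nonZeroDivisors.coe_ne_zero 𝔮
  haveI hmax : (𝔮 : Ideal (𝓞 K)).IsMaximal := h𝔮.isMaximal hne
  letI : Field (𝓞 K ⧸ (𝔮 : Ideal (𝓞 K))) := Ideal.Quotient.field _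
  have hcardN : Nat.card (𝓞 K ⧸ (𝔮 : Ideal (𝓞 K))) = Ideal.absNorm (𝔮 : Ideal (𝓞 K)) := by
    rw [Ideal.absNorm_apply, Submodule.cardQuot_apply]
  haveI : Finite (𝓞 K ⧸ (𝔮 : Ideal (𝓞 K))) :=
    Nat.finite_of_card_ne_zero (by rw [hcardN]; exact hdeg.ne_zero)
  letI : Fintype (𝓞 K ⧸ (𝔮 : Ideal (𝓞 K))) := Fintype.ofFinite _
  have hcardF : Fintype.card (𝓞 K ⧸ (𝔮 : Ideal (𝓞 K))) = Ideal.absNorm (𝔮 : Ideal (𝓞 K)) := by
    rw [Fintype.card_eq_nat_card, hcardN]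
  have key := core_isPrincipal hp σ hσ (𝔮 : Ideal (𝓞 K)) h𝔮
    (Ideal.Quotient.mk (𝔮 : Ideal (𝓞 K))) (fun x => Ideal.Quotient.eq_zero_iff_mem)
    (by rw [hcardF]; exact hdeg) hcardF.symm (by rw [hcardF]; exact hqp)
  rw [← map_prod ClassGroup.mk0 (fun c => τ (Stickelberger.expUnit p c))
    (Stickelberger.exponentSet p)]
  generalize hT : ∏ c ∈ Stickelberger.exponentSet p, τ (Stickelberger.expUnit p c) = T
  have hT' : (T : Ideal (𝓞 K)) =
      ∏ c ∈ Stickelberger.exponentSet p, (σ (Stickelberger.expUnit p c))⁻¹ • (𝔮 : Ideal (𝓞 K)) := by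
    rw [← hT, Submonoid.coe_finsetProd]
    exact Finset.prod_congr rfl (fun c _ => hτ (Stickelberger.expUnit p c))
  obtain ⟨T, hTmem⟩ := T
  rw [ClassGroup.mk0_eq_one_iff hTmem]
  rw [← hT'] at key
  exact key

end Main

end Fermat.Agent.S14.Jacobi
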