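import Mathlib
import Fermat.Agent.S14.Defs
import Fermat.Agent.S14.Frob

/-!
# S14: from the pair statement to Artin reciprocity (unramified extensions of prime degree)

`L / K` is a Galois extension of number fields of prime degree `p`, unramified at every finite
prime, `H₀ = normClasses K L p`.  If `H₀ ≠ ⊤` and if for any two primes `𝔮₁, 𝔮₂` which do not
split completely, with Frobenius `σ ^ e` and `σ`, the class `[𝔮₁] [𝔮₂]⁻ᵉ` lies in `H₀`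
(`PAIR`), then there is an Artin map `ClassGroup (𝓞 K) →* Gal(L/K)`.
-/

set_option autoImplicit false
set_option linter.unusedSectionVars false
set_option linter.style.haveILetI false

namespace Fermat.Agent.S14.PairToRec

open NumberField nonZeroDivisors

variable {K L : Type*} [Field K] [Field L] [NumberField K] [NumberField L] [Algebra K L]
  [IsGalois K L]

/-- The class group is generated by the classes of the nonzero primes. -/
theorem mk0_mem_closure_primes (𝔞 : (Ideal (𝓞 K))⁰) :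
    ClassGroup.mk0 𝔞 ∈ Subgroup.closure
      {c : ClassGroup (𝓞 K) | ∃ 𝔮 : (Ideal (𝓞 K))⁰, (𝔮 : Ideal (𝓞 K)).IsPrime ∧
        ClassGroup.mk0 𝔮 = c} := by
  obtain ⟨I, hI⟩ := 𝔞
  have h0 : I ≠ ⊥ := nonZeroDivisors.ne_zero hI
  induction I using UniqueFactorizationMonoid.induction_on_prime with
  | h₁ => exact absurd rfl h0
  | h₂ I hu =>
    have h1 : I = ⊤ := Ideal.isUnit_iff.mp hu
    subst h1
    have : (⟨⊤, hI⟩ : (Ideal (𝓞 K))⁰) = 1 := Subtype.ext Ideal.one_eq_top.symm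
    rw [this, map_one]
    exact Subgroup.one_mem _
  | h₃ J 𝔮 hJ0 h𝔮 ih =>
    have h𝔮0 : 𝔮 ≠ ⊥ := h𝔮.ne_zero
    have h𝔮p : 𝔮.IsPrime := Ideal.isPrime_of_prime h𝔮
    have hJ' : J ≠ ⊥ := hJ0
    let 𝔮' : (Ideal (𝓞 K))⁰ := ⟨𝔮, mem_nonZeroDivisors_of_ne_zero h𝔮0⟩
    let J' : (Ideal (𝓞 K))⁰ := ⟨J, mem_nonZeroDivisors_of_ne_zero hJ'⟩
    have : (⟨𝔮 * J, hI⟩ : (Ideal (𝓞 K))⁰) = 𝔮' * J' := Subtype.ext rfl
    rw [this, map_mul]
    exact Subgroup.mul_mem _ (Subgroup.subset_closure ⟨𝔮', h𝔮p, rfl⟩)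
      (ih (mem_nonZeroDivisors_of_ne_zero hJ') hJ')

theorem closure_primes_eq_top :
    Subgroup.closure {c : ClassGroup (𝓞 K) | ∃ 𝔮 : (Ideal (𝓞 K))⁰,
      (𝔮 : Ideal (𝓞 K)).IsPrime ∧ ClassGroup.mk0 𝔮 = c} = ⊤ := by
  rw [eq_top_iff]
  intro c _
  obtain ⟨𝔞, rfl⟩ := ClassGroup.mk0_surjective c
  exact mk0_mem_closure_primes 𝔞

/-- In a group of prime order every element is a natural power of any nontrivial element. -/
theorem exists_pow_eq_of_card_prime {G : Type*} [Group G] {p : ℕ} (hp : p.Prime)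
    (hcard : Nat.card G = p) {s : G} (hs : s ≠ 1) (t : G) : ∃ e : ℕ, s ^ e = t := by
  haveI : Fact p.Prime := ⟨hp⟩
  haveI : Finite G := Nat.finite_of_card_ne_zero (hcard ▸ hp.ne_zero)
  have htop : Subgroup.zpowers s = ⊤ := zpowers_eq_top_of_prime_card hcard hs
  have hmem : t ∈ Subgroup.zpowers s := by rw [htop]; trivial
  obtain ⟨e, he⟩ := mem_powers_iff_mem_zpowers.mpr hmem
  exact ⟨e, he⟩

theorem pow_card_prime_eq_one {G : Type*} [Group G] {p : ℕ}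
    (hcard : Nat.card G = p) (s : G) : s ^ p = 1 := by
  rw [← hcard]
  exact pow_card_eq_one'

/-- **From the pair statement to Artin reciprocity.** -/
theorem exists_artinMap_of_pair {p : ℕ} (hp : p.Prime) (hdeg : Module.finrank K L = p)
    (hunr : UnramifiedEverywhere K L) (X2 : normClasses K L p ≠ ⊤)
    (PAIR : ∀ (𝔮₁ 𝔮₂ : (Ideal (𝓞 K))⁰), (𝔮₁ : Ideal (𝓞 K)).IsPrime →
      (𝔮₂ : Ideal (𝓞 K)).IsPrime → ∀ (σ : Gal(L/K)) (e : ℕ), σ ≠ 1 → σ ^ e ≠ 1 →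
      IsFrob K L σ 𝔮₂ → IsFrob K L (σ ^ e) 𝔮₁ →
        ClassGroup.mk0 𝔮₁ * (ClassGroup.mk0 𝔮₂ ^ e)⁻¹ ∈ normClasses K L p) :
    ∃ φ : ClassGroup (𝓞 K) →* Gal(L/K), IsArtinMap K L φ := by
  classical
  have hcard : Nat.card Gal(L/K) = p := by rw [IsGalois.card_aut_eq_finrank, hdeg]
  have hab : ∀ σ τ : Gal(L/K), σ * τ = τ * σ := by
    haveI : Fact p.Prime := ⟨hp⟩
    haveI : IsCyclic Gal(L/K) := isCyclic_of_prime_card hcard
    intro σ τ
    obtain ⟨g, hg⟩ := IsCyclic.exists_generator (α := Gal(L/K))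
    obtain ⟨a, rfl⟩ := Subgroup.mem_zpowers_iff.mp (hg σ)
    obtain ⟨b, rfl⟩ := Subgroup.mem_zpowers_iff.mp (hg τ)
    rw [← zpow_add, ← zpow_add, add_comm]
  set H₀ : Subgroup (ClassGroup (𝓞 K)) := normClasses K L p with hH₀
  -- Frobenius elements
  have hF : ∀ 𝔮 : (Ideal (𝓞 K))⁰, (𝔮 : Ideal (𝓞 K)).IsPrime →
      IsFrob K L (Frob.frob K L 𝔮) 𝔮 := fun 𝔮 h𝔮 =>
    haveI := h𝔮
    Frob.isFrob_frob hab (𝔮 : Ideal (𝓞 K)) (nonZeroDivisors.coe_ne_zero 𝔮)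
  have hsplit : ∀ 𝔮 : (Ideal (𝓞 K))⁰, (𝔮 : Ideal (𝓞 K)).IsPrime →
      (Frob.frob K L (𝔮 : Ideal (𝓞 K)) = 1 ↔ SplitsCompletely K L 𝔮) := fun 𝔮 h𝔮 =>
    haveI := h𝔮
    Frob.frob_eq_one_iff hab (nonZeroDivisors.coe_ne_zero 𝔮)
      (Frob.unramifiedAt_of_unramifiedEverywhere hunr (nonZeroDivisors.coe_ne_zero 𝔮))
  -- a prime which does not split completely
  obtain ⟨𝔮₀, h𝔮₀p, h𝔮₀⟩ : ∃ 𝔮₀ : (Ideal (𝓞 K))⁰, (𝔮₀ : Ideal (𝓞 K)).IsPrime ∧
      ¬ SplitsCompletely K L 𝔮₀ := by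
    by_contra hall
    push Not at hall
    apply X2
    rw [eq_top_iff, ← closure_primes_eq_top (K := K)]
    apply Subgroup.closure_mono
    rintro c ⟨𝔮, h𝔮, rfl⟩
    exact Or.inl ⟨𝔮, h𝔮, hall 𝔮 h𝔮, rfl⟩
  set s : Gal(L/K) := Frob.frob K L (𝔮₀ : Ideal (𝓞 K)) with hs
  have hs1 : s ≠ 1 := fun h => h𝔮₀ ((hsplit 𝔮₀ h𝔮₀p).mp h)
  have hsp : s ^ p = 1 := pow_card_prime_eq_one hcard s
  -- the quotient of the class group
  set c₀ : ClassGroup (𝓞 K) ⧸ H₀ := QuotientGroup.mk (ClassGroup.mk0 𝔮₀) with hc₀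
  have hprime : ∀ 𝔮 : (Ideal (𝓞 K))⁰, (𝔮 : Ideal (𝓞 K)).IsPrime → ∀ e : ℕ,
      s ^ e = Frob.frob K L (𝔮 : Ideal (𝓞 K)) →
      (QuotientGroup.mk (ClassGroup.mk0 𝔮) : ClassGroup (𝓞 K) ⧸ H₀) = c₀ ^ e := by
    intro 𝔮 h𝔮 e he
    by_cases hsp' : SplitsCompletely K L 𝔮
    · have h1 : ClassGroup.mk0 𝔮 ∈ H₀ := Subgroup.subset_closure (Or.inl ⟨𝔮, h𝔮, hsp', rfl⟩)
      have hse : s ^ e = 1 := by rw [he]; exact (hsplit 𝔮 h𝔮).mpr hsp'
      have hpe : p ∣ e := by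
        have hord : orderOf s = p := by
          have := orderOf_dvd_of_pow_eq_one hsp
          rcases (Nat.dvd_prime hp).mp this with h | h
          · exact absurd (orderOf_eq_one_iff.mp h) hs1
          · exact h
        rw [← hord]
        exact orderOf_dvd_of_pow_eq_one hse
      obtain ⟨k, rfl⟩ := hpe
      have h2 : ClassGroup.mk0 𝔮₀ ^ (p * k) ∈ H₀ := by
        rw [mul_comm, pow_mul]
        exact pow_mem_normClasses K L p _
      rw [(QuotientGroup.eq_one_iff _).mpr h1, hc₀, ← QuotientGroup.mk_pow,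
        (QuotientGroup.eq_one_iff _).mpr h2]
    · have hne : s ^ e ≠ 1 := by
        rw [he]
        exact fun h => hsp' ((hsplit 𝔮 h𝔮).mp h)
      have h1 := PAIR 𝔮 𝔮₀ h𝔮 h𝔮₀p s e hs1 hne (hF 𝔮₀ h𝔮₀p) (he ▸ hF 𝔮 h𝔮)
      rw [hc₀, ← QuotientGroup.mk_pow]
      rw [QuotientGroup.eq]
      have h2 := H₀.inv_mem h1
      rw [mul_inv_rev, inv_inv, mul_comm] at h2
      exact h2
  have hgen : ∀ x : ClassGroup (𝓞 K) ⧸ H₀, x ∈ Subgroup.zpowers c₀ := by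
    intro x
    obtain ⟨c, rfl⟩ := QuotientGroup.mk_surjective x
    have hc : c ∈ Subgroup.closure {c : ClassGroup (𝓞 K) | ∃ 𝔮 : (Ideal (𝓞 K))⁰,
        (𝔮 : Ideal (𝓞 K)).IsPrime ∧ ClassGroup.mk0 𝔮 = c} := by
      rw [closure_primes_eq_top]; trivial
    induction hc using Subgroup.closure_induction with
    | mem c hc =>
      obtain ⟨𝔮, h𝔮, rfl⟩ := hc
      obtain ⟨e, he⟩ := exists_pow_eq_of_card_prime hp hcard hs1 (Frob.frob K L (𝔮 : Ideal (𝓞 K)))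
      rw [hprime 𝔮 h𝔮 e he]
      exact Subgroup.npow_mem_zpowers c₀ e
    | one => exact Subgroup.one_mem _
    | mul a b _ _ ha hb => exact Subgroup.mul_mem _ ha hb
    | inv a _ ha => exact Subgroup.inv_mem _ ha
  have hc₀p : c₀ ^ p = 1 := by
    rw [hc₀, ← QuotientGroup.mk_pow]
    exact (QuotientGroup.eq_one_iff _).mpr (pow_mem_normClasses K L p _)
  have hc₀1 : c₀ ≠ 1 := by
    intro h1
    apply X2
    rw [eq_top_iff]
    intro c _
    have := hgen (QuotientGroup.mk c)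
    rw [h1, Subgroup.zpowers_one_eq_bot, Subgroup.mem_bot] at this
    exact (QuotientGroup.eq_one_iff c).mp this
  have hordc : orderOf c₀ = p := by
    rcases (Nat.dvd_prime hp).mp (orderOf_dvd_of_pow_eq_one hc₀p) with h | h
    · exact absurd (orderOf_eq_one_iff.mp h) hc₀1
    · exact h
  have hords : orderOf s ∣ orderOf c₀ := by
    rw [hordc]
    exact orderOf_dvd_of_pow_eq_one hsp
  let ψ : (ClassGroup (𝓞 K) ⧸ H₀) →* Gal(L/K) := monoidHomOfForallMemZpowers hgen hords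
  have hψ : ψ c₀ = s := monoidHomOfForallMemZpowers_apply_gen hgen hords
  refine ⟨ψ.comp (QuotientGroup.mk' H₀), ?_⟩
  intro 𝔮 h𝔮
  obtain ⟨e, he⟩ := exists_pow_eq_of_card_prime hp hcard hs1 (Frob.frob K L (𝔮 : Ideal (𝓞 K)))
  have : (ψ.comp (QuotientGroup.mk' H₀)) (ClassGroup.mk0 𝔮) = Frob.frob K L (𝔮 : Ideal (𝓞 K)) := by
    rw [MonoidHom.comp_apply, QuotientGroup.mk'_apply, hprime 𝔮 h𝔮 e he, map_pow, hψ, he]
  rw [this]
  exact hF 𝔮 h𝔮

end Fermat.Agent.S14.PairToRec
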