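import Mathlib
import Fermat.Prelude.Def_ExtCitation_AdmissibleExtension_v2

/-!
# S14: the reduction step (section 0 of the plan), in the language of `G_ℚ`

`V` is an admissible extension in the sense of the prelude: a plane over `𝔽_p` with an action
of `G_ℚ = Gal(ℚ̄/ℚ)` with open kernel, a line `C` with trivial action, `V / C` the mod `p`
cyclotomic character, unramified outside `p` and locally split at `p`.

* `omega p` : the mod `p` cyclotomic character `G_ℚ →* (ZMod p)ˣ` (surjective, kernel open and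
  equal to the fixing subgroup of `ℚ(ζ_p)`; its fixed field is a `p`-th cyclotomic extension);
* `actKer V` : the kernel of the action (normal, open, contained in the kernel of `omega p`);
* `splits_of_ker_le` : if the kernel of `omega p` acts trivially, the extension splits;
* `relIndex_actKer`, `inertia_inf_ker_le`, `conj_pow_mem_of_cast` : otherwise `actKer V` has
  index `p` in the kernel of `omega p`, contains the intersection of every inertia group with
  it, and `τ s^e τ⁻¹ ≡ s` for `e ≡ ω(τ)`;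
* `extVanishingCts_of_core` : the reduction of `ExtVanishingCts p` to the core statement.
-/

set_option autoImplicit false
set_option linter.unusedSectionVars false

namespace Fermat.Agent.S14.Reduce

open ExtCitation

/-- The absolute Galois group of `ℚ`. -/
abbrev GQ : Type := AlgebraicClosure ℚ ≃ₐ[ℚ] AlgebraicClosure ℚ

theorem isAlgClosure_rat : IsAlgClosure ℚ (AlgebraicClosure ℚ) := by
  have h : (DivisionRing.toRatAlgebra : Algebra ℚ (AlgebraicClosure ℚ))
      = AlgebraicClosure.instAlgebra ℚ := Subsingleton.elim _ _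
  rw [h]
  infer_instance

theorem isAlgebraic_rat : Algebra.IsAlgebraic ℚ (AlgebraicClosure ℚ) :=
  isAlgClosure_rat.isAlgebraic

theorem isGalois_rat : IsGalois ℚ (AlgebraicClosure ℚ) :=
  have := isAlgClosure_rat
  IsAlgClosure.isGalois ℚ (AlgebraicClosure ℚ)

section omega

variable (p : ℕ) [Fact p.Prime]

/-- The mod `p` cyclotomic character of `G_ℚ`. -/
noncomputable def omega : GQ →* (ZMod p)ˣ :=
  haveI : NeZero p := ⟨(Fact.out : p.Prime).ne_zero⟩
  { toFun := fun σ => modularCyclotomicCharacter (AlgebraicClosure ℚ) (card_rootsOfUnity_eq_self p)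
      (σ : AlgebraicClosure ℚ ≃+* AlgebraicClosure ℚ)
    map_one' := map_one _
    map_mul' := fun _ _ => map_mul _ _ _ }

theorem cycloExp_eq (σ : GQ) : cycloExp p σ = ((omega p σ : (ZMod p)ˣ) : ZMod p).val := rfl

theorem cycloExp_cast (σ : GQ) :
    ((cycloExp p σ : ℕ) : ZMod p) = ((omega p σ : (ZMod p)ˣ) : ZMod p) := by
  have : NeZero p := ⟨(Fact.out : p.Prime).ne_zero⟩
  rw [cycloExp_eq, ZMod.natCast_zmod_val]

theorem omega_spec (σ : GQ) {ζ : AlgebraicClosure ℚ} (hζ : ζ ^ p = 1) :
    σ ζ = ζ ^ cycloExp p σ := by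
  have : NeZero p := ⟨(Fact.out : p.Prime).ne_zero⟩
  have hu : IsUnit ζ := IsUnit.of_pow_eq_one hζ (Fact.out : p.Prime).ne_zero
  obtain ⟨u, rfl⟩ := hu
  have hmem : u ∈ rootsOfUnity p (AlgebraicClosure ℚ) := by
    rw [mem_rootsOfUnity]
    exact Units.ext (by simpa using hζ)
  exact modularCyclotomicCharacter.spec (AlgebraicClosure ℚ) (card_rootsOfUnity_eq_self p)
    (σ : AlgebraicClosure ℚ ≃+* AlgebraicClosure ℚ) hmem

theorem exists_primitiveRoot : ∃ ζ : AlgebraicClosure ℚ, IsPrimitiveRoot ζ p := by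
  have : NeZero p := ⟨(Fact.out : p.Prime).ne_zero⟩
  have : NeZero (p : AlgebraicClosure ℚ) := ⟨Nat.cast_ne_zero.mpr (NeZero.ne p)⟩
  exact HasEnoughRootsOfUnity.exists_primitiveRoot (AlgebraicClosure ℚ) p

theorem mem_ker_iff {ζ : AlgebraicClosure ℚ} (hζ : IsPrimitiveRoot ζ p) (σ : GQ) :
    σ ∈ (omega p).ker ↔ σ ζ = ζ := by
  have hp : p.Prime := Fact.out
  have : NeZero p := ⟨hp.ne_zero⟩
  rw [MonoidHom.mem_ker, omega_spec p σ hζ.pow_eq_one]
  constructor
  · intro h
    rw [cycloExp_eq, h]
    simp [ZMod.val_one]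
  · intro h
    have h1 : ζ ^ cycloExp p σ = ζ ^ 1 := by rw [h, pow_one]
    have hlt : cycloExp p σ < p := by rw [cycloExp_eq]; exact ZMod.val_lt _
    have := hζ.pow_inj hlt hp.one_lt h1
    apply Units.ext
    apply ZMod.val_injective
    rw [← cycloExp_eq, this]
    simp [ZMod.val_one]

/-- The kernel of the cyclotomic character is the fixing subgroup of `ℚ(ζ_p)`. -/
theorem ker_eq_fixingSubgroup {ζ : AlgebraicClosure ℚ} (hζ : IsPrimitiveRoot ζ p) :
    (omega p).ker = (IntermediateField.adjoin ℚ ({ζ} : Set (AlgebraicClosure ℚ))).fixingSubgroup := by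
  ext σ
  rw [mem_ker_iff p hζ, IntermediateField.mem_fixingSubgroup_iff]
  constructor
  · intro h x hx
    have hle : IntermediateField.adjoin ℚ ({ζ} : Set (AlgebraicClosure ℚ)) ≤
        IntermediateField.fixedField (Subgroup.zpowers σ) := by
      rw [IntermediateField.adjoin_le_iff]
      intro y hy
      rw [Set.mem_singleton_iff] at hy
      subst hy
      rintro ⟨τ, hτ⟩
      obtain ⟨k, rfl⟩ := Subgroup.mem_zpowers_iff.mp hτ
      change (σ ^ k) y = y
      have hfix : σ ∈ MulAction.stabilizer GQ y := h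
      exact (Subgroup.zpow_mem _ hfix k)
    exact hle hx ⟨σ, Subgroup.mem_zpowers σ⟩
  · intro h
    exact h ζ (IntermediateField.subset_adjoin ℚ _ (Set.mem_singleton ζ))

theorem isOpen_ker : IsOpen ((omega p).ker : Set GQ) := by
  obtain ⟨ζ, hζ⟩ := exists_primitiveRoot p
  rw [ker_eq_fixingSubgroup p hζ]
  have := isAlgebraic_rat
  have hfd : FiniteDimensional ℚ (IntermediateField.adjoin ℚ ({ζ} : Set (AlgebraicClosure ℚ))) := by
    apply IntermediateField.finiteDimensional_adjoin
    intro z _
    exact (Algebra.IsAlgebraic.isAlgebraic z).isIntegral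
  exact IntermediateField.fixingSubgroup_isOpen _

/-- For `p ≥ 3` the cyclotomic character is not trivial. -/
theorem exists_omega_ne_one (h3 : 3 ≤ p) : ∃ τ : GQ, omega p τ ≠ 1 := by
  have hp : p.Prime := Fact.out
  have : NeZero p := ⟨hp.ne_zero⟩
  have := isAlgebraic_rat
  have hnorm : Normal ℚ (AlgebraicClosure ℚ) := isGalois_rat.to_normal
  obtain ⟨ζ, hζ⟩ := exists_primitiveRoot p
  have hcop : (p - 1).Coprime p := by
    rw [Nat.coprime_comm, Nat.Prime.coprime_iff_not_dvd hp]
    intro hdvd
    have := Nat.le_of_dvd (by omega) hdvd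
    omega
  have hζ' : IsPrimitiveRoot (ζ ^ (p - 1)) p := hζ.pow_of_coprime _ hcop
  have hroot : Polynomial.aeval (ζ ^ (p - 1)) (minpoly ℚ ζ) = 0 := by
    rw [← Polynomial.cyclotomic_eq_minpoly_rat hζ hp.pos,
      Polynomial.cyclotomic_eq_minpoly_rat hζ' hp.pos]
    exact minpoly.aeval ℚ _
  obtain ⟨τ, hτ⟩ := minpoly.exists_algEquiv_of_root' (Algebra.IsAlgebraic.isAlgebraic ζ) hroot
  refine ⟨τ, fun h1 => ?_⟩
  have hmem : τ ∈ (omega p).ker := h1
  rw [mem_ker_iff p hζ, hτ] at hmem
  have h2 : ζ ^ (p - 1) = ζ ^ 1 := by rw [hmem, pow_one]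
  have := hζ.pow_inj (by omega) hp.one_lt h2
  omega

/-- The cyclotomic character is surjective. -/
theorem omega_surjective : Function.Surjective (omega p) := by
  intro c
  have hp : p.Prime := Fact.out
  have : NeZero p := ⟨hp.ne_zero⟩
  have := isAlgebraic_rat
  have hnorm : Normal ℚ (AlgebraicClosure ℚ) := isGalois_rat.to_normal
  obtain ⟨ζ, hζ⟩ := exists_primitiveRoot p
  have hcop : ((c : ZMod p).val).Coprime p := ZMod.val_coe_unit_coprime c
  have hζ' : IsPrimitiveRoot (ζ ^ (c : ZMod p).val) p := hζ.pow_of_coprime _ hcop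
  have hroot : Polynomial.aeval (ζ ^ (c : ZMod p).val) (minpoly ℚ ζ) = 0 := by
    rw [← Polynomial.cyclotomic_eq_minpoly_rat hζ hp.pos,
      Polynomial.cyclotomic_eq_minpoly_rat hζ' hp.pos]
    exact minpoly.aeval ℚ _
  obtain ⟨τ, hτ⟩ := minpoly.exists_algEquiv_of_root' (Algebra.IsAlgebraic.isAlgebraic ζ) hroot
  refine ⟨τ, ?_⟩
  rw [omega_spec p τ hζ.pow_eq_one] at hτ
  have hlt : cycloExp p τ < p := by rw [cycloExp_eq]; exact ZMod.val_lt _
  have := hζ.pow_inj hlt (ZMod.val_lt _) hτ
  apply Units.ext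
  apply ZMod.val_injective
  rw [← cycloExp_eq, this]

/-- The fixed field of the kernel of the cyclotomic character is `ℚ(ζ_p)`. -/
theorem fixedField_ker {ζ : AlgebraicClosure ℚ} (hζ : IsPrimitiveRoot ζ p) :
    IntermediateField.fixedField (omega p).ker =
      IntermediateField.adjoin ℚ ({ζ} : Set (AlgebraicClosure ℚ)) := by
  have := isAlgebraic_rat
  have := isGalois_rat
  have hfd : FiniteDimensional ℚ (IntermediateField.adjoin ℚ ({ζ} : Set (AlgebraicClosure ℚ))) := by
    apply IntermediateField.finiteDimensional_adjoin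
    intro z _
    exact (Algebra.IsAlgebraic.isAlgebraic z).isIntegral
  rw [ker_eq_fixingSubgroup p hζ]
  exact InfiniteGalois.fixedField_fixingSubgroup _

/-- The fixed field of the kernel of the cyclotomic character is a `p`-th cyclotomic extension
of `ℚ`. -/
theorem isCyclotomicExtension_fixedField :
    IsCyclotomicExtension {p} ℚ (IntermediateField.fixedField (omega p).ker) := by
  have hp : p.Prime := Fact.out
  have : NeZero p := ⟨hp.ne_zero⟩
  have := isAlgebraic_rat
  obtain ⟨ζ, hζ⟩ := exists_primitiveRoot p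
  have h1 : @IsCyclotomicExtension {p} ℚ (IntermediateField.fixedField (omega p).ker) _ _
      (IntermediateField.algebra' _) := by
    rw [IntermediateField.isCyclotomicExtension_singleton_iff_eq_adjoin (n := p) (K := ℚ)
      (L := AlgebraicClosure ℚ) _ hζ]
    exact fixedField_ker p hζ
  have h2 : (IntermediateField.algebra' (IntermediateField.fixedField (omega p).ker) :
      Algebra ℚ (IntermediateField.fixedField (omega p).ker)) = DivisionRing.toRatAlgebra :=
    Subsingleton.elim _ _
  rw [← h2]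
  exact h1

end omega

section action

variable {p : ℕ} [Fact p.Prime]
variable {V : Type} [AddCommGroup V] [Module (ZMod p) V] [DistribMulAction GQ V]
  [SMulCommClass GQ (ZMod p) V]
variable {C : Submodule (ZMod p) V}

variable (V) in
/-- The kernel of the action of `G_ℚ` on `V`. -/
def actKer : Subgroup GQ where
  carrier := {σ | ∀ v : V, σ • v = v}
  one_mem' := fun v => one_smul _ v
  mul_mem' := fun {a b} ha hb v => by rw [mul_smul, hb v, ha v]
  inv_mem' := fun {a} ha v => by rw [inv_smul_eq_iff, ha v]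

theorem mem_actKer {σ : GQ} : σ ∈ actKer V ↔ ∀ v : V, σ • v = v := Iff.rfl

theorem actKer_normal : (actKer V).Normal :=
  ⟨fun n hn g v => by rw [mul_smul, mul_smul, hn, smul_inv_smul]⟩

theorem isOpen_actKer (hadm : IsAdmissibleExtensionCts p V C) : IsOpen (actKer V : Set GQ) :=
  hadm.open_kernel

theorem smul_sub_mem (hadm : IsAdmissibleExtensionCts p V C) (σ : GQ) (x : V) :
    σ • x - ((omega p σ : (ZMod p)ˣ) : ZMod p) • x ∈ C := by
  have := hadm.cyclo_quot σ x
  rwa [cycloExp_cast] at this

theorem smul_sub_self_mem (hadm : IsAdmissibleExtensionCts p V C) {σ : GQ}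
    (hσ : σ ∈ (omega p).ker) (x : V) : σ • x - x ∈ C := by
  have := smul_sub_mem hadm σ x
  rwa [MonoidHom.mem_ker.mp hσ, Units.val_one, one_smul] at this

theorem finite_of_adm (hadm : IsAdmissibleExtensionCts p V C) : Finite V := by
  apply Nat.finite_of_card_ne_zero
  rw [hadm.card_total]
  exact pow_ne_zero _ (Fact.out : p.Prime).ne_zero

theorem finrank_total (hadm : IsAdmissibleExtensionCts p V C) :
    Module.finrank (ZMod p) V = 2 := by
  have := finite_of_adm hadm
  have h := Module.natCard_eq_pow_finrank (K := ZMod p) (V := V)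
  rw [hadm.card_total, Nat.card_eq_fintype_card, ZMod.card] at h
  exact (Nat.pow_right_injective (Fact.out : p.Prime).two_le h).symm

theorem finrank_sub (hadm : IsAdmissibleExtensionCts p V C) :
    Module.finrank (ZMod p) C = 1 := by
  have := finite_of_adm hadm
  have h := Module.natCard_eq_pow_finrank (K := ZMod p) (V := C)
  rw [hadm.card_sub, Nat.card_eq_fintype_card, ZMod.card] at h
  have h' : p ^ 1 = p ^ Module.finrank (ZMod p) C := by rw [pow_one]; exact h
  exact (Nat.pow_right_injective (Fact.out : p.Prime).two_le h').symm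

theorem exists_not_mem (hadm : IsAdmissibleExtensionCts p V C) : ∃ x : V, x ∉ C := by
  by_contra h
  push Not at h
  have htop : C = ⊤ := by
    rw [eq_top_iff]
    exact fun x _ => h x
  have h1 := finrank_sub hadm
  have h2 := finrank_total hadm
  rw [htop, finrank_top] at h1
  omega

/-- A submodule containing `C` and an element outside `C` is everything. -/
theorem eq_top_of_le_of_not_mem (hadm : IsAdmissibleExtensionCts p V C)
    (F : Submodule (ZMod p) V) (hC : C ≤ F) {x : V} (hx : x ∈ F) (hxC : x ∉ C) : F = ⊤ := by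
  have := finite_of_adm hadm
  have hlt : C < F := lt_of_le_of_ne hC (fun h => hxC (h ▸ hx))
  have h1 := finrank_sub hadm
  have h2 := finrank_total hadm
  have h3 := Submodule.finrank_lt_finrank_of_lt hlt
  have h4 := Submodule.finrank_le F
  apply Submodule.eq_top_of_finrank_eq
  omega

/-- The fixed vectors of an element form a submodule. -/
def fixedSub (σ : GQ) : Submodule (ZMod p) V where
  carrier := {x | σ • x = x}
  add_mem' := fun {a b} ha hb => by
    change σ • (a + b) = a + b
    rw [smul_add, ha, hb]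
  zero_mem' := smul_zero σ
  smul_mem' := fun c x hx => by
    change σ • c • x = c • x
    rw [smul_comm, hx]

theorem mem_actKer_of_fix (hadm : IsAdmissibleExtensionCts p V C) {σ : GQ} {x : V}
    (hxC : x ∉ C) (hx : σ • x = x) : σ ∈ actKer V := by
  have htop := eq_top_of_le_of_not_mem hadm (fixedSub σ) (fun c hc => hadm.fixed_sub σ c hc)
    (x := x) hx hxC
  intro v
  have : v ∈ fixedSub (p := p) σ := by rw [htop]; trivial
  exact this

theorem actKer_le_ker (hadm : IsAdmissibleExtensionCts p V C) : actKer V ≤ (omega p).ker := by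
  intro σ hσ
  obtain ⟨x, hx⟩ := exists_not_mem hadm
  have h := smul_sub_mem hadm σ x
  rw [hσ x] at h
  rw [MonoidHom.mem_ker]
  by_contra hne
  have hne' : (1 : ZMod p) - ((omega p σ : (ZMod p)ˣ) : ZMod p) ≠ 0 := by
    intro h0
    apply hne
    apply Units.ext
    rw [Units.val_one]
    exact (sub_eq_zero.mp h0).symm
  have h' : ((1 : ZMod p) - ((omega p σ : (ZMod p)ˣ) : ZMod p)) • x ∈ C := by
    rw [sub_smul, one_smul]
    exact h
  have := C.smul_mem ((1 : ZMod p) - ((omega p σ : (ZMod p)ˣ) : ZMod p))⁻¹ h'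
  rw [smul_smul, inv_mul_cancel₀ hne', one_smul] at this
  exact hx this

/-! ### The split case -/

/-- The eigenspace of `τ` for the eigenvalue `ω(τ)`. -/
def eigSub (τ : GQ) : Submodule (ZMod p) V where
  carrier := {x | τ • x = ((omega p τ : (ZMod p)ˣ) : ZMod p) • x}
  add_mem' := fun {a b} ha hb => by
    change τ • (a + b) = _ • (a + b)
    rw [smul_add, smul_add, ha, hb]
  zero_mem' := by
    change τ • (0 : V) = _ • (0 : V)
    rw [smul_zero, smul_zero]
  smul_mem' := fun c x hx => by
    change τ • c • x = _ • c • x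
    rw [smul_comm τ c x, hx, smul_comm]

theorem mem_eigSub {τ : GQ} {x : V} :
    x ∈ eigSub (p := p) τ ↔ τ • x = ((omega p τ : (ZMod p)ˣ) : ZMod p) • x := Iff.rfl

/-- If the kernel of the cyclotomic character acts trivially, the extension splits. -/
theorem splits_of_ker_le (h3 : 3 ≤ p) (hadm : IsAdmissibleExtensionCts p V C)
    (hle : (omega p).ker ≤ actKer V) : SplitsGlobally C := by
  obtain ⟨τ, hτ⟩ := exists_omega_ne_one p h3
  set a : ZMod p := ((omega p τ : (ZMod p)ˣ) : ZMod p) with ha
  have ha1 : a - 1 ≠ 0 := by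
    intro h0
    apply hτ
    apply Units.ext
    rw [Units.val_one]
    exact sub_eq_zero.mp h0
  have hcomm : ∀ (σ : GQ) (x : V), τ • σ • x = σ • τ • x := by
    intro σ x
    have hu : σ⁻¹ * τ⁻¹ * σ * τ ∈ (omega p).ker := by
      rw [MonoidHom.mem_ker]
      simp only [map_mul, map_inv]
      rw [mul_comm ((omega p σ)⁻¹) ((omega p τ)⁻¹), mul_assoc, mul_assoc,
        inv_mul_cancel_left, inv_mul_cancel]
    have hfix := hle hu x
    have : σ • τ • x = τ • σ • (σ⁻¹ * τ⁻¹ * σ * τ) • x := by
      simp only [mul_smul, smul_inv_smul]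
    rw [this, hfix]
  refine ⟨eigSub τ, ?_, ?_⟩
  · intro σ x hx
    rw [mem_eigSub] at hx ⊢
    rw [hcomm σ x, hx, smul_comm]
  · rw [isCompl_iff]
    constructor
    · rw [Submodule.disjoint_def]
      intro x hxC hx
      rw [mem_eigSub, hadm.fixed_sub τ x hxC] at hx
      have h0 : (a - 1) • x = 0 := by
        rw [sub_smul, one_smul, ← hx, sub_self]
      rcases smul_eq_zero.mp h0 with h | h
      · exact absurd h ha1
      · exact h
    · rw [codisjoint_iff, eq_top_iff]
      intro x _
      have hy : τ • x - a • x ∈ C := smul_sub_mem hadm τ x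
      set y : V := τ • x - a • x with hy_def
      have hx' : x + (a - 1)⁻¹ • y ∈ eigSub (p := p) τ := by
        rw [mem_eigSub, smul_add, smul_comm τ _ y, hadm.fixed_sub τ y hy, smul_add, ← ha]
        have hτx : τ • x = a • x + y := by rw [hy_def]; abel
        rw [hτx, smul_smul]
        have hcoef : (1 : ZMod p) + (a - 1)⁻¹ = a * (a - 1)⁻¹ := by
          field_simp
          ring
        calc a • x + y + (a - 1)⁻¹ • y = a • x + ((1 : ZMod p) + (a - 1)⁻¹) • y := by
              rw [add_smul, one_smul]; abel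
          _ = a • x + (a * (a - 1)⁻¹) • y := by rw [hcoef]
      have hdecomp : x = -((a - 1)⁻¹ • y) + (x + (a - 1)⁻¹ • y) := by abel
      rw [hdecomp]
      exact Submodule.add_mem_sup (C.neg_mem (C.smul_mem _ hy)) hx'

/-! ### The non-split case -/

theorem smul_mul_sub (hadm : IsAdmissibleExtensionCts p V C) {s t : GQ}
    (ht : t ∈ (omega p).ker) (x : V) :
    (s * t) • x - x = (s • x - x) + (t • x - x) := by
  have h := hadm.fixed_sub s _ (smul_sub_self_mem hadm ht x)
  rw [smul_sub] at h
  rw [mul_smul]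
  have : s • t • x = s • x + (t • x - x) := by rw [← h]; abel
  rw [this]
  abel

theorem smul_pow_sub (hadm : IsAdmissibleExtensionCts p V C) {s : GQ}
    (hs : s ∈ (omega p).ker) (k : ℕ) (x : V) :
    (s ^ k) • x - x = k • (s • x - x) := by
  induction k with
  | zero => simp
  | succ n ih =>
    rw [pow_succ, smul_mul_sub hadm hs, ih, succ_nsmul]

/-- The cocycle `s ↦ s x₀ - x₀` as a homomorphism from the kernel of the cyclotomic character
to `C`. -/
noncomputable def cocycle (hadm : IsAdmissibleExtensionCts p V C) (x₀ : V) :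
    (omega p).ker →* Multiplicative C where
  toFun s := Multiplicative.ofAdd ⟨(s : GQ) • x₀ - x₀, smul_sub_self_mem hadm s.2 x₀⟩
  map_one' := by
    apply Multiplicative.toAdd.injective
    apply Subtype.ext
    simp
  map_mul' s t := by
    apply Multiplicative.toAdd.injective
    apply Subtype.ext
    simp only [Subgroup.coe_mul, toAdd_ofAdd, toAdd_mul, Submodule.coe_add]
    exact smul_mul_sub hadm t.2 x₀

theorem cocycle_ker (hadm : IsAdmissibleExtensionCts p V C) {x₀ : V} (hx₀ : x₀ ∉ C) :
    (cocycle hadm x₀).ker = (actKer V).subgroupOf (omega p).ker := by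
  ext s
  rw [MonoidHom.mem_ker, Subgroup.mem_subgroupOf]
  constructor
  · intro h
    have h1 : (s : GQ) • x₀ - x₀ = 0 := by
      have := congrArg (fun c => ((Multiplicative.toAdd c : C) : V)) h
      simpa [cocycle] using this
    exact mem_actKer_of_fix hadm hx₀ (sub_eq_zero.mp h1)
  · intro h
    apply Multiplicative.toAdd.injective
    apply Subtype.ext
    simp only [cocycle, MonoidHom.coe_mk, OneHom.coe_mk, toAdd_ofAdd, toAdd_one,
      ZeroMemClass.coe_zero]
    rw [h x₀, sub_self]

theorem relIndex_actKer (hadm : IsAdmissibleExtensionCts p V C)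
    (hnle : ¬ (omega p).ker ≤ actKer V) : (actKer V).relIndex (omega p).ker = p := by
  have hp : p.Prime := Fact.out
  obtain ⟨x₀, hx₀⟩ := exists_not_mem hadm
  rw [Subgroup.relIndex, ← cocycle_ker hadm hx₀, Subgroup.index_ker]
  have hcard : Nat.card (Multiplicative C) = p := by
    rw [Nat.card_congr Multiplicative.toAdd]
    exact hadm.card_sub
  have hdvd : Nat.card (cocycle hadm x₀).range ∣ p := by
    have := Subgroup.card_subgroup_dvd_card (cocycle hadm x₀).range
    rwa [hcard] at this
  rcases (Nat.dvd_prime hp).mp hdvd with h1 | h1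
  · exfalso
    apply hnle
    intro s hs
    have hbot : (cocycle hadm x₀).range = ⊥ := Subgroup.card_eq_one.mp h1
    have hmem : cocycle hadm x₀ ⟨s, hs⟩ ∈ (cocycle hadm x₀).range := ⟨_, rfl⟩
    rw [hbot, Subgroup.mem_bot] at hmem
    have hk : (⟨s, hs⟩ : (omega p).ker) ∈ (cocycle hadm x₀).ker := hmem
    rw [cocycle_ker hadm hx₀, Subgroup.mem_subgroupOf] at hk
    exact hk
  · exact h1

theorem inertia_inf_ker_le (hadm : IsAdmissibleExtensionCts p V C) (ℓ : ℕ) (hℓ : ℓ.Prime)
    (A : ValuationSubring (AlgebraicClosure ℚ)) (hA : A.LiesOverPrime ℓ) :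
    A.inertiaSubgroupIn ℚ ⊓ (omega p).ker ≤ actKer V := by
  rintro σ ⟨hσI, hσω⟩
  by_cases hℓp : ℓ = p
  · subst hℓp
    obtain ⟨C', hC', hcompl⟩ := hadm.locally_split A hA
    have hσD : σ ∈ A.decompositionSubgroup ℚ := by
      obtain ⟨x, _, rfl⟩ := Subgroup.mem_map.mp hσI
      exact x.2
    have hfixC' : ∀ x ∈ C', σ • x = x := by
      intro x hx
      have h1 : σ • x - x ∈ C := smul_sub_self_mem hadm hσω x
      have h2 : σ • x - x ∈ C' := C'.sub_mem (hC' σ hσD x hx) hx
      have h0 := (Submodule.disjoint_def.mp hcompl.disjoint) _ h1 h2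
      exact sub_eq_zero.mp h0
    intro v
    have hv : v ∈ C ⊔ C' := by rw [hcompl.sup_eq_top]; trivial
    obtain ⟨c, hc, c', hc', rfl⟩ := Submodule.mem_sup.mp hv
    rw [smul_add, hadm.fixed_sub σ c hc, hfixC' c' hc']
  · exact fun v => hadm.unramified_outside ℓ hℓ hℓp A hA σ hσI v

/-- The conjugation rule, in inverse-free form: `τ s^e τ⁻¹ ≡ s` modulo the kernel of the
action, for every exponent `e ≡ ω(τ) mod p`. -/
theorem conj_pow_mem_of_cast (hadm : IsAdmissibleExtensionCts p V C) (τ : GQ) {s : GQ}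
    (hs : s ∈ (omega p).ker) {e : ℕ} (he : (e : ZMod p) = ((omega p τ : (ZMod p)ˣ) : ZMod p)) :
    τ * s ^ e * τ⁻¹ * s⁻¹ ∈ actKer V := by
  have hker : ∀ x : V, (τ * s ^ e * τ⁻¹) • x = s • x := by
    intro x
    obtain ⟨y, rfl⟩ : ∃ y, τ • y = x := ⟨τ⁻¹ • x, smul_inv_smul τ x⟩
    have h1 : (τ * s ^ e * τ⁻¹) • τ • y = τ • (s ^ e) • y := by
      simp only [mul_smul, inv_smul_smul]
    rw [h1]
    have h2 : (s ^ e) • y = y + e • (s • y - y) := by
      rw [← smul_pow_sub hadm hs]; abel
    have hdC : s • y - y ∈ C := smul_sub_self_mem hadm hs y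
    rw [h2, smul_add, smul_comm τ e (s • y - y), hadm.fixed_sub τ _ hdC]
    have hτy : τ • y - ((omega p τ : (ZMod p)ˣ) : ZMod p) • y ∈ C := smul_sub_mem hadm τ y
    have h3 : s • τ • y = τ • y + ((omega p τ : (ZMod p)ˣ) : ZMod p) • (s • y - y) := by
      have h4 := hadm.fixed_sub s _ hτy
      rw [smul_sub, smul_comm s ((omega p τ : (ZMod p)ˣ) : ZMod p) y] at h4
      rw [smul_sub]
      have : s • τ • y = τ • y - ((omega p τ : (ZMod p)ˣ) : ZMod p) • y
          + ((omega p τ : (ZMod p)ˣ) : ZMod p) • s • y := by rw [← h4]; abel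
      rw [this]; abel
    rw [h3, ← he, Nat.cast_smul_eq_nsmul]
  intro v
  rw [mul_smul, hker, smul_inv_smul]

theorem conj_pow_mem (hadm : IsAdmissibleExtensionCts p V C) (τ : GQ) {s : GQ}
    (hs : s ∈ (omega p).ker) : τ * s ^ (cycloExp p τ) * τ⁻¹ * s⁻¹ ∈ actKer V :=
  conj_pow_mem_of_cast hadm τ hs (cycloExp_cast p τ)

/-- The `p`-th power of an element of the kernel of the cyclotomic character acts trivially. -/
theorem pow_prime_mem (hadm : IsAdmissibleExtensionCts p V C) {s : GQ}
    (hs : s ∈ (omega p).ker) : s ^ p ∈ actKer V := by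
  intro v
  have h := smul_pow_sub hadm hs p v
  have h0 : p • (s • v - v) = 0 := by
    rw [← Nat.cast_smul_eq_nsmul (ZMod p), ZMod.natCast_self, zero_smul]
  rw [h0] at h
  exact sub_eq_zero.mp h

end action

/-- **Reduction.** If no open normal subgroup `N` of index `p` in the kernel of the mod `p`
cyclotomic character is unramified everywhere over it and satisfies the conjugation rule
`τ s^e τ⁻¹ ≡ s mod N` (`e ≡ ω(τ) mod p`), then every admissible extension splits. -/
theorem extVanishingCts_of_core {p : ℕ} [Fact p.Prime] (h3 : 3 ≤ p)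
    (hcore : ∀ N : Subgroup GQ, N.Normal → IsOpen (N : Set GQ) → N ≤ (omega p).ker →
      N.relIndex (omega p).ker = p →
      (∀ ℓ : ℕ, ℓ.Prime → ∀ A : ValuationSubring (AlgebraicClosure ℚ), A.LiesOverPrime ℓ →
        A.inertiaSubgroupIn ℚ ⊓ (omega p).ker ≤ N) →
      (∀ τ : GQ, ∀ s ∈ (omega p).ker, ∀ e : ℕ,
        (e : ZMod p) = ((omega p τ : (ZMod p)ˣ) : ZMod p) → τ * s ^ e * τ⁻¹ * s⁻¹ ∈ N) → False) :
    ExtVanishingCts p := by
  intro V _ _ _ _ C hadm
  by_cases hle : (omega p).ker ≤ actKer V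
  · exact splits_of_ker_le h3 hadm hle
  · exact (hcore (actKer V) actKer_normal (isOpen_actKer hadm) (actKer_le_ker hadm)
      (relIndex_actKer hadm hle) (inertia_inf_ker_le hadm)
      (fun τ s hs e he => conj_pow_mem_of_cast hadm τ hs he)).elim

end Fermat.Agent.S14.Reduce
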