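import Mathlib
import Fermat.Agent.S14.Defs
import Fermat.Agent.S14.Frob
import Fermat.Agent.S14.ArtinLemma
import Fermat.Agent.S14.CycloDisjoint
import Fermat.Agent.S14.AuxField
import Fermat.Agent.S14.CrossInst

/-!
# S14: the pair statement

For an unramified Galois extension `L / K` of number fields of odd prime degree `p` and two
primes `𝔮₁, 𝔮₂` of `K` whose Frobenius elements are `σ ^ e` and `σ` (both nontrivial), the classes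
satisfy `[𝔮₁] ≡ [𝔮₂] ^ e` modulo the norm classes: `CrossFinal.pair`, in the literal shape of the
hypothesis `PAIR` of `PairToRec.exists_artinMap_of_pair`.

Assembly: auxiliary primes `r₁ ≠ r₂` from `ArtinLemma.exists_prime_dvd_orderOf`, the field
`Ω = L(ζ_{r₁ r₂})`, Frobenius elements and the groups `dGroup` of `AuxField`, and
`CrossInst.pair_of_subgroups`.
-/

set_option autoImplicit false
set_option linter.unusedSectionVars false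
set_option linter.style.haveILetI false

namespace Fermat.Agent.S14.CrossFinal

open NumberField nonZeroDivisors

section Norm

variable {K : Type*} [Field K] [NumberField K]

theorem two_le_absNorm {𝔮 : Ideal (𝓞 K)} (h𝔮 : 𝔮.IsPrime) (h0 : 𝔮 ≠ ⊥) :
    2 ≤ Ideal.absNorm 𝔮 := by
  have h1 : Ideal.absNorm 𝔮 ≠ 0 := by
    rw [Ne, Ideal.absNorm_eq_zero_iff]
    exact h0
  have h2 : Ideal.absNorm 𝔮 ≠ 1 := by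
    rw [Ne, Ideal.absNorm_eq_one_iff]
    exact h𝔮.ne_top
  omega

theorem natCast_notMem_of_coprime {𝔮 : Ideal (𝓞 K)} (h𝔮 : 𝔮.IsPrime) {r : ℕ}
    (h : Nat.Coprime r (Ideal.absNorm 𝔮)) : (r : 𝓞 K) ∉ 𝔮 := by
  intro hr
  have ha : ((Ideal.absNorm 𝔮 : ℕ) : 𝓞 K) ∈ 𝔮 := Ideal.absNorm_mem 𝔮
  obtain ⟨u, v, huv⟩ := (Nat.isCoprime_iff_coprime.mpr h)
  have h1 : ((u * (r : ℤ) + v * (Ideal.absNorm 𝔮 : ℤ) : ℤ) : 𝓞 K) ∈ 𝔮 := by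
    push_cast
    exact 𝔮.add_mem (𝔮.mul_mem_left _ hr) (𝔮.mul_mem_left _ ha)
  rw [huv] at h1
  apply h𝔮.ne_top
  rw [Ideal.eq_top_iff_one]
  simpa using h1

end Norm

section Aux

variable {K L Ω : Type*} [Field K] [Field L] [Field Ω]
  [NumberField K] [NumberField L] [NumberField Ω]
  [Algebra K L] [Algebra L Ω] [Algebra K Ω] [IsScalarTower K L Ω]
  [IsGalois K L] [IsGalois K Ω]

/-- The pair statement, given the auxiliary primes `r₁, r₂` and the field `Ω = L(ζ_{r₁ r₂})`. -/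
theorem pair_aux {p : ℕ} (hp : p.Prime) (hp2 : p ≠ 2) (hdeg : Module.finrank K L = p)
    (hunr : UnramifiedEverywhere K L)
    (𝔮₁ 𝔮₂ : (Ideal (𝓞 K))⁰)
    (h𝔮₁ : (𝔮₁ : Ideal (𝓞 K)).IsPrime) (h𝔮₂ : (𝔮₂ : Ideal (𝓞 K)).IsPrime)
    (σ : Gal(L/K)) (e : ℕ) (hσ : σ ≠ 1) (hσe : σ ^ e ≠ 1)
    (hF₂ : IsFrob K L σ 𝔮₂) (hF₁ : IsFrob K L (σ ^ e) 𝔮₁)
    {r₁ r₂ : ℕ} (hr₁ : r₁.Prime) (hr₂ : r₂.Prime) (hne : r₁ ≠ r₂)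
    (hr₁p : r₁ ≠ p) (hr₂p : r₂ ≠ p)
    (h11 : ¬ r₁ ∣ Ideal.absNorm (𝔮₁ : Ideal (𝓞 K)))
    (h12 : ¬ r₁ ∣ Ideal.absNorm (𝔮₂ : Ideal (𝓞 K)))
    (h21 : ¬ r₂ ∣ Ideal.absNorm (𝔮₁ : Ideal (𝓞 K)))
    (h22 : ¬ r₂ ∣ Ideal.absNorm (𝔮₂ : Ideal (𝓞 K)))
    (hord₁ : p ∣ orderOf ((Ideal.absNorm (𝔮₁ : Ideal (𝓞 K)) : ZMod r₁)))
    (hord₂ : p ∣ orderOf ((Ideal.absNorm (𝔮₂ : Ideal (𝓞 K)) : ZMod r₂)))
    (hdisc : IsCoprime ((r₁ * r₂ : ℕ) : ℤ) (discr L))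
    [NeZero (r₁ * r₂)] [IsCyclotomicExtension {r₁ * r₂} L Ω] :
    ClassGroup.mk0 𝔮₁ * (ClassGroup.mk0 𝔮₂ ^ e)⁻¹ ∈ normClasses K L p := by
  have hcard : Nat.card Gal(L/K) = p := by rw [IsGalois.card_aut_eq_finrank, hdeg]
  have hpow : ∀ s : Gal(L/K), s ^ p = 1 := fun s => by rw [← hcard]; exact pow_card_eq_one'
  obtain ⟨ζ, hζ⟩ := IsCyclotomicExtension.exists_isPrimitiveRoot L Ω
    (Set.mem_singleton (r₁ * r₂)) (NeZero.ne _)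
  have hcop : Nat.Coprime r₁ r₂ := (Nat.coprime_primes hr₁ hr₂).mpr hne
  have hm : Nat.Coprime p (r₁ * r₂) :=
    Nat.Coprime.mul_right ((Nat.coprime_primes hp hr₁).mpr (Ne.symm hr₁p))
      ((Nat.coprime_primes hp hr₂).mpr (Ne.symm hr₂p))
  have hc11 : Nat.Coprime r₁ (Ideal.absNorm (𝔮₁ : Ideal (𝓞 K))) :=
    (Nat.Prime.coprime_iff_not_dvd hr₁).mpr h11
  have hc12 : Nat.Coprime r₁ (Ideal.absNorm (𝔮₂ : Ideal (𝓞 K))) :=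
    (Nat.Prime.coprime_iff_not_dvd hr₁).mpr h12
  have hc21 : Nat.Coprime r₂ (Ideal.absNorm (𝔮₁ : Ideal (𝓞 K))) :=
    (Nat.Prime.coprime_iff_not_dvd hr₂).mpr h21
  have hc22 : Nat.Coprime r₂ (Ideal.absNorm (𝔮₂ : Ideal (𝓞 K))) :=
    (Nat.Prime.coprime_iff_not_dvd hr₂).mpr h22
  have h𝔮₁m : ((r₁ * r₂ : ℕ) : 𝓞 K) ∉ (𝔮₁ : Ideal (𝓞 K)) :=
    natCast_notMem_of_coprime h𝔮₁ (Nat.Coprime.mul_left hc11 hc21)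
  have h𝔮₂m : ((r₁ * r₂ : ℕ) : 𝓞 K) ∉ (𝔮₂ : Ideal (𝓞 K)) :=
    natCast_notMem_of_coprime h𝔮₂ (Nat.Coprime.mul_left hc12 hc22)
  -- the Frobenius elements
  obtain ⟨𝔓₁, g₁, h𝔓₁, h𝔓₁0, h𝔓₁u, hg₁, hg₁res, hg₁ζ⟩ :=
    AuxField.exists_frob (Ω := Ω) hunr h𝔮₁ (nonZeroDivisors.coe_ne_zero 𝔮₁) h𝔮₁m hF₁
  obtain ⟨𝔓₂, g₂, h𝔓₂, h𝔓₂0, h𝔓₂u, hg₂, hg₂res, hg₂ζ⟩ :=
    AuxField.exists_frob (Ω := Ω) hunr h𝔮₂ (nonZeroDivisors.coe_ne_zero 𝔮₂) h𝔮₂m hF₂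
  have hg₁D : g₁ ∈ AuxField.dGroup (Ω := Ω) (σ ^ e) r₁ (Ideal.absNorm (𝔮₁ : Ideal (𝓞 K))) :=
    AuxField.mem_dGroup_of_frob (Dvd.intro _ rfl) hg₁res hg₁ζ
  have hg₂D : g₂ ∈ AuxField.dGroup (Ω := Ω) σ r₂ (Ideal.absNorm (𝔮₂ : Ideal (𝓞 K))) :=
    AuxField.mem_dGroup_of_frob (Dvd.intro_left _ rfl) hg₂res hg₂ζ
  exact CrossInst.pair_of_subgroups hp hp2 hdeg hunr hm hζ
    (AuxField.dGroup (Ω := Ω) (σ ^ e) r₁ (Ideal.absNorm (𝔮₁ : Ideal (𝓞 K))))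
    (AuxField.dGroup (Ω := Ω) σ r₂ (Ideal.absNorm (𝔮₂ : Ideal (𝓞 K))))
    (fun τ hτ hfix => AuxField.eq_one_of_mem_dGroup hζ (hpow _) hr₁.pos (Dvd.intro _ rfl)
      hord₁ hτ hfix)
    (fun τ hτ hfix => AuxField.eq_one_of_mem_dGroup hζ (hpow _) hr₂.pos (Dvd.intro_left _ rfl)
      hord₂ hτ hfix)
    (fun s => AuxField.exists_mem_inf_dGroup hp hcard hcop hc11.symm hc22.symm hdisc hσe hσ s)
    𝔮₁ 𝔮₂ h𝔮₁ h𝔮₂ h𝔮₁m h𝔮₂m h𝔓₁ h𝔓₁0 hg₁ hg₁D h𝔓₁u h𝔓₂ h𝔓₂0 hg₂ hg₂D h𝔓₂u σ e hF₂ hF₁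

end Aux

section Final

variable {K L : Type*} [Field K] [Field L] [NumberField K] [NumberField L]
  [Algebra K L] [IsGalois K L]

/-- **The pair statement.** -/
theorem pair {p : ℕ} (hp : p.Prime) (hp2 : p ≠ 2) (hdeg : Module.finrank K L = p)
    (hunr : UnramifiedEverywhere K L) :
    ∀ (𝔮₁ 𝔮₂ : (Ideal (𝓞 K))⁰), (𝔮₁ : Ideal (𝓞 K)).IsPrime → (𝔮₂ : Ideal (𝓞 K)).IsPrime →
      ∀ (σ : Gal(L/K)) (e : ℕ), σ ≠ 1 → σ ^ e ≠ 1 →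
        IsFrob K L σ 𝔮₂ → IsFrob K L (σ ^ e) 𝔮₁ →
        ClassGroup.mk0 𝔮₁ * (ClassGroup.mk0 𝔮₂ ^ e)⁻¹ ∈ normClasses K L p := by
  intro 𝔮₁ 𝔮₂ h𝔮₁ h𝔮₂ σ e hσ hσe hF₂ hF₁
  have ha₁ : 2 ≤ Ideal.absNorm (𝔮₁ : Ideal (𝓞 K)) :=
    two_le_absNorm h𝔮₁ (nonZeroDivisors.coe_ne_zero 𝔮₁)
  have ha₂ : 2 ≤ Ideal.absNorm (𝔮₂ : Ideal (𝓞 K)) :=
    two_le_absNorm h𝔮₂ (nonZeroDivisors.coe_ne_zero 𝔮₂)
  obtain ⟨B, hB⟩ : ∃ B : ℕ, B = Ideal.absNorm (𝔮₁ : Ideal (𝓞 K)) +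
      Ideal.absNorm (𝔮₂ : Ideal (𝓞 K)) + (discr L).natAbs := ⟨_, rfl⟩
  obtain ⟨r₁, hr₁, hB₁, hr₁p, hr₁a, hord₁⟩ := ArtinLemma.exists_prime_dvd_orderOf hp hp2 ha₁ B
  obtain ⟨r₂, hr₂, hB₂, hr₂p, hr₂a, hord₂⟩ :=
    ArtinLemma.exists_prime_dvd_orderOf hp hp2 ha₂ (B + r₁)
  have hne : r₁ ≠ r₂ := by omega
  have h12 : ¬ r₁ ∣ Ideal.absNorm (𝔮₂ : Ideal (𝓞 K)) := by
    intro h
    have := Nat.le_of_dvd (by omega) h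
    omega
  have h21 : ¬ r₂ ∣ Ideal.absNorm (𝔮₁ : Ideal (𝓞 K)) := by
    intro h
    have := Nat.le_of_dvd (by omega) h
    omega
  have hd0 : (discr L).natAbs ≠ 0 := Int.natAbs_ne_zero.mpr (discr_ne_zero L)
  have hcd : ∀ r : ℕ, r.Prime → (discr L).natAbs < r → IsCoprime (r : ℤ) (discr L) := by
    intro r hr hlt
    rw [Int.isCoprime_iff_gcd_eq_one]
    have h1 : Nat.Coprime r (discr L).natAbs := by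
      rw [Nat.Prime.coprime_iff_not_dvd hr]
      intro h
      have := Nat.le_of_dvd (Nat.pos_of_ne_zero hd0) h
      omega
    have h2 : Int.gcd (r : ℤ) (discr L) = Nat.gcd r (discr L).natAbs := by
      rw [Int.gcd_def, Int.natAbs_natCast]
    rw [h2]
    exact h1
  have hdisc : IsCoprime ((r₁ * r₂ : ℕ) : ℤ) (discr L) := by
    rw [Nat.cast_mul]
    exact IsCoprime.mul_left (hcd r₁ hr₁ (by omega)) (hcd r₂ hr₂ (by omega))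
  haveI : NeZero (r₁ * r₂) := ⟨(Nat.mul_pos hr₁.pos hr₂.pos).ne'⟩
  haveI : NumberField (CyclotomicField (r₁ * r₂) L) :=
    IsCyclotomicExtension.numberField {r₁ * r₂} L _
  haveI : IsGalois K (CyclotomicField (r₁ * r₂) L) :=
    CycloDisjoint.isGalois_of_cyclotomic K L (r₁ * r₂)
  exact pair_aux (Ω := CyclotomicField (r₁ * r₂) L) hp hp2 hdeg hunr 𝔮₁ 𝔮₂ h𝔮₁ h𝔮₂ σ e hσ hσe
    hF₂ hF₁ hr₁ hr₂ hne hr₁p hr₂p hr₁a h12 h21 hr₂a hord₁ hord₂ hdisc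

end Final

end Fermat.Agent.S14.CrossFinal
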