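import Mathlib
import Fermat.Agent.S14.Defs
import Fermat.Agent.S14.Frob
import Fermat.Agent.S14.Artin
import Fermat.Agent.S14.ArtinTower
import Fermat.Agent.S14.ClassNorm
import Fermat.Agent.S14.Cyclo
import Fermat.Agent.S14.Density
import Fermat.Agent.S14.FixedSub

/-!
# S14: the crossing argument in one auxiliary field

`K ⊆ L ⊆ Ω` are number fields, `L / K` is Galois of odd prime degree `p` and unramified, `Ω / K`
is Galois, and `D` is a subgroup of `Gal(Ω/K)` which maps onto `Gal(L/K)` and acts faithfully on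
a primitive `m`-th root of unity `ζ` (`m` prime to `p`). If `g, g' ∈ D` are Frobenius elements
of `Ω / K` at primes `𝔓, 𝔓'` prime to `m`, and `g|_L = (g'|_L) ^ n`, then the classes of the
primes `𝔮, 𝔮'` of `K` below `𝔓, 𝔓'` satisfy `[𝔮] [𝔮'] ^ (-n) ∈ normClasses K L p`.
-/

set_option autoImplicit false
set_option linter.unusedSectionVars false

namespace Fermat.Agent.S14.CrossOne

open NumberField nonZeroDivisors

variable {K L Ω : Type*} [Field K] [Field L] [Field Ω]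
  [NumberField K] [NumberField L] [NumberField Ω]
  [Algebra K L] [Algebra K Ω] [Algebra L Ω] [IsScalarTower K L Ω] [IsGalois K L] [IsGalois K Ω]

open FixedSub

/-- The Galois group of an extension of prime degree is commutative. -/
theorem mul_comm_of_prime {p : ℕ} (hp : p.Prime) (hdeg : Module.finrank K L = p)
    (σ τ : Gal(L/K)) : σ * τ = τ * σ := by
  have hcard : Nat.card Gal(L/K) = p := by rw [IsGalois.card_aut_eq_finrank, hdeg]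
  have : Fact p.Prime := ⟨hp⟩
  have : IsCyclic Gal(L/K) := isCyclic_of_prime_card hcard
  obtain ⟨g, hg⟩ := IsCyclic.exists_generator (α := Gal(L/K))
  obtain ⟨a, rfl⟩ := Subgroup.mem_zpowers_iff.mp (hg σ)
  obtain ⟨b, rfl⟩ := Subgroup.mem_zpowers_iff.mp (hg τ)
  rw [← zpow_add, ← zpow_add, add_comm]

/-- The natural number `m` does not lie in the prime of `EF D` below `𝔓` if it does not lie in
`𝔓`. -/
theorem natCast_notMem_under {D : Subgroup Gal(Ω/K)} {m : ℕ} {𝔓 : Ideal (𝓞 Ω)}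
    (hm𝔓 : (m : 𝓞 Ω) ∉ 𝔓) : (m : 𝓞 (EF D)) ∉ 𝔓.under (𝓞 (EF D)) := by
  intro h
  apply hm𝔓
  rw [Ideal.under_def, Ideal.mem_comap, map_natCast] at h
  exact h

/-- The restriction to `L` of the Artin symbol in `FF L D / EF D` of the prime of `EF D` below
`𝔓`, for a Frobenius `g ∈ D` at `𝔓`, is the restriction of `g` to `L`. -/
theorem resHom_artin_under (hab : ∀ σ τ : Gal(L/K), σ * τ = τ * σ)
    (hunr : UnramifiedEverywhere K L) (D : Subgroup Gal(Ω/K))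
    {𝔓 : Ideal (𝓞 Ω)} (h𝔓 : 𝔓.IsPrime) (h0 : 𝔓 ≠ ⊥) {g : Gal(Ω/K)} (hg : g ∈ D)
    (hF : IsArithFrobAt (𝓞 K) g 𝔓) (𝔔 : (Ideal (𝓞 (EF D)))⁰)
    (h𝔔 : (𝔔 : Ideal (𝓞 (EF D))) = 𝔓.under (𝓞 (EF D))) :
    ArtinTower.resHom K L (EF D) (FF L D)
        (Artin.artin (EF D) (FF L D) (mul_comm_of_mul_comm hab) 𝔔) =
      AlgEquiv.restrictNormalHom (F := K) (K₁ := Ω) L g := by
  have := h𝔓
  have hab' := mul_comm_of_mul_comm (L := L) (D := D) hab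
  -- the primes below `𝔓`
  have h𝔅 : (𝔓.under (𝓞 (FF L D))).IsPrime := Ideal.IsPrime.under _ 𝔓
  have h𝔅0 : 𝔓.under (𝓞 (FF L D)) ≠ ⊥ := Artin.under_ne_bot' h0
  have h𝔔p : (𝔔 : Ideal (𝓞 (EF D))).IsPrime := h𝔔 ▸ Ideal.IsPrime.under _ 𝔓
  have hu : (𝔓.under (𝓞 (FF L D))).under (𝓞 (EF D)) = (𝔔 : Ideal (𝓞 (EF D))) := by
    rw [Ideal.under_under, h𝔔]
  -- the Artin symbol is a Frobenius at the prime of `FF L D` below `𝔓`
  have h1 : IsArithFrobAt (𝓞 (EF D)) (Artin.artin (EF D) (FF L D) hab' 𝔔)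
      (𝔓.under (𝓞 (FF L D))) := Artin.isFrob_artin hab' 𝔔 h𝔔p _ h𝔅 hu
  have h2 := Artin.artin_relNorm0_eq_res (K := K) (L := L) (E := EF D) (M := FF L D) hab hunr
    h𝔅0 h1 𝔔 hu.symm
  -- the norm of `𝔔`
  have h3 : Ideal.relNorm (𝓞 K) (𝔓.under (𝓞 (EF D))) = 𝔓.under (𝓞 K) :=
    Artin.relNorm_under_of_fixed h0 hF (fun x => apply_algebraMap_EF hg x)
  have h𝔮p : (𝔓.under (𝓞 K)).IsPrime := Ideal.IsPrime.under _ 𝔓
  have h𝔮0 : 𝔓.under (𝓞 K) ≠ ⊥ := Artin.under_ne_bot' h0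
  set 𝔮 : (Ideal (𝓞 K))⁰ := ⟨𝔓.under (𝓞 K), mem_nonZeroDivisors_of_ne_zero h𝔮0⟩ with h𝔮
  have h4 : Artin.relNorm0 K (EF D) 𝔔 = 𝔮 := by
    apply Subtype.ext
    rw [Artin.coe_relNorm0, h𝔔, h3]
  rw [h4] at h2
  -- the Artin symbol of `𝔮` is the restriction of `g`
  have h𝔏 : (𝔓.under (𝓞 L)).IsPrime := Ideal.IsPrime.under _ 𝔓
  have h𝔏0 : 𝔓.under (𝓞 L) ≠ ⊥ := Artin.under_ne_bot' h0
  have hu' : (𝔓.under (𝓞 L)).under (𝓞 K) = (𝔮 : Ideal (𝓞 K)) := Ideal.under_under 𝔓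
  have h5 : IsArithFrobAt (𝓞 K) (Artin.artin K L hab 𝔮) (𝔓.under (𝓞 L)) :=
    Artin.isFrob_artin hab 𝔮 h𝔮p _ h𝔏 hu'
  have h6 : IsArithFrobAt (𝓞 K) (AlgEquiv.restrictNormalHom (F := K) (K₁ := Ω) L g)
      (𝔓.under (𝓞 L)) := ArtinTower.isArithFrobAt_restrictNormal (L := L) hF
  have h7 := Frob.isArithFrobAt_unique (hunr _ h𝔏 h𝔏0) h5 h6
  rw [← h7, h2]
  rfl

theorem one_field {p m : ℕ} (hp : p.Prime) (hp2 : p ≠ 2) (hdeg : Module.finrank K L = p)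
    (hunr : UnramifiedEverywhere K L) (hm : Nat.Coprime p m) [NeZero m]
    (D : Subgroup Gal(Ω/K))
    (hD : ∀ s : Gal(L/K), ∃ τ ∈ D, AlgEquiv.restrictNormalHom (F := K) (K₁ := Ω) L τ = s)
    {ζ : Ω} (hζ : IsPrimitiveRoot ζ m) (h1 : ∀ τ ∈ D, τ ζ = ζ → τ = 1)
    {𝔓 𝔓' : Ideal (𝓞 Ω)} (h𝔓 : 𝔓.IsPrime) (h𝔓' : 𝔓'.IsPrime) (h0 : 𝔓 ≠ ⊥) (h0' : 𝔓' ≠ ⊥)
    (hm𝔓 : (m : 𝓞 Ω) ∉ 𝔓) (hm𝔓' : (m : 𝓞 Ω) ∉ 𝔓')
    {g g' : Gal(Ω/K)} (hg : g ∈ D) (hg' : g' ∈ D)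
    (hF : IsArithFrobAt (𝓞 K) g 𝔓) (hF' : IsArithFrobAt (𝓞 K) g' 𝔓')
    (n : ℕ) (hn : AlgEquiv.restrictNormalHom (F := K) (K₁ := Ω) L g =
      AlgEquiv.restrictNormalHom (F := K) (K₁ := Ω) L g' ^ n)
    (𝔮 𝔮' : (Ideal (𝓞 K))⁰) (h𝔮 : (𝔮 : Ideal (𝓞 K)) = 𝔓.under (𝓞 K))
    (h𝔮' : (𝔮' : Ideal (𝓞 K)) = 𝔓'.under (𝓞 K)) :
    ClassGroup.mk0 𝔮 * (ClassGroup.mk0 𝔮' ^ n)⁻¹ ∈ normClasses K L p := by
  have hab : ∀ σ τ : Gal(L/K), σ * τ = τ * σ := mul_comm_of_prime hp hdeg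
  have hab' := mul_comm_of_mul_comm (L := L) (D := D) hab
  have hcyc : IsCyclotomicExtension {m} (EF D) Ω := isCyclotomicExtension (D := D) hζ h1
  -- the primes of `EF D` below `𝔓`, `𝔓'`
  have h𝔔0 : 𝔓.under (𝓞 (EF D)) ≠ ⊥ := Artin.under_ne_bot' h0
  have h𝔔0' : 𝔓'.under (𝓞 (EF D)) ≠ ⊥ := Artin.under_ne_bot' h0'
  have h𝔔p : (𝔓.under (𝓞 (EF D))).IsPrime := Ideal.IsPrime.under _ 𝔓
  have h𝔔p' : (𝔓'.under (𝓞 (EF D))).IsPrime := Ideal.IsPrime.under _ 𝔓'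
  set 𝔔 : (Ideal (𝓞 (EF D)))⁰ := ⟨𝔓.under (𝓞 (EF D)), mem_nonZeroDivisors_of_ne_zero h𝔔0⟩
    with h𝔔
  set 𝔔' : (Ideal (𝓞 (EF D)))⁰ := ⟨𝔓'.under (𝓞 (EF D)), mem_nonZeroDivisors_of_ne_zero h𝔔0'⟩
    with h𝔔'
  -- they are prime to `m`
  have hc : (𝔔 : Ideal (𝓞 (EF D))) ⊔ Ideal.span {(m : 𝓞 (EF D))} = ⊤ :=
    Cyclo.sup_span_eq_top_of_notMem h𝔔p h𝔔0 (natCast_notMem_under hm𝔓)
  have hc' : (𝔔' : Ideal (𝓞 (EF D))) ⊔ Ideal.span {(m : 𝓞 (EF D))} = ⊤ :=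
    Cyclo.sup_span_eq_top_of_notMem h𝔔p' h𝔔0' (natCast_notMem_under hm𝔓')
  have hcn : ((𝔔' ^ n : (Ideal (𝓞 (EF D)))⁰) : Ideal (𝓞 (EF D))) ⊔
      Ideal.span {(m : 𝓞 (EF D))} = ⊤ := by
    rw [SubmonoidClass.coe_pow]
    exact Ideal.pow_sup_eq_top hc'
  -- the Artin symbols
  have hφ : Artin.artin (EF D) (FF L D) hab' 𝔔 = Artin.artin (EF D) (FF L D) hab' (𝔔' ^ n) := by
    apply resHom_injective (L := L) (D := D)
    rw [map_pow, map_pow, resHom_artin_under hab hunr D h𝔓 h0 hg hF 𝔔 rfl,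
      resHom_artin_under hab hunr D h𝔓' h0' hg' hF' 𝔔' rfl, hn]
  -- the classes in `EF D`
  have h2 := Cyclo.mk0_mul_inv_mem_normClasses_of_coprime (Ω := Ω)
    (unramifiedEverywhere_FF (L := L) (D := D) hunr) hp hp2 ((finrank_FF hD).trans hdeg) hm
    (Artin.artin (EF D) (FF L D) hab') (fun 𝔞 h𝔞 => Artin.isFrob_artin hab' 𝔞 h𝔞)
    𝔔 (𝔔' ^ n) hc hcn hφ
  -- down to `K`
  have h3 := ClassNorm.map_normClasses_le (K := K) (L := L) (E := EF D) (F := FF L D) hp hdeg hunr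
    (Subgroup.mem_map_of_mem _ h2)
  have hN : ClassNorm.relNorm0 K (EF D) 𝔔 = 𝔮 := by
    apply Subtype.ext
    rw [ClassNorm.coe_relNorm0, h𝔮]
    exact Artin.relNorm_under_of_fixed h0 hF (fun x => apply_algebraMap_EF hg x)
  have hN' : ClassNorm.relNorm0 K (EF D) 𝔔' = 𝔮' := by
    apply Subtype.ext
    rw [ClassNorm.coe_relNorm0, h𝔮']
    exact Artin.relNorm_under_of_fixed h0' hF' (fun x => apply_algebraMap_EF hg' x)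
  rw [map_mul, map_inv, map_pow, map_pow, ClassNorm.classNorm_mk0, ClassNorm.classNorm_mk0,
    hN, hN'] at h3
  exact h3

end Fermat.Agent.S14.CrossOne
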