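import Mathlib
import Fermat.Agent.S14.CycloDisjoint

/-!
# S14: irreducibility of the `ℓ`-th cyclotomic polynomial over a number field unramified at `ℓ`

Thin wrapper around `Fermat.Agent.S14.CycloDisjoint` for a prime `ℓ` not dividing the discriminant:
* `irreducible_cyclotomic` : `cyclotomic ℓ F` is irreducible;
* `exists_aut_of_unit` : every `u : (ZMod ℓ)ˣ` is realised by an automorphism of `F(ζ_ℓ) / F`.
-/

set_option autoImplicit false
set_option linter.style.haveILetI false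

namespace Fermat.Agent.S14.CycloIrr

open NumberField Polynomial

theorem isCoprime_of_not_dvd {ℓ : ℕ} (hℓ : ℓ.Prime) {d : ℤ} (h : ¬ (ℓ : ℤ) ∣ d) :
    IsCoprime (ℓ : ℤ) d :=
  (Prime.coprime_iff_not_dvd (Nat.prime_iff_prime_int.mp hℓ)).mpr h

theorem irreducible_cyclotomic {F : Type*} [Field F] [NumberField F] {ℓ : ℕ} (hℓ : ℓ.Prime)
    (h : ¬ (ℓ : ℤ) ∣ NumberField.discr F) : Irreducible (Polynomial.cyclotomic ℓ F) := by
  haveI : NeZero ℓ := ⟨hℓ.ne_zero⟩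
  exact CycloDisjoint.irreducible_cyclotomic (L := F) (Ω := CyclotomicField ℓ F) ℓ
    (isCoprime_of_not_dvd hℓ h)

theorem exists_aut_of_unit {F Ω : Type*} [Field F] [NumberField F] [Field Ω] [Algebra F Ω]
    {ℓ : ℕ} (hℓ : ℓ.Prime) (h : ¬ (ℓ : ℤ) ∣ NumberField.discr F)
    [IsCyclotomicExtension {ℓ} F Ω] (u : (ZMod ℓ)ˣ) :
    ∃ σ : Gal(Ω/F), ∀ ζ : Ω, ζ ^ ℓ = 1 → σ ζ = ζ ^ (u : ZMod ℓ).val := by
  haveI : NeZero ℓ := ⟨hℓ.ne_zero⟩
  have hirr := irreducible_cyclotomic (F := F) hℓ h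
  have hz := IsCyclotomicExtension.zeta_spec ℓ F Ω
  set σ : Gal(Ω/F) := (IsCyclotomicExtension.autEquivPow Ω hirr).symm u with hσdef
  have hσ : hz.autToPow F σ = u := by
    have h2 : IsCyclotomicExtension.autEquivPow Ω hirr σ = u := MulEquiv.apply_symm_apply _ _
    rw [← h2]
    rfl
  refine ⟨σ, ?_⟩
  intro ζ hζ
  obtain ⟨i, -, rfl⟩ := hz.eq_pow_of_pow_eq_one hζ
  rw [map_pow, ← pow_mul, mul_comm, pow_mul]
  congr 1
  rw [← hz.autToPow_spec F σ, hσ]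

end Fermat.Agent.S14.CycloIrr
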