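import Mathlib
import Fermat.Agent.S14.Euler
import Fermat.Agent.S14.DensityCore

/-!
# S14: the two Euler product facts in the vocabulary of `DensityCore`
-/

set_option autoImplicit false

namespace Fermat.Agent.S14.EulerProps

open NumberField nonZeroDivisors IsDedekindDomain Ideal
open Fermat.Agent.S14

/-- The logarithmic form of the Euler product, for every number field. -/
theorem eulerLog (F : Type*) [Field F] [NumberField F] : DensityCore.EulerLog F :=
  fun χ => Euler.exists_log_bound χ

/-- The primes of residue degree at least two contribute a bounded amount. -/
theorem eulerDeg (F : Type*) [Field F] [NumberField F] : DensityCore.EulerDeg F :=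
  Euler.exists_deg_bound

end Fermat.Agent.S14.EulerProps
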