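import Mathlib

set_option autoImplicit false
set_option linter.unusedSectionVars false
set_option linter.unusedVariables false

namespace Fermat.Agent.S14.Lattice

open MeasureTheory Set Bornology
open scoped NNReal Pointwise

variable {ι : Type*} [Fintype ι]

/-! ### Unit cubes -/

/-- the coordinatewise floor -/
noncomputable def fl (x : ι → ℝ) : ι → ℤ := fun i => ⌊x i⌋

/-- the lattice point attached to `z` -/
noncomputable def pt (z : ι → ℤ) : ι → ℝ := fun i => (z i : ℝ)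

@[simp] theorem fl_pt (z : ι → ℤ) : fl (pt z) = z := by
  ext i
  simp [fl, pt]

/-- the unit cube with lower corner `z` -/
def cube (z : ι → ℤ) : Set (ι → ℝ) := {x | fl x = z}

theorem mem_cube {z : ι → ℤ} {x : ι → ℝ} : x ∈ cube z ↔ fl x = z := Iff.rfl

theorem pt_mem_cube (z : ι → ℤ) : pt z ∈ cube z := fl_pt z

theorem cube_eq_pi (z : ι → ℤ) :
    cube z = Set.pi univ (fun i => Ico ((z i : ℝ)) ((z i : ℝ) + 1)) := by
  ext x
  simp only [cube, fl, mem_ofPred_eq, funext_iff, Int.floor_eq_iff, mem_pi, mem_univ, mem_Ico,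
    forall_true_left]

theorem measurableSet_cube (z : ι → ℤ) : MeasurableSet (cube z) := by
  rw [cube_eq_pi]
  exact MeasurableSet.univ_pi fun _ => measurableSet_Ico

theorem volume_cube (z : ι → ℤ) : volume (cube z) = 1 := by
  rw [cube_eq_pi, Real.volume_pi_Ico]
  simp

theorem convex_cube (z : ι → ℤ) : Convex ℝ (cube z) := by
  rw [cube_eq_pi]
  exact convex_pi fun _ _ => convex_Ico _ _

theorem disjoint_cube {z z' : ι → ℤ} (h : z ≠ z') : Disjoint (cube z) (cube z') := by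
  rw [Set.disjoint_left]
  intro x hx hx'
  exact h (hx.symm.trans hx')

/-- a cube which does not meet the frontier of `A` is inside or outside `A` -/
theorem cube_subset_or_disjoint {A : Set (ι → ℝ)} {z : ι → ℤ}
    (h : cube z ∩ frontier A = ∅) : cube z ⊆ A ∨ cube z ∩ A = ∅ := by
  have hc : IsPreconnected (cube z) := (convex_cube z).isPreconnected
  have hcov : cube z ⊆ interior A ∪ (closure A)ᶜ := by
    intro x hx
    by_cases h1 : x ∈ interior A
    · exact Or.inl h1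
    · right
      intro h2
      have : x ∈ cube z ∩ frontier A := ⟨hx, h2, h1⟩
      rw [h] at this
      exact this
  have hdis : cube z ∩ (interior A ∩ (closure A)ᶜ) = ∅ := by
    ext x
    simp only [mem_inter_iff, mem_compl_iff, mem_empty_iff_false, iff_false, not_and, not_not]
    intro _ h1
    exact subset_closure (interior_subset h1)
  rcases isPreconnected_iff_subset_of_disjoint.mp hc _ _ isOpen_interior
    isClosed_closure.isOpen_compl hcov hdis with h1 | h1
  · exact Or.inl (h1.trans interior_subset)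
  · right
    ext x
    simp only [mem_inter_iff, mem_empty_iff_false, iff_false, not_and]
    intro hx hxA
    exact h1 hx (subset_closure hxA)

theorem finite_fl_image {B : Set (ι → ℝ)} (hB : IsBounded B) : (fl '' B).Finite := by
  classical
  obtain ⟨R, hR⟩ := hB.subset_closedBall 0
  have : fl '' B ⊆ ↑(Fintype.piFinset fun _ : ι => Finset.Icc (-(⌈R⌉ + 1)) (⌈R⌉ + 1)) := by
    rintro _ ⟨x, hx, rfl⟩
    rw [Finset.mem_coe, Fintype.mem_piFinset]
    intro i
    rw [Finset.mem_Icc]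
    have h1 : ‖x‖ ≤ R := by simpa using hR hx
    have h2 : |x i| ≤ R := (norm_le_pi_norm x i).trans h1
    have h3 := abs_le.mp h2
    simp only [fl]
    constructor
    · rw [Int.le_floor]
      push_cast
      have := Int.le_ceil R
      linarith
    · have : (⌊x i⌋ : ℝ) ≤ x i := Int.floor_le _
      have h4 := Int.le_ceil R
      have : (⌊x i⌋ : ℝ) ≤ ((⌈R⌉ + 1 : ℤ) : ℝ) := by
        push_cast
        linarith
      exact_mod_cast this
  exact (Finset.finite_toSet _).subset this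

/-! ### Lattice points and volume -/

theorem volume_eq_sum {A : Set (ι → ℝ)} (hA : MeasurableSet A) (Z : Finset (ι → ℤ))
    (hZ : fl '' A ⊆ Z) : volume A = ∑ z ∈ Z, volume (A ∩ cube z) := by
  have h1 : A = ⋃ z ∈ Z, A ∩ cube z := by
    ext x
    simp only [mem_iUnion, mem_inter_iff, exists_and_left, exists_prop]
    constructor
    · intro hx
      exact ⟨hx, fl x, hZ ⟨x, hx, rfl⟩, rfl⟩
    · exact fun h => h.1
  conv_lhs => rw [h1]
  refine measure_biUnion_finset ?_ (fun z _ => hA.inter (measurableSet_cube z))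
  intro z _ z' _ hzz
  exact (disjoint_cube hzz).mono inter_subset_right inter_subset_right

open Classical in
theorem card_eq_sum {A : Set (ι → ℝ)} (Z : Finset (ι → ℤ)) (hZ : fl '' A ⊆ Z) :
    Nat.card {z : ι → ℤ // pt z ∈ A} = ∑ z ∈ Z, if pt z ∈ A then 1 else 0 := by
  rw [← Finset.card_filter]
  rw [← Nat.card_eq_finsetCard]
  refine Nat.card_congr (Equiv.subtypeEquivRight fun z => ?_)
  simp only [Finset.mem_filter, iff_and_self]
  intro hz
  exact hZ ⟨pt z, hz, fl_pt z⟩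

open Classical in
/-- **Counting lattice points**: the error is bounded by the number of cubes meeting the
frontier. -/
theorem abs_card_sub_volume_le {A : Set (ι → ℝ)} (hA₁ : IsBounded A) (hA₂ : MeasurableSet A)
    (Zb : Finset (ι → ℤ)) (hZb : fl '' frontier A ⊆ Zb) :
    |(Nat.card {z : ι → ℤ // pt z ∈ A} : ℝ) - (volume A).toReal| ≤ Zb.card := by
  obtain ⟨Z, hZ⟩ : ∃ Z : Finset (ι → ℤ), fl '' A ⊆ Z :=
    ⟨(finite_fl_image hA₁).toFinset, by simp⟩
  have hfin : ∀ z ∈ Z, volume (A ∩ cube z) ≠ ⊤ := by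
    intro z _
    have : volume (A ∩ cube z) ≤ 1 := (volume_cube z) ▸ measure_mono inter_subset_right
    exact ne_top_of_le_ne_top ENNReal.one_ne_top this
  rw [card_eq_sum Z hZ, volume_eq_sum hA₂ Z hZ, ENNReal.toReal_sum hfin]
  push_cast
  rw [← Finset.sum_sub_distrib]
  have hterm : ∀ z ∈ Z, |(if pt z ∈ A then (1 : ℝ) else 0) - (volume (A ∩ cube z)).toReal| ≤
      if z ∈ Zb then 1 else 0 := by
    intro z hz
    have hv1 : (volume (A ∩ cube z)).toReal ≤ 1 := by
      have : volume (A ∩ cube z) ≤ 1 := (volume_cube z) ▸ measure_mono inter_subset_right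
      exact ENNReal.toReal_mono ENNReal.one_ne_top this
    have hv0 : 0 ≤ (volume (A ∩ cube z)).toReal := ENNReal.toReal_nonneg
    by_cases hzb : z ∈ Zb
    · rw [if_pos hzb]
      split_ifs
      · rw [abs_le]
        constructor <;> linarith
      · rw [abs_le]
        constructor <;> linarith
    · rw [if_neg hzb]
      have hfr : cube z ∩ frontier A = ∅ := by
        by_contra hne
        obtain ⟨x, hx, hxf⟩ := Set.nonempty_iff_ne_empty.mpr hne
        exact hzb (hZb ⟨x, hxf, hx⟩)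
      rcases cube_subset_or_disjoint hfr with h1 | h1
      · rw [if_pos (h1 (pt_mem_cube z)), inter_eq_right.mpr h1, volume_cube]
        simp
      · have hp : pt z ∉ A := fun h => by
          have : pt z ∈ cube z ∩ A := ⟨pt_mem_cube z, h⟩
          rw [h1] at this
          exact this
        rw [if_neg hp, inter_comm, h1]
        simp
  calc |∑ z ∈ Z, ((if pt z ∈ A then (1 : ℝ) else 0) - (volume (A ∩ cube z)).toReal)|
      ≤ ∑ z ∈ Z, |(if pt z ∈ A then (1 : ℝ) else 0) - (volume (A ∩ cube z)).toReal| :=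
        Finset.abs_sum_le_sum_abs _ _
    _ ≤ ∑ z ∈ Z, (if z ∈ Zb then (1 : ℝ) else 0) := Finset.sum_le_sum hterm
    _ = ((Z.filter (· ∈ Zb)).card : ℝ) := by
        rw [Finset.sum_ite, Finset.sum_const, Finset.sum_const_zero, add_zero, nsmul_eq_mul,
          mul_one]
    _ ≤ Zb.card := by
        norm_cast
        apply Finset.card_le_card
        intro z hz
        exact (Finset.mem_filter.mp hz).2

/-! ### Thin sets -/

/-- A set is thin if the number of unit cubes meeting its dilate by `t` is `O(t ^ (n - 1))`. -/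
def Thin (S : Set (ι → ℝ)) : Prop :=
  ∃ C : ℝ, ∀ t : ℝ, 1 ≤ t → ∃ Z : Finset (ι → ℤ), fl '' (t • S) ⊆ Z ∧
    (Z.card : ℝ) ≤ C * t ^ (Fintype.card ι - 1)

theorem Thin.mono {S S' : Set (ι → ℝ)} (h : Thin S') (hS : S ⊆ S') : Thin S := by
  obtain ⟨C, hC⟩ := h
  refine ⟨C, fun t ht => ?_⟩
  obtain ⟨Z, hZ, hcard⟩ := hC t ht
  exact ⟨Z, (image_mono (smul_set_mono hS)).trans hZ, hcard⟩

theorem thin_empty : Thin (∅ : Set (ι → ℝ)) :=
  ⟨0, fun t _ => ⟨∅, by simp, by simp⟩⟩

theorem Thin.union {S S' : Set (ι → ℝ)} (h : Thin S) (h' : Thin S') : Thin (S ∪ S') := by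
  classical
  obtain ⟨C, hC⟩ := h
  obtain ⟨C', hC'⟩ := h'
  refine ⟨C + C', fun t ht => ?_⟩
  obtain ⟨Z, hZ, hcard⟩ := hC t ht
  obtain ⟨Z', hZ', hcard'⟩ := hC' t ht
  refine ⟨Z ∪ Z', ?_, ?_⟩
  · rw [smul_set_union, image_union, Finset.coe_union]
    exact union_subset_union hZ hZ'
  · calc ((Z ∪ Z').card : ℝ) ≤ (Z.card + Z'.card : ℕ) := by
          exact_mod_cast Finset.card_union_le Z Z'
      _ = (Z.card : ℝ) + Z'.card := by push_cast; ring
      _ ≤ C * t ^ (Fintype.card ι - 1) + C' * t ^ (Fintype.card ι - 1) := add_le_add hcard hcard'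
      _ = (C + C') * t ^ (Fintype.card ι - 1) := by ring

theorem thin_sUnion {T : Set (Set (ι → ℝ))} (hT : T.Finite) (h : ∀ S ∈ T, Thin S) :
    Thin (⋃₀ T) := by
  induction T, hT using Set.Finite.induction_on with
  | empty =>
    rw [sUnion_empty]
    exact thin_empty
  | insert _ _ ih =>
    rw [sUnion_insert]
    exact (h _ (mem_insert _ _)).union (ih fun S hS => h S (mem_insert_of_mem _ hS))

/-! ### Lipschitz faces -/

section LipFace

variable (κ : Type*) [Fintype κ] {E : Type*} [PseudoMetricSpace E]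

/-- `S` is contained in the Lipschitz image of a face of the unit cube of `κ → ℝ`. -/
def IsLipFace (S : Set E) : Prop :=
  ∃ (φ : (κ → ℝ) → E) (M : ℝ≥0) (k : κ) (a : ℝ), LipschitzOnWith M φ (Icc 0 1) ∧
    S ⊆ φ '' {u | u ∈ Icc (0 : κ → ℝ) 1 ∧ u k = a}

/-- `B` is covered by finitely many Lipschitz faces. -/
def LipCovered (B : Set E) : Prop :=
  ∃ T : Set (Set E), T.Finite ∧ (∀ S ∈ T, IsLipFace κ S) ∧ B ⊆ ⋃₀ T

variable {κ}

theorem IsLipFace.mono {S S' : Set E} (h : IsLipFace κ S') (hS : S ⊆ S') : IsLipFace κ S := by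
  obtain ⟨φ, M, k, a, hφ, hS'⟩ := h
  exact ⟨φ, M, k, a, hφ, hS.trans hS'⟩

theorem LipCovered.mono {B B' : Set E} (h : LipCovered κ B') (hB : B ⊆ B') :
    LipCovered κ B := by
  obtain ⟨T, hT, h1, h2⟩ := h
  exact ⟨T, hT, h1, hB.trans h2⟩

theorem IsLipFace.image {E' : Type*} [PseudoMetricSpace E'] {S : Set E} (h : IsLipFace κ S)
    {f : E → E'} {M' : ℝ≥0} (hf : LipschitzWith M' f) : IsLipFace κ (f '' S) := by
  obtain ⟨φ, M, k, a, hφ, hS⟩ := h
  refine ⟨f ∘ φ, M' * M, k, a, hf.comp_lipschitzOnWith hφ, ?_⟩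
  rw [image_comp]
  exact image_mono hS

theorem LipCovered.image {E' : Type*} [PseudoMetricSpace E'] {B : Set E}
    (h : LipCovered κ B) {f : E → E'} {M' : ℝ≥0} (hf : LipschitzWith M' f) :
    LipCovered κ (f '' B) := by
  obtain ⟨T, hT, h1, h2⟩ := h
  refine ⟨(fun S => f '' S) '' T, hT.image _, ?_, ?_⟩
  · rintro _ ⟨S, hS, rfl⟩
    exact (h1 S hS).image hf
  · rintro _ ⟨x, hx, rfl⟩
    obtain ⟨S, hS, hxS⟩ := h2 hx
    exact ⟨f '' S, ⟨S, hS, rfl⟩, ⟨x, hxS, rfl⟩⟩

theorem IsLipFace.lipCovered {S : Set E} (h : IsLipFace κ S) : LipCovered κ S :=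
  ⟨{S}, finite_singleton S, fun S' hS' => by rw [mem_singleton_iff.mp hS']; exact h,
    by rw [sUnion_singleton]⟩

theorem lipCovered_of_face {φ : (κ → ℝ) → E} {M : ℝ≥0} (hφ : LipschitzOnWith M φ (Icc 0 1))
    (k : κ) (a : ℝ) {S : Set E} (hS : S ⊆ φ '' {u | u ∈ Icc (0 : κ → ℝ) 1 ∧ u k = a}) :
    LipCovered κ S :=
  IsLipFace.lipCovered ⟨φ, M, k, a, hφ, hS⟩

theorem lipCovered_empty : LipCovered κ (∅ : Set E) :=
  ⟨∅, finite_empty, fun _ h => absurd h (notMem_empty _), empty_subset _⟩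

theorem LipCovered.union {B B' : Set E} (h : LipCovered κ B) (h' : LipCovered κ B') :
    LipCovered κ (B ∪ B') := by
  obtain ⟨T, hT, h1, h2⟩ := h
  obtain ⟨T', hT', h1', h2'⟩ := h'
  refine ⟨T ∪ T', hT.union hT', ?_, ?_⟩
  · rintro S (hS | hS)
    · exact h1 S hS
    · exact h1' S hS
  · rintro x (hx | hx)
    · obtain ⟨S, hS, hxS⟩ := h2 hx
      exact ⟨S, Or.inl hS, hxS⟩
    · obtain ⟨S, hS, hxS⟩ := h2' hx
      exact ⟨S, Or.inr hS, hxS⟩

theorem lipCovered_iUnion {α : Type*} [Finite α] {f : α → Set E}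
    (h : ∀ a, LipCovered κ (f a)) : LipCovered κ (⋃ a, f a) := by
  choose T hT h1 h2 using h
  refine ⟨⋃ a, T a, finite_iUnion hT, ?_, ?_⟩
  · intro S hS
    obtain ⟨a, ha⟩ := mem_iUnion.mp hS
    exact h1 a S ha
  · intro x hx
    obtain ⟨a, ha⟩ := mem_iUnion.mp hx
    obtain ⟨S, hS, hxS⟩ := h2 a ha
    exact ⟨S, mem_iUnion.mpr ⟨a, hS⟩, hxS⟩

theorem lipCovered_biUnion {α : Type*} {s : Set α} (hs : s.Finite) {f : α → Set E}
    (h : ∀ a ∈ s, LipCovered κ (f a)) : LipCovered κ (⋃ a ∈ s, f a) := by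
  have : Finite s := hs
  rw [biUnion_eq_iUnion]
  exact lipCovered_iUnion fun a => h a.1 a.2

end LipFace

/-! ### Lipschitz faces are thin -/

theorem floor_sub_floor_mem {x y : ℝ} (h : |x - y| ≤ 1) :
    ⌊x⌋ - ⌊y⌋ ∈ ({-1, 0, 1} : Finset ℤ) := by
  have h1 := abs_le.mp h
  have hx1 : (⌊x⌋ : ℝ) ≤ x := Int.floor_le x
  have hx2 : x < ⌊x⌋ + 1 := Int.lt_floor_add_one x
  have hy1 : (⌊y⌋ : ℝ) ≤ y := Int.floor_le y
  have hy2 : y < ⌊y⌋ + 1 := Int.lt_floor_add_one y
  have a1 : (⌊x⌋ : ℝ) - ⌊y⌋ < 2 := by linarith [h1.1, h1.2]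
  have a2 : (-2 : ℝ) < ⌊x⌋ - ⌊y⌋ := by linarith [h1.1, h1.2]
  have b1 : ⌊x⌋ - ⌊y⌋ < 2 := by exact_mod_cast a1
  have b2 : -2 < ⌊x⌋ - ⌊y⌋ := by exact_mod_cast a2
  simp only [Finset.mem_insert, Finset.mem_singleton]
  omega

theorem abs_sub_le_of_natFloor_eq {N : ℕ} (hN : 0 < N) {a b : ℝ} (ha : 0 ≤ a) (hb : 0 ≤ b)
    (h : ⌊(N : ℝ) * a⌋₊ = ⌊(N : ℝ) * b⌋₊) : |a - b| ≤ 1 / N := by
  have hN' : (0 : ℝ) < N := Nat.cast_pos.mpr hN
  have a1 : (⌊(N : ℝ) * a⌋₊ : ℝ) ≤ N * a := Nat.floor_le (mul_nonneg hN'.le ha)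
  have a2 : (N : ℝ) * a < ⌊(N : ℝ) * a⌋₊ + 1 := Nat.lt_floor_add_one _
  have b1 : (⌊(N : ℝ) * b⌋₊ : ℝ) ≤ N * b := Nat.floor_le (mul_nonneg hN'.le hb)
  have b2 : (N : ℝ) * b < ⌊(N : ℝ) * b⌋₊ + 1 := Nat.lt_floor_add_one _
  rw [h] at a1 a2
  rw [abs_le]
  constructor
  · rw [neg_le, le_div_iff₀ hN']
    nlinarith
  · rw [le_div_iff₀ hN']
    nlinarith

theorem IsLipFace.thin {κ : Type*} [Fintype κ] {S : Set (ι → ℝ)} (h : IsLipFace κ S)
    (hκ : Fintype.card κ ≤ Fintype.card ι) : Thin S := by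
  classical
  obtain ⟨φ, M, k, a, hφ, hS⟩ := h
  refine ⟨3 ^ Fintype.card ι * ((M : ℝ) + 3) ^ (Fintype.card ι - 1), fun t ht => ?_⟩
  have ht0 : 0 < t := lt_of_lt_of_le zero_lt_one ht
  set N : ℕ := ⌈t * M⌉₊ + 1 with hN
  have hNpos : 0 < N := Nat.succ_pos _
  have hN' : (0 : ℝ) < N := Nat.cast_pos.mpr hNpos
  have hNge : t * M ≤ N := by
    rw [hN]
    push_cast
    have := Nat.le_ceil (t * (M : ℝ))
    linarith
  have hNle : (N : ℝ) + 1 ≤ t * ((M : ℝ) + 3) := by
    rw [hN]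
    push_cast
    have h1 : (⌈t * (M : ℝ)⌉₊ : ℝ) < t * M + 1 :=
      Nat.ceil_lt_add_one (mul_nonneg ht0.le M.coe_nonneg)
    nlinarith
  set F : Set (κ → ℝ) := {u | u ∈ Icc (0 : κ → ℝ) 1 ∧ u k = a} with hF
  set g : (κ → ℝ) → (κ → ℕ) := fun u i => ⌊(N : ℝ) * u i⌋₊ with hg
  set G : Finset (κ → ℕ) := Fintype.piFinset fun i =>
    if i = k then ({⌊(N : ℝ) * a⌋₊} : Finset ℕ) else Finset.range (N + 1) with hG
  set rep : (κ → ℕ) → (ι → ℤ) := fun c =>
    if h : ∃ u ∈ F, g u = c then fl (t • φ h.choose) else 0 with hrep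
  set E3 : Finset (ι → ℤ) := Fintype.piFinset fun _ => ({-1, 0, 1} : Finset ℤ) with hE3
  refine ⟨(G ×ˢ E3).image (fun p => rep p.1 + p.2), ?_, ?_⟩
  · rintro _ ⟨x, hx, rfl⟩
    obtain ⟨s, hs, rfl⟩ := hx
    obtain ⟨u, hu, rfl⟩ := hS hs
    have hex : ∃ u' ∈ F, g u' = g u := ⟨u, hu, rfl⟩
    have hu' := hex.choose_spec
    set u' := hex.choose with hu'def
    have hrepc : rep (g u) = fl (t • φ u') := by
      simp only [hrep]
      rw [dif_pos hex]
    -- `u` and `u'` are close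
    have hclose : dist u u' ≤ 1 / N := by
      rw [dist_pi_le_iff (by positivity)]
      intro i
      rw [Real.dist_eq]
      have e : g u' i = g u i := congrFun hu'.2 i
      exact abs_sub_le_of_natFloor_eq hNpos (hu.1.1 i) (hu'.1.1.1 i) e.symm
    have hd : dist (t • φ u) (t • φ u') ≤ 1 := by
      rw [dist_smul₀, Real.norm_of_nonneg ht0.le]
      have h1 : dist (φ u) (φ u') ≤ M * dist u u' := hφ.dist_le_mul u hu.1 u' hu'.1.1
      have h2 : (M : ℝ) * dist u u' ≤ M * (1 / N) :=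
        mul_le_mul_of_nonneg_left hclose M.coe_nonneg
      calc t * dist (φ u) (φ u') ≤ t * (M * (1 / N)) :=
            mul_le_mul_of_nonneg_left (h1.trans h2) ht0.le
        _ = t * M / N := by ring
        _ ≤ 1 := (div_le_one hN').mpr hNge
    rw [Finset.mem_coe, Finset.mem_image]
    refine ⟨(g u, fl (t • φ u) - rep (g u)), ?_, by simp⟩
    rw [Finset.mem_product]
    constructor
    · rw [hG, Fintype.mem_piFinset]
      intro i
      by_cases hik : i = k
      · rw [if_pos hik, Finset.mem_singleton]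
        simp only [hg]
        rw [hik, hu.2]
      · rw [if_neg hik, Finset.mem_range, Nat.lt_succ_iff]
        simp only [hg]
        apply Nat.floor_le_of_le
        have := hu.1.2 i
        simp only [Pi.one_apply] at this
        calc (N : ℝ) * u i ≤ N * 1 := mul_le_mul_of_nonneg_left this hN'.le
          _ = N := mul_one _
    · rw [hE3, Fintype.mem_piFinset]
      intro i
      rw [hrepc]
      simp only [Pi.sub_apply, fl]
      apply floor_sub_floor_mem
      have := dist_le_pi_dist (t • φ u) (t • φ u') i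
      rw [Real.dist_eq] at this
      exact this.trans hd
  · have hcardG : G.card ≤ (N + 1) ^ (Fintype.card κ - 1) := by
      rw [hG, Fintype.card_piFinset]
      have : ∀ i : κ, (if i = k then ({⌊(N : ℝ) * a⌋₊} : Finset ℕ)
          else Finset.range (N + 1)).card = if i = k then 1 else N + 1 := by
        intro i
        split_ifs <;> simp
      simp_rw [this]
      rw [Finset.prod_ite, Finset.prod_const_one, one_mul, Finset.prod_const]
      apply le_of_eq
      congr 1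
      rw [Finset.filter_ne' Finset.univ k, Finset.card_erase_of_mem (Finset.mem_univ k),
        Finset.card_univ]
    have hcardE : E3.card = 3 ^ Fintype.card ι := by
      rw [hE3, Fintype.card_piFinset]
      simp
    have h1 : ((G ×ˢ E3).image (fun p => rep p.1 + p.2)).card ≤
        (N + 1) ^ (Fintype.card κ - 1) * 3 ^ Fintype.card ι := by
      calc _ ≤ (G ×ˢ E3).card := Finset.card_image_le
        _ = G.card * E3.card := Finset.card_product _ _
        _ ≤ _ := by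
          rw [hcardE]
          exact Nat.mul_le_mul_right _ hcardG
    have h2 : ((N : ℝ) + 1) ^ (Fintype.card κ - 1) ≤ ((N : ℝ) + 1) ^ (Fintype.card ι - 1) :=
      pow_le_pow_right₀ (by linarith) (Nat.sub_le_sub_right hκ 1)
    have h3 : ((N : ℝ) + 1) ^ (Fintype.card ι - 1) ≤ (t * ((M : ℝ) + 3)) ^ (Fintype.card ι - 1) :=
      pow_le_pow_left₀ (by positivity) hNle _
    calc (((G ×ˢ E3).image (fun p => rep p.1 + p.2)).card : ℝ)
        ≤ ((N + 1) ^ (Fintype.card κ - 1) * 3 ^ Fintype.card ι : ℕ) := by exact_mod_cast h1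
      _ = ((N : ℝ) + 1) ^ (Fintype.card κ - 1) * 3 ^ Fintype.card ι := by push_cast; ring
      _ ≤ (t * ((M : ℝ) + 3)) ^ (Fintype.card ι - 1) * 3 ^ Fintype.card ι :=
          mul_le_mul_of_nonneg_right (h2.trans h3) (by positivity)
      _ = 3 ^ Fintype.card ι * ((M : ℝ) + 3) ^ (Fintype.card ι - 1) *
          t ^ (Fintype.card ι - 1) := by
          rw [mul_pow]
          ring

theorem LipCovered.thin {κ : Type*} [Fintype κ] {B : Set (ι → ℝ)} (h : LipCovered κ B)
    (hκ : Fintype.card κ ≤ Fintype.card ι) : Thin B := by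
  obtain ⟨T, hT, h1, h2⟩ := h
  exact (thin_sUnion hT fun S hS => (h1 S hS).thin hκ).mono h2

/-! ### The main estimate for the standard lattice -/

/-- **Lattice points in a dilated domain** (standard lattice). -/
theorem abs_card_sub_le {D : Set (ι → ℝ)} (hD₁ : IsBounded D) (hD₂ : MeasurableSet D)
    (hD₃ : Thin (frontier D)) :
    ∃ C : ℝ, ∀ t : ℝ, 1 ≤ t →
      |(Nat.card {z : ι → ℤ // pt z ∈ t • D} : ℝ) - t ^ Fintype.card ι * (volume D).toReal| ≤
        C * t ^ (Fintype.card ι - 1) := by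
  obtain ⟨C, hC⟩ := hD₃
  refine ⟨C, fun t ht => ?_⟩
  have ht0 : 0 < t := lt_of_lt_of_le zero_lt_one ht
  obtain ⟨Z, hZ, hcard⟩ := hC t ht
  have hfr : frontier (t • D) = t • frontier D := by
    rw [frontier, frontier, closure_smul₀ t D, interior_smul₀ ht0.ne']
    exact (smul_set_sdiff₀ ht0.ne').symm
  have hvol : (volume (t • D)).toReal = t ^ Fintype.card ι * (volume D).toReal := by
    rw [Measure.addHaar_smul, ENNReal.toReal_mul, Module.finrank_fintype_fun_eq_card,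
      abs_of_pos (pow_pos ht0 _), ENNReal.toReal_ofReal (pow_pos ht0 _).le]
  have := abs_card_sub_volume_le (hD₁.smul₀ t) (hD₂.const_smul₀ t) Z (by rw [hfr]; exact hZ)
  rw [hvol] at this
  exact this.trans hcard

/-! ### General lattices and cones -/

section General

open Module

variable {E : Type*} [NormedAddCommGroup E] [NormedSpace ℝ E] [FiniteDimensional ℝ E]
variable {L : Submodule ℤ E} [DiscreteTopology L] [IsZLattice ℝ L]
variable {ι : Type*} [Fintype ι] (b : Basis ι ℤ L)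

theorem smul_cone_eq {X : Set E} (hX : ∀ ⦃x⦄ ⦃r : ℝ⦄, x ∈ X → 0 < r → r • x ∈ X)
    {F : E → ℝ} (hF₁ : ∀ x ⦃r : ℝ⦄, 0 ≤ r → F (r • x) = r ^ Fintype.card ι * (F x)) {c : ℝ}
    (hc : 0 < c) : c • {x ∈ X | F x ≤ 1} = {x ∈ X | F x ≤ c ^ Fintype.card ι} := by
  ext x
  simp_rw [Set.mem_smul_set_iff_inv_smul_mem₀ hc.ne', Set.mem_ofPred_eq, hF₁ _
    (inv_pos_of_pos hc).le, inv_pow, inv_mul_le_iff₀ (pow_pos hc _), mul_one, and_congr_left_iff]
  exact fun _ ↦ ⟨fun h ↦ (smul_inv_smul₀ hc.ne' x) ▸ hX h hc, fun h ↦ hX h (inv_pos_of_pos hc)⟩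

/-- the lattice points of a set, in coordinates -/
theorem card_inter_lattice_eq (S : Set E) :
    Nat.card (S ∩ L : Set E) =
      Nat.card {z : ι → ℤ // pt z ∈ (b.ofZLatticeBasis ℝ).equivFun '' S} := by
  symm
  refine Nat.card_congr (Equiv.ofBijective
    (fun z => ⟨(b.ofZLatticeBasis ℝ).equivFun.symm (pt z.1), ?_, ?_⟩) ⟨?_, ?_⟩)
  · obtain ⟨x, hx, hxz⟩ := z.2
    rw [← hxz, LinearEquiv.symm_apply_apply]
    exact hx
  · rw [Basis.equivFun_symm_apply]
    refine Submodule.sum_mem _ fun i _ => ?_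
    have : pt z.1 i • (b.ofZLatticeBasis ℝ L) i = (z.1 i) • (b i : E) := by
      rw [b.ofZLatticeBasis_apply ℝ L, pt, ← Int.cast_smul_eq_zsmul ℝ]
    rw [this]
    exact L.smul_mem _ (b i).2
  · intro z z' h
    have h1 := congrArg Subtype.val h
    simp only [EmbeddingLike.apply_eq_iff_eq] at h1
    apply Subtype.ext
    ext i
    have := congrFun h1 i
    simpa [pt] using this
  · rintro ⟨x, hxS, hxL⟩
    refine ⟨⟨fun i => b.repr ⟨x, hxL⟩ i, ?_⟩, ?_⟩
    · refine ⟨x, hxS, ?_⟩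
      ext i
      rw [Basis.equivFun_apply]
      exact b.ofZLatticeBasis_repr_apply ℝ L ⟨x, hxL⟩ i
    · apply Subtype.ext
      show (b.ofZLatticeBasis ℝ).equivFun.symm (pt fun i => b.repr ⟨x, hxL⟩ i) = x
      rw [LinearEquiv.symm_apply_eq]
      ext i
      rw [Basis.equivFun_apply]
      exact (b.ofZLatticeBasis_repr_apply ℝ L ⟨x, hxL⟩ i).symm

variable [MeasurableSpace E] [BorelSpace E]

/-- **Lattice points in a cone, with error term** (general version). -/
theorem abs_card_le_sub_le'' {κ : Type*} [Fintype κ] [Nonempty ι] {X : Set E}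
    (hX : ∀ ⦃x⦄ ⦃r : ℝ⦄, x ∈ X → 0 < r → r • x ∈ X) {F : E → ℝ}
    (h₁ : ∀ x ⦃r : ℝ⦄, 0 ≤ r → F (r • x) = r ^ Fintype.card ι * (F x))
    (h₂ : IsBounded {x ∈ X | F x ≤ 1}) (h₃ : MeasurableSet {x ∈ X | F x ≤ 1})
    (h₄ : LipCovered κ (frontier {x ∈ X | F x ≤ 1}))
    (hκ : Fintype.card κ ≤ Fintype.card ι) :
    ∃ C : ℝ, ∀ c : ℝ, 1 ≤ c →
      |(Nat.card ({x ∈ X | F x ≤ c} ∩ L : Set E) : ℝ) -
        c * volume.real ((b.ofZLatticeBasis ℝ).equivFun '' {x ∈ X | F x ≤ 1})| ≤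
        C * c ^ (1 - 1 / (Fintype.card ι : ℝ)) := by
  set e := (b.ofZLatticeBasis ℝ).equivFunL with he
  have hee : ∀ S : Set E, (b.ofZLatticeBasis ℝ).equivFun '' S = e '' S := fun S => rfl
  have hb : IsBounded (e '' {x ∈ X | F x ≤ 1}) := by
    rw [← NormedSpace.isVonNBounded_iff ℝ] at h₂ ⊢
    exact Bornology.IsVonNBounded.image h₂ (e : E →L[ℝ] ι → ℝ)
  have hm : MeasurableSet (e '' {x ∈ X | F x ≤ 1}) :=
    e.toHomeomorph.toMeasurableEquiv.measurableSet_image.mpr h₃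
  have hfr : frontier (e '' {x ∈ X | F x ≤ 1}) = e '' frontier {x ∈ X | F x ≤ 1} :=
    (e.toHomeomorph.image_frontier _).symm
  have hthin : Thin (frontier (e '' {x ∈ X | F x ≤ 1})) := by
    rw [hfr]
    exact (h₄.image (e : E →L[ℝ] ι → ℝ).lipschitz).thin hκ
  obtain ⟨C, hC⟩ := abs_card_sub_le hb hm hthin
  refine ⟨C, fun c hc => ?_⟩
  have hc0 : 0 < c := lt_of_lt_of_le zero_lt_one hc
  have hn : (Fintype.card ι : ℝ) ≠ 0 := Nat.cast_ne_zero.mpr Fintype.card_ne_zero
  set t : ℝ := c ^ ((Fintype.card ι : ℝ)⁻¹) with ht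
  have ht1 : 1 ≤ t := Real.one_le_rpow hc (inv_nonneg.mpr (Nat.cast_nonneg _))
  have ht0 : 0 < t := lt_of_lt_of_le zero_lt_one ht1
  have htn : t ^ Fintype.card ι = c := by
    rw [ht, ← Real.rpow_natCast, ← Real.rpow_mul hc0.le, inv_mul_cancel₀ hn, Real.rpow_one]
  have htn1 : t ^ (Fintype.card ι - 1) = c ^ (1 - 1 / (Fintype.card ι : ℝ)) := by
    rw [ht, ← Real.rpow_natCast, ← Real.rpow_mul hc0.le]
    congr 1
    rw [Nat.cast_sub (Nat.one_le_iff_ne_zero.mpr Fintype.card_ne_zero), Nat.cast_one]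
    field_simp
  have hset : {x ∈ X | F x ≤ c} = t • {x ∈ X | F x ≤ 1} := by
    rw [smul_cone_eq hX h₁ ht0, htn]
  have hcard : Nat.card ({x ∈ X | F x ≤ c} ∩ L : Set E) =
      Nat.card {z : ι → ℤ // pt z ∈ t • (e '' {x ∈ X | F x ≤ 1})} := by
    rw [card_inter_lattice_eq b, hset, hee, image_smul_set]
  have := hC t ht1
  rw [htn, htn1] at this
  rw [hcard, hee, measureReal_def]
  exact this

end General

/-! ### The inner product space version -/

section InnerProductSpace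

open Module

variable {E : Type*} [NormedAddCommGroup E] [InnerProductSpace ℝ E] [FiniteDimensional ℝ E]
  [MeasurableSpace E] [BorelSpace E]
variable (L : Submodule ℤ E) [DiscreteTopology L] [IsZLattice ℝ L]

/-- **Lattice points in a cone, with error term**: the version of
`ZLattice.covolume.tendsto_card_le_div'` with a power saving, under the hypothesis that the
frontier of `{x ∈ X | F x ≤ 1}` is covered by finitely many Lipschitz images of faces of a
unit cube. -/
theorem abs_card_le_sub_le' {κ : Type*} [Fintype κ] [Nontrivial E] {X : Set E} {F : E → ℝ}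
    (hX : ∀ ⦃x⦄ ⦃r : ℝ⦄, x ∈ X → 0 < r → r • x ∈ X)
    (h₁ : ∀ x ⦃r : ℝ⦄, 0 ≤ r → F (r • x) = r ^ finrank ℝ E * (F x))
    (h₂ : IsBounded {x ∈ X | F x ≤ 1}) (h₃ : MeasurableSet {x ∈ X | F x ≤ 1})
    (h₄ : LipCovered κ (frontier {x ∈ X | F x ≤ 1}))
    (hκ : Fintype.card κ ≤ finrank ℝ E) :
    ∃ C : ℝ, ∀ c : ℝ, 1 ≤ c →
      |(Nat.card ({x ∈ X | F x ≤ c} ∩ L : Set E) : ℝ) -
        c * (volume.real {x ∈ X | F x ≤ 1} / ZLattice.covolume L)| ≤
        C * c ^ (1 - 1 / (finrank ℝ E : ℝ)) := by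
  let b := Module.Free.chooseBasis ℤ L
  have hcard : Fintype.card (Module.Free.ChooseBasisIndex ℤ L) = finrank ℝ E := by
    rw [← finrank_eq_card_chooseBasisIndex, ZLattice.rank ℝ L]
  have : Nontrivial L := nontrivial_of_finrank_pos <| (ZLattice.rank ℝ L).symm ▸ finrank_pos
  have : Nonempty (Module.Free.ChooseBasisIndex ℤ L) := inferInstance
  obtain ⟨C, hC⟩ := abs_card_le_sub_le'' b hX (by rwa [hcard]) h₂ h₃ h₄ (by rwa [hcard])
  refine ⟨C, fun c hc => ?_⟩
  have key := hC c hc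
  rw [hcard] at key
  have hv : volume.real ((b.ofZLatticeBasis ℝ).equivFun '' {x ∈ X | F x ≤ 1}) =
      volume.real {x ∈ X | F x ≤ 1} / ZLattice.covolume L := by
    simp only [measureReal_def]
    rw [ZLattice.volume_image_eq_volume_div_covolume' L b h₃.nullMeasurableSet,
      ENNReal.toReal_div, ENNReal.toReal_ofReal (ZLattice.covolume_pos L volume).le]
  rw [hv] at key
  exact key

end InnerProductSpace

end Fermat.Agent.S14.Lattice
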