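import Fermat.Agent.S14.Lattice

set_option autoImplicit false
set_option linter.unusedSectionVars false
set_option linter.unusedVariables false

namespace Fermat.Agent.S14.NormLeOneLip

open Set Module NumberField NumberField.InfinitePlace NumberField.mixedEmbedding
  NumberField.mixedEmbedding.fundamentalCone NumberField.Units dirichletUnitTheorem
open scoped NNReal Pointwise Classical
open Fermat.Agent.S14.Lattice

variable (K : Type*) [Field K] [NumberField K]

/-- the `(y)`-part of a parameter: the coordinate at `w₀` replaced by `0` -/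
noncomputable def yMap (u : InfinitePlace K → ℝ) : realSpace K :=
  fun w => if w = (w₀ : InfinitePlace K) then 0 else u w

/-- the radial parametrisation of `compactSet K` -/
noncomputable def gMap (u : InfinitePlace K → ℝ) : realSpace K :=
  u (w₀ : InfinitePlace K) • expMapBasis (yMap K u)

/-- the absolute values of a point of the frontier of `normLeOne K` are parametrised by the
boundary of the unit cube -/
theorem exists_of_mem_frontier {x : mixedSpace K} (hx : x ∈ frontier (normLeOne K)) :
    ∃ u : InfinitePlace K → ℝ, u ∈ Icc (0 : InfinitePlace K → ℝ) 1 ∧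
      (∃ w, u w = 0 ∨ u w = 1) ∧ normAtAllPlaces x = gMap K u := by
  have h1 : normAtAllPlaces x ∈ compactSet K :=
    closure_normLeOne_subset K (frontier_subset_closure hx)
  have h2 : normAtAllPlaces x ∉ expMapBasis '' interior (paramSet K) := fun h =>
    hx.2 (subset_interior_normLeOne K h)
  obtain ⟨c, hc, _, ⟨y, hy, rfl⟩, hcy⟩ := h1
  have hy0 : y w₀ = 0 := by
    have := hy w₀ (mem_univ _)
    simpa using this
  have hy1 : ∀ w, w ≠ (w₀ : InfinitePlace K) → y w ∈ Icc (0 : ℝ) 1 := by
    intro w hw
    have := hy w (mem_univ _)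
    simpa [hw] using this
  refine ⟨fun w => if w = w₀ then c else y w, ?_, ?_, ?_⟩
  · rw [mem_Icc, Pi.le_def, Pi.le_def]
    constructor
    · intro w
      by_cases hw : w = w₀
      · simpa [hw] using hc.1
      · simpa [hw] using (hy1 w hw).1
    · intro w
      by_cases hw : w = w₀
      · simpa [hw] using hc.2
      · simpa [hw] using (hy1 w hw).2
  · by_contra hcon
    push Not at hcon
    apply h2
    have hc0 : 0 < c := by
      have := hcon w₀
      simp only [if_true] at this
      exact lt_of_le_of_ne hc.1 (Ne.symm this.1)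
    have hc1 : c < 1 := by
      have := hcon w₀
      simp only [if_true] at this
      exact lt_of_le_of_ne hc.2 this.2
    refine ⟨fun w => if w = w₀ then Real.log c else y w, ?_, ?_⟩
    · rw [interior_paramSet, mem_univ_pi]
      intro w
      by_cases hw : w = w₀
      · simp only [hw, if_true]
        exact Real.log_neg hc0 hc1
      · have := hcon w
        simp only [hw, if_false] at this ⊢
        exact ⟨lt_of_le_of_ne (hy1 w hw).1 (Ne.symm this.1),
          lt_of_le_of_ne (hy1 w hw).2 this.2⟩
    · rw [expMapBasis_apply'', if_pos rfl, Real.exp_log hc0, ← hcy]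
      congr 2
      ext w
      by_cases hw : w = w₀
      · simp [hw, hy0]
      · simp [hw]
  · rw [← hcy, gMap]
    simp only [if_true]
    congr 2
    ext w
    by_cases hw : w = w₀
    · simp [yMap, hw, hy0]
    · simp [yMap, hw]

/-! ### Smoothness of the parametrisation -/

theorem contDiff_yMap : ContDiff ℝ 1 (yMap K) := by
  rw [contDiff_pi]
  intro w
  unfold yMap
  by_cases hw : w = (w₀ : InfinitePlace K)
  · simp only [hw, if_true]
    exact contDiff_const
  · simp only [hw, if_false]
    exact contDiff_apply ℝ ℝ w

theorem contDiff_expMapBasis : ContDiff ℝ 1 (expMapBasis : realSpace K → realSpace K) := by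
  rw [contDiff_pi]
  intro w
  have : (fun x : realSpace K => expMapBasis x w) =
      fun x => Real.exp ((w.mult : ℝ)⁻¹ * ((completeBasis K).equivFunL.symm x) w) := by
    ext x
    rfl
  rw [this]
  exact (contDiff_const.mul ((contDiff_apply ℝ ℝ w).comp
    (completeBasis K).equivFunL.symm.contDiff)).exp

theorem contDiff_gMap : ContDiff ℝ 1 (gMap K) := by
  unfold gMap
  exact (contDiff_apply ℝ ℝ (w₀ : InfinitePlace K)).smul
    ((contDiff_expMapBasis K).comp (contDiff_yMap K))

/-- the index type of the parameters -/
abbrev Idx := InfinitePlace K ⊕ {w : InfinitePlace K // IsComplex w}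

/-- the parametrisation of the frontier of `normLeOne K` -/
noncomputable def psi (ε : {w : InfinitePlace K // IsReal w} → ℝ) (u : Idx K → ℝ) :
    mixedSpace K :=
  (fun w => ε w * gMap K (fun v => u (Sum.inl v)) w.1,
   fun w => ((gMap K (fun v => u (Sum.inl v)) w.1 : ℝ) : ℂ) *
      Complex.exp (((Real.pi * (2 * u (Sum.inr w) - 1) : ℝ) : ℂ) * Complex.I))

theorem contDiff_psi (ε : {w : InfinitePlace K // IsReal w} → ℝ) : ContDiff ℝ 1 (psi K ε) := by
  have hg : ContDiff ℝ 1 (fun u : Idx K → ℝ => gMap K (fun v => u (Sum.inl v))) := by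
    refine (contDiff_gMap K).comp ?_
    rw [contDiff_pi]
    intro v
    exact contDiff_apply ℝ ℝ (Sum.inl v)
  have hgw : ∀ w : InfinitePlace K,
      ContDiff ℝ 1 (fun u : Idx K → ℝ => gMap K (fun v => u (Sum.inl v)) w) := fun w =>
    (contDiff_apply ℝ ℝ w).comp hg
  unfold psi
  refine ContDiff.prodMk ?_ ?_
  · rw [contDiff_pi]
    intro w
    exact contDiff_const.mul (hgw w.1)
  · rw [contDiff_pi]
    intro w
    refine (Complex.ofRealCLM.contDiff.comp (hgw w.1)).mul ?_
    refine ContDiff.cexp ?_
    refine ContDiff.mul ?_ contDiff_const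
    refine Complex.ofRealCLM.contDiff.comp ?_
    exact contDiff_const.mul ((contDiff_const.mul (contDiff_apply ℝ ℝ (Sum.inr w))).sub
      contDiff_const)

theorem exists_lipschitzOnWith_psi (ε : {w : InfinitePlace K // IsReal w} → ℝ) :
    ∃ M : ℝ≥0, LipschitzOnWith M (psi K ε) (Icc 0 1) :=
  (contDiff_psi K ε).contDiffOn.exists_lipschitzOnWith one_ne_zero (convex_Icc _ _)
    isCompact_Icc

/-! ### The covering of the frontier -/

/-- a choice of signs at the real places -/
def sgn (s : {w : InfinitePlace K // IsReal w} → Bool) : {w : InfinitePlace K // IsReal w} → ℝ :=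
  fun w => if s w then 1 else -1

/-- the value `0` or `1` of a face -/
def faceVal (a : Bool) : ℝ := if a then 1 else 0

theorem frontier_normLeOne_subset :
    frontier (normLeOne K) ⊆
      ⋃ i : ({w : InfinitePlace K // IsReal w} → Bool) × InfinitePlace K × Bool,
        psi K (sgn K i.1) ''
          {u | u ∈ Icc (0 : Idx K → ℝ) 1 ∧ u (Sum.inl i.2.1) = faceVal i.2.2} := by
  intro x hx
  obtain ⟨u, hu, ⟨w, hw⟩, hxu⟩ := exists_of_mem_frontier K hx
  rw [mem_iUnion]
  refine ⟨(fun w => decide (0 ≤ x.1 w), w, decide (u w = 1)),
    Sum.elim u (fun w => (Complex.arg (x.2 w) / Real.pi + 1) / 2), ⟨?_, ?_⟩, ?_⟩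
  · rw [mem_Icc, Pi.le_def, Pi.le_def] at hu ⊢
    constructor
    · rintro (v | v)
      · exact hu.1 v
      · simp only [Pi.zero_apply, Sum.elim_inr]
        have := Complex.neg_pi_lt_arg (x.2 v)
        have h2 : -1 < Complex.arg (x.2 v) / Real.pi := by
          rw [lt_div_iff₀ Real.pi_pos]
          linarith
        linarith
    · rintro (v | v)
      · exact hu.2 v
      · simp only [Pi.one_apply, Sum.elim_inr]
        have := Complex.arg_le_pi (x.2 v)
        have h2 : Complex.arg (x.2 v) / Real.pi ≤ 1 := by
          rw [div_le_iff₀ Real.pi_pos]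
          linarith
        linarith
  · simp only [Sum.elim_inl, faceVal]
    rcases hw with hw | hw
    · simp [hw]
    · simp [hw]
  · have hg : ∀ v : InfinitePlace K, gMap K u v = normAtPlace v x := fun v => by
      rw [← hxu]
    unfold psi
    refine Prod.ext ?_ ?_
    · funext v
      simp only [Sum.elim_inl]
      rw [hg, normAtPlace_apply_of_isReal v.2, sgn, Real.norm_eq_abs]
      by_cases h0 : 0 ≤ x.1 v
      · simp only [h0, decide_true, if_true, one_mul]
        exact abs_of_nonneg h0
      · simp only [h0, decide_false]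
        rw [abs_of_neg (not_le.mp h0)]
        simp
    · funext v
      simp only [Sum.elim_inl, Sum.elim_inr]
      rw [hg, normAtPlace_apply_of_isComplex v.2]
      have : Real.pi * (2 * ((Complex.arg (x.2 v) / Real.pi + 1) / 2) - 1) =
          Complex.arg (x.2 v) := by
        field_simp
        ring
      rw [this]
      exact Complex.norm_mul_exp_arg_mul_I (x.2 v)

/-- **The frontier of `normLeOne K` is covered by finitely many Lipschitz images of faces of
the unit cube of dimension `[K : ℚ]`.** -/
theorem lipCovered_frontier_normLeOne : LipCovered (Idx K) (frontier (normLeOne K)) := by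
  refine LipCovered.mono (lipCovered_iUnion fun i => ?_) (frontier_normLeOne_subset K)
  obtain ⟨M, hM⟩ := exists_lipschitzOnWith_psi K (sgn K i.1)
  exact lipCovered_of_face hM (Sum.inl i.2.1) (faceVal i.2.2) (subset_refl _)

theorem card_idx : Fintype.card (Idx K) = finrank ℚ K := by
  rw [Fintype.card_sum, card_eq_nrRealPlaces_add_nrComplexPlaces,
    ← card_add_two_mul_card_eq_rank]
  ring

/-- the same in the euclidean mixed space -/
theorem lipCovered_frontier_preimage :
    LipCovered (Idx K) (frontier ((euclidean.toMixed K) ⁻¹' (normLeOne K))) := by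
  have h : frontier ((euclidean.toMixed K) ⁻¹' (normLeOne K)) =
      (euclidean.toMixed K).symm '' frontier (normLeOne K) := by
    rw [← (euclidean.toMixed K).coe_toHomeomorph, ← Homeomorph.preimage_frontier,
      (euclidean.toMixed K).coe_toHomeomorph]
    exact ((euclidean.toMixed K).image_symm_eq_preimage _).symm
  rw [h]
  exact (lipCovered_frontier_normLeOne K).image
    ((euclidean.toMixed K).symm : mixedSpace K →L[ℝ] euclidean.mixedSpace K).lipschitz

end Fermat.Agent.S14.NormLeOneLip
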